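import Mathlib
import Fermat.Agent.MUL.Lib.BadRed.Nodal.RRNodal
import Fermat.Agent.MUL.Lib.BadRed.Nodal.Gluing.Data
import Fermat.Agent.MUL.Lib.BadRed.Graph.NodeMatch
import Fermat.Agent.MUL.Orig.S36.G.Types
import Fermat.Agent.MUL.Lib.BadRed.Graph.Seed
import Fermat.Agent.MUL.Lib.BadRed.Graph.GraphSeedOfX
import Fermat.Agent.MUL.S36.G.CoreOddOf23

section MergeWrap_Lib_BadRed_Graph_SeedClear -- from Lib/BadRed/Graph/SeedClear.lean

set_option autoImplicit false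
set_option linter.unusedSectionVars false

/-!
# Cluster G, abstract graph package, SEED: seat SEED-CLEAR (helper95)

From the (labelled) node condition on the ring `𝒜` of ADMISSIBLE functions (integral, poles at
the zeros / poles of the parameter `u` only) to the node condition for `L(m D₀)`, where `D₀` has
NON-cuspidal points: a CLEARING function `G ∈ 𝒜` whose reductions are units at the branches, with
`f * G ^ m ∈ 𝒜` for all integral `f ∈ L(m D₀)`.

* `seedClear_valAt_cancel` : `x * y` has the value `b` at `Q`, `y` the value `a ≠ 0`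
  `⟹ x` has the value `b / a`;
* `seedClear_val_ne_zero` : the value of a unit at `Q` is `≠ 0`;
* `seedClear_node` : ONE node with the branches `Q₁` (on `c₁`), `Q₂` (on `c₂`): if the reductions
  of `G` and of `f * G ^ m` take equal values on the two branches and those of `G` are units
  there, then the reductions of `f` take equal values on the two branches;
* `seedClear` : the family version for labelled nodes `j : J` and a set `𝒜` with the node
  condition;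
* `seedClear_rr` : the same for all integral `f ∈ L(m D₀)`, `m : ℕ` (the shape of
  `GraphSeed.seed`), with clearing functions depending on the node.

Nothing here mentions modular curves.
-/

noncomputable section

open AlgebraicCurve Fermat.Agent.RR Fermat.Agent.Deuring

namespace Fermat.Agent.BadRedG

open Fermat.Agent.BadRed Fermat.Agent.BadRed.Gluing

section Values

variable {k E : Type*} [Field k] [Field E] [Algebra k E]

/-- the value of a unit at `Q` is not zero. -/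
theorem seedClear_val_ne_zero {Q : Place k E} {y : E} {a : k} (hy : ValAt Q y a) (hy0 : y ≠ 0)
    (hord : Q.ord y = 0) : a ≠ 0 := by
  rintro rfl
  rcases (valAt_zero_right_iff Q y).mp hy with h | h
  · exact hy0 h
  · rw [hord] at h
    exact lt_irrefl _ h

/-- cancellation of a unit: if `x * y` has the value `b` and `y` the value `a ≠ 0` at `Q`, then
`x` has the value `b / a`. -/
theorem seedClear_valAt_cancel {Q : Place k E} {x y : E} {a b : k} (hxy : ValAt Q (x * y) b)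
    (hy : ValAt Q y a) (ha : a ≠ 0) : ValAt Q x (b / a) := by
  have hyord : Q.ord y = 0 := ord_eq_zero_of_valAt hy ha
  have hy0 : y ≠ 0 := by
    rintro rfl
    exact ha (hy.unique (valAt_zero Q))
  rcases eq_or_ne x 0 with rfl | hx0
  · rw [zero_mul] at hxy
    have hb : b = 0 := hxy.unique (valAt_zero Q)
    rw [hb, zero_div]
    exact valAt_zero Q
  have hxord : 0 ≤ Q.ord x := by
    have h := valAt_ord_nonneg hxy
    rw [Q.ord_mul hx0 hy0, hyord, add_zero] at h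
    exact h
  rw [valAt_iff_vanAt] at hxy hy ⊢
  -- `a x - b = (x y - b) - (y - a) x`
  have h1 : VanAt Q ((x * y - algebraMap k E b) + -((y - algebraMap k E a) * x)) :=
    hxy.add (vanAt_mul_of_nonneg hy hxord).neg
  have h2 := h1.smul a⁻¹
  have e : a⁻¹ • ((x * y - algebraMap k E b) + -((y - algebraMap k E a) * x)) =
      x - algebraMap k E (b / a) := by
    rw [Algebra.smul_def, div_eq_mul_inv, map_mul, map_inv₀]
    have ha' : algebraMap k E a ≠ 0 := (map_ne_zero _).mpr ha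
    field_simp
    ring
  rwa [e] at h2

end Values

variable {K F k : Type*} [Field K] [Field F] [Algebra K F] [Field k]
  {κ : Type*} {Fk : κ → Type*} [∀ c, Field (Fk c)] [∀ c, Algebra k (Fk c)]

/-- **(SEED-CLEAR), one node**: `Q₁` on the component `c₁`, `Q₂` on the component `c₂`.  If the
reductions of the clearing function `G` take equal values on the two branches and are units
there, and the reductions of `f * G ^ m` take equal values on the two branches, then so do the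
reductions of `f`. -/
theorem seedClear_node (S : ∀ c : κ, ValSetup K F k (Fk c)) {c₁ c₂ : κ}
    (Q₁ : Place k (Fk c₁)) (Q₂ : Place k (Fk c₂)) {G f : F} (m : ℕ)
    (hG₁ : G ∈ (S c₁).Ov) (hG₂ : G ∈ (S c₂).Ov) (hf₁ : f ∈ (S c₁).Ov) (hf₂ : f ∈ (S c₂).Ov)
    (hGu₁ : (S c₁).red G ≠ 0) (hGo₁ : Q₁.ord ((S c₁).red G) = 0)
    (hGu₂ : (S c₂).red G ≠ 0) (hGo₂ : Q₂.ord ((S c₂).red G) = 0)
    (hGval : ∃ a : k, ValAt Q₁ ((S c₁).red G) a ∧ ValAt Q₂ ((S c₂).red G) a)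
    (hfG : ∃ b : k, ValAt Q₁ ((S c₁).red (f * G ^ m)) b ∧
      ValAt Q₂ ((S c₂).red (f * G ^ m)) b) :
    ∃ a : k, ValAt Q₁ ((S c₁).red f) a ∧ ValAt Q₂ ((S c₂).red f) a := by
  obtain ⟨a, ha₁, ha₂⟩ := hGval
  obtain ⟨b, hb₁, hb₂⟩ := hfG
  have ha0 : a ≠ 0 := seedClear_val_ne_zero ha₁ hGu₁ hGo₁
  have ham : a ^ m ≠ 0 := pow_ne_zero m ha0
  rw [(S c₁).red_mul hf₁ (pow_mem hG₁ m), (S c₁).red_pow hG₁] at hb₁
  rw [(S c₂).red_mul hf₂ (pow_mem hG₂ m), (S c₂).red_pow hG₂] at hb₂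
  exact ⟨b / a ^ m, seedClear_valAt_cancel hb₁ (valAt_pow ha₁ m) ham,
    seedClear_valAt_cancel hb₂ (valAt_pow ha₂ m) ham⟩

/-- **(SEED-CLEAR), labelled nodes**: `𝒜` a set of admissible functions with the node condition
at the labelled nodes `(Q₁ j, Q₂ j)`, `G ∈ 𝒜` a clearing function whose reductions are units at
the branches; if `f` is integral and `f * G ^ m ∈ 𝒜`, then the reductions of `f` take equal
values on the two branches of every node. -/
theorem seedClear (S : ∀ c : κ, ValSetup K F k (Fk c)) {J : Type*} (𝒜 : Set F)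
    (c₁ c₂ : J → κ) (Q₁ : ∀ j, Place k (Fk (c₁ j))) (Q₂ : ∀ j, Place k (Fk (c₂ j)))
    (hnode : ∀ h ∈ 𝒜, ∀ j, ∃ a : k, ValAt (Q₁ j) ((S (c₁ j)).red h) a ∧
      ValAt (Q₂ j) ((S (c₂ j)).red h) a)
    {G : F} (hG : G ∈ 𝒜) (hGint : ∀ j, G ∈ (S (c₁ j)).Ov ∧ G ∈ (S (c₂ j)).Ov)
    (hGunit : ∀ j, ((S (c₁ j)).red G ≠ 0 ∧ (Q₁ j).ord ((S (c₁ j)).red G) = 0) ∧
      ((S (c₂ j)).red G ≠ 0 ∧ (Q₂ j).ord ((S (c₂ j)).red G) = 0))
    {f : F} (m : ℕ) (hfint : ∀ j, f ∈ (S (c₁ j)).Ov ∧ f ∈ (S (c₂ j)).Ov)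
    (hfG : f * G ^ m ∈ 𝒜) (j : J) :
    ∃ a : k, ValAt (Q₁ j) ((S (c₁ j)).red f) a ∧ ValAt (Q₂ j) ((S (c₂ j)).red f) a :=
  seedClear_node S (Q₁ j) (Q₂ j) m (hGint j).1 (hGint j).2 (hfint j).1 (hfint j).2
    (hGunit j).1.1 (hGunit j).1.2 (hGunit j).2.1 (hGunit j).2.2 (hnode G hG j)
    (hnode _ hfG j)

/-- **(SEED-CLEAR), the shape of `GraphSeed.seed`**: labelled nodes `j : J`, for every node a set
`𝒜 j` of admissible functions with the node condition at `j` and a clearing function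
`G j ∈ 𝒜 j` (a unit at the two branches of `j`) with `f * G j ^ m ∈ 𝒜 j` for all integral
`f ∈ L(m D₀)`.  Then the reductions of every integral `f ∈ L(m D₀)` take equal values on the two
branches of every node.  (Modular graph: two families of nodes, `𝒜` and `G` depend on the
family only.) -/
theorem seedClear_rr (S : ∀ c : κ, ValSetup K F k (Fk c)) {J : Type*} (𝒜 : J → Set F)
    (c₁ c₂ : J → κ) (Q₁ : ∀ j, Place k (Fk (c₁ j))) (Q₂ : ∀ j, Place k (Fk (c₂ j)))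
    (hnode : ∀ j, ∀ h ∈ 𝒜 j, ∃ a : k, ValAt (Q₁ j) ((S (c₁ j)).red h) a ∧
      ValAt (Q₂ j) ((S (c₂ j)).red h) a)
    (G : J → F) (hG : ∀ j, G j ∈ 𝒜 j)
    (hGint : ∀ j, G j ∈ (S (c₁ j)).Ov ∧ G j ∈ (S (c₂ j)).Ov)
    (hGunit : ∀ j, ((S (c₁ j)).red (G j) ≠ 0 ∧ (Q₁ j).ord ((S (c₁ j)).red (G j)) = 0) ∧
      ((S (c₂ j)).red (G j) ≠ 0 ∧ (Q₂ j).ord ((S (c₂ j)).red (G j)) = 0))
    (D₀ : Divisor K F)
    (hclear : ∀ (j : J) (m : ℕ) (f : F), f ∈ riemannRochSpace (m • D₀) →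
      (∀ c, f ∈ (S c).Ov) → f * G j ^ m ∈ 𝒜 j)
    (m : ℕ) (f : F) (hf : f ∈ riemannRochSpace (m • D₀)) (hfint : ∀ c, f ∈ (S c).Ov) (j : J) :
    ∃ a : k, ValAt (Q₁ j) ((S (c₁ j)).red f) a ∧ ValAt (Q₂ j) ((S (c₂ j)).red f) a :=
  seedClear_node S (Q₁ j) (Q₂ j) m (hGint j).1 (hGint j).2 (hfint _) (hfint _)
    (hGunit j).1.1 (hGunit j).1.2 (hGunit j).2.1 (hGunit j).2.2 (hnode j (G j) (hG j))
    (hnode j _ (hclear j m f hf hfint))

end Fermat.Agent.BadRedG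
end
end MergeWrap_Lib_BadRed_Graph_SeedClear

section MergeWrap_S36_G_SeedMatch -- from S36/G/SeedMatch.lean

set_option autoImplicit false
set_option linter.unusedSectionVars false

/-!
# Cluster G (S36), SEED-MOD, part 1: matchings in INDEXED form (helper40)

Repackaging of helper82's `nmt_exists_equiv` (`Lib/BadRed/Graph/NodeMatch.lean`) for the assembly
of the modular graph:

* `NmtAdm.mono`, `NmtEq.mono` : restriction of the points / of the admissible functions;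
* `exists_indexed_matching` : the points `a i` (`i : I`, injective) of the first family, the
  finite set `PJ` of the points of the second family, equal counts with a CONSTANT weight
  `⟹` an injective `b : I → _` onto `PJ` with `NmtEq (a i) (b i)`;
* `exists_indexed_matching_of_sub` : the same when the count contains in addition pairs
  `(a₀ i, b₀ i)` which are already matched (the `∞`-branches in the `u₁`-node of the modular
  graph; weights `w₀`, `w` different).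

Nothing here mentions modular curves.
-/

noncomputable section

open AlgebraicCurve Fermat.Agent.RR Fermat.Agent.Deuring

namespace Fermat.Agent.S36G

open Fermat.Agent.BadRed Fermat.Agent.BadRedG

variable {K F k : Type*} [Field K] [Field F] [Algebra K F] [Field k]
  {κ : Type*} {Fk : κ → Type*} [∀ c, Field (Fk c)] [∀ c, Algebra k (Fk c)]
  {S : ∀ c : κ, ValSetup K F k (Fk c)}

/-- admissibility passes to a smaller set of points. -/
theorem nmtAdm_mono {𝔏 : Set F} {Pts Pts' : Finset (Σ c, Place k (Fk c))}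
    (h : NmtAdm S 𝔏 Pts) (hsub : Pts' ⊆ Pts) : NmtAdm S 𝔏 Pts' where
  A_eq := h.A_eq
  res_eq := h.res_eq
  zero_mem := h.zero_mem
  add_mem := h.add_mem
  smul_mem := h.smul_mem
  int := fun f hf p hp => h.int f hf p (hsub hp)
  reg := fun f hf p hp => h.reg f hf p (hsub hp)

/-- equality of the values passes to a smaller set of admissible functions. -/
theorem nmtEq_mono {𝔏 𝔏' : Set F} (hsub : 𝔏' ⊆ 𝔏) {p p' : Σ c, Place k (Fk c)}
    (h : NmtEq S 𝔏 p p') : NmtEq S 𝔏' p p' :=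
  fun f hf a => h f (hsub hf) a

/-- the common value of an admissible function at two matched points. -/
theorem exists_valAt_of_nmtEq {𝔏 : Set F} {Pts : Finset (Σ c, Place k (Fk c))}
    (hadm : NmtAdm S 𝔏 Pts) {p p' : Σ c, Place k (Fk c)} (hp : p ∈ Pts)
    (h : NmtEq S 𝔏 p p') {f : F} (hf : f ∈ 𝔏) :
    ∃ a : k, ValAt p.2 ((S p.1).red f) a ∧ ValAt p'.2 ((S p'.1).red f) a := by
  obtain ⟨a, ha⟩ := hadm.reg f hf p hp
  exact ⟨a, ha, (h f hf a).mp ha⟩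

variable [Infinite k]

open Classical in
/-- **matching, indexed form** (constant weight). -/
theorem exists_indexed_matching {I : Type*} [Fintype I] {𝔏 : Set F}
    (a : I → Σ c, Place k (Fk c)) (ha : Function.Injective a)
    (PJ Pts : Finset (Σ c, Place k (Fk c))) (hadm : NmtAdm S 𝔏 Pts)
    (haP : ∀ i, a i ∈ Pts) (hPJ : PJ ⊆ Pts) (c₀ : κ) (w₀ : ℤ) (hw₀ : w₀ ≠ 0)
    (hcount : ∀ f : F, f ∈ 𝔏 → ∀ x : k,
      (∑ i, if ValAt (a i).2 ((S (a i).1).red f) x then w₀ else 0) =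
        ∑ p ∈ PJ, if ValAt p.2 ((S p.1).red f) x then w₀ else 0) :
    ∃ b : I → Σ c, Place k (Fk c), Function.Injective b ∧ (∀ i, b i ∈ PJ) ∧
      (∀ p ∈ PJ, ∃ i, b i = p) ∧ ∀ i, NmtEq S 𝔏 (a i) (b i) := by
  set PI : Finset (Σ c, Place k (Fk c)) := Finset.univ.image a with hPI
  have hsub : PI ∪ PJ ⊆ Pts := by
    intro p hp
    rcases Finset.mem_union.mp hp with hp | hp
    · obtain ⟨i, -, rfl⟩ := Finset.mem_image.mp hp
      exact haP i
    · exact hPJ hp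
  obtain ⟨σ, hσ⟩ := nmt_exists_equiv PI PJ (nmtAdm_mono hadm hsub) c₀ w₀ hw₀ (by
    intro f hf x
    rw [hPI, Finset.sum_image (fun i _ j _ hij => ha hij)]
    exact hcount f hf x)
  have hmem : ∀ i, a i ∈ PI := fun i => Finset.mem_image_of_mem a (Finset.mem_univ i)
  refine ⟨fun i => (σ ⟨a i, hmem i⟩).1, ?_, fun i => (σ ⟨a i, hmem i⟩).2, ?_, ?_⟩
  · intro i j hij
    have h1 : σ ⟨a i, hmem i⟩ = σ ⟨a j, hmem j⟩ := Subtype.ext hij
    have h2 := σ.injective h1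
    exact ha (congrArg Subtype.val h2)
  · intro p hp
    obtain ⟨i, -, hi⟩ := Finset.mem_image.mp (σ.symm ⟨p, hp⟩).2
    refine ⟨i, ?_⟩
    have h1 : (⟨a i, hmem i⟩ : {p // p ∈ PI}) = σ.symm ⟨p, hp⟩ := Subtype.ext hi
    show (σ ⟨a i, hmem i⟩).1 = p
    rw [h1, Equiv.apply_symm_apply]
  · intro i
    exact hσ ⟨a i, hmem i⟩

open Classical in
/-- **matching, indexed form, with pairs which are already matched** (weights `w₀` for the
matched pairs, `w` for the new points). -/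
theorem exists_indexed_matching_of_sub {I₀ I : Type*} [Fintype I₀] [Fintype I] {𝔏 : Set F}
    (a₀ b₀ : I₀ → Σ c, Place k (Fk c)) (h₀ : ∀ i, NmtEq S 𝔏 (a₀ i) (b₀ i))
    (a : I → Σ c, Place k (Fk c)) (ha : Function.Injective a)
    (PJ Pts : Finset (Σ c, Place k (Fk c))) (hadm : NmtAdm S 𝔏 Pts)
    (haP : ∀ i, a i ∈ Pts) (hPJ : PJ ⊆ Pts) (c₀ : κ) (w₀ w : ℤ) (hw : w ≠ 0)
    (hcount : ∀ f : F, f ∈ 𝔏 → ∀ x : k,
      (∑ i, if ValAt (a₀ i).2 ((S (a₀ i).1).red f) x then w₀ else 0) +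
        (∑ i, if ValAt (a i).2 ((S (a i).1).red f) x then w else 0) =
      (∑ i, if ValAt (b₀ i).2 ((S (b₀ i).1).red f) x then w₀ else 0) +
        ∑ p ∈ PJ, if ValAt p.2 ((S p.1).red f) x then w else 0) :
    ∃ b : I → Σ c, Place k (Fk c), Function.Injective b ∧ (∀ i, b i ∈ PJ) ∧
      (∀ p ∈ PJ, ∃ i, b i = p) ∧ ∀ i, NmtEq S 𝔏 (a i) (b i) := by
  refine exists_indexed_matching a ha PJ Pts hadm haP hPJ c₀ w hw (fun f hf x => ?_)
  have h1 := hcount f hf x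
  have h2 : (∑ i, if ValAt (a₀ i).2 ((S (a₀ i).1).red f) x then w₀ else 0) =
      ∑ i, if ValAt (b₀ i).2 ((S (b₀ i).1).red f) x then w₀ else 0 :=
    Finset.sum_congr rfl fun i _ => if_congr (h₀ i f hf x) rfl rfl
  rw [h2] at h1
  exact add_left_cancel h1

end Fermat.Agent.S36G
end
end MergeWrap_S36_G_SeedMatch

section MergeWrap_S36_G_SeedInst -- from S36/G/SeedInst.lean

set_option autoImplicit false
set_option linter.unusedSectionVars false

/-!
# Cluster G (S36), SEED-MOD: the labelled nodes of the modular graph  (helper40)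

The INTEGRATION interface between the modular blocks and the abstract graph package
(`Lib/BadRed/Graph`): ONE structure `ModMatchInput` with the data which the modular side has to
provide, and the output

* `ModMatchInput.s₂`        : the labelled ends `s₂ (P, v)` on the horizontal component `H_P`,
  defined by the matchings (A), (1), (2) of helper92's SEED blueprint v1.1;
* `ModMatchInput.core`      : the `GraphCore` on `Vtx Mid SS` / `Nod Mid SS`;
* `ModMatchInput.core_node` : the node condition (`hnode` of `graphSeedOfX`): the reductions of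
  every integral `f ∈ L(m D₀)` take the same value on the two branches of every node.

Abstract part (no modular curves):

* `sigma_eq_of_fst`, `nodPick`, `nodPick_injective`;
* `node_of_nmtEq` : one node, from `NmtEq` + a clearing function;
* `sum_eq_sum_index`, `sum_eq_sum_index₂` : the sums over finsets of points as indexed sums
  (to feed the counts of `Lib/BadRed/Graph/NodeCount.lean`).
-/

noncomputable section

open AlgebraicCurve Fermat.Agent.RR Fermat.Agent.Deuring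

namespace Fermat.Agent.S36G

open Fermat.Agent.BadRed Fermat.Agent.BadRedG

/-! ### Abstract lemmas -/

section Abs

/-- a point of a sigma type whose first component is `c`. -/
theorem sigma_eq_of_fst {κ : Type*} {β : κ → Type*} (p : Σ c, β c) (c : κ) (h : p.1 = c) :
    (⟨c, h ▸ p.2⟩ : Σ c, β c) = p := by
  subst h
  rfl

variable {Mid SS : Type}

/-- a function on the nodes from its three pieces. -/
def nodPick {α : Type*} (fA : SS → α) (fM : SS × Mid → α) (f2 : SS → α) : Nod Mid SS → α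
  | (P, Vrt.oo) => fA P
  | (P, Vrt.mid m) => fM (P, m)
  | (P, Vrt.zero) => f2 P

theorem nodPick_oo {α : Type*} (fA : SS → α) (fM : SS × Mid → α) (f2 : SS → α) (P : SS) :
    nodPick fA fM f2 (P, Vrt.oo) = fA P := rfl

theorem nodPick_mid {α : Type*} (fA : SS → α) (fM : SS × Mid → α) (f2 : SS → α) (P : SS)
    (m : Mid) : nodPick fA fM f2 (P, Vrt.mid m) = fM (P, m) := rfl

theorem nodPick_zero {α : Type*} (fA : SS → α) (fM : SS × Mid → α) (f2 : SS → α) (P : SS) :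
    nodPick fA fM f2 (P, Vrt.zero) = f2 P := rfl

/-- the three pieces are injective with pairwise disjoint images. -/
theorem nodPick_injective {α : Type*} [DecidableEq α] (fA : SS → α) (fM : SS × Mid → α)
    (f2 : SS → α) (hA : Function.Injective fA) (hM : Function.Injective fM)
    (h2 : Function.Injective f2) (PA PM P2 : Finset α)
    (hAM : Disjoint PA PM) (hA2 : Disjoint PA P2) (hM2 : Disjoint PM P2)
    (hAmem : ∀ P, fA P ∈ PA) (hMmem : ∀ i, fM i ∈ PM) (h2mem : ∀ P, f2 P ∈ P2) :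
    Function.Injective (nodPick fA fM f2) := by
  rintro ⟨P, v⟩ ⟨P', v'⟩ h
  cases v with
  | oo =>
    cases v' with
    | oo =>
      rw [nodPick_oo, nodPick_oo] at h
      rw [hA h]
    | zero =>
      rw [nodPick_oo, nodPick_zero] at h
      exact absurd (h ▸ hAmem P) (Finset.disjoint_right.mp hA2 (h2mem P'))
    | mid m' =>
      rw [nodPick_oo, nodPick_mid] at h
      exact absurd (h ▸ hAmem P) (Finset.disjoint_right.mp hAM (hMmem (P', m')))
  | zero =>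
    cases v' with
    | oo =>
      rw [nodPick_zero, nodPick_oo] at h
      exact absurd (h ▸ h2mem P) (Finset.disjoint_left.mp hA2 (hAmem P'))
    | zero =>
      rw [nodPick_zero, nodPick_zero] at h
      rw [h2 h]
    | mid m' =>
      rw [nodPick_zero, nodPick_mid] at h
      exact absurd (h ▸ h2mem P) (Finset.disjoint_left.mp hM2 (hMmem (P', m')))
  | mid m =>
    cases v' with
    | oo =>
      rw [nodPick_mid, nodPick_oo] at h
      exact absurd (h ▸ hMmem (P, m)) (Finset.disjoint_left.mp hAM (hAmem P'))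
    | zero =>
      rw [nodPick_mid, nodPick_zero] at h
      exact absurd (h ▸ hMmem (P, m)) (Finset.disjoint_right.mp hM2 (h2mem P'))
    | mid m' =>
      rw [nodPick_mid, nodPick_mid] at h
      have := hM h
      rw [Prod.mk.injEq] at this
      rw [this.1, this.2]

/-- a vertical component is not a horizontal component. -/
theorem nodSrc_ne_nodTgt' (i j : Nod Mid SS) : nodSrc i ≠ nodTgt j := by
  intro h
  cases h

open Classical in
/-- a sum over a finset of points as an indexed sum. -/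
theorem sum_eq_sum_index {α I : Type*} [Fintype I] (a : I → α) (ha : Function.Injective a)
    (PI : Finset α) (hPI : ∀ p, p ∈ PI ↔ ∃ i, a i = p) (g : α → ℤ) :
    ∑ p ∈ PI, g p = ∑ i, g (a i) := by
  have h : PI = Finset.univ.image a := by
    ext p
    rw [hPI, Finset.mem_image]
    constructor
    · rintro ⟨i, hi⟩
      exact ⟨i, Finset.mem_univ i, hi⟩
    · rintro ⟨i, -, hi⟩
      exact ⟨i, hi⟩
  rw [h, Finset.sum_image (fun i _ j _ hij => ha hij)]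

open Classical in
/-- a sum over a finset of points of two kinds as a sum of two indexed sums. -/
theorem sum_eq_sum_index₂ {α I₀ I : Type*} [Fintype I₀] [Fintype I] (a₀ : I₀ → α) (a : I → α)
    (ha₀ : Function.Injective a₀) (ha : Function.Injective a) (hne : ∀ i j, a₀ i ≠ a j)
    (PI : Finset α) (hPI : ∀ p, p ∈ PI ↔ (∃ i, a₀ i = p) ∨ ∃ i, a i = p) (g : α → ℤ) :
    ∑ p ∈ PI, g p = ∑ i, g (a₀ i) + ∑ i, g (a i) := by
  have h : PI = Finset.univ.image a₀ ∪ Finset.univ.image a := by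
    ext p
    rw [hPI, Finset.mem_union, Finset.mem_image, Finset.mem_image]
    constructor
    · rintro (⟨i, hi⟩ | ⟨i, hi⟩)
      · exact Or.inl ⟨i, Finset.mem_univ i, hi⟩
      · exact Or.inr ⟨i, Finset.mem_univ i, hi⟩
    · rintro (⟨i, -, hi⟩ | ⟨i, -, hi⟩)
      · exact Or.inl ⟨i, hi⟩
      · exact Or.inr ⟨i, hi⟩
  have hd : Disjoint (Finset.univ.image a₀) (Finset.univ.image a) := by
    rw [Finset.disjoint_left]
    intro p hp hp'
    obtain ⟨i, -, hi⟩ := Finset.mem_image.mp hp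
    obtain ⟨j, -, hj⟩ := Finset.mem_image.mp hp'
    exact hne i j (hi.trans hj.symm)
  rw [h, Finset.sum_union hd, Finset.sum_image (fun i _ j _ hij => ha₀ hij),
    Finset.sum_image (fun i _ j _ hij => ha hij)]

variable {K F k : Type*} [Field K] [Field F] [Algebra K F] [Field k]
  {κ : Type*} {Fk : κ → Type*} [∀ c, Field (Fk c)] [∀ c, Algebra k (Fk c)]

/-- **one node**: two matched points `(c₁, Q₁)`, `(c₂, Q₂)` and a clearing function `G` which is
a unit at the two points: the reductions of every integral `f ∈ L(m D₀)` take the same value at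
`Q₁` and at `Q₂`. -/
theorem node_of_nmtEq (S : ∀ c : κ, ValSetup K F k (Fk c)) {𝔏 : Set F}
    {Pts : Finset (Σ c, Place k (Fk c))} (hadm : NmtAdm S 𝔏 Pts) {c₁ c₂ : κ}
    (Q₁ : Place k (Fk c₁)) (Q₂ : Place k (Fk c₂))
    (hp : (⟨c₁, Q₁⟩ : Σ c, Place k (Fk c)) ∈ Pts)
    (hp' : (⟨c₂, Q₂⟩ : Σ c, Place k (Fk c)) ∈ Pts)
    (heq : NmtEq S 𝔏 ⟨c₁, Q₁⟩ ⟨c₂, Q₂⟩) {G : F} (hG : G ∈ 𝔏)
    (hu₁ : (S c₁).red G ≠ 0 ∧ Q₁.ord ((S c₁).red G) = 0)
    (hu₂ : (S c₂).red G ≠ 0 ∧ Q₂.ord ((S c₂).red G) = 0)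
    (D₀ : Divisor K F)
    (hclear : ∀ (m : ℕ) (f : F), f ∈ riemannRochSpace (m • D₀) → (∀ c, f ∈ (S c).Ov) →
      f * G ^ m ∈ 𝔏)
    (m : ℕ) (f : F) (hf : f ∈ riemannRochSpace (m • D₀)) (hfint : ∀ c, f ∈ (S c).Ov) :
    ∃ a : k, ValAt Q₁ ((S c₁).red f) a ∧ ValAt Q₂ ((S c₂).red f) a :=
  seedClear_node S Q₁ Q₂ m (hadm.int G hG _ hp) (hadm.int G hG _ hp') (hfint c₁) (hfint c₂)
    hu₁.1 hu₁.2 hu₂.1 hu₂.2 (exists_valAt_of_nmtEq hadm hp heq hG)
    (exists_valAt_of_nmtEq hadm hp heq (hclear m f hf hfint))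

end Abs

/-! ### The input of the modular side -/

section Mod

open Classical in
/-- **The data which the modular side has to provide** for the labelled nodes of the modular
graph.  `pv P v` is the supersingular point `P` on the vertical component `v`; `PJA`, `PJM`, `PJ2`
are the ends `p_∞`, `p_m`, `p_0` on the horizontal components; `countA`, `count1`, `count2` are
the counts of the node theorems (A) (`u₂`), (1) (`u₁`), (2) (`u₁ / ϖ₁`); `oldA`, `old1`, `old2`: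
the old functions put the partner of `P_v` on `H_P`; `G1`, `G2` the clearing functions. -/
structure ModMatchInput (K F k : Type) [Field K] [Field F] [Algebra K F] [Field k]
    (Mid SS : Type) [Fintype Mid] [Fintype SS]
    (Fk0 : Type) [Field Fk0] [Algebra k Fk0]
    (FkM : Mid → Type) [∀ m, Field (FkM m)] [∀ m, Algebra k (FkM m)]
    (FkP : SS → Type) [∀ P, Field (FkP P)] [∀ P, Algebra k (FkP P)] where
  S : ∀ c : Vtx Mid SS, ValSetup K F k (FkOf Fk0 FkM FkP c)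
  A_eq : ∀ c c' : Vtx Mid SS, (S c).A = (S c').A
  res_eq : ∀ (c c' : Vtx Mid SS) (x : K) (h : x ∈ (S c).A) (h' : x ∈ (S c').A),
    (S c).res ⟨x, h⟩ = (S c').res ⟨x, h'⟩
  lat : ∀ c : Vtx Mid SS, HasLattice (S c)
  indep : ∀ c c' : Vtx Mid SS, c ≠ c' → ¬ (S c).Ov ≤ (S c').Ov
  arch : ∀ (c₀ : Vtx Mid SS) (x : K), x ∈ (S c₀).A → x⁻¹ ∉ (S c₀).A →
    ∀ d : K, ∃ j : ℕ, x ^ j * d ∈ (S c₀).A
  /-- the supersingular point `P` on the vertical component `v` -/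
  pv : ∀ (_ : SS) (v : Vrt Mid), Place k (FkOf Fk0 FkM FkP (Vtx.vert v))
  pv_inj : ∀ (v : Vrt Mid) (P P' : SS), pv P v = pv P' v → P = P'
  /-- the admissible functions of the node theorems (A), (1), (2) -/
  LA : Set F
  L1 : Set F
  L2 : Set F
  L1_sub : L1 ⊆ LA
  PtsA : Finset (Σ c, Place k (FkOf Fk0 FkM FkP c))
  Pts1 : Finset (Σ c, Place k (FkOf Fk0 FkM FkP c))
  Pts2 : Finset (Σ c, Place k (FkOf Fk0 FkM FkP c))
  admA : NmtAdm S LA PtsA
  adm1 : NmtAdm S L1 Pts1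
  adm2 : NmtAdm S L2 Pts2
  /-- the ends `p_∞`, `p_m`, `p_0` on the horizontal components -/
  PJA : Finset (Σ c, Place k (FkOf Fk0 FkM FkP c))
  PJM : Finset (Σ c, Place k (FkOf Fk0 FkM FkP c))
  PJ2 : Finset (Σ c, Place k (FkOf Fk0 FkM FkP c))
  disjAM : Disjoint PJA PJM
  disjA2 : Disjoint PJA PJ2
  disjM2 : Disjoint PJM PJ2
  memA : ∀ P, (⟨Vtx.vert Vrt.oo, pv P Vrt.oo⟩ : Σ c, Place k (FkOf Fk0 FkM FkP c)) ∈ PtsA
  mem1oo : ∀ P, (⟨Vtx.vert Vrt.oo, pv P Vrt.oo⟩ : Σ c, Place k (FkOf Fk0 FkM FkP c)) ∈ Pts1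
  mem1 : ∀ P m, (⟨Vtx.vert (Vrt.mid m), pv P (Vrt.mid m)⟩ :
    Σ c, Place k (FkOf Fk0 FkM FkP c)) ∈ Pts1
  mem2 : ∀ P, (⟨Vtx.vert Vrt.zero, pv P Vrt.zero⟩ : Σ c, Place k (FkOf Fk0 FkM FkP c)) ∈ Pts2
  PJA_sub : PJA ⊆ PtsA
  PJA_sub1 : PJA ⊆ Pts1
  PJM_sub : PJM ⊆ Pts1
  PJ2_sub : PJ2 ⊆ Pts2
  wA : ℤ
  w1 : ℤ
  wM : ℤ
  w2 : ℤ
  wA_ne : wA ≠ 0
  wM_ne : wM ≠ 0
  w2_ne : w2 ≠ 0
  /-- node theorem (A): `u = u₂` -/
  countA : ∀ f : F, f ∈ LA → ∀ x : k,
    (∑ P : SS, if ValAt (pv P Vrt.oo) ((S (Vtx.vert Vrt.oo)).red f) x then wA else 0) =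
      ∑ p ∈ PJA, if ValAt p.2 ((S p.1).red f) x then wA else 0
  /-- node theorem (1): `u = u₁` -/
  count1 : ∀ f : F, f ∈ L1 → ∀ x : k,
    (∑ P : SS, if ValAt (pv P Vrt.oo) ((S (Vtx.vert Vrt.oo)).red f) x then w1 else 0) +
      (∑ i : SS × Mid,
        if ValAt (pv i.1 (Vrt.mid i.2)) ((S (Vtx.vert (Vrt.mid i.2))).red f) x then wM else 0) =
    (∑ p ∈ PJA, if ValAt p.2 ((S p.1).red f) x then w1 else 0) +
      ∑ p ∈ PJM, if ValAt p.2 ((S p.1).red f) x then wM else 0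
  /-- node theorem (2): `u = u₁ / ϖ₁` -/
  count2 : ∀ f : F, f ∈ L2 → ∀ x : k,
    (∑ P : SS, if ValAt (pv P Vrt.zero) ((S (Vtx.vert Vrt.zero)).red f) x then w2 else 0) =
      ∑ p ∈ PJ2, if ValAt p.2 ((S p.1).red f) x then w2 else 0
  /-- the old functions: the partner of `P_v` lies on `H_P` -/
  oldA : ∀ (P : SS) (p : Σ c, Place k (FkOf Fk0 FkM FkP c)), p ∈ PJA →
    NmtEq S LA ⟨Vtx.vert Vrt.oo, pv P Vrt.oo⟩ p → p.1 = Vtx.hor P
  old1 : ∀ (P : SS) (m : Mid) (p : Σ c, Place k (FkOf Fk0 FkM FkP c)), p ∈ PJM →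
    NmtEq S L1 ⟨Vtx.vert (Vrt.mid m), pv P (Vrt.mid m)⟩ p → p.1 = Vtx.hor P
  old2 : ∀ (P : SS) (p : Σ c, Place k (FkOf Fk0 FkM FkP c)), p ∈ PJ2 →
    NmtEq S L2 ⟨Vtx.vert Vrt.zero, pv P Vrt.zero⟩ p → p.1 = Vtx.hor P
  /-- the divisor of the seed and the clearing functions -/
  D₀ : Divisor K F
  G1 : F
  G2 : F
  G1_mem : G1 ∈ L1
  G2_mem : G2 ∈ L2
  G1_unit_oo : ∀ P, (S (Vtx.vert Vrt.oo)).red G1 ≠ 0 ∧
    (pv P Vrt.oo).ord ((S (Vtx.vert Vrt.oo)).red G1) = 0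
  G1_unit_mid : ∀ P m, (S (Vtx.vert (Vrt.mid m))).red G1 ≠ 0 ∧
    (pv P (Vrt.mid m)).ord ((S (Vtx.vert (Vrt.mid m))).red G1) = 0
  G1_unit_A : ∀ p ∈ PJA, (S p.1).red G1 ≠ 0 ∧ p.2.ord ((S p.1).red G1) = 0
  G1_unit_M : ∀ p ∈ PJM, (S p.1).red G1 ≠ 0 ∧ p.2.ord ((S p.1).red G1) = 0
  G2_unit_zero : ∀ P, (S (Vtx.vert Vrt.zero)).red G2 ≠ 0 ∧
    (pv P Vrt.zero).ord ((S (Vtx.vert Vrt.zero)).red G2) = 0
  G2_unit_2 : ∀ p ∈ PJ2, (S p.1).red G2 ≠ 0 ∧ p.2.ord ((S p.1).red G2) = 0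
  clear1 : ∀ (m : ℕ) (f : F), f ∈ riemannRochSpace (m • D₀) → (∀ c, f ∈ (S c).Ov) →
    f * G1 ^ m ∈ L1
  clear2 : ∀ (m : ℕ) (f : F), f ∈ riemannRochSpace (m • D₀) → (∀ c, f ∈ (S c).Ov) →
    f * G2 ^ m ∈ L2

variable {K F k : Type} [Field K] [Field F] [Algebra K F] [Field k]
  {Mid SS : Type} [Fintype Mid] [Fintype SS]
  {Fk0 : Type} [Field Fk0] [Algebra k Fk0]
  {FkM : Mid → Type} [∀ m, Field (FkM m)] [∀ m, Algebra k (FkM m)]
  {FkP : SS → Type} [∀ P, Field (FkP P)] [∀ P, Algebra k (FkP P)]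

namespace ModMatchInput

variable (I : ModMatchInput K F k Mid SS Fk0 FkM FkP)

/-- the point `P_v` as a point of the family. -/
def ptV (P : SS) (v : Vrt Mid) : Σ c, Place k (FkOf Fk0 FkM FkP c) :=
  ⟨Vtx.vert v, I.pv P v⟩

theorem ptV_fst (P : SS) (v : Vrt Mid) : (I.ptV P v).1 = Vtx.vert v := rfl

theorem ptV_inj (v : Vrt Mid) (P P' : SS) (h : I.ptV P v = I.ptV P' v) : P = P' := by
  unfold ptV at h
  rw [Sigma.mk.injEq] at h
  exact I.pv_inj v P P' (eq_of_heq h.2)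

theorem ptV_inj' (P P' : SS) (v v' : Vrt Mid) (h : I.ptV P v = I.ptV P' v') :
    P = P' ∧ v = v' := by
  have h1 : (Vtx.vert v : Vtx Mid SS) = Vtx.vert v' := congrArg Sigma.fst h
  have h2 : v = v' := Vtx.vert.inj h1
  subst h2
  exact ⟨I.ptV_inj v P P' h, rfl⟩

/-! ### The matchings (A), (1), (2) -/

section Matching

variable [Infinite k]

open Classical in
/-- matching (A): `P_∞ ↦ p_∞`. -/
theorem exists_bA : ∃ b : SS → Σ c, Place k (FkOf Fk0 FkM FkP c), Function.Injective b ∧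
    (∀ P, b P ∈ I.PJA) ∧ (∀ p ∈ I.PJA, ∃ P, b P = p) ∧
      ∀ P, NmtEq I.S I.LA (I.ptV P Vrt.oo) (b P) :=
  exists_indexed_matching (fun P => I.ptV P Vrt.oo) (fun P P' h => I.ptV_inj _ P P' h)
    I.PJA I.PtsA I.admA I.memA I.PJA_sub (Vtx.vert Vrt.oo) I.wA I.wA_ne I.countA

open Classical in
/-- matching (2): `P_0 ↦ p_0`. -/
theorem exists_b2 : ∃ b : SS → Σ c, Place k (FkOf Fk0 FkM FkP c), Function.Injective b ∧
    (∀ P, b P ∈ I.PJ2) ∧ (∀ p ∈ I.PJ2, ∃ P, b P = p) ∧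
      ∀ P, NmtEq I.S I.L2 (I.ptV P Vrt.zero) (b P) :=
  exists_indexed_matching (fun P => I.ptV P Vrt.zero) (fun P P' h => I.ptV_inj _ P P' h)
    I.PJ2 I.Pts2 I.adm2 I.mem2 I.PJ2_sub (Vtx.vert Vrt.oo) I.w2 I.w2_ne I.count2

open Classical in
/-- matching (1): `P_m ↦ p_m`, after removing the pairs `(P_∞, p_∞)` of (A). -/
theorem exists_bM : ∃ b : SS × Mid → Σ c, Place k (FkOf Fk0 FkM FkP c), Function.Injective b ∧
    (∀ i, b i ∈ I.PJM) ∧ (∀ p ∈ I.PJM, ∃ i, b i = p) ∧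
      ∀ i : SS × Mid, NmtEq I.S I.L1 (I.ptV i.1 (Vrt.mid i.2)) (b i) := by
  obtain ⟨bA, hAinj, hAmem, hAsurj, hAeq⟩ := I.exists_bA
  refine exists_indexed_matching_of_sub (fun P => I.ptV P Vrt.oo) bA
    (fun P => nmtEq_mono I.L1_sub (hAeq P)) (fun i : SS × Mid => I.ptV i.1 (Vrt.mid i.2))
    ?_ I.PJM I.Pts1 I.adm1 (fun i => I.mem1 i.1 i.2) I.PJM_sub (Vtx.vert Vrt.oo) I.w1 I.wM
    I.wM_ne ?_
  · rintro ⟨P, m⟩ ⟨P', m'⟩ h
    obtain ⟨h1, h2⟩ := I.ptV_inj' P P' (Vrt.mid m) (Vrt.mid m') h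
    have h3 : m = m' := Vrt.mid.inj h2
    rw [h1, h3]
  · intro f hf x
    have h1 := I.count1 f hf x
    have h2 := sum_eq_sum_index bA hAinj I.PJA
      (fun p => ⟨fun hp => hAsurj p hp, fun ⟨P, hP⟩ => hP ▸ hAmem P⟩)
      (fun p => if ValAt p.2 ((I.S p.1).red f) x then I.w1 else 0)
    rw [h2] at h1
    exact h1

end Matching

/-! ### The labelled ends -/

section Labels

variable [Infinite k]

/-- **the labelled ends**: `s₂ (P, v)` is a point of `H_P`, the partner of `P_v`. -/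
theorem exists_s₂ : ∃ s₂ : ∀ i : Nod Mid SS, Place k (FkOf Fk0 FkM FkP (nodTgt i)),
    (∀ i j : Nod Mid SS, (⟨nodTgt i, s₂ i⟩ : Σ c, Place k (FkOf Fk0 FkM FkP c)) =
      ⟨nodTgt j, s₂ j⟩ → i = j) ∧
    ((∀ P, (⟨nodTgt (P, Vrt.oo), s₂ (P, Vrt.oo)⟩ :
        Σ c, Place k (FkOf Fk0 FkM FkP c)) ∈ I.PJA) ∧
      (∀ P m, (⟨nodTgt (P, Vrt.mid m), s₂ (P, Vrt.mid m)⟩ :
        Σ c, Place k (FkOf Fk0 FkM FkP c)) ∈ I.PJM) ∧
      (∀ P, (⟨nodTgt (P, Vrt.zero), s₂ (P, Vrt.zero)⟩ :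
        Σ c, Place k (FkOf Fk0 FkM FkP c)) ∈ I.PJ2)) ∧
    ((∀ p ∈ I.PJA, ∃ P, (⟨nodTgt (P, Vrt.oo), s₂ (P, Vrt.oo)⟩ :
        Σ c, Place k (FkOf Fk0 FkM FkP c)) = p) ∧
      (∀ p ∈ I.PJM, ∃ P m, (⟨nodTgt (P, Vrt.mid m), s₂ (P, Vrt.mid m)⟩ :
        Σ c, Place k (FkOf Fk0 FkM FkP c)) = p) ∧
      (∀ p ∈ I.PJ2, ∃ P, (⟨nodTgt (P, Vrt.zero), s₂ (P, Vrt.zero)⟩ :
        Σ c, Place k (FkOf Fk0 FkM FkP c)) = p)) ∧
    (∀ P, NmtEq I.S I.LA (I.ptV P Vrt.oo) ⟨nodTgt (P, Vrt.oo), s₂ (P, Vrt.oo)⟩) ∧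
      (∀ P m, NmtEq I.S I.L1 (I.ptV P (Vrt.mid m))
        ⟨nodTgt (P, Vrt.mid m), s₂ (P, Vrt.mid m)⟩) ∧
      (∀ P, NmtEq I.S I.L2 (I.ptV P Vrt.zero) ⟨nodTgt (P, Vrt.zero), s₂ (P, Vrt.zero)⟩) := by
  classical
  obtain ⟨bA, hAinj, hAmem, hAsurj, hAeq⟩ := I.exists_bA
  obtain ⟨bM, hMinj, hMmem, hMsurj, hMeq⟩ := I.exists_bM
  obtain ⟨b2, h2inj, h2mem, h2surj, h2eq⟩ := I.exists_b2
  have hb : ∀ i : Nod Mid SS, (nodPick bA bM b2 i).1 = nodTgt i := by
    rintro ⟨P, v⟩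
    cases v with
    | oo => exact I.oldA P (bA P) (hAmem P) (hAeq P)
    | zero => exact I.old2 P (b2 P) (h2mem P) (h2eq P)
    | mid m => exact I.old1 P m (bM (P, m)) (hMmem (P, m)) (hMeq (P, m))
  obtain ⟨s₂, key⟩ : ∃ s₂ : ∀ i : Nod Mid SS, Place k (FkOf Fk0 FkM FkP (nodTgt i)),
      ∀ i, (⟨nodTgt i, s₂ i⟩ : Σ c, Place k (FkOf Fk0 FkM FkP c)) = nodPick bA bM b2 i :=
    ⟨fun i => hb i ▸ (nodPick bA bM b2 i).2, fun i => sigma_eq_of_fst _ _ (hb i)⟩
  refine ⟨s₂, ?_, ⟨?_, ?_, ?_⟩, ⟨?_, ?_, ?_⟩, ?_, ?_, ?_⟩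
  · intro i j h
    rw [key i, key j] at h
    exact nodPick_injective bA bM b2 hAinj hMinj h2inj I.PJA I.PJM I.PJ2 I.disjAM I.disjA2
      I.disjM2 hAmem hMmem h2mem h
  · intro P
    rw [key (P, Vrt.oo)]
    exact hAmem P
  · intro P m
    rw [key (P, Vrt.mid m)]
    exact hMmem (P, m)
  · intro P
    rw [key (P, Vrt.zero)]
    exact h2mem P
  · intro p hp
    obtain ⟨P, hP⟩ := hAsurj p hp
    exact ⟨P, (key (P, Vrt.oo)).trans hP⟩
  · intro p hp
    obtain ⟨⟨P, m⟩, hP⟩ := hMsurj p hp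
    exact ⟨P, m, (key (P, Vrt.mid m)).trans hP⟩
  · intro p hp
    obtain ⟨P, hP⟩ := h2surj p hp
    exact ⟨P, (key (P, Vrt.zero)).trans hP⟩
  · intro P
    rw [key (P, Vrt.oo)]
    exact hAeq P
  · intro P m
    rw [key (P, Vrt.mid m)]
    exact hMeq (P, m)
  · intro P
    rw [key (P, Vrt.zero)]
    exact h2eq P

/-- the labelled end `s₂ (P, v)` on `H_P`. -/
def s₂ (i : Nod Mid SS) : Place k (FkOf Fk0 FkM FkP (nodTgt i)) :=
  Classical.choose I.exists_s₂ i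

/-- the labelled end as a point of the family. -/
def ptH (i : Nod Mid SS) : Σ c, Place k (FkOf Fk0 FkM FkP c) := ⟨nodTgt i, I.s₂ i⟩

theorem s₂_inj (i j : Nod Mid SS)
    (h : (⟨nodTgt i, I.s₂ i⟩ : Σ c, Place k (FkOf Fk0 FkM FkP c)) = ⟨nodTgt j, I.s₂ j⟩) :
    i = j :=
  (Classical.choose_spec I.exists_s₂).1 i j h

theorem ptH_memA (P : SS) : I.ptH (P, Vrt.oo) ∈ I.PJA :=
  (Classical.choose_spec I.exists_s₂).2.1.1 P

theorem ptH_memM (P : SS) (m : Mid) : I.ptH (P, Vrt.mid m) ∈ I.PJM :=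
  (Classical.choose_spec I.exists_s₂).2.1.2.1 P m

theorem ptH_mem2 (P : SS) : I.ptH (P, Vrt.zero) ∈ I.PJ2 :=
  (Classical.choose_spec I.exists_s₂).2.1.2.2 P

theorem exists_ptH_eqA (p : Σ c, Place k (FkOf Fk0 FkM FkP c)) (hp : p ∈ I.PJA) :
    ∃ P, I.ptH (P, Vrt.oo) = p :=
  (Classical.choose_spec I.exists_s₂).2.2.1.1 p hp

theorem exists_ptH_eqM (p : Σ c, Place k (FkOf Fk0 FkM FkP c)) (hp : p ∈ I.PJM) :
    ∃ P m, I.ptH (P, Vrt.mid m) = p :=
  (Classical.choose_spec I.exists_s₂).2.2.1.2.1 p hp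

theorem exists_ptH_eq2 (p : Σ c, Place k (FkOf Fk0 FkM FkP c)) (hp : p ∈ I.PJ2) :
    ∃ P, I.ptH (P, Vrt.zero) = p :=
  (Classical.choose_spec I.exists_s₂).2.2.1.2.2 p hp

theorem nmtEq_oo (P : SS) : NmtEq I.S I.LA (I.ptV P Vrt.oo) (I.ptH (P, Vrt.oo)) :=
  (Classical.choose_spec I.exists_s₂).2.2.2.1 P

theorem nmtEq_mid (P : SS) (m : Mid) :
    NmtEq I.S I.L1 (I.ptV P (Vrt.mid m)) (I.ptH (P, Vrt.mid m)) :=
  (Classical.choose_spec I.exists_s₂).2.2.2.2.1 P m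

theorem nmtEq_zero (P : SS) : NmtEq I.S I.L2 (I.ptV P Vrt.zero) (I.ptH (P, Vrt.zero)) :=
  (Classical.choose_spec I.exists_s₂).2.2.2.2.2 P

end Labels

/-! ### The core and the node condition -/

section Core

variable [Infinite k] [Nonempty SS]

/-- **the `GraphCore` of the modular graph**: components `Vtx Mid SS`, nodes `Nod Mid SS`,
`s₁ (P, v) = P_v`, `s₂ (P, v)` the labelled end on `H_P`. -/
def core : GraphCore K F k (Vtx Mid SS) (FkOf Fk0 FkM FkP) (Nod Mid SS) where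
  S := I.S
  A_eq := I.A_eq
  res_eq := I.res_eq
  lat := I.lat
  indep := I.indep
  src := nodSrc
  tgt := nodTgt
  src_ne_tgt := nodSrc_ne_nodTgt
  s₁ := fun i => I.pv i.1 i.2
  s₂ := I.s₂
  s₁_inj := fun i j h => by
    obtain ⟨P, v⟩ := i
    obtain ⟨P', v'⟩ := j
    obtain ⟨h1, h2⟩ := I.ptV_inj' P P' v v' h
    rw [h1, h2]
  s₂_inj := I.s₂_inj
  s₁_ne_s₂ := fun i j h => nodSrc_ne_nodTgt' i j (congrArg Sigma.fst h)
  conn := modularGraph_conn
  arch := I.arch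

@[simp] theorem core_S : I.core.S = I.S := rfl
@[simp] theorem core_src : I.core.src = nodSrc := rfl
@[simp] theorem core_tgt : I.core.tgt = nodTgt := rfl
theorem core_s₁ (i : Nod Mid SS) : I.core.s₁ i = I.pv i.1 i.2 := rfl
theorem core_s₂ (i : Nod Mid SS) : I.core.s₂ i = I.s₂ i := rfl

/-- **the node condition** (`hnode` of `GraphCore.graphSeedOfX`): the reductions of every
integral `f ∈ L(m D₀)` take the same value on the two branches of every node. -/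
theorem core_node (m : ℕ) (f : F) (hf : f ∈ riemannRochSpace (m • I.D₀))
    (hfint : ∀ c, f ∈ (I.S c).Ov) (i : Nod Mid SS) :
    ∃ a : k, ValAt (I.core.s₁ i) ((I.core.S (I.core.src i)).red f) a ∧
      ValAt (I.core.s₂ i) ((I.core.S (I.core.tgt i)).red f) a := by
  obtain ⟨P, v⟩ := i
  cases v with
  | oo =>
    exact node_of_nmtEq I.S I.adm1 (I.pv P Vrt.oo) (I.s₂ (P, Vrt.oo)) (I.mem1oo P)
      (I.PJA_sub1 (I.ptH_memA P)) (nmtEq_mono I.L1_sub (I.nmtEq_oo P)) I.G1_mem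
      (I.G1_unit_oo P) (I.G1_unit_A _ (I.ptH_memA P)) I.D₀ I.clear1 m f hf hfint
  | zero =>
    exact node_of_nmtEq I.S I.adm2 (I.pv P Vrt.zero) (I.s₂ (P, Vrt.zero)) (I.mem2 P)
      (I.PJ2_sub (I.ptH_mem2 P)) (I.nmtEq_zero P) I.G2_mem
      (I.G2_unit_zero P) (I.G2_unit_2 _ (I.ptH_mem2 P)) I.D₀ I.clear2 m f hf hfint
  | mid m₀ =>
    exact node_of_nmtEq I.S I.adm1 (I.pv P (Vrt.mid m₀)) (I.s₂ (P, Vrt.mid m₀)) (I.mem1 P m₀)
      (I.PJM_sub (I.ptH_memM P m₀)) (I.nmtEq_mid P m₀) I.G1_mem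
      (I.G1_unit_mid P m₀) (I.G1_unit_M _ (I.ptH_memM P m₀)) I.D₀ I.clear1 m f hf hfint

/-- every labelled end lies in one of the three sets of ends. -/
theorem ptH_mem (i : Nod Mid SS) : I.ptH i ∈ I.PJA ∨ I.ptH i ∈ I.PJM ∨ I.ptH i ∈ I.PJ2 := by
  obtain ⟨P, v⟩ := i
  cases v with
  | oo => exact Or.inl (I.ptH_memA P)
  | zero => exact Or.inr (Or.inr (I.ptH_mem2 P))
  | mid m₀ => exact Or.inr (Or.inl (I.ptH_memM P m₀))

/-- **the modular `GraphSeed`** attached to the seed function `x`: `D₀ = (x)_∞`,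
`R c = (red_c x)_∞`. -/
def seed (x : F) (hx : ∀ c, x ∈ (I.S c).Ov)
    (hD₀ : I.D₀ = poleDiv (I.S (Vtx.vert Vrt.oo)).hF x)
    (hpos : ∀ c, 0 < Divisor.degree (poleDiv (I.S c).hFk ((I.S c).red x)))
    (hn₁ : ∀ (P : SS) (v : Vrt Mid), 0 ≤ (I.pv P v).ord ((I.S (Vtx.vert v)).red x))
    (hn₂ : ∀ p : Σ c, Place k (FkOf Fk0 FkM FkP c), p ∈ I.PJA ∨ p ∈ I.PJM ∨ p ∈ I.PJ2 →
      0 ≤ p.2.ord ((I.S p.1).red x))
    (hdeg : Divisor.degree (poleDiv (I.S (Vtx.vert Vrt.oo)).hF x) ≤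
      ∑ c, Divisor.degree (poleDiv (I.S c).hFk ((I.S c).red x)))
    (hgenus : genusFF K F + Fintype.card (Vtx Mid SS) ≤
      (∑ c, genusFF k (FkOf Fk0 FkM FkP c)) + Fintype.card (Nod Mid SS) + 1) :
    GraphSeed K F k (Vtx Mid SS) (FkOf Fk0 FkM FkP) (Nod Mid SS) :=
  I.core.graphSeedOfX (Vtx.vert Vrt.oo) x hx hpos (fun i => hn₁ i.1 i.2)
    (fun i => hn₂ (I.ptH i) (I.ptH_mem i))
    (hdeg) (fun m f hf hfint i => I.core_node m f (hD₀ ▸ hf) hfint i) hgenus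

section SeedSimp

variable (x : F) (hx : ∀ c, x ∈ (I.S c).Ov)
    (hD₀ : I.D₀ = poleDiv (I.S (Vtx.vert Vrt.oo)).hF x)
    (hpos : ∀ c, 0 < Divisor.degree (poleDiv (I.S c).hFk ((I.S c).red x)))
    (hn₁ : ∀ (P : SS) (v : Vrt Mid), 0 ≤ (I.pv P v).ord ((I.S (Vtx.vert v)).red x))
    (hn₂ : ∀ p : Σ c, Place k (FkOf Fk0 FkM FkP c), p ∈ I.PJA ∨ p ∈ I.PJM ∨ p ∈ I.PJ2 →
      0 ≤ p.2.ord ((I.S p.1).red x))
    (hdeg : Divisor.degree (poleDiv (I.S (Vtx.vert Vrt.oo)).hF x) ≤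
      ∑ c, Divisor.degree (poleDiv (I.S c).hFk ((I.S c).red x)))
    (hgenus : genusFF K F + Fintype.card (Vtx Mid SS) ≤
      (∑ c, genusFF k (FkOf Fk0 FkM FkP c)) + Fintype.card (Nod Mid SS) + 1)

@[simp] theorem seed_toGraphCore :
    (I.seed x hx hD₀ hpos hn₁ hn₂ hdeg hgenus).toGraphCore = I.core := rfl

@[simp] theorem seed_S : (I.seed x hx hD₀ hpos hn₁ hn₂ hdeg hgenus).S = I.S := rfl

@[simp] theorem seed_src : (I.seed x hx hD₀ hpos hn₁ hn₂ hdeg hgenus).src = nodSrc := rfl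

@[simp] theorem seed_tgt : (I.seed x hx hD₀ hpos hn₁ hn₂ hdeg hgenus).tgt = nodTgt := rfl

theorem seed_s₁ (i : Nod Mid SS) :
    (I.seed x hx hD₀ hpos hn₁ hn₂ hdeg hgenus).s₁ i = I.pv i.1 i.2 := rfl

theorem seed_s₂ (i : Nod Mid SS) :
    (I.seed x hx hD₀ hpos hn₁ hn₂ hdeg hgenus).s₂ i = I.s₂ i := rfl

@[simp] theorem seed_D₀ :
    (I.seed x hx hD₀ hpos hn₁ hn₂ hdeg hgenus).D₀ = poleDiv (I.S (Vtx.vert Vrt.oo)).hF x := rfl

theorem seed_D₀' : (I.seed x hx hD₀ hpos hn₁ hn₂ hdeg hgenus).D₀ = I.D₀ := hD₀.symm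

@[simp] theorem seed_R (c : Vtx Mid SS) :
    (I.seed x hx hD₀ hpos hn₁ hn₂ hdeg hgenus).R c = poleDiv (I.S c).hFk ((I.S c).red x) := rfl

end SeedSimp

end Core

end ModMatchInput

end Mod

end Fermat.Agent.S36G
end
end MergeWrap_S36_G_SeedInst
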