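import Mathlib
import Fermat.Prelude.Def_AlgebraicCurve_BaseChangeGalois
import Fermat.Agent.MUL.Lib.BadRed.Graph.Deuring.PermNode
import Fermat.Agent.MUL.Lib.BadRed.Graph.GraphSeedOfX
import Fermat.Agent.MUL.S36.G.SeedInst
import Fermat.Agent.MUL.Orig.S36.G.Types
import Fermat.Agent.MUL.Lib.Deuring.Basic
import Fermat.Agent.MUL.S36.G.SeedInput
import Fermat.Agent.MUL.Lib.BadRed.PeuD.Coord

section MergeWrap_Lib_BadRed_Graph_Deuring_PermOfX -- from Lib/BadRed/Graph/Deuring/PermOfX.lean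

set_option autoImplicit false
set_option linter.unusedSectionVars false

/-!
# Cluster G, graph Deuring construction: the automorphisms of the seed of a function `x`
(helper82; seat SEED-PERM, abstract part)

For the seed `G = C.graphSeedOfX c₀ x ..` (`D₀ = (x)_∞`, `R c = (red_c x)_∞`,
`Graph/GraphSeedOfX.lean`) the conditions `D₀_smul`, `R_smul` of `GraphSeed.IsPermAutW` follow from
the invariance of the POLE DIVISORS of `x` and of its reductions; in particular from `t • x = x`.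

* `poleDiv_smul_of_smul_eq` : `(x)_∞ (t • P) = (x)_∞ P` if `t • x = x`;
* `poleDiv_placeCorr` : `(e y)_∞ Q' = (y)_∞ Q` for corresponding places;
* `placeCorr_pos_iff` : the zeros of `y` correspond to the zeros of `e y`;
* `GraphCore.graphSeedOfX_isPermAutW_of_poleDiv` : `IsPermAutW` from `mem`, `red`, the invariance of
  the pole divisors, the existence of the images of the places, and `br_iff`;
* `GraphCore.graphSeedOfX_isPermAutW` : the same for `t • x = x`.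
-/

noncomputable section

open AlgebraicCurve Fermat.Agent.RR Fermat.Agent.Deuring

namespace Fermat.Agent.BadRedG

open Fermat.Agent.BadRed

section Pole

variable {K F : Type*} [Field K] [Field F] [Algebra K F]

/-- the pole divisor of a `t`-invariant function is `t`-stable. -/
theorem poleDiv_smul_of_smul_eq (h : IsRRField K F) (t : SemilinearAut K F) {x : F}
    (hx : t • x = x) (P : Place K F) : poleDiv h x (t • P) = poleDiv h x P := by
  rw [poleDiv_apply, poleDiv_apply]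
  have h1 := SemilinearAut.ord_smul t P x
  rw [hx] at h1
  rw [h1]

variable {k L L' : Type*} [Field k] [Field L] [Field L'] [Algebra k L] [Algebra k L']

/-- the pole divisors at corresponding places. -/
theorem poleDiv_placeCorr (h : IsRRField k L) (h' : IsRRField k L') {e : L ≃ₐ[k] L'}
    {Q : Place k L} {Q' : Place k L'} (hc : PlaceCorr e Q Q') (y : L) :
    poleDiv h' (e y) Q' = poleDiv h y Q := by
  rw [poleDiv_apply, poleDiv_apply, hc y]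

/-- the zeros of `y` correspond to the zeros of `e y`. -/
theorem placeCorr_pos_iff {e : L ≃ₐ[k] L'} {Q : Place k L} {Q' : Place k L'}
    (hc : PlaceCorr e Q Q') (y : L) : 0 < Q'.ord (e y) ↔ 0 < Q.ord y := by
  rw [hc y]

/-- the zeros of `y` correspond to the zeros of `a • e y`, `a ≠ 0`. -/
theorem placeCorr_pos_iff_of_smul {e : L ≃ₐ[k] L'} {Q : Place k L} {Q' : Place k L'}
    (hc : PlaceCorr e Q Q') (y : L) {y' : L'} {a : k} (ha : a ≠ 0) (hy : e y = a • y') :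
    0 < Q'.ord y' ↔ 0 < Q.ord y := by
  have h1 : y' = e (a⁻¹ • y) := by
    rw [map_smul, hy, smul_smul, inv_mul_cancel₀ ha, one_smul]
  rw [h1, hc (a⁻¹ • y)]
  rcases eq_or_ne y 0 with rfl | hy0
  · rw [smul_zero]
  · have h2 : a⁻¹ • y = algebraMap k L a⁻¹ * y := Algebra.smul_def _ _
    have h3 : algebraMap k L a⁻¹ ≠ 0 := by
      rw [ne_eq, map_eq_zero_iff _ (algebraMap k L).injective]
      exact inv_ne_zero ha
    rw [h2, Place.ord_mul _ h3 hy0, Fermat.Agent.S24Res.ord_algebraMap, zero_add]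

end Pole

variable {K F k : Type*} [Field K] [Field F] [Algebra K F] [Field k]
  {κ : Type*} {Fk : κ → Type*} [∀ c, Field (Fk c)] [∀ c, Algebra k (Fk c)] {ι : Type*}
  [Fintype κ] [Fintype ι] [Infinite k]

/-- **the weak automorphisms of the seed of `x`**, from the invariance of the pole divisors. -/
theorem GraphCore.graphSeedOfX_isPermAutW_of_poleDiv (C : GraphCore K F k κ Fk ι)
    (c₀ : κ) (x : F) (hx : ∀ c, x ∈ (C.S c).Ov)
    (hpos : ∀ c, 0 < Divisor.degree (poleDiv (C.S c).hFk ((C.S c).red x)))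
    (hn₁ : ∀ i, 0 ≤ (C.s₁ i).ord ((C.S (C.src i)).red x))
    (hn₂ : ∀ i, 0 ≤ (C.s₂ i).ord ((C.S (C.tgt i)).red x))
    (hdeg : Divisor.degree (poleDiv (C.S c₀).hF x) ≤
      ∑ c, Divisor.degree (poleDiv (C.S c).hFk ((C.S c).red x)))
    (hnode : ∀ (m : ℕ) (f : F), f ∈ riemannRochSpace (m • poleDiv (C.S c₀).hF x) →
      (∀ c, f ∈ (C.S c).Ov) →
      ∀ i, ∃ a : k, ValAt (C.s₁ i) ((C.S (C.src i)).red f) a ∧
        ValAt (C.s₂ i) ((C.S (C.tgt i)).red f) a)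
    (hgenus : genusFF K F + Fintype.card κ ≤
      (∑ c, genusFF k (Fk c)) + Fintype.card ι + 1)
    (t : SemilinearAut K F) (π : Equiv.Perm κ) (e : ∀ c, Fk c ≃ₐ[k] Fk (π c))
    (mem : ∀ (c : κ) (f : F), f ∈ (C.S c).Ov → t • f ∈ (C.S (π c)).Ov)
    (red : ∀ (c : κ) (f : F), f ∈ (C.S c).Ov →
      (C.S (π c)).red (t • f) = e c ((C.S c).red f))
    (hD : ∀ P : Place K F, poleDiv (C.S c₀).hF x (t • P) = poleDiv (C.S c₀).hF x P)
    (hR : ∀ c, poleDiv (C.S (π c)).hFk ((C.S (π c)).red (t • x)) =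
      poleDiv (C.S (π c)).hFk ((C.S (π c)).red x))
    (hex : ∀ (c : κ) (Q : Place k (Fk c)), ∃ Q' : Place k (Fk (π c)), PlaceCorr (e c) Q Q')
    (hbr : ∀ (c : κ) (Q : Place k (Fk c)) (Q' : Place k (Fk (π c))), PlaceCorr (e c) Q Q' →
      (C.IsBr ⟨c, Q⟩ ↔ C.IsBr ⟨π c, Q'⟩)) :
    (C.graphSeedOfX c₀ x hx hpos hn₁ hn₂ hdeg hnode hgenus).IsPermAutW t π e where
  mem := mem
  red := red
  D₀_smul := hD
  R_smul := by
    intro c Q
    obtain ⟨Q', hQ'⟩ := hex c Q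
    refine ⟨Q', hQ', ?_⟩
    show poleDiv (C.S (π c)).hFk ((C.S (π c)).red x) Q' =
      poleDiv (C.S c).hFk ((C.S c).red x) Q
    rw [← hR c, red c x (hx c)]
    exact poleDiv_placeCorr _ _ hQ' _
  br_iff := hbr

/-- **the weak automorphisms of the seed of `x`**, `t • x = x`. -/
theorem GraphCore.graphSeedOfX_isPermAutW (C : GraphCore K F k κ Fk ι)
    (c₀ : κ) (x : F) (hx : ∀ c, x ∈ (C.S c).Ov)
    (hpos : ∀ c, 0 < Divisor.degree (poleDiv (C.S c).hFk ((C.S c).red x)))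
    (hn₁ : ∀ i, 0 ≤ (C.s₁ i).ord ((C.S (C.src i)).red x))
    (hn₂ : ∀ i, 0 ≤ (C.s₂ i).ord ((C.S (C.tgt i)).red x))
    (hdeg : Divisor.degree (poleDiv (C.S c₀).hF x) ≤
      ∑ c, Divisor.degree (poleDiv (C.S c).hFk ((C.S c).red x)))
    (hnode : ∀ (m : ℕ) (f : F), f ∈ riemannRochSpace (m • poleDiv (C.S c₀).hF x) →
      (∀ c, f ∈ (C.S c).Ov) →
      ∀ i, ∃ a : k, ValAt (C.s₁ i) ((C.S (C.src i)).red f) a ∧
        ValAt (C.s₂ i) ((C.S (C.tgt i)).red f) a)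
    (hgenus : genusFF K F + Fintype.card κ ≤
      (∑ c, genusFF k (Fk c)) + Fintype.card ι + 1)
    (t : SemilinearAut K F) (π : Equiv.Perm κ) (e : ∀ c, Fk c ≃ₐ[k] Fk (π c))
    (mem : ∀ (c : κ) (f : F), f ∈ (C.S c).Ov → t • f ∈ (C.S (π c)).Ov)
    (red : ∀ (c : κ) (f : F), f ∈ (C.S c).Ov →
      (C.S (π c)).red (t • f) = e c ((C.S c).red f))
    (htx : t • x = x)
    (hex : ∀ (c : κ) (Q : Place k (Fk c)), ∃ Q' : Place k (Fk (π c)), PlaceCorr (e c) Q Q')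
    (hbr : ∀ (c : κ) (Q : Place k (Fk c)) (Q' : Place k (Fk (π c))), PlaceCorr (e c) Q Q' →
      (C.IsBr ⟨c, Q⟩ ↔ C.IsBr ⟨π c, Q'⟩)) :
    (C.graphSeedOfX c₀ x hx hpos hn₁ hn₂ hdeg hnode hgenus).IsPermAutW t π e :=
  C.graphSeedOfX_isPermAutW_of_poleDiv c₀ x hx hpos hn₁ hn₂ hdeg hnode hgenus t π e mem red
    (poleDiv_smul_of_smul_eq _ t htx) (fun c => by rw [htx]) hex hbr

end Fermat.Agent.BadRedG
end
end MergeWrap_Lib_BadRed_Graph_Deuring_PermOfX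

section MergeWrap_S36_G_SeedPerm -- from S36/G/SeedPerm.lean

set_option autoImplicit false
set_option linter.unusedSectionVars false

/-!
# Cluster G (S36), SEED-PERM: the automorphisms of the modular seed  (helper82)

For the modular seed `G = I.seed x ..` (`S36/G/SeedInst.lean`; the ends `s₂` on the horizontal
components are CHOSEN by the matching) the inertia group acts by weak automorphisms
(`GraphSeed.IsPermAutW`, hence by automorphisms `GraphSeed.IsPermAut`,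
`Graph/Deuring/PermNode.lean`) as soon as

* `mem`, `red` : `t` permutes the valuation rings, `e c` are the induced isomorphisms of the
  residue fields;
* `hD`, `hR` : the pole divisors of `x` and of its reductions are stable (e.g. `t • x = x`);
* `hex` : the places have images (`PlaceCorr`; `Graph/Deuring/PlaceMap.lean`);
* `hV` : the set of the points `P_v` is stable;
* `hH` : the set `PJA ∪ PJM ∪ PJ2` of the ends is stable.

No statement about the LABELLED ends `I.s₂` is needed.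

* `ModMatchInput.core_isBr_iff` : the branch points of the modular graph are the `P_v` and the
  points of `PJA ∪ PJM ∪ PJ2`;
* `ModMatchInput.seed_isPermAutW_of_poleDiv`, `ModMatchInput.seed_isPermAutW_fix` (`t • x = x`);
* `ModMatchInput.seed_isPermAut`.
-/

noncomputable section

open AlgebraicCurve Fermat.Agent.RR Fermat.Agent.Deuring

namespace Fermat.Agent.S36G

open Fermat.Agent.BadRed Fermat.Agent.BadRedG

variable {K F k : Type} [Field K] [Field F] [Algebra K F] [Field k]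
  {Mid SS : Type} [Fintype Mid] [Fintype SS]
  {Fk0 : Type} [Field Fk0] [Algebra k Fk0]
  {FkM : Mid → Type} [∀ m, Field (FkM m)] [∀ m, Algebra k (FkM m)]
  {FkP : SS → Type} [∀ P, Field (FkP P)] [∀ P, Algebra k (FkP P)]

namespace ModMatchInput

variable (I : ModMatchInput K F k Mid SS Fk0 FkM FkP) [Infinite k] [Nonempty SS]

/-- **the branch points of the modular graph**: the points `P_v` on the vertical components and
the ends `PJA ∪ PJM ∪ PJ2` on the horizontal components. -/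
theorem core_isBr_iff (X : Σ c, Place k (FkOf Fk0 FkM FkP c)) :
    I.core.IsBr X ↔ (∃ P v, X = I.ptV P v) ∨ X ∈ I.PJA ∨ X ∈ I.PJM ∨ X ∈ I.PJ2 := by
  constructor
  · rintro (⟨i, rfl⟩ | ⟨i, rfl⟩)
    · exact Or.inl ⟨i.1, i.2, rfl⟩
    · exact Or.inr (I.ptH_mem i)
  · rintro (⟨P, v, rfl⟩ | hA | hM | h2)
    · exact Or.inl ⟨(P, v), rfl⟩
    · obtain ⟨P, hP⟩ := I.exists_ptH_eqA X hA
      exact Or.inr ⟨(P, Vrt.oo), hP.symm⟩
    · obtain ⟨P, m, hP⟩ := I.exists_ptH_eqM X hM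
      exact Or.inr ⟨(P, Vrt.mid m), hP.symm⟩
    · obtain ⟨P, hP⟩ := I.exists_ptH_eq2 X h2
      exact Or.inr ⟨(P, Vrt.zero), hP.symm⟩

section Seed

variable (x : F) (hx : ∀ c, x ∈ (I.S c).Ov)
    (hD₀ : I.D₀ = poleDiv (I.S (Vtx.vert Vrt.oo)).hF x)
    (hpos : ∀ c, 0 < Divisor.degree (poleDiv (I.S c).hFk ((I.S c).red x)))
    (hn₁ : ∀ (P : SS) (v : Vrt Mid), 0 ≤ (I.pv P v).ord ((I.S (Vtx.vert v)).red x))
    (hn₂ : ∀ p : Σ c, Place k (FkOf Fk0 FkM FkP c), p ∈ I.PJA ∨ p ∈ I.PJM ∨ p ∈ I.PJ2 →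
      0 ≤ p.2.ord ((I.S p.1).red x))
    (hdeg : Divisor.degree (poleDiv (I.S (Vtx.vert Vrt.oo)).hF x) ≤
      ∑ c, Divisor.degree (poleDiv (I.S c).hFk ((I.S c).red x)))
    (hgenus : genusFF K F + Fintype.card (Vtx Mid SS) ≤
      (∑ c, genusFF k (FkOf Fk0 FkM FkP c)) + Fintype.card (Nod Mid SS) + 1)

/-- **the weak automorphisms of the modular seed**, from the invariance of the pole divisors. -/
theorem seed_isPermAutW_of_poleDiv (t : SemilinearAut K F) (π : Equiv.Perm (Vtx Mid SS))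
    (e : ∀ c, FkOf Fk0 FkM FkP c ≃ₐ[k] FkOf Fk0 FkM FkP (π c))
    (mem : ∀ (c : Vtx Mid SS) (f : F), f ∈ (I.S c).Ov → t • f ∈ (I.S (π c)).Ov)
    (red : ∀ (c : Vtx Mid SS) (f : F), f ∈ (I.S c).Ov →
      (I.S (π c)).red (t • f) = e c ((I.S c).red f))
    (hD : ∀ P : Place K F, poleDiv (I.S (Vtx.vert Vrt.oo)).hF x (t • P) =
      poleDiv (I.S (Vtx.vert Vrt.oo)).hF x P)
    (hR : ∀ c, poleDiv (I.S (π c)).hFk ((I.S (π c)).red (t • x)) =
      poleDiv (I.S (π c)).hFk ((I.S (π c)).red x))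
    (hex : ∀ (c : Vtx Mid SS) (Q : Place k (FkOf Fk0 FkM FkP c)),
      ∃ Q' : Place k (FkOf Fk0 FkM FkP (π c)), PlaceCorr (e c) Q Q')
    (hV : ∀ (c : Vtx Mid SS) (Q : Place k (FkOf Fk0 FkM FkP c))
      (Q' : Place k (FkOf Fk0 FkM FkP (π c))), PlaceCorr (e c) Q Q' →
      ((∃ P v, (⟨c, Q⟩ : Σ c, Place k (FkOf Fk0 FkM FkP c)) = I.ptV P v) ↔
        ∃ P v, (⟨π c, Q'⟩ : Σ c, Place k (FkOf Fk0 FkM FkP c)) = I.ptV P v))
    (hH : ∀ (c : Vtx Mid SS) (Q : Place k (FkOf Fk0 FkM FkP c))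
      (Q' : Place k (FkOf Fk0 FkM FkP (π c))), PlaceCorr (e c) Q Q' →
      (((⟨c, Q⟩ : Σ c, Place k (FkOf Fk0 FkM FkP c)) ∈ I.PJA ∨
          (⟨c, Q⟩ : Σ c, Place k (FkOf Fk0 FkM FkP c)) ∈ I.PJM ∨
          (⟨c, Q⟩ : Σ c, Place k (FkOf Fk0 FkM FkP c)) ∈ I.PJ2) ↔
        ((⟨π c, Q'⟩ : Σ c, Place k (FkOf Fk0 FkM FkP c)) ∈ I.PJA ∨
          (⟨π c, Q'⟩ : Σ c, Place k (FkOf Fk0 FkM FkP c)) ∈ I.PJM ∨
          (⟨π c, Q'⟩ : Σ c, Place k (FkOf Fk0 FkM FkP c)) ∈ I.PJ2))) :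
    (I.seed x hx hD₀ hpos hn₁ hn₂ hdeg hgenus).IsPermAutW t π e := by
  refine GraphCore.graphSeedOfX_isPermAutW_of_poleDiv I.core (Vtx.vert Vrt.oo) x hx hpos _ _
    hdeg _ hgenus t π e mem red hD hR hex (fun c Q Q' hc => ?_)
  rw [I.core_isBr_iff, I.core_isBr_iff, hV c Q Q' hc, hH c Q Q' hc]

/-- **the weak automorphisms of the modular seed**, `t • x = x`. -/
theorem seed_isPermAutW_fix (t : SemilinearAut K F) (π : Equiv.Perm (Vtx Mid SS))
    (e : ∀ c, FkOf Fk0 FkM FkP c ≃ₐ[k] FkOf Fk0 FkM FkP (π c))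
    (mem : ∀ (c : Vtx Mid SS) (f : F), f ∈ (I.S c).Ov → t • f ∈ (I.S (π c)).Ov)
    (red : ∀ (c : Vtx Mid SS) (f : F), f ∈ (I.S c).Ov →
      (I.S (π c)).red (t • f) = e c ((I.S c).red f))
    (htx : t • x = x)
    (hex : ∀ (c : Vtx Mid SS) (Q : Place k (FkOf Fk0 FkM FkP c)),
      ∃ Q' : Place k (FkOf Fk0 FkM FkP (π c)), PlaceCorr (e c) Q Q')
    (hV : ∀ (c : Vtx Mid SS) (Q : Place k (FkOf Fk0 FkM FkP c))
      (Q' : Place k (FkOf Fk0 FkM FkP (π c))), PlaceCorr (e c) Q Q' →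
      ((∃ P v, (⟨c, Q⟩ : Σ c, Place k (FkOf Fk0 FkM FkP c)) = I.ptV P v) ↔
        ∃ P v, (⟨π c, Q'⟩ : Σ c, Place k (FkOf Fk0 FkM FkP c)) = I.ptV P v))
    (hH : ∀ (c : Vtx Mid SS) (Q : Place k (FkOf Fk0 FkM FkP c))
      (Q' : Place k (FkOf Fk0 FkM FkP (π c))), PlaceCorr (e c) Q Q' →
      (((⟨c, Q⟩ : Σ c, Place k (FkOf Fk0 FkM FkP c)) ∈ I.PJA ∨
          (⟨c, Q⟩ : Σ c, Place k (FkOf Fk0 FkM FkP c)) ∈ I.PJM ∨
          (⟨c, Q⟩ : Σ c, Place k (FkOf Fk0 FkM FkP c)) ∈ I.PJ2) ↔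
        ((⟨π c, Q'⟩ : Σ c, Place k (FkOf Fk0 FkM FkP c)) ∈ I.PJA ∨
          (⟨π c, Q'⟩ : Σ c, Place k (FkOf Fk0 FkM FkP c)) ∈ I.PJM ∨
          (⟨π c, Q'⟩ : Σ c, Place k (FkOf Fk0 FkM FkP c)) ∈ I.PJ2))) :
    (I.seed x hx hD₀ hpos hn₁ hn₂ hdeg hgenus).IsPermAutW t π e :=
  I.seed_isPermAutW_of_poleDiv x hx hD₀ hpos hn₁ hn₂ hdeg hgenus t π e mem red
    (poleDiv_smul_of_smul_eq _ t htx) (fun c => by rw [htx]) hex hV hH

/-- **the automorphisms of the modular seed** (with the node condition), `t • x = x`. -/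
theorem seed_isPermAut (t : SemilinearAut K F) (π : Equiv.Perm (Vtx Mid SS))
    (e : ∀ c, FkOf Fk0 FkM FkP c ≃ₐ[k] FkOf Fk0 FkM FkP (π c))
    (mem : ∀ (c : Vtx Mid SS) (f : F), f ∈ (I.S c).Ov → t • f ∈ (I.S (π c)).Ov)
    (red : ∀ (c : Vtx Mid SS) (f : F), f ∈ (I.S c).Ov →
      (I.S (π c)).red (t • f) = e c ((I.S c).red f))
    (htx : t • x = x)
    (hex : ∀ (c : Vtx Mid SS) (Q : Place k (FkOf Fk0 FkM FkP c)),
      ∃ Q' : Place k (FkOf Fk0 FkM FkP (π c)), PlaceCorr (e c) Q Q')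
    (hV : ∀ (c : Vtx Mid SS) (Q : Place k (FkOf Fk0 FkM FkP c))
      (Q' : Place k (FkOf Fk0 FkM FkP (π c))), PlaceCorr (e c) Q Q' →
      ((∃ P v, (⟨c, Q⟩ : Σ c, Place k (FkOf Fk0 FkM FkP c)) = I.ptV P v) ↔
        ∃ P v, (⟨π c, Q'⟩ : Σ c, Place k (FkOf Fk0 FkM FkP c)) = I.ptV P v))
    (hH : ∀ (c : Vtx Mid SS) (Q : Place k (FkOf Fk0 FkM FkP c))
      (Q' : Place k (FkOf Fk0 FkM FkP (π c))), PlaceCorr (e c) Q Q' →
      (((⟨c, Q⟩ : Σ c, Place k (FkOf Fk0 FkM FkP c)) ∈ I.PJA ∨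
          (⟨c, Q⟩ : Σ c, Place k (FkOf Fk0 FkM FkP c)) ∈ I.PJM ∨
          (⟨c, Q⟩ : Σ c, Place k (FkOf Fk0 FkM FkP c)) ∈ I.PJ2) ↔
        ((⟨π c, Q'⟩ : Σ c, Place k (FkOf Fk0 FkM FkP c)) ∈ I.PJA ∨
          (⟨π c, Q'⟩ : Σ c, Place k (FkOf Fk0 FkM FkP c)) ∈ I.PJM ∨
          (⟨π c, Q'⟩ : Σ c, Place k (FkOf Fk0 FkM FkP c)) ∈ I.PJ2))) :
    (I.seed x hx hD₀ hpos hn₁ hn₂ hdeg hgenus).IsPermAut t π e :=
  haveI : Nonempty (Vtx Mid SS) := ⟨Vtx.vert Vrt.oo⟩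
  (I.seed_isPermAutW_fix x hx hD₀ hpos hn₁ hn₂ hdeg hgenus t π e mem red htx hex hV hH).isPermAut

end Seed

end ModMatchInput

end Fermat.Agent.S36G
end
end MergeWrap_S36_G_SeedPerm

section MergeWrap_S36_G_InertAsm -- from S36/G/InertAsm.lean

set_option autoImplicit false
set_option linter.unusedSectionVars false

/-!
# S36 (cluster G), seat INERT: vertex-wise ASSEMBLY of the inertia action  (helper55)

On the modular graph (`Vtx Mid SS`, residue fields `FkOf Fk0 FkM FkP`) an inertia element acts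
trivially on `v_∞`, `v_0`, permutes the middle vertices by `σ` and fixes every `w_P`:

* `inertPerm σ : Equiv.Perm (Vtx Mid SS)`  (`∞ ↦ ∞`, `0 ↦ 0`, `mid m ↦ mid (σ m)`, `P ↦ P`);
* `inertFk σ eM eP c : FkOf .. c ≃ₐ[k] FkOf .. (inertPerm σ c)`  (`id` at `∞`, `0`; `eM m`; `eP P`);
* `inert_asm_mem`, `inert_asm_red` : the fields `mem`, `red` of `GraphSeed.IsPermAutW` /
  `GraphSetup.Act` from the four vertex-wise statements.
-/

noncomputable section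

open AlgebraicCurve Fermat.Agent.Deuring

namespace Fermat.Agent.S36G

variable {Mid SS : Type}

/-- the permutation of the vertices induced by a permutation of the middle vertices. -/
def inertPerm (σ : Equiv.Perm Mid) : Equiv.Perm (Vtx Mid SS) where
  toFun
    | Vtx.vert Vrt.oo => Vtx.vert Vrt.oo
    | Vtx.vert Vrt.zero => Vtx.vert Vrt.zero
    | Vtx.vert (Vrt.mid m) => Vtx.vert (Vrt.mid (σ m))
    | Vtx.hor P => Vtx.hor P
  invFun
    | Vtx.vert Vrt.oo => Vtx.vert Vrt.oo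
    | Vtx.vert Vrt.zero => Vtx.vert Vrt.zero
    | Vtx.vert (Vrt.mid m) => Vtx.vert (Vrt.mid (σ.symm m))
    | Vtx.hor P => Vtx.hor P
  left_inv c := by
    rcases c with (_ | _ | m) | P
    · rfl
    · rfl
    · show Vtx.vert (Vrt.mid (σ.symm (σ m))) = _
      rw [Equiv.symm_apply_apply]
    · rfl
  right_inv c := by
    rcases c with (_ | _ | m) | P
    · rfl
    · rfl
    · show Vtx.vert (Vrt.mid (σ (σ.symm m))) = _
      rw [Equiv.apply_symm_apply]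
    · rfl

@[simp] theorem inertPerm_oo (σ : Equiv.Perm Mid) :
    inertPerm (SS := SS) σ (Vtx.vert Vrt.oo) = Vtx.vert Vrt.oo := rfl

@[simp] theorem inertPerm_zero (σ : Equiv.Perm Mid) :
    inertPerm (SS := SS) σ (Vtx.vert Vrt.zero) = Vtx.vert Vrt.zero := rfl

@[simp] theorem inertPerm_mid (σ : Equiv.Perm Mid) (m : Mid) :
    inertPerm (SS := SS) σ (Vtx.vert (Vrt.mid m)) = Vtx.vert (Vrt.mid (σ m)) := rfl

@[simp] theorem inertPerm_hor (σ : Equiv.Perm Mid) (P : SS) :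
    inertPerm σ (Vtx.hor P : Vtx Mid SS) = Vtx.hor P := rfl

variable {K F : Type*} [Field K] [Field F] [Algebra K F]

section Fk

variable {k : Type} [Field k] {Fk0 : Type} [Field Fk0] [Algebra k Fk0]
  {FkM : Mid → Type} [∀ m, Field (FkM m)] [∀ m, Algebra k (FkM m)]
  {FkP : SS → Type} [∀ P, Field (FkP P)] [∀ P, Algebra k (FkP P)]

/-- the isomorphisms of the residue fields induced by an inertia element. -/
def inertFk (σ : Equiv.Perm Mid) (eM : ∀ m, FkM m ≃ₐ[k] FkM (σ m))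
    (eP : ∀ P, FkP P ≃ₐ[k] FkP P) :
    ∀ c : Vtx Mid SS, FkOf Fk0 FkM FkP c ≃ₐ[k] FkOf Fk0 FkM FkP (inertPerm σ c)
  | Vtx.vert Vrt.oo => (AlgEquiv.refl : Fk0 ≃ₐ[k] Fk0)
  | Vtx.vert Vrt.zero => (AlgEquiv.refl : Fk0 ≃ₐ[k] Fk0)
  | Vtx.vert (Vrt.mid m) => eM m
  | Vtx.hor P => eP P

theorem inertFk_oo (σ : Equiv.Perm Mid) (eM : ∀ m, FkM m ≃ₐ[k] FkM (σ m))
    (eP : ∀ P, FkP P ≃ₐ[k] FkP P) (y : Fk0) :
    inertFk (Fk0 := Fk0) σ eM eP (Vtx.vert Vrt.oo) y = y := rfl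

theorem inertFk_zero (σ : Equiv.Perm Mid) (eM : ∀ m, FkM m ≃ₐ[k] FkM (σ m))
    (eP : ∀ P, FkP P ≃ₐ[k] FkP P) (y : Fk0) :
    inertFk (Fk0 := Fk0) σ eM eP (Vtx.vert Vrt.zero) y = y := rfl

theorem inertFk_mid (σ : Equiv.Perm Mid) (eM : ∀ m, FkM m ≃ₐ[k] FkM (σ m))
    (eP : ∀ P, FkP P ≃ₐ[k] FkP P) (m : Mid) (y : FkM m) :
    inertFk (Fk0 := Fk0) σ eM eP (Vtx.vert (Vrt.mid m)) y = eM m y := rfl

theorem inertFk_hor (σ : Equiv.Perm Mid) (eM : ∀ m, FkM m ≃ₐ[k] FkM (σ m))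
    (eP : ∀ P, FkP P ≃ₐ[k] FkP P) (P : SS) (y : FkP P) :
    inertFk (Fk0 := Fk0) σ eM eP (Vtx.hor P) y = eP P y := rfl

variable (S : ∀ c : Vtx Mid SS, ValSetup K F k (FkOf Fk0 FkM FkP c)) (t : SemilinearAut K F)
  (σ : Equiv.Perm Mid) (eM : ∀ m, FkM m ≃ₐ[k] FkM (σ m)) (eP : ∀ P, FkP P ≃ₐ[k] FkP P)

/-- **assembly, `mem`**. -/
theorem inert_asm_mem
    (hoo : ∀ f, f ∈ (S (Vtx.vert Vrt.oo)).Ov → t • f ∈ (S (Vtx.vert Vrt.oo)).Ov)
    (h0 : ∀ f, f ∈ (S (Vtx.vert Vrt.zero)).Ov → t • f ∈ (S (Vtx.vert Vrt.zero)).Ov)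
    (hM : ∀ m f, f ∈ (S (Vtx.vert (Vrt.mid m))).Ov → t • f ∈ (S (Vtx.vert (Vrt.mid (σ m)))).Ov)
    (hP : ∀ P f, f ∈ (S (Vtx.hor P)).Ov → t • f ∈ (S (Vtx.hor P)).Ov)
    (c : Vtx Mid SS) (f : F) (hf : f ∈ (S c).Ov) : t • f ∈ (S (inertPerm σ c)).Ov := by
  rcases c with (_ | _ | m) | P
  · exact hoo f hf
  · exact h0 f hf
  · exact hM m f hf
  · exact hP P f hf

/-- **assembly, `red`**. -/
theorem inert_asm_red
    (hoo : ∀ f, f ∈ (S (Vtx.vert Vrt.oo)).Ov →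
      (S (Vtx.vert Vrt.oo)).red (t • f) = (S (Vtx.vert Vrt.oo)).red f)
    (h0 : ∀ f, f ∈ (S (Vtx.vert Vrt.zero)).Ov →
      (S (Vtx.vert Vrt.zero)).red (t • f) = (S (Vtx.vert Vrt.zero)).red f)
    (hM : ∀ m f, f ∈ (S (Vtx.vert (Vrt.mid m))).Ov →
      (S (Vtx.vert (Vrt.mid (σ m)))).red (t • f) = eM m ((S (Vtx.vert (Vrt.mid m))).red f))
    (hP : ∀ P f, f ∈ (S (Vtx.hor P)).Ov →
      (S (Vtx.hor P)).red (t • f) = eP P ((S (Vtx.hor P)).red f))
    (c : Vtx Mid SS) (f : F) (hf : f ∈ (S c).Ov) :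
    (S (inertPerm σ c)).red (t • f) = inertFk σ eM eP c ((S c).red f) := by
  rcases c with (_ | _ | m) | P
  · exact hoo f hf
  · exact h0 f hf
  · exact hM m f hf
  · exact hP P f hf

end Fk

end Fermat.Agent.S36G
end
end MergeWrap_S36_G_InertAsm

section MergeWrap_S36_G_InertEnds -- from S36/G/InertEnds.lean

set_option autoImplicit false
set_option linter.unusedSectionVars false

/-!
# S36 (cluster G), seat INERT: the branch points are stable under the inertia action  (helper55)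

* `inert_red_scaled`  : `t • f = a f`, `a` a unit of `A` ⟹ `e (red_c f) = res a • red_{π c} f`;
* `inert_ncPts_iff`   : the zero set `ncPts S V f` of the reductions of `f` on a `π`-stable set
                        `V` of components is stable under `(π, e)`;
* `ModEndsInput.inert_hV`, `ModEndsInput.inert_hH` : the hypotheses `hV`, `hH` of
  `ModMatchInput.seed_isPermAut` (`S36/G/SeedPerm.lean`) for `I = E.toMatchInput`,
  `π = inertPerm σ`, from `t • f = (unit of A) • f` for the four functions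
  `u1`, `ϖ2 / u2` (vertical side), `ϖ1 / u1`, `u2` (horizontal side).
-/

noncomputable section

open AlgebraicCurve Fermat.Agent.RR Fermat.Agent.Deuring

namespace Fermat.Agent.S36G

open Fermat.Agent.BadRed Fermat.Agent.BadRedG

section Abs

variable {K F k : Type*} [Field K] [Field F] [Algebra K F] [Field k]
  {κ : Type*} {Fk : κ → Type*} [∀ c, Field (Fk c)] [∀ c, Algebra k (Fk c)]

/-- `t` multiplies `f` by a unit of the valuation ring of the constants. -/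
def InertScaled (S : ∀ c : κ, ValSetup K F k (Fk c)) (t : SemilinearAut K F) (f : F) : Prop :=
  ∃ a : K, a ≠ 0 ∧ (∀ c, a ∈ (S c).A) ∧ (∀ c, a⁻¹ ∈ (S c).A) ∧ t • f = algebraMap K F a * f

theorem inertScaled_of_smul_eq (S : ∀ c : κ, ValSetup K F k (Fk c)) {t : SemilinearAut K F}
    {f : F} (h : t • f = f) : InertScaled S t f :=
  ⟨1, one_ne_zero, fun c => (S c).A.one_mem, fun c => by rw [inv_one]; exact (S c).A.one_mem,
    by rw [map_one, one_mul, h]⟩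

/-- the reduction of a function which is scaled by a unit. -/
theorem inert_red_scaled (S : ∀ c : κ, ValSetup K F k (Fk c)) {t : SemilinearAut K F}
    {π : Equiv.Perm κ} {e : ∀ c, Fk c ≃ₐ[k] Fk (π c)}
    (red : ∀ (c : κ) (f : F), f ∈ (S c).Ov → (S (π c)).red (t • f) = e c ((S c).red f))
    {f : F} (hs : InertScaled S t f) {c : κ} (hf : f ∈ (S c).Ov) (hf' : f ∈ (S (π c)).Ov) :
    ∃ b : k, b ≠ 0 ∧ e c ((S c).red f) = b • (S (π c)).red f := by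
  obtain ⟨a, ha0, ha, ha', htf⟩ := hs
  refine ⟨(S (π c)).res ⟨a, ha _⟩, ?_, ?_⟩
  · have h1 : algebraMap K F a ∈ (S (π c)).Ov := (S (π c)).algebraMap_mem (ha _)
    have h2 : (algebraMap K F a)⁻¹ ∈ (S (π c)).Ov := by
      rw [← map_inv₀]
      exact (S (π c)).algebraMap_mem (ha' _)
    have h3 : algebraMap K F a ≠ 0 := by
      rwa [ne_eq, map_eq_zero_iff _ (algebraMap K F).injective]
    have h4 := (S (π c)).red_ne_zero h1 h2 h3
    rw [(S (π c)).red_algebraMap (ha _)] at h4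
    intro h0
    rw [h0, map_zero] at h4
    exact h4 rfl
  · rw [← red c f hf, htf, (S (π c)).red_mul ((S (π c)).algebraMap_mem (ha _)) hf',
      (S (π c)).red_algebraMap (ha _), Algebra.smul_def]

/-- **the zero set of the reductions of `f` on a stable set of components is stable.** -/
theorem inert_ncPts_iff (S : ∀ c : κ, ValSetup K F k (Fk c)) {t : SemilinearAut K F}
    {π : Equiv.Perm κ} {e : ∀ c, Fk c ≃ₐ[k] Fk (π c)}
    (red : ∀ (c : κ) (f : F), f ∈ (S c).Ov → (S (π c)).red (t • f) = e c ((S c).red f))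
    (V : Finset κ) (hπV : ∀ c, c ∈ V ↔ π c ∈ V) {f : F} (hf : ∀ c ∈ V, f ∈ (S c).Ov)
    (hs : InertScaled S t f) {c : κ} {Q : Place k (Fk c)} {Q' : Place k (Fk (π c))}
    (hc : PlaceCorr (e c) Q Q') :
    (⟨c, Q⟩ : Σ c, Place k (Fk c)) ∈ ncPts S V f ↔
      (⟨π c, Q'⟩ : Σ c, Place k (Fk c)) ∈ ncPts S V f := by
  rw [mem_ncPts, mem_ncPts]
  dsimp only
  by_cases hcV : c ∈ V
  · have hcV' : π c ∈ V := (hπV c).mp hcV
    obtain ⟨b, hb, hbe⟩ := inert_red_scaled S red hs (hf c hcV) (hf _ hcV')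
    have h1 := placeCorr_pos_iff_of_smul hc ((S c).red f) hb hbe
    constructor
    · rintro ⟨-, h⟩
      exact ⟨hcV', h1.mpr h⟩
    · rintro ⟨-, h⟩
      exact ⟨hcV, h1.mp h⟩
  · have hcV' : π c ∉ V := fun h => hcV ((hπV c).mpr h)
    constructor
    · rintro ⟨h, -⟩
      exact absurd h hcV
    · rintro ⟨h, -⟩
      exact absurd h hcV'

end Abs

section Mod

variable {K F k : Type} [Field K] [Field F] [Algebra K F] [Field k]
  {Mid SS : Type} [Fintype Mid] [Fintype SS]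
  {Fk0 : Type} [Field Fk0] [Algebra k Fk0]
  {FkM : Mid → Type} [∀ m, Field (FkM m)] [∀ m, Algebra k (FkM m)]
  {FkP : SS → Type} [∀ P, Field (FkP P)] [∀ P, Algebra k (FkP P)]

namespace ModEndsInput

variable (E : ModEndsInput K F k Mid SS Fk0 FkM FkP)

/-- the points `P_v` are the zeros of the reductions of `u1` (on `∞`, `mid m`) and of `ϖ2 / u2`
(on `0`). -/
theorem exists_ptV_iff_ncPts (p : Σ c, Place k (FkOf Fk0 FkM FkP c)) :
    (∃ P v, p = E.ptV P v) ↔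
      p ∈ ncPts E.S E.V1₁ E.u1 ∨ p ∈ ncPts E.S E.V2₂ (algebraMap K F E.ϖ2 / E.u2) := by
  rw [E.mem_ncPts_1, E.mem_ncPts_2]
  constructor
  · rintro ⟨P, v, rfl⟩
    rcases v with _ | _ | m
    · exact Or.inl (Or.inl ⟨P, rfl⟩)
    · exact Or.inr ⟨P, rfl⟩
    · exact Or.inl (Or.inr ⟨(P, m), rfl⟩)
  · rintro ((⟨P, rfl⟩ | ⟨i, rfl⟩) | ⟨P, rfl⟩)
    · exact ⟨P, _, rfl⟩
    · exact ⟨i.1, _, rfl⟩
    · exact ⟨P, _, rfl⟩

/-- the ends are the zeros of the reductions of `ϖ1 / u1` and of `u2` on the horizontal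
components. -/
theorem mem_ends_iff_ncPts (p : Σ c, Place k (FkOf Fk0 FkM FkP c)) :
    (p ∈ E.PJA ∨ p ∈ E.PJM ∨ p ∈ E.PJ2) ↔
      p ∈ ncPts E.S E.V1₂ (algebraMap K F E.ϖ1 / E.u1) ∨ p ∈ ncPts E.S E.V2₁ E.u2 := by
  classical
  have h1 : p ∈ E.PJA ∨ p ∈ E.PJM ↔ p ∈ E.PJ1 := by
    rw [E.PJ1_eq, Finset.mem_union]
  rw [← or_assoc, h1]
  rfl

variable (σ : Equiv.Perm Mid)

theorem inertPerm_mem_V1₁ (c : Vtx Mid SS) : c ∈ E.V1₁ ↔ inertPerm σ c ∈ E.V1₁ := by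
  rw [E.mem_V1₁, E.mem_V1₁]
  rcases c with (_ | _ | m) | P
  · exact ⟨fun _ => Or.inl rfl, fun _ => Or.inl rfl⟩
  · constructor
    · rintro (h | ⟨m, h⟩)
      · cases h
      · cases h
    · rintro (h | ⟨m, h⟩)
      · cases h
      · cases h
  · exact ⟨fun _ => Or.inr ⟨σ m, rfl⟩, fun _ => Or.inr ⟨m, rfl⟩⟩
  · constructor
    · rintro (h | ⟨m, h⟩)
      · cases h
      · cases h
    · rintro (h | ⟨m, h⟩)
      · cases h
      · cases h

theorem inertPerm_mem_V2₂ (c : Vtx Mid SS) : c ∈ E.V2₂ ↔ inertPerm σ c ∈ E.V2₂ := by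
  rw [E.mem_V2₂, E.mem_V2₂]
  rcases c with (_ | _ | m) | P
  · constructor <;> intro h <;> cases h
  · exact ⟨fun _ => rfl, fun _ => rfl⟩
  · constructor <;> intro h <;> cases h
  · constructor <;> intro h <;> cases h

theorem inertPerm_mem_hor (c : Vtx Mid SS) :
    (∃ P : SS, c = Vtx.hor P) ↔ ∃ P : SS, inertPerm σ c = Vtx.hor P := by
  rcases c with (_ | _ | m) | P
  · constructor <;> rintro ⟨P, h⟩ <;> cases h
  · constructor <;> rintro ⟨P, h⟩ <;> cases h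
  · constructor <;> rintro ⟨P, h⟩ <;> cases h
  · exact ⟨fun _ => ⟨P, rfl⟩, fun _ => ⟨P, rfl⟩⟩

theorem inertPerm_mem_V1₂ (c : Vtx Mid SS) : c ∈ E.V1₂ ↔ inertPerm σ c ∈ E.V1₂ := by
  rw [E.mem_V1₂, E.mem_V1₂]
  exact inertPerm_mem_hor σ c

theorem inertPerm_mem_V2₁ (c : Vtx Mid SS) : c ∈ E.V2₁ ↔ inertPerm σ c ∈ E.V2₁ := by
  rw [E.mem_V2₁, E.mem_V2₁]
  exact inertPerm_mem_hor σ c

variable {t : SemilinearAut K F}
  {e : ∀ c, FkOf Fk0 FkM FkP c ≃ₐ[k] FkOf Fk0 FkM FkP (inertPerm σ c)}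

/-- **(hV)** the set of the points `P_v` is stable under the inertia action. -/
theorem inert_hV
    (red : ∀ (c : Vtx Mid SS) (f : F), f ∈ (E.S c).Ov →
      (E.S (inertPerm σ c)).red (t • f) = e c ((E.S c).red f))
    (h1 : InertScaled E.S t E.u1) (h2 : InertScaled E.S t (algebraMap K F E.ϖ2 / E.u2))
    (c : Vtx Mid SS) (Q : Place k (FkOf Fk0 FkM FkP c))
    (Q' : Place k (FkOf Fk0 FkM FkP (inertPerm σ c))) (hc : PlaceCorr (e c) Q Q') :
    (∃ P v, (⟨c, Q⟩ : Σ c, Place k (FkOf Fk0 FkM FkP c)) = E.ptV P v) ↔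
      ∃ P v, (⟨inertPerm σ c, Q'⟩ : Σ c, Place k (FkOf Fk0 FkM FkP c)) = E.ptV P v := by
  rw [E.exists_ptV_iff_ncPts, E.exists_ptV_iff_ncPts,
    inert_ncPts_iff E.S red E.V1₁ (E.inertPerm_mem_V1₁ σ) E.D1.u_mem h1 hc,
    inert_ncPts_iff E.S red E.V2₂ (E.inertPerm_mem_V2₂ σ) E.D2.u'_mem h2 hc]

/-- **(hH)** the set of the ends is stable under the inertia action. -/
theorem inert_hH
    (red : ∀ (c : Vtx Mid SS) (f : F), f ∈ (E.S c).Ov →
      (E.S (inertPerm σ c)).red (t • f) = e c ((E.S c).red f))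
    (h1 : InertScaled E.S t (algebraMap K F E.ϖ1 / E.u1)) (h2 : InertScaled E.S t E.u2)
    (c : Vtx Mid SS) (Q : Place k (FkOf Fk0 FkM FkP c))
    (Q' : Place k (FkOf Fk0 FkM FkP (inertPerm σ c))) (hc : PlaceCorr (e c) Q Q') :
    ((⟨c, Q⟩ : Σ c, Place k (FkOf Fk0 FkM FkP c)) ∈ E.PJA ∨
        (⟨c, Q⟩ : Σ c, Place k (FkOf Fk0 FkM FkP c)) ∈ E.PJM ∨
        (⟨c, Q⟩ : Σ c, Place k (FkOf Fk0 FkM FkP c)) ∈ E.PJ2) ↔
      ((⟨inertPerm σ c, Q'⟩ : Σ c, Place k (FkOf Fk0 FkM FkP c)) ∈ E.PJA ∨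
        (⟨inertPerm σ c, Q'⟩ : Σ c, Place k (FkOf Fk0 FkM FkP c)) ∈ E.PJM ∨
        (⟨inertPerm σ c, Q'⟩ : Σ c, Place k (FkOf Fk0 FkM FkP c)) ∈ E.PJ2) := by
  rw [E.mem_ends_iff_ncPts, E.mem_ends_iff_ncPts,
    inert_ncPts_iff E.S red E.V1₂ (E.inertPerm_mem_V1₂ σ) E.D1.u'_mem h1 hc,
    inert_ncPts_iff E.S red E.V2₁ (E.inertPerm_mem_V2₁ σ) E.D2.u_mem h2 hc]

end ModEndsInput

end Mod

end Fermat.Agent.S36G
end
end MergeWrap_S36_G_InertEnds
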