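import Mathlib
import Fermat.Agent.MUL.Lib.BadRed.Graph.GlueDefs
import Fermat.Agent.MUL.Lib.RR.Weil
import Fermat.Agent.MUL.Lib.BadRed.Graph.RRGraph
import Fermat.Agent.MUL.Lib.BadRed.Nodal.Gluing.Inject
import Fermat.Agent.MUL.Lib.BadRed.Graph.RedSpaceG
import Fermat.Agent.MUL.Lib.BadRed.Graph.GlueOrd
import Fermat.Agent.MUL.Lib.BadRed.Graph.Deuring.Main
import Fermat.Agent.MUL.S36.G.CoreWire
import Fermat.Agent.MUL.S36.G.CoreOddOf23
import Fermat.Agent.MUL.S36.Norm.VertProd

section MergeWrap_Lib_BadRed_Graph_GlueVEq -- from Lib/BadRed/Graph/GlueVEq.lean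

set_option autoImplicit false

/-!
# Cluster G, abstract graph package: GLUING, seat GL-VEQ (helper91; sub-architect helper92)

Graph version of cluster T's `Gluing.GData.exists_V_eq`:

`glueVEq_of : GlueDegreeStatement N → GlueJointStatement N → GlueTwistDimStatement N →
    GluePushStatement N → GlueNodeStatement N → GlueVEqStatement N`   (`[Infinite k]`)

For a big base divisor `R` the space `V_x(R)` of the joint reductions of the joint lattice of
`L(R + D)` IS one of the twisted graph Riemann-Roch spaces `gTwistRR N ζ (r_* R)`, `ζ i ^ n = 1`: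
* every element of `V` lies in one of finitely many twisted spaces (push + node), hence `V` lies
  in one of them (a vector space over an infinite field is not a finite union of proper
  subspaces);
* `dim V ≥ ℓ(R + D) = deg R + 1 - g` (joint lattice, Riemann-Roch);
* `dim gTwistRR ≤ Σ_c ℓ(r_* R)_c - #ι = deg R + #κ - Σ g_c - #ι = deg R + 1 - g` (genus relation).

`GlueDegreeStatement N` is the degree formula `deg D = Σ_c deg (r_* D)_c` for ordinary divisors
(seat GL-RED).
-/

noncomputable section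

open AlgebraicCurve Fermat.Agent.RR Fermat.Agent.Deuring

namespace Fermat.Agent.BadRedG

open Fermat.Agent.BadRed

variable {K F k : Type*} [Field K] [Field F] [Algebra K F] [Field k]
  {κ : Type*} {Fk : κ → Type*} [∀ c, Field (Fk c)] [∀ c, Algebra k (Fk c)] {ι : Type*}

section Aux

variable (N : GraphSetup K F k κ Fk ι)

/-- the degree formula for ordinary divisors (seat GL-RED proves it). -/
def GlueDegreeStatement [Fintype κ] : Prop :=
  ∀ D : Divisor K F, N.IsOrdDiv D → Divisor.degree D = ∑ c, Divisor.degree (N.redDiv c D)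

/-- the reduction of a divisor has no node in its support (first branch). -/
theorem veq_redDiv_node₁ (D : Divisor K F) (i : ι) : N.redDiv (N.src i) D (N.s₁ i) = 0 := by
  rw [GraphSetup.redDiv_apply]
  refine Finsupp.mapDomain_of_notMem_range _ _ ?_
  rintro ⟨P, hP⟩
  exact N.r_ne_node₁ P i hP

/-- the reduction of a divisor has no node in its support (second branch). -/
theorem veq_redDiv_node₂ (D : Divisor K F) (i : ι) : N.redDiv (N.tgt i) D (N.s₂ i) = 0 := by
  rw [GraphSetup.redDiv_apply]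
  refine Finsupp.mapDomain_of_notMem_range _ _ ?_
  rintro ⟨P, hP⟩
  exact N.r_ne_node₂ P i hP

include N in
/-- a graph with a node has at least two components. -/
theorem veq_card_ineq [Fintype κ] [Fintype ι] [Nonempty κ] :
    2 * (Fintype.card ι : ℤ) < (Fintype.card κ : ℤ) * (Fintype.card ι : ℤ) + Fintype.card κ := by
  have hκ : (1 : ℤ) ≤ Fintype.card κ := by exact_mod_cast Fintype.card_pos
  rcases isEmpty_or_nonempty ι with hι | ⟨⟨i⟩⟩
  · have : Fintype.card ι = 0 := Fintype.card_eq_zero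
    rw [this]
    push_cast
    linarith
  · have h2 : (2 : ℤ) ≤ Fintype.card κ := by
      have := Fintype.one_lt_card_iff.mpr ⟨N.src i, N.tgt i, N.src_ne_tgt i⟩
      exact_mod_cast this
    have hι0 : (0 : ℤ) ≤ Fintype.card ι := Int.natCast_nonneg _
    nlinarith

end Aux

section Big

variable {N : GraphSetup K F k κ Fk ι}

/-- the degree of a big divisor is large. -/
theorem GBig.degree_gt [Fintype κ] [Fintype ι] [Nonempty κ] {R : Divisor K F} (hR : GBig N R)
    (hdeg : GlueDegreeStatement N) (hrel : N.GenusRel) :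
    2 * (genusFF K F : ℤ) - 2 < Divisor.degree R := by
  have h3 := hdeg R hR.ord
  have h4 : (genusFF K F : ℤ) + Fintype.card κ =
      (∑ c, (genusFF k (Fk c) : ℤ)) + Fintype.card ι + 1 := by
    have := hrel
    unfold GraphSetup.GenusRel at this
    exact_mod_cast this
  have h5 : ∑ c : κ, (2 * (genusFF k (Fk c) : ℤ) - 1 + Fintype.card ι) ≤
      ∑ c, Divisor.degree (N.redDiv c R) := by
    refine Finset.sum_le_sum fun c _ => ?_
    have := hR.deg c
    omega
  have h6 : ∑ c : κ, (2 * (genusFF k (Fk c) : ℤ) - 1 + Fintype.card ι) =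
      2 * (∑ c, (genusFF k (Fk c) : ℤ)) - Fintype.card κ +
        (Fintype.card κ : ℤ) * Fintype.card ι := by
    rw [Finset.sum_add_distrib, Finset.sum_sub_distrib, ← Finset.mul_sum, Finset.sum_const,
      Finset.sum_const, Finset.card_univ]
    simp only [nsmul_eq_mul, mul_one]
  have h7 := veq_card_ineq N
  rw [h3]
  rw [h6] at h5
  linarith

/-- Riemann-Roch for `R + D`, `R` big, `deg D = 0`. -/
theorem GBig.ell_eq [Fintype κ] [Fintype ι] [Nonempty κ] {R : Divisor K F} (hR : GBig N R)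
    (hdeg : GlueDegreeStatement N) (hrel : N.GenusRel) {D : Divisor K F}
    (hD : Divisor.degree D = 0) :
    (ell (R + D) : ℤ) = Divisor.degree R + 1 - (genusFF K F : ℤ) := by
  obtain ⟨c₀⟩ := ‹Nonempty κ›
  have h := ell_of_degree_gt (N.S c₀).hF (D := R + D) (by
    rw [map_add, hD, add_zero]
    exact hR.degree_gt hdeg hrel)
  rw [h, map_add, hD, add_zero]

/-- upper bound for the dimension of the twisted spaces of a big divisor. -/
theorem GBig.finrank_gTwistRR_le [Fintype κ] [Fintype ι] [Nonempty κ] {R : Divisor K F}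
    (hR : GBig N R) (hdeg : GlueDegreeStatement N) (htw : GlueTwistDimStatement N)
    (hrel : N.GenusRel) (ζ : ι → k) :
    Module.Finite k (gTwistRR N ζ (fun c => N.redDiv c R)) ∧
      (Module.finrank k (gTwistRR N ζ (fun c => N.redDiv c R)) : ℤ) ≤
        Divisor.degree R + 1 - (genusFF K F : ℤ) := by
  obtain ⟨hfin, h0⟩ := htw ζ (fun c => N.redDiv c R) (fun i => veq_redDiv_node₁ N R i)
    (fun i => veq_redDiv_node₂ N R i) hR.deg
  refine ⟨hfin, ?_⟩
  have hι0 : (0 : ℤ) ≤ Fintype.card ι := Int.natCast_nonneg _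
  have h1 : ∀ c, (ell (N.redDiv c R) : ℤ) =
      Divisor.degree (N.redDiv c R) + 1 - (genusFF k (Fk c) : ℤ) := by
    intro c
    exact ell_of_degree_gt (N.S c).hFk (by have := hR.deg c; omega)
  have h3 := hdeg R hR.ord
  have h4 : (genusFF K F : ℤ) + Fintype.card κ =
      (∑ c, (genusFF k (Fk c) : ℤ)) + Fintype.card ι + 1 := by
    have := hrel
    unfold GraphSetup.GenusRel at this
    exact_mod_cast this
  have h0' : (Module.finrank k (gTwistRR N ζ (fun c => N.redDiv c R)) : ℤ) +
      Fintype.card ι ≤ ∑ c, (ell (N.redDiv c R) : ℤ) := by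
    exact_mod_cast h0
  have h5 : ∑ c, (ell (N.redDiv c R) : ℤ) =
      (∑ c, Divisor.degree (N.redDiv c R)) + Fintype.card κ -
        ∑ c, (genusFF k (Fk c) : ℤ) := by
    rw [Finset.sum_congr rfl (fun c _ => h1 c), Finset.sum_sub_distrib, Finset.sum_add_distrib,
      Finset.sum_const, Finset.card_univ]
    simp only [nsmul_eq_mul, mul_one]
  rw [h5, ← h3] at h0'
  linarith

end Big

section V

variable {N : GraphSetup K F k κ Fk ι} {n : ℕ} (d : GlueData N n)

/-- every element of `V_x(R)` lies in one of the twisted graph Riemann-Roch spaces. -/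
theorem GlueData.exists_mem_gTwistRR [Nonempty κ] (hpush : GluePushStatement N)
    (hnode : GlueNodeStatement N) (hn : n ≠ 0) {R : Divisor K F} (hR0 : 0 ≤ R)
    (hRord : N.IsOrdDiv R) {y : ∀ c, Fk c} (hy : y ∈ d.V R) :
    ∃ ζ : ι → k, (∀ i, ζ i ^ n = 1) ∧ y ∈ gTwistRR N ζ (fun c => N.redDiv c R) := by
  obtain ⟨φ, hφ, rfl⟩ := hy
  choose ζ hζ hval using fun i => hnode n hn d R hR0 hRord φ hφ i
  exact ⟨ζ, hζ, fun c => hpush n hn d R hR0 hRord φ hφ c, hval⟩

/-- multiplication by the tuple `h`. -/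
def GlueData.mulH : (∀ c, Fk c) →ₗ[k] (∀ c, Fk c) :=
  LinearMap.pi fun c => (LinearMap.mulRight k (d.h c)) ∘ₗ (LinearMap.proj c)

theorem GlueData.mulH_apply (y : ∀ c, Fk c) (c : κ) : d.mulH y c = y c * d.h c := rfl

theorem GlueData.ker_mulH : LinearMap.ker d.mulH = ⊥ := by
  rw [LinearMap.ker_eq_bot']
  intro y hy
  funext c
  have h1 : y c * d.h c = 0 := congrFun hy c
  exact (mul_eq_zero.mp h1).resolve_right (d.hh c)

/-- **lower bound** for the dimension of `V_x(R)` (joint lattice). -/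
theorem GlueData.le_finrank_V [Nonempty κ] (hjoint : GlueJointStatement N) {R : Divisor K F}
    [Module.Finite k (d.V R)] : ell (R + d.D) ≤ Module.finrank k (d.V R) := by
  classical
  obtain ⟨c₀⟩ := ‹Nonempty κ›
  have hfinW : FiniteDimensional K (riemannRochSpace (R + d.D)) :=
    finite_riemannRochSpace (N.S c₀).hF _
  obtain ⟨r, w, hr, hwW, hwO, hli⟩ := hjoint (riemannRochSpace (R + d.D)) hfinW d.b d.hb
  have hli2 : LinearIndependent k (fun j => d.A (w j)) := by
    have := hli.map' d.mulH d.ker_mulH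
    exact this
  have hmemV : ∀ j, d.A (w j) ∈ d.V R := fun j => ⟨w j, ⟨hwW j, hwO j⟩, rfl⟩
  have hli3 : LinearIndependent k (fun j => (⟨d.A (w j), hmemV j⟩ : d.V R)) := by
    apply LinearIndependent.of_comp (d.V R).subtype
    exact hli2
  have hcard := hli3.fintype_card_le_finrank
  rw [Fintype.card_fin] at hcard
  rw [ell_def, hr]
  exact hcard

end V

/-- **(GL-VEQ)** `V_x(R)` is a twisted graph Riemann-Roch space. -/
theorem glueVEq_of [Fintype κ] [Nonempty κ] [Fintype ι] [Infinite k]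
    (N : GraphSetup K F k κ Fk ι) (hdeg : GlueDegreeStatement N)
    (hjoint : GlueJointStatement N) (htw : GlueTwistDimStatement N)
    (hpush : GluePushStatement N) (hnode : GlueNodeStatement N) : GlueVEqStatement N := by
  classical
  intro hrel n hn d R hR
  set Z : Finset (ι → k) := Fintype.piFinset (fun _ => Polynomial.nthRootsFinset n (1 : k))
    with hZ
  have hmemZ : ∀ ζ : ι → k, ζ ∈ Z ↔ ∀ i, ζ i ^ n = 1 := by
    intro ζ
    rw [hZ, Fintype.mem_piFinset]
    refine forall_congr' fun i => ?_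
    rw [Polynomial.mem_nthRootsFinset (Nat.pos_of_ne_zero hn)]
  -- one of the spaces contains `V`
  have hex : ∃ ζ ∈ Z, d.V R ≤ gTwistRR N ζ (fun c => N.redDiv c R) := by
    by_contra hcon
    push Not at hcon
    let s : Finset (Subspace k (d.V R)) :=
      Z.image (fun ζ => (gTwistRR N ζ (fun c => N.redDiv c R)).comap (d.V R).subtype)
    have hs : (⊤ : Subspace k (d.V R)) ∉ s := by
      intro h
      obtain ⟨ζ, hζ, hζtop⟩ := Finset.mem_image.mp h
      apply hcon ζ hζ
      intro p hp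
      have hmem : (⟨p, hp⟩ : d.V R) ∈ (⊤ : Subspace k (d.V R)) := Submodule.mem_top
      rw [← hζtop] at hmem
      exact hmem
    apply Subspace.biUnion_ne_univ_of_top_notMem hs
    ext x
    simp only [Set.mem_iUnion, Set.mem_univ, iff_true]
    obtain ⟨ζ, hζ, hx⟩ := d.exists_mem_gTwistRR hpush hnode hn hR.nonneg hR.ord x.2
    exact ⟨_, Finset.mem_image_of_mem _ ((hmemZ ζ).mpr hζ), hx⟩
  obtain ⟨ζ, hζ, hle⟩ := hex
  refine ⟨ζ, (hmemZ ζ).mp hζ, ?_⟩
  obtain ⟨hfinT, h2⟩ := hR.finrank_gTwistRR_le hdeg htw hrel ζ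
  have hfinV : Module.Finite k (d.V R) := Submodule.finiteDimensional_of_le hle
  apply Submodule.eq_of_le_of_finrank_le hle
  have h1 := d.le_finrank_V hjoint (R := R)
  have h3 := hR.ell_eq hdeg hrel d.hdeg
  have h1' : (ell (R + d.D) : ℤ) ≤ (Module.finrank k (d.V R) : ℤ) := by exact_mod_cast h1
  have : (Module.finrank k (gTwistRR N ζ (fun c => N.redDiv c R)) : ℤ) ≤
      (Module.finrank k (d.V R) : ℤ) := by omega
  exact_mod_cast this

end Fermat.Agent.BadRedG
end
end MergeWrap_Lib_BadRed_Graph_GlueVEq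

section MergeWrap_Lib_BadRed_Graph_GluePush -- from Lib/BadRed/Graph/GluePush.lean

set_option autoImplicit false
set_option linter.unusedVariables false
set_option linter.unusedSectionVars false

/-!
# Cluster G, abstract graph package, seat GL-PUSH (helper37)

Graph version of cluster T's `Nodal/Gluing/Push.lean` and `Data.node_of_adm`: for gluing data
`d : GlueData N n`, an ordinary effective divisor `R` and `φ` in the joint lattice of `L(R + D)`:

* `gluePush : GluePushStatement N` : `A φ c ∈ L(r_* R)` on every component (push at the smooth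
  points, node condition at the branches);
* `glueNode : GlueNodeStatement N` : the node condition for `A φ` up to `n`-th roots of unity;
* `glueOrdOfGeneric : GlueOrdOfGenericStatement N` (`[Nonempty κ]`) : if `A φ` is a unit at all
  the branches, then `div φ + D` is ordinary (degree count).

The small `redDiv` API needed here is proved locally (prefix `gpush_`); the public `redDiv` API is
the seat GL-RED.
-/

noncomputable section

open AlgebraicCurve Fermat.Agent.RR Fermat.Agent.Deuring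

namespace Fermat.Agent.BadRedG

open Fermat.Agent.BadRed Fermat.Agent.BadRed.Gluing

variable {K F k : Type*} [Field K] [Field F] [Algebra K F] [Field k]
  {κ : Type*} {Fk : κ → Type*} [∀ c, Field (Fk c)] [∀ c, Algebra k (Fk c)] {ι : Type*}

/-! ### reduction of divisors (local API) -/

section RedDiv

variable (N : GraphSetup K F k κ Fk ι)

theorem gpush_redDiv_add (c : κ) (D E : Divisor K F) :
    N.redDiv c (D + E) = N.redDiv c D + N.redDiv c E := by
  ext Q
  rw [Finsupp.add_apply, N.redDiv_apply, N.redDiv_apply, N.redDiv_apply, Finsupp.mapDomain_add,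
    Finsupp.add_apply]

theorem gpush_redDiv_zero (c : κ) : N.redDiv c (0 : Divisor K F) = 0 := by
  ext Q
  rw [N.redDiv_apply, Finsupp.mapDomain_zero]
  rfl

theorem gpush_mapDomain_nsmul (n : ℕ) (D : Divisor K F) :
    Finsupp.mapDomain N.r (n • D) = n • Finsupp.mapDomain N.r D := by
  induction n with
  | zero => rw [zero_smul, zero_smul, Finsupp.mapDomain_zero]
  | succ m ih => rw [succ_nsmul, succ_nsmul, Finsupp.mapDomain_add, ih]

theorem gpush_redDiv_single (P : Place K F) (m : ℤ) (c : κ) (Q : Place k (Fk c))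
    (h : N.r P = some ⟨c, Q⟩) :
    N.redDiv c (Finsupp.single P m) = Finsupp.single Q m := by
  classical
  ext Q'
  rw [N.redDiv_apply, Finsupp.mapDomain_single, h, Finsupp.single_apply, Finsupp.single_apply]
  by_cases hQ : Q = Q'
  · rw [if_pos hQ, if_pos (by rw [hQ])]
  · rw [if_neg hQ, if_neg]
    intro h'
    exact hQ (eq_of_heq (Sigma.mk.inj (Option.some_injective _ h')).2)

theorem gpush_redDiv_single_of_ne (P : Place K F) (m : ℤ) (c : κ)
    (h : ∀ Q : Place k (Fk c), N.r P ≠ some ⟨c, Q⟩) :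
    N.redDiv c (Finsupp.single P m) = 0 := by
  classical
  ext Q'
  rw [N.redDiv_apply, Finsupp.mapDomain_single, Finsupp.single_apply, if_neg (h Q')]
  rfl

/-- nothing reduces to a node (first branch). -/
theorem gpush_redDiv_node₁ (D : Divisor K F) (i : ι) : N.redDiv (N.src i) D (N.s₁ i) = 0 := by
  classical
  rw [N.redDiv_apply, Fermat.Agent.S18Key.mapDomain_apply_eq_sum]
  exact Finset.sum_eq_zero fun P _ => if_neg (N.r_ne_node₁ P i)

/-- nothing reduces to a node (second branch). -/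
theorem gpush_redDiv_node₂ (D : Divisor K F) (i : ι) : N.redDiv (N.tgt i) D (N.s₂ i) = 0 := by
  classical
  rw [N.redDiv_apply, Fermat.Agent.S18Key.mapDomain_apply_eq_sum]
  exact Finset.sum_eq_zero fun P _ => if_neg (N.r_ne_node₂ P i)

/-- **degree formula**: `deg D = (r_* D)(none) + Σ_c deg (r_* D)_c`. -/
theorem gpush_degree_eq [Fintype κ] (hF : IsRRField K F) (hFk : ∀ c, IsRRField k (Fk c))
    (D : Divisor K F) :
    Divisor.degree D =
      Finsupp.mapDomain N.r D none + ∑ c, Divisor.degree (N.redDiv c D) := by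
  classical
  induction D using Finsupp.induction_linear with
  | zero =>
    rw [Finsupp.mapDomain_zero]
    simp [gpush_redDiv_zero]
  | add D E hD hE =>
    rw [Finsupp.mapDomain_add, Finsupp.add_apply, map_add, hD, hE]
    simp only [gpush_redDiv_add, map_add, Finset.sum_add_distrib]
    ring
  | single P m =>
    rw [degree_single_one hF]
    rcases hr : N.r P with _ | ⟨c, Q⟩
    · have h0 : ∀ c, N.redDiv c (Finsupp.single P m) = 0 := fun c =>
        gpush_redDiv_single_of_ne N P m c (by rw [hr]; intro Q h; cases h)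
      rw [Finsupp.mapDomain_single, hr]
      simp [h0]
    · have h0 : ∀ c', c' ≠ c → N.redDiv c' (Finsupp.single P m) = 0 := fun c' hc' =>
        gpush_redDiv_single_of_ne N P m c' (by
          rw [hr]
          intro Q' h
          exact hc' (Sigma.mk.inj (Option.some_injective _ h)).1.symm)
      rw [Finsupp.mapDomain_single, hr, Finset.sum_eq_single c
        (fun c' _ hc' => by rw [h0 c' hc', map_zero])
        (fun h => absurd (Finset.mem_univ c) h),
        gpush_redDiv_single N P m c Q hr, degree_single_one (hFk c)]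
      simp

theorem gpush_mapDomain_none_of_isOrdDiv {D : Divisor K F} (hD : N.IsOrdDiv D) :
    Finsupp.mapDomain N.r D none = 0 := by
  classical
  rw [Fermat.Agent.S18Key.mapDomain_apply_eq_sum]
  refine Finset.sum_eq_zero fun P hP => if_neg ?_
  obtain ⟨Q, hQ⟩ := hD P (Finsupp.mem_support_iff.mp hP)
  rw [hQ]
  exact fun h => by cases h

/-- an effective divisor with `(r_* E)(none) = 0` is ordinary. -/
theorem gpush_isOrdDiv_of_nonneg {E : Divisor K F} (hE : 0 ≤ E)
    (h : Finsupp.mapDomain N.r E none = 0) : N.IsOrdDiv E := by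
  intro P hP
  rcases hr : N.r P with _ | Q
  · exfalso
    have h1 := Fermat.Agent.S18Key.le_mapDomain N.r E none (fun P' _ => hE P') P hr
    rw [h] at h1
    have h2 : 0 ≤ E P := hE P
    exact hP (le_antisymm h1 h2)
  · exact ⟨Q, hr⟩

end RedDiv

/-! ### gluing data -/

namespace GlueData

variable {N : GraphSetup K F k κ Fk ι} {n : ℕ} (d : GlueData N n)

/-- the normalised Kummer generator on the component `c`. -/
def gpU (c : κ) : F := d.g / algebraMap K F (d.b c ^ n)

theorem gp_red_u (c : κ) : (N.S c).red (d.gpU c) = d.h c ^ n := d.hred c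

theorem gp_red_u_ne (c : κ) : (N.S c).red (d.gpU c) ≠ 0 := by
  rw [d.gp_red_u]
  exact pow_ne_zero n (d.hh c)

theorem gp_u_mem (c : κ) : d.gpU c ∈ (N.S c).Ov := (N.S c).mem_of_red_ne_zero (d.gp_red_u_ne c)

theorem gp_u_inv_mem (c : κ) : (d.gpU c)⁻¹ ∈ (N.S c).Ov :=
  (N.S c).inv_mem_of_red_ne_zero (d.gp_red_u_ne c)

theorem gp_algebraMap_b_ne (c : κ) : algebraMap K F (d.b c) ≠ 0 := (map_ne_zero _).mpr (d.hb c)

/-- `f φ = (b_c φ) ^ n * (g / b_c ^ n)`. -/
theorem gp_f_eq (c : κ) (φ : F) : d.f φ = (d.b c • φ) ^ n * d.gpU c := by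
  unfold f gpU
  rw [Algebra.smul_def, mul_pow, map_pow]
  have h0 : algebraMap K F (d.b c) ^ n ≠ 0 := pow_ne_zero n (d.gp_algebraMap_b_ne c)
  field_simp

theorem gp_f_mem {c : κ} {φ : F} (hφ : d.b c • φ ∈ (N.S c).Ov) : d.f φ ∈ (N.S c).Ov := by
  rw [d.gp_f_eq c]
  exact mul_mem (pow_mem hφ n) (d.gp_u_mem c)

theorem gp_red_f {c : κ} {φ : F} (hφ : d.b c • φ ∈ (N.S c).Ov) :
    (N.S c).red (d.f φ) = d.A φ c ^ n := by
  rw [d.gp_f_eq c]
  unfold A
  rw [(N.S c).red_mul (pow_mem hφ n) (d.gp_u_mem c), (N.S c).red_pow hφ, d.gp_red_u, mul_pow]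

theorem gp_f_ne_zero {φ : F} (hφ : φ ≠ 0) : d.f φ ≠ 0 :=
  mul_ne_zero (pow_ne_zero n hφ) d.hg

theorem gp_ord_f {φ : F} (hφ : φ ≠ 0) (P : Place K F) :
    P.ord (d.f φ) = n * (P.ord φ + d.D P) := by
  unfold f
  rw [P.ord_mul (pow_ne_zero n hφ) d.hg, ord_pow_nat, d.hdiv]
  ring

theorem gp_divOf_f (hF : IsRRField K F) {φ : F} (hφ : φ ≠ 0) :
    divOf hF (d.f φ) = n • (divOf hF φ + d.D) := by
  ext P
  rw [divOf_apply, d.gp_ord_f hφ, Finsupp.smul_apply, Finsupp.add_apply, divOf_apply]
  simp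

theorem gp_f_inv_mem {c : κ} {φ : F} (hφ : d.b c • φ ∈ (N.S c).Ov) (hA : d.A φ c ≠ 0) :
    (d.f φ)⁻¹ ∈ (N.S c).Ov := by
  apply (N.S c).inv_mem_of_red_ne_zero
  rw [d.gp_red_f hφ]
  exact pow_ne_zero n hA

theorem gp_ne_zero_of_A_ne {c : κ} {φ : F} (hA : d.A φ c ≠ 0) : φ ≠ 0 := by
  rintro rfl
  apply hA
  rw [d.A_zero]
  rfl

/-- `div φ + D + R ≥ 0` for `φ ∈ L(R + D)`, `φ ≠ 0`. -/
theorem gp_nonneg_E (hF : IsRRField K F) {R : Divisor K F} {φ : F} (hφ0 : φ ≠ 0)
    (hφL : φ ∈ riemannRochSpace (R + d.D)) : 0 ≤ divOf hF φ + d.D + R := by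
  intro P
  have h := ((mem_riemannRochSpace_iff.mp hφL) P).resolve_left hφ0
  rw [Finsupp.add_apply] at h
  show (0 : Divisor K F) P ≤ (divOf hF φ + d.D + R) P
  rw [Finsupp.add_apply, Finsupp.add_apply, divOf_apply, Finsupp.zero_apply]
  linarith

/-- `f φ` has no pole in the annuli if `R` is ordinary. -/
theorem gp_ord_f_nonneg {R : Divisor K F} (hRord : N.IsOrdDiv R) {φ : F} (hφ0 : φ ≠ 0)
    (hφL : φ ∈ riemannRochSpace (R + d.D)) (P : Place K F) (hP : N.r P = none) :
    0 ≤ P.ord (d.f φ) := by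
  have h := ((mem_riemannRochSpace_iff.mp hφL) P).resolve_left hφ0
  rw [Finsupp.add_apply] at h
  have hR : R P = 0 := by
    by_contra hne
    obtain ⟨Q, hQ⟩ := hRord P hne
    rw [hP] at hQ
    cases hQ
  rw [d.gp_ord_f hφ0]
  apply mul_nonneg (Int.natCast_nonneg n)
  linarith

/-- the reduction of `div φ + D` in terms of `f φ`. -/
theorem gp_mapDomain_f (hF : IsRRField K F) {φ : F} (hφ0 : φ ≠ 0)
    (X : Option (Σ c, Place k (Fk c))) :
    Finsupp.mapDomain N.r (divOf hF (d.f φ)) X =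
      n * Finsupp.mapDomain N.r (divOf hF φ + d.D) X := by
  rw [d.gp_divOf_f hF hφ0, gpush_mapDomain_nsmul, Finsupp.smul_apply]
  simp

/-- smooth points of the component `c`: `r_* (div φ + D) = div (A φ c)`. -/
theorem gp_push_eq (hn : n ≠ 0) {c : κ} {φ : F} (hφc : d.b c • φ ∈ (N.S c).Ov)
    (hA : d.A φ c ≠ 0) (Q : Place k (Fk c))
    (hQ₁ : ∀ i, (⟨c, Q⟩ : Σ c, Place k (Fk c)) ≠ ⟨N.src i, N.s₁ i⟩)
    (hQ₂ : ∀ i, (⟨c, Q⟩ : Σ c, Place k (Fk c)) ≠ ⟨N.tgt i, N.s₂ i⟩) :
    Finsupp.mapDomain N.r (divOf (N.S c).hF φ + d.D) (some ⟨c, Q⟩) = Q.ord (d.A φ c) := by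
  have hφ0 : φ ≠ 0 := d.gp_ne_zero_of_A_ne hA
  have h := N.push c (d.f φ) (d.gp_f_mem hφc) (d.gp_f_inv_mem hφc hA) (d.gp_f_ne_zero hφ0)
    Q hQ₁ hQ₂
  rw [d.gp_mapDomain_f (N.S c).hF hφ0, d.gp_red_f hφc, ord_pow_nat] at h
  have hn' : (n : ℤ) ≠ 0 := by exact_mod_cast hn
  exact mul_left_cancel₀ hn' h

/-- `r_* (div φ + D) ≥ - r_* R`. -/
theorem gp_mapDomain_ge (hF : IsRRField K F) {R : Divisor K F} {φ : F} (hφ0 : φ ≠ 0)
    (hφL : φ ∈ riemannRochSpace (R + d.D)) (X : Option (Σ c, Place k (Fk c))) :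
    -Finsupp.mapDomain N.r R X ≤ Finsupp.mapDomain N.r (divOf hF φ + d.D) X := by
  have hE := d.gp_nonneg_E hF hφ0 hφL
  have h0 : 0 ≤ Finsupp.mapDomain N.r (divOf hF φ + d.D + R) X :=
    Fermat.Agent.S18Key.mapDomain_nonneg _ _ _ fun P _ => hE P
  rw [Finsupp.mapDomain_add, Finsupp.add_apply] at h0
  linarith

/-- the node condition for `f φ`. -/
theorem gp_node {R : Divisor K F} (hRord : N.IsOrdDiv R) {φ : F} (hφ0 : φ ≠ 0)
    (hφ : d.InLam R φ) (i : ι) :
    0 ≤ (N.s₁ i).ord (d.A φ (N.src i) ^ n) ∧ 0 ≤ (N.s₂ i).ord (d.A φ (N.tgt i) ^ n) ∧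
      ∃ a : k, ValAt (N.s₁ i) (d.A φ (N.src i) ^ n) a ∧ ValAt (N.s₂ i) (d.A φ (N.tgt i) ^ n) a := by
  have hnode := N.node (d.f φ) (fun c => d.gp_f_mem (hφ.2 c))
    (d.gp_ord_f_nonneg hRord hφ0 hφ.1) i
  rw [d.gp_red_f (hφ.2 (N.src i)), d.gp_red_f (hφ.2 (N.tgt i))] at hnode
  exact hnode

end GlueData

/-! ### the three statements of the seat -/

variable (N : GraphSetup K F k κ Fk ι)

/-- **(GL-PUSH), pole bound.** -/
theorem gluePush : GluePushStatement N := by
  intro n hn d R hR0 hRord φ hφ c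
  rw [mem_riemannRochSpace_iff]
  intro Q
  by_cases hA : d.A φ c = 0
  · exact Or.inl hA
  right
  have hφ0 : φ ≠ 0 := d.gp_ne_zero_of_A_ne hA
  by_cases hQ₁ : ∀ i, (⟨c, Q⟩ : Σ c, Place k (Fk c)) ≠ ⟨N.src i, N.s₁ i⟩
  · by_cases hQ₂ : ∀ i, (⟨c, Q⟩ : Σ c, Place k (Fk c)) ≠ ⟨N.tgt i, N.s₂ i⟩
    · rw [← d.gp_push_eq hn (hφ.2 c) hA Q hQ₁ hQ₂, N.redDiv_apply]
      exact d.gp_mapDomain_ge (N.S c).hF hφ0 hφ.1 _
    · push Not at hQ₂
      obtain ⟨i, hi⟩ := hQ₂
      obtain ⟨hc, hQ⟩ := Sigma.mk.inj hi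
      subst hc
      have hQ' : Q = N.s₂ i := eq_of_heq hQ
      subst hQ'
      rw [gpush_redDiv_node₂, neg_zero]
      exact ord_nonneg_of_pow hn (d.gp_node hRord hφ0 hφ i).2.1
  · push Not at hQ₁
    obtain ⟨i, hi⟩ := hQ₁
    obtain ⟨hc, hQ⟩ := Sigma.mk.inj hi
    subst hc
    have hQ' : Q = N.s₁ i := eq_of_heq hQ
    subst hQ'
    rw [gpush_redDiv_node₁, neg_zero]
    exact ord_nonneg_of_pow hn (d.gp_node hRord hφ0 hφ i).1

/-- **(GL-PUSH), node part.** -/
theorem glueNode : GlueNodeStatement N := by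
  intro n hn d R hR0 hRord φ hφ i
  rcases eq_or_ne φ 0 with rfl | hφ0
  · refine ⟨1, one_pow n, 0, ?_, ?_⟩
    · rw [d.A_zero, mul_zero]
      exact valAt_zero _
    · rw [d.A_zero]
      exact valAt_zero _
  · have hnode := d.gp_node hRord hφ0 hφ i
    exact exists_root_of_unity (N.S (N.src i)).hFk (N.S (N.tgt i)).hFk _ _ hn hnode.1 hnode.2.1
      hnode.2.2

/-- **(GL-PUSH), ordinarity of the generic divisor.**  (`[Nonempty κ]` is needed: for `κ = ∅`
the field `F` is arbitrary, e.g. `F = K((t))`, `D = 0`, `φ = t`, and the statement fails.) -/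
theorem glueOrdOfGeneric [Fintype κ] [Nonempty κ] [Fintype ι] : GlueOrdOfGenericStatement N := by
  classical
  intro n hn d R hR0 hRord φ hφ0 hφ hunit P hP
  obtain ⟨c₀⟩ := ‹Nonempty κ›
  have hF : IsRRField K F := (N.S c₀).hF
  have hE := d.gp_nonneg_E hF hφ0 hφ.1
  -- the reduction of `E = div φ + D + R` on the component `c`
  have hred : ∀ c, N.redDiv c (divOf hF φ + d.D + R) =
      divOf (N.S c).hFk (d.A φ c) + N.redDiv c R := by
    intro c
    rw [gpush_redDiv_add]
    congr 1
    ext Q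
    rw [N.redDiv_apply, divOf_apply]
    by_cases hQ₁ : ∀ i, (⟨c, Q⟩ : Σ c, Place k (Fk c)) ≠ ⟨N.src i, N.s₁ i⟩
    · by_cases hQ₂ : ∀ i, (⟨c, Q⟩ : Σ c, Place k (Fk c)) ≠ ⟨N.tgt i, N.s₂ i⟩
      · exact d.gp_push_eq hn (hφ.2 c) (hunit.1 c) Q hQ₁ hQ₂
      · push Not at hQ₂
        obtain ⟨i, hi⟩ := hQ₂
        obtain ⟨hc, hQ⟩ := Sigma.mk.inj hi
        subst hc
        have hQ' : Q = N.s₂ i := eq_of_heq hQ
        subst hQ'
        rw [(hunit.2 i).2, ← N.redDiv_apply, gpush_redDiv_node₂]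
    · push Not at hQ₁
      obtain ⟨i, hi⟩ := hQ₁
      obtain ⟨hc, hQ⟩ := Sigma.mk.inj hi
      subst hc
      have hQ' : Q = N.s₁ i := eq_of_heq hQ
      subst hQ'
      rw [(hunit.2 i).1, ← N.redDiv_apply, gpush_redDiv_node₁]
  have hFk : ∀ c, IsRRField k (Fk c) := fun c => (N.S c).hFk
  have hEord : N.IsOrdDiv (divOf hF φ + d.D + R) := by
    apply gpush_isOrdDiv_of_nonneg N hE
    have hdeg := gpush_degree_eq N hF hFk (divOf hF φ + d.D + R)
    have hdegR := gpush_degree_eq N hF hFk R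
    rw [gpush_mapDomain_none_of_isOrdDiv N hRord, zero_add] at hdegR
    simp only [hred, map_add, degree_divOf, zero_add, d.hdeg] at hdeg
    linarith
  by_cases hRP : R P = 0
  · apply hEord P
    rw [Finsupp.add_apply, Finsupp.add_apply, divOf_apply, hRP, add_zero]
    exact hP
  · exact hRord P hRP

end Fermat.Agent.BadRedG
end
end MergeWrap_Lib_BadRed_Graph_GluePush

section MergeWrap_Lib_BadRed_Graph_GlueRed -- from Lib/BadRed/Graph/GlueRed.lean

set_option autoImplicit false

/-!
# Cluster G, abstract graph package: GLUING, seat GL-RED (helper78)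

The API of `N.redDiv c D` (the reduction `r_* D` of a divisor, restricted to the component `c`)
for a `GraphSetup`: graph version of `Nodal/Gluing/Values` (section `RedDiv`) and of
`Nodal/Gluing/Space` (section `Big`).

* `redDiv_add / zero / neg / sub / nsmul / single / single_of_ne / single_of_none / nonneg`,
  `redDiv_node₁`, `redDiv_node₂` (nothing reduces to a node), `redDiv_sum`;
* `degree_eq_redDiv`, `degree_of_isOrdDiv` : `deg D = Σ_c deg (N.redDiv c D)` for ordinary `D`;
* `isOrdDiv_zero / add / neg / sub / nsmul / single / sum`, `isOrdDiv_of_nonneg`;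
* `exists_ordLift` : every family `(R_c)` of divisors without nodes in the support is the
  reduction of an ordinary divisor `R` (`R ≥ 0` if all `R_c ≥ 0`);
* `glueDegree : GlueDegreeStatement N` (the hypothesis of `glueVEq_of`, seat GL-VEQ);
* `GBig.add`, `GBig.mono`, `GBig.redDiv_deg_gt`, `GBig.ell_redDiv`, `exists_gBig`,
  `exists_gBig_ge` (`GBig.degree_gt`, `GBig.ell_eq` are in `GlueVEq.lean`).
-/

noncomputable section

open AlgebraicCurve Fermat.Agent.RR Fermat.Agent.Deuring

namespace Fermat.Agent.BadRedG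

open Fermat.Agent.BadRed

variable {K F k : Type*} [Field K] [Field F] [Algebra K F] [Field k]
  {κ : Type*} {Fk : κ → Type*} [∀ c, Field (Fk c)] [∀ c, Algebra k (Fk c)] {ι : Type*}

section RedDiv

variable (N : GraphSetup K F k κ Fk ι)

theorem GraphSetup.redDiv_add (c : κ) (D E : Divisor K F) :
    N.redDiv c (D + E) = N.redDiv c D + N.redDiv c E := by
  ext Q
  rw [Finsupp.add_apply, N.redDiv_apply, N.redDiv_apply, N.redDiv_apply, Finsupp.mapDomain_add,
    Finsupp.add_apply]

theorem GraphSetup.redDiv_zero (c : κ) : N.redDiv c (0 : Divisor K F) = 0 := by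
  ext Q
  rw [N.redDiv_apply, Finsupp.mapDomain_zero]
  rfl

theorem GraphSetup.mapDomain_r_neg (D : Divisor K F) :
    Finsupp.mapDomain N.r (-D) = -Finsupp.mapDomain N.r D := by
  have h := Finsupp.mapDomain_add (f := N.r) (v₁ := D) (v₂ := -D)
  rw [add_neg_cancel, Finsupp.mapDomain_zero] at h
  exact eq_neg_of_add_eq_zero_right h.symm

theorem GraphSetup.mapDomain_r_sub (D E : Divisor K F) :
    Finsupp.mapDomain N.r (D - E) = Finsupp.mapDomain N.r D - Finsupp.mapDomain N.r E := by
  rw [sub_eq_add_neg, Finsupp.mapDomain_add, N.mapDomain_r_neg, sub_eq_add_neg]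

theorem GraphSetup.mapDomain_r_nsmul (n : ℕ) (D : Divisor K F) :
    Finsupp.mapDomain N.r (n • D) = n • Finsupp.mapDomain N.r D := by
  induction n with
  | zero => rw [zero_smul, zero_smul, Finsupp.mapDomain_zero]
  | succ m ih => rw [succ_nsmul, succ_nsmul, Finsupp.mapDomain_add, ih]

theorem GraphSetup.redDiv_neg (c : κ) (D : Divisor K F) : N.redDiv c (-D) = -N.redDiv c D := by
  have h := N.redDiv_add c D (-D)
  rw [add_neg_cancel, N.redDiv_zero] at h
  exact eq_neg_of_add_eq_zero_right h.symm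

theorem GraphSetup.redDiv_sub (c : κ) (D E : Divisor K F) :
    N.redDiv c (D - E) = N.redDiv c D - N.redDiv c E := by
  rw [sub_eq_add_neg, N.redDiv_add, N.redDiv_neg, sub_eq_add_neg]

theorem GraphSetup.redDiv_nsmul (c : κ) (n : ℕ) (D : Divisor K F) :
    N.redDiv c (n • D) = n • N.redDiv c D := by
  induction n with
  | zero => rw [zero_smul, zero_smul, N.redDiv_zero]
  | succ m ih => rw [succ_nsmul, succ_nsmul, N.redDiv_add, ih]

theorem GraphSetup.redDiv_sum {α : Type*} (c : κ) (s : Finset α) (D : α → Divisor K F) :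
    N.redDiv c (∑ a ∈ s, D a) = ∑ a ∈ s, N.redDiv c (D a) := by
  classical
  induction s using Finset.induction_on with
  | empty => rw [Finset.sum_empty, Finset.sum_empty, N.redDiv_zero]
  | insert a s ha ih => rw [Finset.sum_insert ha, Finset.sum_insert ha, N.redDiv_add, ih]

theorem GraphSetup.redDiv_single (P : Place K F) (m : ℤ) (c : κ) (Q : Place k (Fk c))
    (h : N.r P = some ⟨c, Q⟩) : N.redDiv c (Finsupp.single P m) = Finsupp.single Q m := by
  classical
  ext Q'
  rw [N.redDiv_apply, Finsupp.mapDomain_single, h, Finsupp.single_apply, Finsupp.single_apply]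
  by_cases hQ : Q = Q'
  · rw [if_pos hQ, if_pos (by rw [hQ])]
  · rw [if_neg hQ, if_neg]
    intro h'
    exact hQ (eq_of_heq (Sigma.mk.inj (Option.some_injective _ h')).2)

theorem GraphSetup.redDiv_single_of_ne (P : Place K F) (m : ℤ) (c : κ)
    (h : ∀ Q : Place k (Fk c), N.r P ≠ some ⟨c, Q⟩) : N.redDiv c (Finsupp.single P m) = 0 := by
  classical
  ext Q'
  rw [N.redDiv_apply, Finsupp.mapDomain_single, Finsupp.single_apply, if_neg (h Q')]
  rfl

/-- a place of the component `c'` contributes nothing on the component `c ≠ c'`. -/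
theorem GraphSetup.redDiv_single_of_ne_comp (P : Place K F) (m : ℤ) {c c' : κ}
    (Q : Place k (Fk c')) (h : N.r P = some ⟨c', Q⟩) (hc : c ≠ c') :
    N.redDiv c (Finsupp.single P m) = 0 := by
  refine N.redDiv_single_of_ne P m c fun Q' h' => hc ?_
  rw [h] at h'
  exact ((Sigma.mk.inj (Option.some_injective _ h')).1).symm

/-- a place in the annuli contributes nothing. -/
theorem GraphSetup.redDiv_single_of_none (P : Place K F) (m : ℤ) (c : κ) (h : N.r P = none) :
    N.redDiv c (Finsupp.single P m) = 0 :=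
  N.redDiv_single_of_ne P m c fun Q h' => by rw [h] at h'; cases h'

/-- nothing reduces to a node (first branch). -/
theorem GraphSetup.redDiv_node₁ (D : Divisor K F) (i : ι) :
    N.redDiv (N.src i) D (N.s₁ i) = 0 := by
  classical
  rw [N.redDiv_apply, Fermat.Agent.S18Key.mapDomain_apply_eq_sum]
  exact Finset.sum_eq_zero fun P _ => if_neg (N.r_ne_node₁ P i)

/-- nothing reduces to a node (second branch). -/
theorem GraphSetup.redDiv_node₂ (D : Divisor K F) (i : ι) :
    N.redDiv (N.tgt i) D (N.s₂ i) = 0 := by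
  classical
  rw [N.redDiv_apply, Fermat.Agent.S18Key.mapDomain_apply_eq_sum]
  exact Finset.sum_eq_zero fun P _ => if_neg (N.r_ne_node₂ P i)

/-- nothing reduces to a branch point, in the form with an arbitrary place of `Fk c`. -/
theorem GraphSetup.redDiv_eq_zero_of_branch₁ (D : Divisor K F) (c : κ) (Q : Place k (Fk c))
    (i : ι) (h : (⟨c, Q⟩ : Σ c, Place k (Fk c)) = ⟨N.src i, N.s₁ i⟩) : N.redDiv c D Q = 0 := by
  classical
  rw [N.redDiv_apply, h, Fermat.Agent.S18Key.mapDomain_apply_eq_sum]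
  exact Finset.sum_eq_zero fun P _ => if_neg (N.r_ne_node₁ P i)

theorem GraphSetup.redDiv_eq_zero_of_branch₂ (D : Divisor K F) (c : κ) (Q : Place k (Fk c))
    (i : ι) (h : (⟨c, Q⟩ : Σ c, Place k (Fk c)) = ⟨N.tgt i, N.s₂ i⟩) : N.redDiv c D Q = 0 := by
  classical
  rw [N.redDiv_apply, h, Fermat.Agent.S18Key.mapDomain_apply_eq_sum]
  exact Finset.sum_eq_zero fun P _ => if_neg (N.r_ne_node₂ P i)

theorem GraphSetup.redDiv_nonneg (c : κ) {D : Divisor K F} (hD : 0 ≤ D) : 0 ≤ N.redDiv c D := by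
  intro Q
  rw [N.redDiv_apply]
  exact Fermat.Agent.S18Key.mapDomain_nonneg _ _ _ fun P _ => hD P

theorem GraphSetup.redDiv_mono (c : κ) {D E : Divisor K F} (h : D ≤ E) :
    N.redDiv c D ≤ N.redDiv c E := by
  have h1 : 0 ≤ E - D := sub_nonneg.mpr h
  have h2 := N.redDiv_nonneg c h1
  rw [N.redDiv_sub] at h2
  exact sub_nonneg.mp h2

/-- **degree formula**. -/
theorem GraphSetup.degree_eq_redDiv [Fintype κ] [Nonempty κ] (D : Divisor K F) :
    Divisor.degree D =
      Finsupp.mapDomain N.r D none + ∑ c, Divisor.degree (N.redDiv c D) := by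
  classical
  obtain ⟨c₀⟩ := ‹Nonempty κ›
  induction D using Finsupp.induction_linear with
  | zero =>
    simp only [N.redDiv_zero, Finsupp.mapDomain_zero, map_zero, Finset.sum_const_zero,
      Finsupp.coe_zero, Pi.zero_apply, add_zero]
  | add D E hD hE =>
    simp only [N.redDiv_add, Finsupp.mapDomain_add, Finsupp.add_apply, map_add,
      Finset.sum_add_distrib]
    rw [hD, hE]
    ring
  | single P m =>
    rw [degree_single_one (N.S c₀).hF]
    rcases hr : N.r P with _ | ⟨c, Q⟩
    · rw [Finsupp.mapDomain_single, hr, Finsupp.single_eq_same,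
        Finset.sum_eq_zero (fun c _ => by rw [N.redDiv_single_of_none P m c hr, map_zero]),
        add_zero]
    · rw [Finsupp.mapDomain_single, hr, Finsupp.single_apply, if_neg (by intro h; cases h),
        zero_add, Finset.sum_eq_single c, N.redDiv_single P m c Q hr,
        degree_single_one (N.S c).hFk]
      · intro c' _ hc'
        rw [N.redDiv_single_of_ne_comp P m Q hr hc', map_zero]
      · intro h
        exact absurd (Finset.mem_univ c) h

theorem GraphSetup.mapDomain_none_of_isOrdDiv {D : Divisor K F} (hD : N.IsOrdDiv D) :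
    Finsupp.mapDomain N.r D none = 0 := by
  classical
  rw [Fermat.Agent.S18Key.mapDomain_apply_eq_sum]
  refine Finset.sum_eq_zero fun P hP => if_neg ?_
  obtain ⟨Q, hQ⟩ := hD P (Finsupp.mem_support_iff.mp hP)
  rw [hQ]
  exact fun h => by cases h

/-- **degree formula for ordinary divisors**: `deg D = Σ_c deg (r_* D)_c`. -/
theorem GraphSetup.degree_of_isOrdDiv [Fintype κ] [Nonempty κ] {D : Divisor K F}
    (hD : N.IsOrdDiv D) : Divisor.degree D = ∑ c, Divisor.degree (N.redDiv c D) := by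
  rw [N.degree_eq_redDiv D, N.mapDomain_none_of_isOrdDiv hD, zero_add]

/-- **(GL-RED) the degree formula**, in the form consumed by `glueVEq_of`. -/
theorem glueDegree [Fintype κ] [Nonempty κ] : GlueDegreeStatement N :=
  fun _ hD => N.degree_of_isOrdDiv hD

/-- an effective divisor with `(r_* E)(none) = 0` is ordinary. -/
theorem GraphSetup.isOrdDiv_of_nonneg {E : Divisor K F} (hE : 0 ≤ E)
    (h : Finsupp.mapDomain N.r E none = 0) : N.IsOrdDiv E := by
  intro P hP
  rcases hr : N.r P with _ | Q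
  · exfalso
    have h1 := Fermat.Agent.S18Key.le_mapDomain N.r E none (fun P' _ => hE P') P hr
    rw [h] at h1
    have h2 : 0 ≤ E P := hE P
    exact hP (le_antisymm h1 h2)
  · exact ⟨Q, hr⟩

theorem GraphSetup.isOrdDiv_zero : N.IsOrdDiv (0 : Divisor K F) := by
  intro P hP
  exact absurd rfl hP

theorem GraphSetup.isOrdDiv_add {D E : Divisor K F} (hD : N.IsOrdDiv D) (hE : N.IsOrdDiv E) :
    N.IsOrdDiv (D + E) := by
  intro P hP
  by_cases h : D P = 0
  · apply hE P
    intro h'
    apply hP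
    rw [Finsupp.add_apply, h, h', add_zero]
  · exact hD P h

theorem GraphSetup.isOrdDiv_neg {D : Divisor K F} (hD : N.IsOrdDiv D) : N.IsOrdDiv (-D) := by
  intro P hP
  apply hD P
  intro h
  apply hP
  rw [Finsupp.neg_apply, h, neg_zero]

theorem GraphSetup.isOrdDiv_sub {D E : Divisor K F} (hD : N.IsOrdDiv D) (hE : N.IsOrdDiv E) :
    N.IsOrdDiv (D - E) := by
  rw [sub_eq_add_neg]
  exact N.isOrdDiv_add hD (N.isOrdDiv_neg hE)

theorem GraphSetup.isOrdDiv_nsmul {D : Divisor K F} (hD : N.IsOrdDiv D) (n : ℕ) :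
    N.IsOrdDiv (n • D) := by
  intro P hP
  apply hD P
  intro h
  apply hP
  rw [Finsupp.smul_apply, h, smul_zero]

theorem GraphSetup.isOrdDiv_zsmul {D : Divisor K F} (hD : N.IsOrdDiv D) (n : ℤ) :
    N.IsOrdDiv (n • D) := by
  intro P hP
  apply hD P
  intro h
  apply hP
  rw [Finsupp.smul_apply, h, smul_zero]

theorem GraphSetup.isOrdDiv_single {P : Place K F} (hP : N.IsOrd P) (m : ℤ) :
    N.IsOrdDiv (Finsupp.single P m) := by
  classical
  intro P' hP'
  rw [Finsupp.single_apply] at hP'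
  split_ifs at hP' with h
  · exact h ▸ hP
  · exact absurd rfl hP'

theorem GraphSetup.isOrdDiv_sum {α : Type*} (s : Finset α) (D : α → Divisor K F)
    (h : ∀ a ∈ s, N.IsOrdDiv (D a)) : N.IsOrdDiv (∑ a ∈ s, D a) := by
  classical
  induction s using Finset.induction_on with
  | empty => rw [Finset.sum_empty]; exact N.isOrdDiv_zero
  | insert a s ha ih =>
    rw [Finset.sum_insert ha]
    exact N.isOrdDiv_add (h a (Finset.mem_insert_self a s))
      (ih fun b hb => h b (Finset.mem_insert_of_mem hb))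

/-- the divisor of a function is ordinary iff all its zeros and poles are. -/
theorem GraphSetup.isOrdDiv_iff (D : Divisor K F) :
    N.IsOrdDiv D ↔ ∀ P, N.r P = none → D P = 0 := by
  constructor
  · intro h P hP
    by_contra hne
    obtain ⟨Q, hQ⟩ := h P hne
    rw [hP] at hQ
    cases hQ
  · intro h P hP
    rcases hr : N.r P with _ | Q
    · exact absurd (h P hr) hP
    · exact ⟨Q, hr⟩

/-- a place is smooth if it is not a branch of a node. -/
def GraphSetup.IsSmoothPt (c : κ) (Q : Place k (Fk c)) : Prop :=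
  (∀ i, (⟨c, Q⟩ : Σ c, Place k (Fk c)) ≠ ⟨N.src i, N.s₁ i⟩) ∧
    ∀ i, (⟨c, Q⟩ : Σ c, Place k (Fk c)) ≠ ⟨N.tgt i, N.s₂ i⟩

theorem GraphSetup.exists_lift_of_isSmoothPt {c : κ} {Q : Place k (Fk c)}
    (h : N.IsSmoothPt c Q) : ∃ P, N.r P = some ⟨c, Q⟩ := N.r_surj c Q h.1 h.2

/-- a place which is not in the support of a divisor without nodes in its support, or rather:
a place in the support of a divisor `R_c` with no node in the support is smooth. -/
theorem GraphSetup.isSmoothPt_of_apply_ne_zero (Rc : ∀ c, Divisor k (Fk c))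
    (h₁ : ∀ i, Rc (N.src i) (N.s₁ i) = 0) (h₂ : ∀ i, Rc (N.tgt i) (N.s₂ i) = 0)
    {c : κ} {Q : Place k (Fk c)} (hQ : Rc c Q ≠ 0) : N.IsSmoothPt c Q := by
  constructor
  · intro i h
    apply hQ
    have hc : c = N.src i := (Sigma.mk.inj h).1
    subst hc
    rw [eq_of_heq (Sigma.mk.inj h).2]
    exact h₁ i
  · intro i h
    apply hQ
    have hc : c = N.tgt i := (Sigma.mk.inj h).1
    subst hc
    rw [eq_of_heq (Sigma.mk.inj h).2]
    exact h₂ i

/-- **lifting of divisors**: every family `(R_c)` of divisors of the components without nodes in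
the support is the reduction of an ORDINARY divisor `R` of `F`, supported on lifts of the points
of the `R_c`; `R ≥ 0` if all `R_c ≥ 0`. -/
theorem GraphSetup.exists_ordLift [Fintype κ] (Rc : ∀ c, Divisor k (Fk c))
    (h₁ : ∀ i, Rc (N.src i) (N.s₁ i) = 0) (h₂ : ∀ i, Rc (N.tgt i) (N.s₂ i) = 0) :
    ∃ R : Divisor K F, N.IsOrdDiv R ∧ (∀ c, N.redDiv c R = Rc c) ∧
      ((∀ c, 0 ≤ Rc c) → 0 ≤ R) := by
  classical
  -- a lift of every point of the supports
  have hex : ∀ (c : κ) (Q : Place k (Fk c)), Rc c Q ≠ 0 → ∃ P : Place K F,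
      N.r P = some ⟨c, Q⟩ := fun c Q hQ =>
    N.exists_lift_of_isSmoothPt (N.isSmoothPt_of_apply_ne_zero Rc h₁ h₂ hQ)
  choose L hL using hex
  have hmem : ∀ (c : κ) (Q : {Q // Q ∈ (Rc c).support}), Rc c Q.1 ≠ 0 := fun c Q =>
    Finsupp.mem_support_iff.mp Q.2
  refine ⟨∑ c, ∑ Q ∈ (Rc c).support.attach,
    Finsupp.single (L c Q.1 (hmem c Q)) (Rc c Q.1), ?_, ?_, ?_⟩
  · refine N.isOrdDiv_sum _ _ fun c _ => N.isOrdDiv_sum _ _ fun Q _ => ?_
    exact N.isOrdDiv_single ⟨_, hL c Q.1 (hmem c Q)⟩ _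
  · intro c
    rw [N.redDiv_sum, Finset.sum_eq_single c]
    · rw [N.redDiv_sum]
      have : ∀ Q ∈ (Rc c).support.attach,
          N.redDiv c (Finsupp.single (L c Q.1 (hmem c Q)) (Rc c Q.1)) =
          Finsupp.single Q.1 (Rc c Q.1) := fun Q _ =>
        N.redDiv_single _ _ c Q.1 (hL c Q.1 (hmem c Q))
      rw [Finset.sum_congr rfl this,
        Finset.sum_attach (Rc c).support (fun Q => Finsupp.single Q (Rc c Q))]
      exact Finsupp.sum_single (Rc c)
    · intro c' _ hc'
      rw [N.redDiv_sum]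
      refine Finset.sum_eq_zero fun Q _ => ?_
      exact N.redDiv_single_of_ne_comp _ _ Q.1 (hL c' Q.1 (hmem c' Q)) (Ne.symm hc')
    · intro h
      exact absurd (Finset.mem_univ c) h
  · intro hpos
    refine Finset.sum_nonneg fun c _ => Finset.sum_nonneg fun Q _ => ?_
    intro P
    rw [Finsupp.single_apply]
    split_ifs
    · exact hpos c Q.1
    · exact le_rfl

end RedDiv

section Big

variable {N : GraphSetup K F k κ Fk ι}

theorem GBig.add [Fintype ι] {R R' : Divisor K F} (hR : GBig N R) (hR'0 : 0 ≤ R')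
    (hR' : N.IsOrdDiv R') : GBig N (R + R') := by
  refine ⟨add_nonneg hR.nonneg hR'0, N.isOrdDiv_add hR.ord hR', fun c => ?_⟩
  rw [N.redDiv_add, map_add]
  have h1 := degree_nonneg_of_nonneg (N.S c).hFk (N.redDiv_nonneg c hR'0)
  have := hR.deg c
  omega

theorem GBig.mono [Fintype ι] {R R' : Divisor K F} (hR : GBig N R) (hle : R ≤ R')
    (hR' : N.IsOrdDiv R') : GBig N R' := by
  have h := hR.add (sub_nonneg.mpr hle) (N.isOrdDiv_sub hR' hR.ord)
  rwa [add_sub_cancel] at h

/-- the degree of a big divisor on the component `c` -/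
theorem GBig.redDiv_deg_gt [Fintype ι] {R : Divisor K F} (hR : GBig N R) (c : κ) :
    2 * (genusFF k (Fk c) : ℤ) - 2 < Divisor.degree (N.redDiv c R) := by
  have h1 := hR.deg c
  have h5 : (0 : ℤ) ≤ Fintype.card ι := Int.natCast_nonneg _
  omega

/-- Riemann-Roch on the component `c` for a big divisor. -/
theorem GBig.ell_redDiv [Fintype ι] {R : Divisor K F} (hR : GBig N R) (c : κ) :
    (ell (N.redDiv c R) : ℤ) =
      Divisor.degree (N.redDiv c R) + 1 - (genusFF k (Fk c) : ℤ) :=
  ell_of_degree_gt (N.S c).hFk (hR.redDiv_deg_gt c)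

variable (N)

/-- a smooth point on every component (`k` infinite). -/
theorem GraphSetup.exists_isSmoothPt [Finite ι] [Infinite k] (c : κ) :
    ∃ Q : Place k (Fk c), N.IsSmoothPt c Q := by
  classical
  have := Fintype.ofFinite ι
  have hinf : Infinite (Place k (Fk c)) := infinite_place (N.S c).hFk
  -- the finite set of the branch points on `c`
  let B₁ : Finset (Place k (Fk c)) :=
    Finset.univ.biUnion fun i : ι =>
      if h : N.src i = c then {h ▸ N.s₁ i} else ∅
  let B₂ : Finset (Place k (Fk c)) :=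
    Finset.univ.biUnion fun i : ι =>
      if h : N.tgt i = c then {h ▸ N.s₂ i} else ∅
  obtain ⟨Q, hQ⟩ := Infinite.exists_notMem_finset (B₁ ∪ B₂)
  rw [Finset.mem_union, not_or] at hQ
  refine ⟨Q, fun i h => hQ.1 ?_, fun i h => hQ.2 ?_⟩
  · have hc : c = N.src i := (Sigma.mk.inj h).1
    subst hc
    have hQ' : Q = N.s₁ i := eq_of_heq (Sigma.mk.inj h).2
    refine Finset.mem_biUnion.mpr ⟨i, Finset.mem_univ i, ?_⟩
    rw [dif_pos rfl, Finset.mem_singleton]
    exact hQ'
  · have hc : c = N.tgt i := (Sigma.mk.inj h).1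
    subst hc
    have hQ' : Q = N.s₂ i := eq_of_heq (Sigma.mk.inj h).2
    refine Finset.mem_biUnion.mpr ⟨i, Finset.mem_univ i, ?_⟩
    rw [dif_pos rfl, Finset.mem_singleton]
    exact hQ'

/-- **big base divisors exist.** -/
theorem exists_gBig [Fintype κ] [Fintype ι] [Infinite k] : ∃ R : Divisor K F, GBig N R := by
  classical
  choose Q hQ using fun c => N.exists_isSmoothPt c
  let d : κ → ℤ := fun c => 2 * (genusFF k (Fk c) : ℤ) + Fintype.card ι
  have hd0 : ∀ c, 0 ≤ d c := fun c => by positivity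
  let Rc : ∀ c, Divisor k (Fk c) := fun c => Finsupp.single (Q c) (d c)
  have hne₁ : ∀ i, Q (N.src i) ≠ N.s₁ i := fun i h => (hQ (N.src i)).1 i (by rw [h])
  have hne₂ : ∀ i, Q (N.tgt i) ≠ N.s₂ i := fun i h => (hQ (N.tgt i)).2 i (by rw [h])
  obtain ⟨R, hRord, hRred, hRpos⟩ := N.exists_ordLift Rc
    (fun i => by
      show Finsupp.single (Q (N.src i)) (d (N.src i)) (N.s₁ i) = 0
      rw [Finsupp.single_apply, if_neg (hne₁ i)])
    (fun i => by
      show Finsupp.single (Q (N.tgt i)) (d (N.tgt i)) (N.s₂ i) = 0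
      rw [Finsupp.single_apply, if_neg (hne₂ i)])
  refine ⟨R, hRpos fun c => ?_, hRord, fun c => ?_⟩
  · intro P
    show (0 : ℤ) ≤ Finsupp.single (Q c) (d c) P
    rw [Finsupp.single_apply]
    split_ifs
    · exact hd0 c
    · exact le_rfl
  · rw [hRred c]
    show _ < Divisor.degree (Finsupp.single (Q c) (d c)) - _
    rw [degree_single_one (N.S c).hFk]
    show _ < 2 * (genusFF k (Fk c) : ℤ) + Fintype.card ι - Fintype.card ι
    omega

/-- big base divisors exist above every effective ordinary divisor. -/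
theorem exists_gBig_ge [Fintype κ] [Fintype ι] [Infinite k] {E : Divisor K F} (hE : 0 ≤ E)
    (hEord : N.IsOrdDiv E) : ∃ R : Divisor K F, GBig N R ∧ E ≤ R := by
  obtain ⟨R, hR⟩ := exists_gBig N
  exact ⟨R + E, hR.add hE hEord, le_add_of_nonneg_left hR.nonneg⟩

end Big

end Fermat.Agent.BadRedG
end
end MergeWrap_Lib_BadRed_Graph_GlueRed

section MergeWrap_Lib_BadRed_Graph_GlueTwist -- from Lib/BadRed/Graph/GlueTwist.lean

set_option autoImplicit false
set_option linter.style.haveILetI false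
set_option linter.unusedSectionVars false

/-!
# Cluster G, abstract graph package, GLUING: seat GL-TW (helper95)

The twisted graph Riemann-Roch space `gTwistRR N ζ R` of `GlueDefs.lean`
(tuples `(y_c) ∈ ∏ L(R_c)` with `y_{src i}(s₁ i) = ζ i * y_{tgt i}(s₂ i)` at every node).
Graph version of cluster T's `Nodal/Gluing/Space.lean` (`finrank_twistRR_le`, `exists_generic`).

* `gTwist_card_branchesAt_le` : a component carries at most `|ι|` branch points
  (`src i ≠ tgt i`);
* `gTwistVal` : the linear map `gTwistRR → k ^ ι`, the value at the second branch of the nodes;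
* `ker_gTwistVal` : its kernel is the space of the tuples vanishing at all the branch points;
* `finrank_gTwistRR_le` : `dim gTwistRR ≤ Σ_c ℓ(R_c - branches on c) + |ι|` (unconditional);
* `glueTwistDim : GlueTwistDimStatement N` : `dim gTwistRR + |ι| ≤ Σ_c ℓ(R_c)` for big `R_c`;
* `glueGeneric : GlueGenericStatement N` : for `ζ i ≠ 0` and big `R_c ≥ 0` there is an element of
  the twisted space with the values `ζ i` resp. `1` on the two branches of every node, and
  `≠ 0` on every component.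
-/

noncomputable section

open AlgebraicCurve

namespace Fermat.Agent.BadRedG

open Fermat.Agent.BadRed Fermat.Agent.RR

variable {K F k : Type*} [Field K] [Field F] [Algebra K F] [Field k]
  {κ : Type*} {Fk : κ → Type*} [∀ c, Field (Fk c)] [∀ c, Algebra k (Fk c)] {ι : Type*}

/-! ### The number of branch points on a component -/

section BranchCard

variable [Fintype ι] {src tgt : ι → κ} {s₁ : ∀ i : ι, Place k (Fk (src i))}
  {s₂ : ∀ i : ι, Place k (Fk (tgt i))}

/-- if no node is a loop, a component carries at most one branch of every node. -/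
theorem gTwist_card_branchesAt_le (hne : ∀ i, src i ≠ tgt i) (c : κ) :
    (graphRRBranchesAt src tgt s₁ s₂ c).card ≤ Fintype.card ι := by
  classical
  let h : ι → Σ c, Place k (Fk c) := fun i =>
    if src i = c then ⟨src i, s₁ i⟩ else ⟨tgt i, s₂ i⟩
  have h1 : ((graphRRBranchesAt src tgt s₁ s₂ c).image
      (fun Q : Place k (Fk c) => (⟨c, Q⟩ : Σ c, Place k (Fk c)))) ⊆ Finset.univ.image h := by
    intro x hx
    obtain ⟨Q, hQ, rfl⟩ := Finset.mem_image.mp hx
    rcases mem_graphRRBranches.mp (mem_graphRRBranchesAt.mp hQ) with ⟨i, hi⟩ | ⟨i, hi⟩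
    · refine Finset.mem_image.mpr ⟨i, Finset.mem_univ _, ?_⟩
      have hc : src i = c := congrArg Sigma.fst hi
      simp only [h, if_pos hc]
      exact hi
    · refine Finset.mem_image.mpr ⟨i, Finset.mem_univ _, ?_⟩
      have hc : tgt i = c := congrArg Sigma.fst hi
      have hc' : src i ≠ c := fun e => hne i (e.trans hc.symm)
      simp only [h, if_neg hc']
      exact hi
  calc (graphRRBranchesAt src tgt s₁ s₂ c).card
      = ((graphRRBranchesAt src tgt s₁ s₂ c).image
          (fun Q : Place k (Fk c) => (⟨c, Q⟩ : Σ c, Place k (Fk c)))).card :=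
        (Finset.card_image_of_injective _ (graph_sigma_mk_injective c)).symm
    _ ≤ (Finset.univ.image h).card := Finset.card_le_card h1
    _ ≤ Fintype.card ι := by
        rw [← Finset.card_univ]
        exact Finset.card_image_le

end BranchCard

/-! ### The twisted space: finiteness, the value map, the exact sequence -/

section Twist

variable (N : GraphSetup K F k κ Fk ι)

/-- the branch points on the component `c` of a graph setup. -/
abbrev GraphSetup.branchesAt [Fintype ι] (c : κ) : Finset (Place k (Fk c)) :=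
  graphRRBranchesAt N.src N.tgt N.s₁ N.s₂ c

theorem finite_gTwistRR [Finite κ] (ζ : ι → k) (R : ∀ c, Divisor k (Fk c)) :
    Module.Finite k (gTwistRR N ζ R) := by
  haveI : ∀ c, Module.Finite k (riemannRochSpace (R c)) := fun c =>
    finite_riemannRochSpace (N.S c).hFk (R c)
  let f : ↥(gTwistRR N ζ R) →ₗ[k] (∀ c, ↥(riemannRochSpace (R c))) :=
    LinearMap.pi fun c =>
      LinearMap.codRestrict (riemannRochSpace (R c))
        ((LinearMap.proj c) ∘ₗ (gTwistRR N ζ R).subtype) (fun y => y.2.1 c)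
  have hf : Function.Injective f := by
    intro x y hxy
    apply Subtype.ext
    funext c
    have := congrArg (fun z : ∀ c, ↥(riemannRochSpace (R c)) => ((z c : Fk c))) hxy
    exact this
  exact Module.Finite.of_injective f hf

/-- the value of a tuple of `gTwistRR` at the nodes, on the SECOND branch
(the value on the first branch is `ζ i` times it). -/
def gTwistVal (ζ : ι → k) (R : ∀ c, Divisor k (Fk c)) : ↥(gTwistRR N ζ R) →ₗ[k] (ι → k) where
  toFun y i := Classical.choose (y.2.2 i)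
  map_add' := by
    intro x y
    funext i
    have hx := (Classical.choose_spec (x.2.2 i)).2
    have hy := (Classical.choose_spec (y.2.2 i)).2
    have hxy := (Classical.choose_spec ((x + y).2.2 i)).2
    exact hxy.unique (hx.add hy)
  map_smul' := by
    intro a x
    funext i
    have hx := (Classical.choose_spec (x.2.2 i)).2
    have hax := (Classical.choose_spec ((a • x).2.2 i)).2
    exact hax.unique (hx.smul a)

variable {N}

theorem gTwistVal_spec₁ {ζ : ι → k} {R : ∀ c, Divisor k (Fk c)} (y : ↥(gTwistRR N ζ R))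
    (i : ι) :
    ValAt (N.s₁ i) ((y : ∀ c, Fk c) (N.src i)) (ζ i * gTwistVal N ζ R y i) :=
  (Classical.choose_spec (y.2.2 i)).1

theorem gTwistVal_spec₂ {ζ : ι → k} {R : ∀ c, Divisor k (Fk c)} (y : ↥(gTwistRR N ζ R))
    (i : ι) :
    ValAt (N.s₂ i) ((y : ∀ c, Fk c) (N.tgt i)) (gTwistVal N ζ R y i) :=
  (Classical.choose_spec (y.2.2 i)).2

theorem gTwistVal_eq_of_valAt₂ {ζ : ι → k} {R : ∀ c, Divisor k (Fk c)}
    (y : ↥(gTwistRR N ζ R)) (i : ι) {a : k}
    (h : ValAt (N.s₂ i) ((y : ∀ c, Fk c) (N.tgt i)) a) : gTwistVal N ζ R y i = a :=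
  (gTwistVal_spec₂ y i).unique h

variable (N)

section Dim

variable [Fintype ι] [Fintype κ] (ζ : ι → k) (R : ∀ c, Divisor k (Fk c))

/-- the inclusion of the tuples vanishing at all the branch points. -/
def gTwistIncl (hR₁ : ∀ i, R (N.src i) (N.s₁ i) = 0) (hR₂ : ∀ i, R (N.tgt i) (N.s₂ i) = 0) :
    (∀ c, ↥(riemannRochSpace (R c - sumPlaces (N.branchesAt c)))) →ₗ[k]
      ↥(gTwistRR N ζ R) :=
  LinearMap.codRestrict (gTwistRR N ζ R)
    (LinearMap.pi fun c =>
      (riemannRochSpace (R c - sumPlaces (N.branchesAt c))).subtype ∘ₗ LinearMap.proj c)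
    (fun z => by
      have hNR : ∀ c, ∀ Q ∈ N.branchesAt c, R c Q = 0 := fun c Q hQ =>
        forall_graphRRBranchesAt (p := fun c Q => R c Q = 0) hR₁ hR₂ hQ
      have hz : ∀ c, (z c : Fk c) ∈ riemannRochSpace (R c) ∧
          ∀ Q ∈ N.branchesAt c, VanAt Q (z c : Fk c) := fun c =>
        (mem_riemannRochSpace_sub_sumPlaces_iff (hNR c) _).mp (z c).2
      refine ⟨fun c => (hz c).1, fun i => ⟨0, ?_, ?_⟩⟩
      · rw [mul_zero]
        exact (valAt_zero_right_iff _ _).mpr ((hz (N.src i)).2 _ (src_mem_graphRRBranchesAt i))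
      · exact (valAt_zero_right_iff _ _).mpr ((hz (N.tgt i)).2 _ (tgt_mem_graphRRBranchesAt i)))

variable {N ζ R}

theorem gTwistIncl_apply (hR₁ : ∀ i, R (N.src i) (N.s₁ i) = 0)
    (hR₂ : ∀ i, R (N.tgt i) (N.s₂ i) = 0)
    (z : ∀ c, ↥(riemannRochSpace (R c - sumPlaces (N.branchesAt c)))) (c : κ) :
    ((gTwistIncl N ζ R hR₁ hR₂ z : ↥(gTwistRR N ζ R)) : ∀ c, Fk c) c = (z c : Fk c) := rfl

theorem gTwistIncl_injective (hR₁ : ∀ i, R (N.src i) (N.s₁ i) = 0)
    (hR₂ : ∀ i, R (N.tgt i) (N.s₂ i) = 0) :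
    Function.Injective (gTwistIncl N ζ R hR₁ hR₂) := by
  intro x y hxy
  funext c
  apply Subtype.ext
  have := congrArg (fun z : ↥(gTwistRR N ζ R) => (z : ∀ c, Fk c) c) hxy
  exact this

/-- exactness in the middle: the kernel of the value map is the space of the tuples vanishing at
all the branch points. -/
theorem ker_gTwistVal (hR₁ : ∀ i, R (N.src i) (N.s₁ i) = 0)
    (hR₂ : ∀ i, R (N.tgt i) (N.s₂ i) = 0) :
    LinearMap.ker (gTwistVal N ζ R) = LinearMap.range (gTwistIncl N ζ R hR₁ hR₂) := by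
  have hNR : ∀ c, ∀ Q ∈ N.branchesAt c, R c Q = 0 := fun c Q hQ =>
    forall_graphRRBranchesAt (p := fun c Q => R c Q = 0) hR₁ hR₂ hQ
  ext y
  rw [LinearMap.mem_ker, LinearMap.mem_range]
  constructor
  · intro hy
    have h1 : ∀ i, VanAt (N.s₁ i) ((y : ∀ c, Fk c) (N.src i)) := fun i => by
      have := gTwistVal_spec₁ y i
      rw [hy, Pi.zero_apply, mul_zero] at this
      exact (valAt_zero_right_iff _ _).mp this
    have h2 : ∀ i, VanAt (N.s₂ i) ((y : ∀ c, Fk c) (N.tgt i)) := fun i => by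
      have := gTwistVal_spec₂ y i
      rw [hy] at this
      exact (valAt_zero_right_iff _ _).mp this
    have hmem : ∀ c, (y : ∀ c, Fk c) c ∈
        riemannRochSpace (R c - sumPlaces (N.branchesAt c)) := fun c => by
      rw [mem_riemannRochSpace_sub_sumPlaces_iff (hNR c)]
      exact ⟨y.2.1 c, fun Q hQ =>
        forall_graphRRBranchesAt (p := fun c Q => VanAt Q ((y : ∀ c, Fk c) c)) h1 h2 hQ⟩
    exact ⟨fun c => ⟨_, hmem c⟩, Subtype.ext rfl⟩
  · rintro ⟨z, rfl⟩
    funext i
    apply gTwistVal_eq_of_valAt₂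
    rw [gTwistIncl_apply]
    have hz := ((mem_riemannRochSpace_sub_sumPlaces_iff (hNR (N.tgt i)) _).mp
      (z (N.tgt i)).2).2 _ (tgt_mem_graphRRBranchesAt i)
    exact (valAt_zero_right_iff _ _).mpr hz

variable (N ζ R)

/-- The unconditional upper bound
`dim gTwistRR ≤ Σ_c ℓ(R_c - branches on c) + |ι|`. -/
theorem finrank_gTwistRR_le (hR₁ : ∀ i, R (N.src i) (N.s₁ i) = 0)
    (hR₂ : ∀ i, R (N.tgt i) (N.s₂ i) = 0) :
    Module.finrank k (gTwistRR N ζ R) ≤
      (∑ c, ell (R c - sumPlaces (N.branchesAt c))) + Fintype.card ι := by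
  classical
  haveI := finite_gTwistRR N ζ R
  haveI : ∀ c, Module.Finite k
      (riemannRochSpace (R c - sumPlaces (N.branchesAt c))) := fun c =>
    finite_riemannRochSpace (N.S c).hFk _
  have hrank := LinearMap.finrank_range_add_finrank_ker (gTwistVal N ζ R)
  rw [ker_gTwistVal hR₁ hR₂,
    LinearMap.finrank_range_of_inj (gTwistIncl_injective hR₁ hR₂),
    Module.finrank_pi_fintype] at hrank
  have h1 : Module.finrank k (LinearMap.range (gTwistVal N ζ R)) ≤ Fintype.card ι := by
    have := Submodule.finrank_le (LinearMap.range (gTwistVal N ζ R))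
    rwa [Module.finrank_fintype_fun_eq_card] at this
  have h2 : (∑ c, Module.finrank k
      (riemannRochSpace (R c - sumPlaces (N.branchesAt c)))) =
      ∑ c, ell (R c - sumPlaces (N.branchesAt c)) := rfl
  omega

end Dim

end Twist

/-! ### The two statements of the seat -/

section Statements

variable (N : GraphSetup K F k κ Fk ι) [Fintype κ] [Fintype ι]

/-- **(GL-TW)**: `dim gTwistRR + |ι| ≤ Σ_c ℓ(R_c)` for `R_c` of large degree avoiding the
nodes. -/
theorem glueTwistDim : GlueTwistDimStatement N := by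
  classical
  intro ζ R hR₁ hR₂ hdeg
  refine ⟨finite_gTwistRR N ζ R, ?_⟩
  have hle := finrank_gTwistRR_le N ζ R hR₁ hR₂
  have hB : ∀ c, ((N.branchesAt c).card : ℤ) ≤ Fintype.card ι := fun c => by
    exact_mod_cast gTwist_card_branchesAt_le (s₁ := N.s₁) (s₂ := N.s₂) N.src_ne_tgt c
  have hellB : ∀ c, (ell (R c - sumPlaces (N.branchesAt c)) : ℤ) =
      Divisor.degree (R c) + 1 - (genusFF k (Fk c) : ℤ) - (N.branchesAt c).card := by
    intro c
    have := ell_of_degree_gt (N.S c).hFk (D := R c - sumPlaces (N.branchesAt c))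
      (by
        rw [map_sub, degree_sumPlaces (N.S c).hFk]
        have := hdeg c
        have := hB c
        omega)
    rw [map_sub, degree_sumPlaces (N.S c).hFk] at this
    rw [this]
    ring
  have hell : ∀ c, (ell (R c) : ℤ) =
      Divisor.degree (R c) + 1 - (genusFF k (Fk c) : ℤ) := by
    intro c
    refine ell_of_degree_gt (N.S c).hFk ?_
    have := hdeg c
    have h0 : (0 : ℤ) ≤ Fintype.card ι := Int.natCast_nonneg _
    omega
  have hcard : (∑ c, ((N.branchesAt c).card : ℤ)) = 2 * Fintype.card ι := by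
    have := sum_card_graphRRBranchesAt (src := N.src) (tgt := N.tgt) (s₁ := N.s₁) (s₂ := N.s₂)
    rw [card_graphRRBranches N.s₁_inj N.s₂_inj N.s₁_ne_s₂] at this
    exact_mod_cast this
  have hsum : (∑ c, (ell (R c - sumPlaces (N.branchesAt c)) : ℤ)) =
      (∑ c, (ell (R c) : ℤ)) - 2 * Fintype.card ι := by
    rw [Finset.sum_congr rfl (fun c _ => hellB c), Finset.sum_sub_distrib, hcard,
      Finset.sum_congr rfl (fun c _ => (hell c).symm)]
  have hle' : (Module.finrank k (gTwistRR N ζ R) : ℤ) ≤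
      (∑ c, (ell (R c - sumPlaces (N.branchesAt c)) : ℤ)) + Fintype.card ι := by
    exact_mod_cast hle
  have : (Module.finrank k (gTwistRR N ζ R) : ℤ) + Fintype.card ι ≤ ∑ c, (ell (R c) : ℤ) := by
    rw [hsum] at hle'
    omega
  exact_mod_cast this

open Classical in
/-- **(GL-GEN)**: generic elements of the twisted space. -/
theorem glueGeneric : GlueGenericStatement N := by
  intro ζ hζ R hR0 hR₁ hR₂ hdeg
  have hNR : ∀ c, ∀ Q ∈ N.branchesAt c, R c Q = 0 := fun c Q hQ =>
    forall_graphRRBranchesAt (p := fun c Q => R c Q = 0) hR₁ hR₂ hQ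
  have hB : ∀ c, ((N.branchesAt c).card : ℤ) ≤ Fintype.card ι := fun c => by
    exact_mod_cast gTwist_card_branchesAt_le (s₁ := N.s₁) (s₂ := N.s₂) N.src_ne_tgt c
  -- the prescribed values at the branch points
  let v : (Σ c, Place k (Fk c)) → k := fun x =>
    if hx : ∃ i, (⟨N.src i, N.s₁ i⟩ : Σ c, Place k (Fk c)) = x then ζ hx.choose else 1
  have hv₁ : ∀ i, v ⟨N.src i, N.s₁ i⟩ = ζ i := by
    intro i
    have hx : ∃ j, (⟨N.src j, N.s₁ j⟩ : Σ c, Place k (Fk c)) = ⟨N.src i, N.s₁ i⟩ := ⟨i, rfl⟩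
    have hvx : v ⟨N.src i, N.s₁ i⟩ = ζ hx.choose := dif_pos hx
    rw [hvx, N.s₁_inj _ _ hx.choose_spec]
  have hv₂ : ∀ i, v ⟨N.tgt i, N.s₂ i⟩ = 1 := by
    intro i
    have hx : ¬ ∃ j, (⟨N.src j, N.s₁ j⟩ : Σ c, Place k (Fk c)) = ⟨N.tgt i, N.s₂ i⟩ := by
      rintro ⟨j, hj⟩
      exact N.s₁_ne_s₂ j i hj
    exact dif_neg hx
  have hv0 : ∀ x, v x ≠ 0 := by
    intro x
    by_cases hx : ∃ i, (⟨N.src i, N.s₁ i⟩ : Σ c, Place k (Fk c)) = x
    · have hvx : v x = ζ hx.choose := dif_pos hx
      rw [hvx]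
      exact hζ _
    · have hvx : v x = 1 := dif_neg hx
      rw [hvx]
      exact one_ne_zero
  -- interpolation on every component
  have hex : ∀ c, ∃ a ∈ riemannRochSpace (R c), a ≠ 0 ∧
      ∀ Q ∈ N.branchesAt c, ValAt Q a (v ⟨c, Q⟩) := by
    intro c
    rcases (N.branchesAt c).eq_empty_or_nonempty with hemp | ⟨Q₀, hQ₀⟩
    · refine ⟨1, ?_, one_ne_zero, fun Q hQ => ?_⟩
      · refine riemannRochSpace_mono (hR0 c) ?_
        have := algebraMap_mem_riemannRochSpace_zero (K := k) (F := Fk c) 1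
        rwa [map_one] at this
      · rw [hemp] at hQ
        exact absurd hQ (Finset.notMem_empty _)
    · obtain ⟨a, haL, ha⟩ := exists_interpolation (N.S c).hFk
        (fun Q : ↥(N.branchesAt c) => (Q : Place k (Fk c)))
        Subtype.val_injective (R c) (fun Q => hNR c Q Q.2)
        (by
          rw [Fintype.card_coe]
          have := hdeg c
          have := hB c
          omega)
        (fun Q => v ⟨c, Q⟩)
      refine ⟨a, haL, ?_, fun Q hQ => ha ⟨Q, hQ⟩⟩
      rintro rfl
      exact hv0 _ ((ha ⟨Q₀, hQ₀⟩).unique (valAt_zero _))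
  choose y hyL hy0 hyval using hex
  have h₁ : ∀ i, ValAt (N.s₁ i) (y (N.src i)) (ζ i) := fun i => by
    have := hyval (N.src i) (N.s₁ i) (src_mem_graphRRBranchesAt i)
    rwa [hv₁] at this
  have h₂ : ∀ i, ValAt (N.s₂ i) (y (N.tgt i)) 1 := fun i => by
    have := hyval (N.tgt i) (N.s₂ i) (tgt_mem_graphRRBranchesAt i)
    rwa [hv₂] at this
  refine ⟨y, ⟨hyL, fun i => ⟨1, ?_, h₂ i⟩⟩, hy0, fun i => ⟨h₁ i, h₂ i⟩⟩
  rw [mul_one]
  exact h₁ i

end Statements

end Fermat.Agent.BadRedG
end
end MergeWrap_Lib_BadRed_Graph_GlueTwist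

section MergeWrap_Lib_BadRed_Graph_GlueToric -- from Lib/BadRed/Graph/GlueToric.lean

set_option autoImplicit false

/-!
# Cluster G, abstract graph package, seat GL-TORIC: injectivity of the gluing map

`graphToric_of : GraphKeyStatement N → GlueVEqStatement N → GlueOrdOfGenericStatement N →
GlueCoverStatement N → GraphToricStatement N`.

Proof.  For the TRIVIAL gluing datum (`D = 0`, `g = 1`, `b = 1`, `h = 1`) the space `V(R)` is a
twisted graph Riemann-Roch space (GL-VEQ) containing the constant `1`, so the twist is trivial and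
`V(R) = graphRR (r_* R)`: the nodal tuple `H` lifts to `ψ` (for `R` big, covering the poles of
`H`); `div ψ` is ordinary (GL-PUSH, degree count); `g / ψ ^ n` has ordinary divisor and all its
reductions are `1`, so its divisor reduces to `0` (push) and the KEY lemma applies.
-/

noncomputable section

open AlgebraicCurve Fermat.Agent.RR Fermat.Agent.Deuring

namespace Fermat.Agent.BadRedG

open Fermat.Agent.BadRed Fermat.Agent.BadRed.Gluing

variable {K F k : Type*} [Field K] [Field F] [Algebra K F] [Field k]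
  {κ : Type*} {Fk : κ → Type*} [∀ c, Field (Fk c)] [∀ c, Algebra k (Fk c)] {ι : Type*}

/-- **(GL-COVER)**: every tuple which is regular at the branches lies in `∏ L(r_* R)` for a big
base divisor `R` (lift the polar divisors by `r_surj`, add a big divisor). -/
def GlueCoverStatement [Fintype ι] (N : GraphSetup K F k κ Fk ι) : Prop :=
  ∀ y : ∀ c, Fk c, (∀ i, 0 ≤ (N.s₁ i).ord (y (N.src i)) ∧ 0 ≤ (N.s₂ i).ord (y (N.tgt i))) →
    ∃ R : Divisor K F, GBig N R ∧ ∀ c, y c ∈ riemannRochSpace (N.redDiv c R)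

/-- the trivial gluing datum. -/
def GlueData.triv (N : GraphSetup K F k κ Fk ι) (n : ℕ) : GlueData N n where
  D := 0
  g := 1
  b := fun _ => 1
  h := fun _ => 1
  hdeg := map_zero _
  hg := one_ne_zero
  hdiv := fun P => by rw [Place.ord_one, Finsupp.zero_apply, mul_zero]
  hb := fun _ => one_ne_zero
  hh := fun _ => one_ne_zero
  hred := fun c => by rw [one_pow, map_one, div_one, ValSetup.red_one, one_pow]

theorem GlueData.triv_A (N : GraphSetup K F k κ Fk ι) (n : ℕ) (φ : F) (c : κ) :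
    (GlueData.triv N n).A φ c = (N.S c).red φ := by
  simp [GlueData.A, GlueData.triv]

theorem GlueData.triv_D (N : GraphSetup K F k κ Fk ι) (n : ℕ) : (GlueData.triv N n).D = 0 := rfl

/-- no place reduces to a branch. -/
theorem toric_mapDomain_branch₁ (N : GraphSetup K F k κ Fk ι) (D : Divisor K F) (i : ι) :
    Finsupp.mapDomain N.r D (some ⟨N.src i, N.s₁ i⟩) = 0 := by
  classical
  rw [Fermat.Agent.S18Key.mapDomain_apply_eq_sum]
  exact Finset.sum_eq_zero fun P _ => if_neg (N.r_ne_node₁ P i)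

theorem toric_mapDomain_branch₂ (N : GraphSetup K F k κ Fk ι) (D : Divisor K F) (i : ι) :
    Finsupp.mapDomain N.r D (some ⟨N.tgt i, N.s₂ i⟩) = 0 := by
  classical
  rw [Fermat.Agent.S18Key.mapDomain_apply_eq_sum]
  exact Finset.sum_eq_zero fun P _ => if_neg (N.r_ne_node₂ P i)

/-- **lifting of nodal tuples** (from GL-VEQ for the trivial datum): a nodal tuple of functions
which are units at the branches is the tuple of reductions of a function with ordinary
divisor. -/
theorem exists_lift_nodal [Fintype κ] [Nonempty κ] [Fintype ι] (N : GraphSetup K F k κ Fk ι)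
    (hVEq : GlueVEqStatement N) (hOrd : GlueOrdOfGenericStatement N)
    (hCover : GlueCoverStatement N) (hrel : N.GenusRel) {n : ℕ} (hn : n ≠ 0)
    {H : ∀ c, Fk c} (hU : N.UnitAtBranches H) (hNod : N.IsNodalTuple H) :
    ∃ ψ : F, ψ ≠ 0 ∧ (∀ c, ψ ∈ (N.S c).Ov) ∧ (∀ c, (N.S c).red ψ = H c) ∧
      ∀ P : Place K F, P.ord ψ ≠ 0 → N.IsOrd P := by
  obtain ⟨R, hR, hHL⟩ := hCover H (fun i => ⟨(hU.2 i).1.ge, (hU.2 i).2.ge⟩)
  set d₀ := GlueData.triv N n with hd₀
  obtain ⟨ζ, -, hV⟩ := hVEq hrel n hn d₀ R hR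
  -- the constant `1` lies in `V(R)`
  have h1L : (1 : F) ∈ riemannRochSpace (R + d₀.D) := by
    rw [hd₀, GlueData.triv_D, add_zero]
    have := algebraMap_mem_riemannRochSpace_zero (K := K) (F := F) 1
    rw [map_one] at this
    exact riemannRochSpace_mono hR.nonneg this
  have h1V : (fun c => (1 : Fk c)) ∈ d₀.V R := by
    refine ⟨1, ⟨h1L, fun c => ?_⟩, ?_⟩
    · rw [hd₀]
      simp only [GlueData.triv, one_smul]
      exact one_mem _
    · funext c
      rw [hd₀, GlueData.triv_A, ValSetup.red_one]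
  rw [hV] at h1V
  have hζ1 : ∀ i, ζ i = 1 := by
    intro i
    obtain ⟨x, hx1, hx2⟩ := h1V.2 i
    have e2 : x = 1 := hx2.unique (valAt_one _)
    have e1 : ζ i * x = 1 := hx1.unique (valAt_one _)
    rw [e2, mul_one] at e1
    exact e1
  -- `H` lies in the twisted space
  have hHV : H ∈ d₀.V R := by
    rw [hV]
    refine ⟨hHL, fun i => ?_⟩
    obtain ⟨x, hx1, hx2⟩ := hNod i
    exact ⟨x, by rw [hζ1 i, one_mul]; exact hx1, hx2⟩
  obtain ⟨ψ, hψ, hHψ⟩ := hHV
  have hredψ : ∀ c, (N.S c).red ψ = H c := by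
    intro c
    rw [hHψ, hd₀, GlueData.triv_A]
  have hψmem : ∀ c, ψ ∈ (N.S c).Ov := fun c =>
    (N.S c).mem_of_red_ne_zero (by rw [hredψ c]; exact hU.1 c)
  have hψ0 : ψ ≠ 0 := by
    obtain ⟨c⟩ := ‹Nonempty κ›
    exact (N.S c).ne_zero_of_red_ne_zero (by rw [hredψ c]; exact hU.1 c)
  refine ⟨ψ, hψ0, hψmem, hredψ, fun P hP => ?_⟩
  have hUA : N.UnitAtBranches (d₀.A ψ) := by
    rw [← hHψ]
    exact hU
  have := hOrd n hn d₀ R hR.nonneg hR.ord ψ hψ0 hψ hUA P
  rw [hd₀, GlueData.triv_D, Finsupp.zero_apply, add_zero] at this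
  exact this hP

/-- **(G-TORIC)**. -/
theorem graphToric_of [Fintype κ] [Nonempty κ] [Fintype ι] (N : GraphSetup K F k κ Fk ι)
    (hKey : GraphKeyStatement N) (hVEq : GlueVEqStatement N)
    (hOrd : GlueOrdOfGenericStatement N) (hCover : GlueCoverStatement N) :
    GraphToricStatement N := by
  intro hrel n hn0 c₀ hnA g D hg hdiv hDord a H ha hred hU hNod
  have hn : n ≠ 0 := by
    rintro rfl
    exact hn0 Nat.cast_zero
  have hnZ : (n : ℤ) ≠ 0 := by exact_mod_cast hn
  obtain ⟨ψ, hψ0, hψmem, hredψ, hψord⟩ := exists_lift_nodal N hVEq hOrd hCover hrel hn hU hNod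
  have hF := (N.S c₀).hF
  set g' : F := g * (ψ ^ n)⁻¹ with hg'
  set D' : Divisor K F := D - divOf hF ψ with hD'
  have hψn : ψ ^ n ≠ 0 := pow_ne_zero n hψ0
  have hg'0 : g' ≠ 0 := mul_ne_zero hg (inv_ne_zero hψn)
  have hordg' : ∀ P : Place K F, P.ord g' = n * D' P := by
    intro P
    rw [hg', P.ord_mul hg (inv_ne_zero hψn), P.ord_inv, ord_pow_nat, hdiv, hD', Finsupp.sub_apply,
      divOf_apply]
    ring
  have hdivg' : divOf hF g' = n • D' := by
    ext P
    rw [divOf_apply, hordg', Finsupp.smul_apply]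
    simp
  -- degree
  have hdivg : divOf hF g = n • D := by
    ext P
    rw [divOf_apply, hdiv, Finsupp.smul_apply]
    simp
  have hdegD : Divisor.degree D = 0 := by
    have h := degree_divOf hF g
    rw [hdivg, map_nsmul, nsmul_eq_mul] at h
    rcases mul_eq_zero.mp h with h | h
    · exact absurd h hnZ
    · exact h
  have hdegD' : Divisor.degree D' = 0 := by
    rw [hD', map_sub, hdegD, degree_divOf, sub_zero]
  -- ordinary
  have hD'ord : N.IsOrdDiv D' := by
    intro P hP
    by_cases h : D P = 0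
    · apply hψord P
      intro h0
      apply hP
      rw [hD', Finsupp.sub_apply, divOf_apply, h, h0, sub_zero]
    · exact hDord P h
  -- trivial reduction
  have hred' : ∀ Q, Finsupp.mapDomain N.r D' (some Q) = 0 := by
    classical
    rintro ⟨c, Q⟩
    by_cases hb1 : ∃ i, (⟨c, Q⟩ : Σ c, Place k (Fk c)) = ⟨N.src i, N.s₁ i⟩
    · obtain ⟨i, hi⟩ := hb1
      rw [hi]
      exact toric_mapDomain_branch₁ N D' i
    by_cases hb2 : ∃ i, (⟨c, Q⟩ : Σ c, Place k (Fk c)) = ⟨N.tgt i, N.s₂ i⟩
    · obtain ⟨i, hi⟩ := hb2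
      rw [hi]
      exact toric_mapDomain_branch₂ N D' i
    push Not at hb1 hb2
    set f : F := g' / algebraMap K F (a c) with hf
    have hac : algebraMap K F (a c) ≠ 0 := (map_ne_zero _).mpr (ha c)
    have hHn : H c ^ n ≠ 0 := pow_ne_zero n (hU.1 c)
    have hGred : (N.S c).red (g / algebraMap K F (a c)) ≠ 0 := by rw [hred c]; exact hHn
    have hGmem := (N.S c).mem_of_red_ne_zero hGred
    have hψred : (N.S c).red ψ ≠ 0 := by rw [hredψ c]; exact hU.1 c
    have hψinv := (N.S c).inv_mem_of_red_ne_zero hψred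
    have hfeq : f = (g / algebraMap K F (a c)) * (ψ⁻¹) ^ n := by
      rw [hf, hg', inv_pow]
      field_simp
    have hfred : (N.S c).red f = 1 := by
      rw [hfeq, (N.S c).red_mul hGmem (pow_mem hψinv n), hred c, (N.S c).red_pow hψinv,
        (N.S c).red_inv (hψmem c) hψinv hψ0, hredψ c, ← mul_pow,
        mul_inv_cancel₀ (hU.1 c), one_pow]
    have hfne : (N.S c).red f ≠ 0 := by rw [hfred]; exact one_ne_zero
    have hpush := N.push c f ((N.S c).mem_of_red_ne_zero hfne)
      ((N.S c).inv_mem_of_red_ne_zero hfne) ((N.S c).ne_zero_of_red_ne_zero hfne) Q hb1 hb2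
    rw [hfred, Place.ord_one] at hpush
    have hdivf : divOf (N.S c).hF f = n • D' := by
      ext P
      rw [divOf_apply, hf, div_eq_mul_inv, P.ord_mul hg'0 (inv_ne_zero hac), P.ord_inv,
        Fermat.Agent.S24Res.ord_algebraMap, neg_zero, add_zero, hordg', Finsupp.smul_apply]
      simp
    rw [hdivf, Finsupp.mapDomain_smul, Finsupp.smul_apply, nsmul_eq_mul] at hpush
    rcases mul_eq_zero.mp hpush with h | h
    · exact absurd h hnZ
    · exact h
  have hprin : n • D' ∈ Divisor.principal (K := K) (F := F) := by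
    rw [← hdivg']
    exact inj_divOf_mem_principal hF hg'0
  have hD'prin := hKey hrel n hn0 c₀ hnA D' hdegD' ⟨hD'ord, hred'⟩ hprin
  have hDeq : D = D' + divOf hF ψ := by
    rw [hD', sub_add_cancel]
  rw [hDeq]
  exact (Divisor.principal (K := K) (F := F)).add_mem hD'prin (inj_divOf_mem_principal hF hψ0)

end Fermat.Agent.BadRedG
end
end MergeWrap_Lib_BadRed_Graph_GlueToric

section MergeWrap_Lib_BadRed_Graph_GlueCover -- from Lib/BadRed/Graph/GlueCover.lean

set_option autoImplicit false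
set_option linter.unusedSectionVars false

/-!
# Cluster G, abstract graph package, GLUING: seat GL-COVER (helper95)

`glueCover : GlueCoverStatement N`: every tuple `(y_c)` of functions on the components which is
regular at all the branches lies in `∏_c L(r_* R)` for a BIG base divisor `R`.

Proof: the polar divisors `(y_c)_∞` avoid the branches, so they are the reduction of an
effective ordinary divisor `R₁` (`GraphSetup.exists_ordLift`, seat GL-RED); enlarge `R₁` to a big
divisor (`exists_gBig_ge`).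

* `gluePolar h f` : the polar divisor `Σ_Q max(0, -ord_Q f) · Q` of a function;
* `mem_riemannRochSpace_gluePolar` : `f ∈ L((f)_∞)`;
* `glueCover` : the statement.
-/

noncomputable section

open AlgebraicCurve Fermat.Agent.RR Fermat.Agent.Deuring

namespace Fermat.Agent.BadRedG

open Fermat.Agent.BadRed

section Polar

variable {k E : Type*} [Field k] [Field E] [Algebra k E]

/-- the polar divisor `Σ_Q max(0, -ord_Q f) · Q` of a function. -/
def gluePolar (h : IsRRField k E) (f : E) : Divisor k E :=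
  (divOf h f).mapRange (fun n : ℤ => max 0 (-n)) (by simp)

theorem gluePolar_apply (h : IsRRField k E) (f : E) (Q : Place k E) :
    gluePolar h f Q = max 0 (-Q.ord f) := by
  unfold gluePolar
  rw [Finsupp.mapRange_apply, divOf_apply]

theorem gluePolar_nonneg (h : IsRRField k E) (f : E) : 0 ≤ gluePolar h f := by
  intro Q
  rw [gluePolar_apply]
  exact le_max_left _ _

theorem gluePolar_eq_zero_of_ord_nonneg (h : IsRRField k E) {f : E} {Q : Place k E}
    (hQ : 0 ≤ Q.ord f) : gluePolar h f Q = 0 := by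
  rw [gluePolar_apply]
  exact max_eq_left (by omega)

theorem mem_riemannRochSpace_gluePolar (h : IsRRField k E) (f : E) :
    f ∈ riemannRochSpace (gluePolar h f) := by
  rw [mem_riemannRochSpace_iff]
  intro Q
  right
  rw [gluePolar_apply]
  have := le_max_right (0 : ℤ) (-Q.ord f)
  omega

end Polar

variable {K F k : Type*} [Field K] [Field F] [Algebra K F] [Field k]
  {κ : Type*} {Fk : κ → Type*} [∀ c, Field (Fk c)] [∀ c, Algebra k (Fk c)] {ι : Type*}

/-- **(GL-COVER)**: every tuple which is regular at the branches lies in `∏ L(r_* R)` for a big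
base divisor `R`. -/
theorem glueCover [Fintype κ] [Fintype ι] [Infinite k] (N : GraphSetup K F k κ Fk ι) :
    GlueCoverStatement N := by
  intro y hy
  obtain ⟨R₁, hR₁ord, hR₁red, hR₁pos⟩ := N.exists_ordLift
    (fun c => gluePolar (N.S c).hFk (y c))
    (fun i => gluePolar_eq_zero_of_ord_nonneg _ (hy i).1)
    (fun i => gluePolar_eq_zero_of_ord_nonneg _ (hy i).2)
  have hR₁0 : 0 ≤ R₁ := hR₁pos fun c => gluePolar_nonneg _ _
  obtain ⟨R, hR, hle⟩ := exists_gBig_ge N hR₁0 hR₁ord
  refine ⟨R, hR, fun c => ?_⟩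
  refine riemannRochSpace_mono (N.redDiv_mono c hle) ?_
  rw [hR₁red c]
  exact mem_riemannRochSpace_gluePolar _ _

end Fermat.Agent.BadRedG
end
end MergeWrap_Lib_BadRed_Graph_GlueCover

section MergeWrap_Lib_BadRed_Graph_GlueJoint -- from Lib/BadRed/Graph/GlueJoint.lean

set_option autoImplicit false
set_option linter.unusedSectionVars false
set_option linter.style.haveILetI false

/-!
# Cluster G, gluing, seat GL-JL: the JOINT LATTICE property WITH SCALINGS  (helper18)

`F / K` with constant reductions `S c : ValSetup K F k (Fk c)` (`c : κ`, `κ` finite, nonempty) over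
the same valuation ring `A` of `K`, each with the lattice property, and constants `b c ≠ 0`.  For a
finite-dimensional `K`-subspace `W` of `F` the scaled joint lattice
`{φ ∈ W : b_c φ ∈ O_c for all c}` is free on a `K`-basis `u` of `W`, and the tuples
`(red_c (b_c u_i))_c` are `k`-linearly independent.  Same proof as `RedSpaceG.lean` (Hahn-Banach for
the maximum of the scaled norms `|b_c| ‖x‖_c`).

* `famsc_exists_normalise` : `x ≠ 0` is a constant times an element of the scaled joint lattice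
  which is a unit for one `c`;
* `famsc_exists_functional`: one valuation: a unit `e ∈ W ∩ O` has a functional `φ` with `φ e = 1`
  integral on `W ∩ O`;
* `famsc_exists_split`, `famsc_exists_basis`, `famsc_linearIndependent_red`;
* `glueJoint : GlueJointStatement N`  (`[Finite κ] [Nonempty κ]`).
-/

noncomputable section

open AlgebraicCurve Fermat.Agent.RR Fermat.Agent.Deuring Fermat.Agent.GaussInt

namespace Fermat.Agent.BadRedG

open Fermat.Agent.BadRed

section Family

variable {K F k : Type*} [Field K] [Field F] [Algebra K F] [Field k]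
  {κ : Type*} {Fk : κ → Type*} [∀ c, Field (Fk c)] [∀ c, Algebra k (Fk c)]
  (S : ∀ c : κ, ValSetup K F k (Fk c))

/-- `x ≠ 0` is a constant times an element of the scaled joint lattice which is a unit for one of
the `c`. -/
theorem famsc_exists_normalise [Finite κ] [Nonempty κ] (hA : ∀ c c' : κ, (S c).A = (S c').A)
    (b : κ → K) (hb : ∀ c, b c ≠ 0) {x : F} (hx : x ≠ 0) :
    ∃ d : K, d ≠ 0 ∧ (∀ c, b c • (d⁻¹ • x) ∈ (S c).Ov) ∧
      ∃ c₁, (b c₁ • (d⁻¹ • x))⁻¹ ∈ (S c₁).Ov := by
  classical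
  cases nonempty_fintype κ
  choose d hd0 hd1 hd2 using fun c => (S c).scale (b c • x) (smul_ne_zero (hb c) hx)
  obtain ⟨c₀⟩ := ‹Nonempty κ›
  obtain ⟨c₁, -, hmax⟩ := exists_max_entry (S c₀).A Finset.univ ⟨c₀, Finset.mem_univ _⟩ d
  have hmax' : ∀ c, d c / d c₁ ∈ (S c₀).A := fun c => by
    rcases hmax c (Finset.mem_univ _) with h | h
    · exact absurd h.1 (hd0 c₁)
    · exact h.2
  have key : ∀ (c : κ) (t : K), b c • (t⁻¹ • x) = (b c • x) * (algebraMap K F t)⁻¹ := fun c t => by
    rw [Algebra.smul_def, Algebra.smul_def, Algebra.smul_def, map_inv₀]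
    ring
  refine ⟨d c₁, hd0 c₁, fun c => ?_, c₁, ?_⟩
  · have hdc : algebraMap K F (d c) ≠ 0 := by simpa using hd0 c
    have hdc₁ : algebraMap K F (d c₁) ≠ 0 := by simpa using hd0 c₁
    have e : b c • ((d c₁)⁻¹ • x) =
        algebraMap K F (d c / d c₁) * ((b c • x) * (algebraMap K F (d c))⁻¹) := by
      rw [key, map_div₀]
      field_simp
    rw [e]
    exact mul_mem ((S c).algebraMap_mem (hA c₀ c ▸ hmax' c)) (hd1 c)
  · rw [key]
    exact hd2 c₁

/-- one valuation: `e ∈ W` with `e⁻¹ ∈ O` has a functional `φ` on `W` with `φ e = 1` which takes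
integral values on `W ∩ O`. -/
theorem famsc_exists_functional {Fk₁ : Type*} [Field Fk₁] [Algebra k Fk₁]
    (S₁ : ValSetup K F k Fk₁) (hL : HasLattice S₁) (W : Submodule K F) [FiniteDimensional K W]
    {e : F} (heW : e ∈ W) (he0 : e ≠ 0) (hunit : e⁻¹ ∈ S₁.Ov) :
    ∃ φ : W →ₗ[K] K, φ ⟨e, heW⟩ = 1 ∧ ∀ w : W, (w : F) ∈ S₁.Ov → φ w ∈ S₁.A := by
  classical
  obtain ⟨n, w, hwW, hwO, hwli, hwspan, hworth⟩ :=
    orthLattice_of_hasLattice S₁ hL W inferInstance
  set w' : Fin n → W := fun i => ⟨w i, hwW i⟩ with hw'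
  have hw'li : LinearIndependent K w' := by
    apply LinearIndependent.of_comp W.subtype
    exact hwli
  have hw'span : ⊤ ≤ Submodule.span K (Set.range w') := by
    intro y _
    have hy : (y : F) ∈ Submodule.span K (Set.range w) := by rw [hwspan]; exact y.2
    have h2 : Submodule.span K (Set.range w) = (Submodule.span K (Set.range w')).map W.subtype := by
      rw [Submodule.map_span, ← Set.range_comp]
      rfl
    rw [h2] at hy
    obtain ⟨y', hy', hyy'⟩ := hy
    have : y' = y := Subtype.ext hyy'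
    rw [← this]
    exact hy'
  set B : Module.Basis (Fin n) K W := Module.Basis.mk hw'li hw'span with hB
  have hBi : ∀ i, ((B i : W) : F) = w i := fun i => by
    rw [hB, Module.Basis.mk_apply]
  have horth' : ∀ c : Fin n → K, ∑ i, c i • ((B i : W) : F) ∈ S₁.Ov → ∀ i, c i ∈ S₁.A := by
    intro c hc
    apply hworth c
    have : ∑ i, c i • w i = ∑ i, c i • ((B i : W) : F) :=
      Finset.sum_congr rfl fun i _ => by rw [hBi]
    rw [this]
    exact hc
  have hrepr : ∀ y : W, (y : F) ∈ S₁.Ov → ∀ i, B.repr y i ∈ S₁.A := fun y hy i =>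
    repr_mem_of_orth (A := S₁.A) B horth' y hy i
  -- the coordinates of `e`
  set b : Fin n → K := fun i => B.repr ⟨e, heW⟩ i with hb
  have hsum : e = ∑ i, b i • w i := by
    have h := congrArg (Subtype.val) (B.sum_repr ⟨e, heW⟩)
    simp only [Submodule.coe_sum, Submodule.coe_smul] at h
    rw [← h]
    exact Finset.sum_congr rfl fun i _ => by rw [hBi]
  have hbne : ∃ i, b i ≠ 0 := by
    by_contra hne
    apply he0
    rw [hsum]
    refine Finset.sum_eq_zero fun i _ => ?_
    have hi : b i = 0 := by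
      by_contra h
      exact hne ⟨i, h⟩
    rw [hi, zero_smul]
  obtain ⟨i₁, hi₁⟩ := hbne
  obtain ⟨i₀, -, hmax⟩ := exists_max_entry S₁.A Finset.univ ⟨i₁, Finset.mem_univ _⟩ b
  have hb0 : b i₀ ≠ 0 := by
    rcases hmax i₁ (Finset.mem_univ _) with h | h
    · exact absurd h.2 hi₁
    · exact h.1
  have hmax' : ∀ i, b i / b i₀ ∈ S₁.A := fun i => by
    rcases hmax i (Finset.mem_univ _) with h | h
    · exact absurd h.1 hb0
    · exact h.2
  -- `b i₀` is a unit of `A`
  have hbinv : (b i₀)⁻¹ ∈ S₁.A := by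
    have h1 : (b i₀)⁻¹ • e ∈ S₁.Ov := by
      have : (b i₀)⁻¹ • e = ∑ i, (b i / b i₀) • w i := by
        rw [hsum, Finset.smul_sum]
        exact Finset.sum_congr rfl fun i _ => by rw [smul_smul, div_eq_inv_mul]
      rw [this]
      exact sum_smul_mem_Ov S₁ _ _ w hmax' hwO
    have h2 : algebraMap K F (b i₀)⁻¹ = ((b i₀)⁻¹ • e) * e⁻¹ := by
      rw [Algebra.smul_def, mul_assoc, mul_inv_cancel₀ he0, mul_one]
    rw [← S₁.mem_Ov_iff, h2]
    exact mul_mem h1 hunit
  refine ⟨(b i₀)⁻¹ • B.coord i₀, ?_, fun y hy => ?_⟩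
  · rw [LinearMap.smul_apply, Module.Basis.coord_apply, smul_eq_mul]
    exact inv_mul_cancel₀ hb0
  · rw [LinearMap.smul_apply, Module.Basis.coord_apply, smul_eq_mul]
    exact mul_mem hbinv (hrepr y hy i₀)

/-- **Hahn-Banach for the maximum of the scaled norms**: a vector `e` of the scaled joint lattice
of `W` and a functional `φ` on `W` with `φ e = 1` which takes integral values on
`{w ∈ W : b_{c₁} w ∈ O_{c₁}}`. -/
theorem famsc_exists_split [Finite κ] [Nonempty κ] (hA : ∀ c c' : κ, (S c).A = (S c').A)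
    (hL : ∀ c, HasLattice (S c)) (b : κ → K) (hb : ∀ c, b c ≠ 0)
    (W : Submodule K F) [FiniteDimensional K W] (hW : W ≠ ⊥) :
    ∃ (e : F) (φ : W →ₗ[K] K), e ∈ W ∧ e ≠ 0 ∧ (∀ he : e ∈ W, φ ⟨e, he⟩ = 1) ∧
      (∀ c, b c • e ∈ (S c).Ov) ∧
      ∃ c₁, ∀ w : W, b c₁ • (w : F) ∈ (S c₁).Ov → φ w ∈ (S c₁).A := by
  classical
  obtain ⟨x, hxW, hx0⟩ := Submodule.exists_mem_ne_zero_of_ne_bot hW
  obtain ⟨d, hd0, hint, c₁, hunit⟩ := famsc_exists_normalise S hA b hb hx0
  set e : F := d⁻¹ • x with he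
  have heW : e ∈ W := W.smul_mem _ hxW
  have he0 : e ≠ 0 := smul_ne_zero (inv_ne_zero hd0) hx0
  have he'W : b c₁ • e ∈ W := W.smul_mem _ heW
  have he'0 : b c₁ • e ≠ 0 := smul_ne_zero (hb c₁) he0
  obtain ⟨φ', hφ'e, hφ'A⟩ :=
    famsc_exists_functional (S c₁) (hL c₁) W he'W he'0 hunit
  refine ⟨e, b c₁ • φ', heW, he0, fun he' => ?_, hint, c₁, fun w hw => ?_⟩
  · rw [LinearMap.smul_apply, ← map_smul]
    exact hφ'e
  · rw [LinearMap.smul_apply, ← map_smul]
    exact hφ'A (b c₁ • w) hw

/-- **Orthonormal basis for the scaled family**, by induction on the dimension. -/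
theorem famsc_exists_basis_aux [Finite κ] [Nonempty κ] (hA : ∀ c c' : κ, (S c).A = (S c').A)
    (hL : ∀ c, HasLattice (S c)) (b : κ → K) (hb : ∀ c, b c ≠ 0) :
    ∀ (d : ℕ) (W : Submodule K F), FiniteDimensional K W → Module.finrank K W = d →
      ∃ u : Fin d → F, (∀ i, u i ∈ W) ∧ (∀ i c, b c • u i ∈ (S c).Ov) ∧ LinearIndependent K u ∧
        Submodule.span K (Set.range u) = W ∧
        ∀ a : Fin d → K, (∀ c, b c • ∑ i, a i • u i ∈ (S c).Ov) → ∀ i c, a i ∈ (S c).A := by
  classical
  intro d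
  induction d with
  | zero =>
    intro W hfd hW
    have hbot : W = ⊥ := Submodule.finrank_eq_zero.mp hW
    refine ⟨Fin.elim0, fun i => i.elim0, fun i => i.elim0, linearIndependent_empty_type, ?_,
      fun _ _ i => i.elim0⟩
    rw [hbot]
    have : Set.range (Fin.elim0 : Fin 0 → F) = ∅ := Set.range_eq_empty _
    rw [this, Submodule.span_empty]
  | succ d ih =>
    intro W hfd hW
    have hne : W ≠ ⊥ := by
      intro h0
      rw [h0, finrank_bot] at hW
      omega
    obtain ⟨e, φ, heW, he0, hφe, heO, c₁, hφA⟩ := famsc_exists_split S hA hL b hb W hne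
    have hφe' : φ ⟨e, heW⟩ = 1 := hφe heW
    set W' : Submodule K F := (LinearMap.ker φ).map W.subtype with hW'
    have hW'le : W' ≤ W := by
      rintro _ ⟨x, -, rfl⟩
      exact x.2
    have hmemW' : ∀ x : F, x ∈ W' ↔ ∃ hx : x ∈ W, φ ⟨x, hx⟩ = 0 := by
      intro x
      constructor
      · rintro ⟨y, hy, rfl⟩
        exact ⟨y.2, hy⟩
      · rintro ⟨hx, h0⟩
        exact ⟨⟨x, hx⟩, h0, rfl⟩
    have hfdW' : FiniteDimensional K W' := Submodule.finiteDimensional_of_le hW'le
    have hsurj : Function.Surjective φ := by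
      intro c
      refine ⟨c • ⟨e, heW⟩, ?_⟩
      rw [map_smul, hφe', smul_eq_mul, mul_one]
    have hfr : Module.finrank K W' = d := by
      have h1 : Module.finrank K W' = Module.finrank K (LinearMap.ker φ) :=
        (LinearEquiv.finrank_eq
          (Submodule.equivMapOfInjective W.subtype W.injective_subtype (LinearMap.ker φ))).symm
      have h2 := LinearMap.finrank_range_add_finrank_ker φ
      rw [LinearMap.range_eq_top.mpr hsurj, finrank_top, Module.finrank_self, hW] at h2
      omega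
    obtain ⟨u', hu'W, hu'O, hu'li, hu'span, hu'orth⟩ := ih W' hfdW' hfr
    -- the decomposition of a linear combination
    have hsum : ∀ a : Fin (d + 1) → K,
        ∑ i, a i • (Fin.cons e u' : Fin (d + 1) → F) i =
          a 0 • e + ∑ i : Fin d, a i.succ • u' i := by
      intro a
      rw [Fin.sum_univ_succ]
      simp only [Fin.cons_zero, Fin.cons_succ]
    have hrestW : ∀ a : Fin d → K, ∑ i, a i • u' i ∈ W' := fun a =>
      W'.sum_mem fun i _ => W'.smul_mem _ (hu'W i)
    have hφsum : ∀ a : Fin (d + 1) → K,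
        ∀ h : a 0 • e + ∑ i : Fin d, a i.succ • u' i ∈ W,
          φ ⟨a 0 • e + ∑ i : Fin d, a i.succ • u' i, h⟩ = a 0 := by
      intro a h
      obtain ⟨hx, h0⟩ := (hmemW' _).mp (hrestW fun i => a i.succ)
      have : (⟨a 0 • e + ∑ i : Fin d, a i.succ • u' i, h⟩ : W) =
          a 0 • ⟨e, heW⟩ + ⟨∑ i : Fin d, a i.succ • u' i, hx⟩ := rfl
      rw [this, map_add, map_smul, hφe', h0, add_zero, smul_eq_mul, mul_one]
    refine ⟨Fin.cons e u', ?_, ?_, ?_, ?_, ?_⟩
    · intro i
      refine Fin.cases ?_ (fun j => ?_) i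
      · simpa only [Fin.cons_zero] using heW
      · simpa only [Fin.cons_succ] using hW'le (hu'W j)
    · intro i c
      refine Fin.cases ?_ (fun j => ?_) i
      · simpa only [Fin.cons_zero] using heO c
      · simpa only [Fin.cons_succ] using hu'O j c
    · rw [linearIndependent_finCons]
      refine ⟨hu'li, ?_⟩
      rw [hu'span, hmemW']
      rintro ⟨hx, h0⟩
      rw [hφe hx] at h0
      exact one_ne_zero h0
    · rw [Fin.range_cons, Submodule.span_insert, hu'span]
      apply le_antisymm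
      · apply sup_le
        · rw [Submodule.span_le]
          rintro _ rfl
          exact heW
        · exact hW'le
      · intro w hw
        have h1 : w = φ ⟨w, hw⟩ • e + (w - φ ⟨w, hw⟩ • e) := by ring
        rw [h1]
        apply Submodule.add_mem
        · exact Submodule.mem_sup_left
            (Submodule.smul_mem _ _ (Submodule.mem_span_singleton_self e))
        · apply Submodule.mem_sup_right
          rw [hmemW']
          have hmem : w - φ ⟨w, hw⟩ • e ∈ W := W.sub_mem hw (W.smul_mem _ heW)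
          refine ⟨hmem, ?_⟩
          have : (⟨w - φ ⟨w, hw⟩ • e, hmem⟩ : W) = ⟨w, hw⟩ - φ ⟨w, hw⟩ • ⟨e, heW⟩ := rfl
          rw [this, map_sub, map_smul, hφe', smul_eq_mul, mul_one, sub_self]
    · intro a ha
      have ha' : ∀ c, b c • (a 0 • e + ∑ i : Fin d, a i.succ • u' i) ∈ (S c).Ov := fun c => by
        rw [← hsum]
        exact ha c
      have hmemW : a 0 • e + ∑ i : Fin d, a i.succ • u' i ∈ W :=
        W.add_mem (W.smul_mem _ heW) (hW'le (hrestW _))
      have h0 : a 0 ∈ (S c₁).A := by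
        have := hφA ⟨_, hmemW⟩ (ha' c₁)
        rwa [hφsum a hmemW] at this
      have h0c : ∀ c, a 0 ∈ (S c).A := fun c => hA c₁ c ▸ h0
      have hrest : ∀ c, b c • ∑ i : Fin d, a i.succ • u' i ∈ (S c).Ov := fun c => by
        have := sub_mem (ha' c) ((S c).smul_mem (h0c c) (heO c))
        rwa [smul_add, smul_comm (b c) (a 0) e, add_sub_cancel_left] at this
      have hall := hu'orth (fun i => a i.succ) hrest
      intro i c
      refine Fin.cases ?_ (fun j => ?_) i
      · exact h0c c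
      · exact hall j c

/-- **Orthonormal basis for the scaled family**: every finite-dimensional `K`-subspace `W` of `F`
has a `K`-basis `u` in the scaled joint lattice which is an `A`-basis of it. -/
theorem famsc_exists_basis [Finite κ] [Nonempty κ] (hA : ∀ c c' : κ, (S c).A = (S c').A)
    (hL : ∀ c, HasLattice (S c)) (b : κ → K) (hb : ∀ c, b c ≠ 0)
    (W : Submodule K F) [hfd : FiniteDimensional K W] :
    ∃ u : Fin (Module.finrank K W) → F, (∀ i, u i ∈ W) ∧ (∀ i c, b c • u i ∈ (S c).Ov) ∧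
      LinearIndependent K u ∧ Submodule.span K (Set.range u) = W ∧
      ∀ a : Fin (Module.finrank K W) → K, (∀ c, b c • ∑ i, a i • u i ∈ (S c).Ov) →
        ∀ i c, a i ∈ (S c).A :=
  famsc_exists_basis_aux S hA hL b hb _ W hfd rfl

/-- the scaled joint reductions of an orthonormal basis for the scaled family are `k`-linearly
independent. -/
theorem famsc_linearIndependent_red [Finite κ] [Nonempty κ]
    (hA : ∀ c c' : κ, (S c).A = (S c').A)
    (hres : ∀ (c c' : κ) (x : K) (h : x ∈ (S c).A) (h' : x ∈ (S c').A),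
      (S c).res ⟨x, h⟩ = (S c').res ⟨x, h'⟩)
    (b : κ → K) (hb : ∀ c, b c ≠ 0)
    {n : ℕ} (u : Fin n → F) (hu : ∀ i c, b c • u i ∈ (S c).Ov) (huli : LinearIndependent K u)
    (horth : ∀ a : Fin n → K, (∀ c, b c • ∑ i, a i • u i ∈ (S c).Ov) → ∀ i c, a i ∈ (S c).A) :
    LinearIndependent k (fun i => (fun c => (S c).red (b c • u i) : ∀ c, Fk c)) := by
  classical
  obtain ⟨c₀⟩ := ‹Nonempty κ›
  haveI : Nonempty κ := ⟨c₀⟩
  rw [Fintype.linearIndependent_iff]
  intro g hg
  -- lift the coefficients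
  choose a ha using fun i => (S c₀).res_surj (g i)
  have haA : ∀ c i, ((a i : (S c₀).A) : K) ∈ (S c).A := fun c i => hA c₀ c ▸ (a i).2
  set x : F := ∑ i, ((a i : (S c₀).A) : K) • u i with hx
  have hbx : ∀ c, b c • x = ∑ i, ((a i : (S c₀).A) : K) • (b c • u i) := fun c => by
    rw [hx, Finset.smul_sum]
    exact Finset.sum_congr rfl fun i _ => smul_comm _ _ _
  have hxO : ∀ c, b c • x ∈ (S c).Ov := fun c => by
    rw [hbx]
    exact sum_smul_mem_Ov (S c) _ _ _ (haA c) (fun i => hu i c)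
  have hr : ∀ c, (S c).red (b c • x) = 0 := by
    intro c
    have hgc : ∑ i, g i • (S c).red (b c • u i) = 0 := by
      have := congrFun hg c
      simpa only [Finset.sum_apply, Pi.smul_apply, Pi.zero_apply] using this
    rw [hbx, fam_red_sum_smul S c _ _ (haA c) (fun i => hu i c), ← hgc]
    refine Finset.sum_congr rfl fun i _ => ?_
    rw [← ha i, hres c c₀ _ (haA c i) (a i).2]
  have hzero : ∀ (t : K) (ht : t ∈ (S c₀).A), t⁻¹ ∉ (S c₀).A → (S c₀).res ⟨t, ht⟩ = 0 := by
    intro t ht hinv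
    by_cases ht0 : t = 0
    · subst ht0
      exact map_zero (S c₀).res
    · obtain ⟨h', hres'⟩ := (S c₀).res_inv_eq_zero hinv
      have : (⟨t, ht⟩ : (S c₀).A) = ⟨t⁻¹⁻¹, h'⟩ := Subtype.ext (inv_inv t).symm
      rw [this]
      exact hres'
  intro i
  rw [← ha i]
  by_cases hx0 : x = 0
  · have h := Fintype.linearIndependent_iff.mp huli (fun i => ((a i : (S c₀).A) : K))
      (hx ▸ hx0) i
    have : a i = 0 := Subtype.ext h
    rw [this, map_zero]
  · obtain ⟨d, hd0, hint, c₁, hunit⟩ := famsc_exists_normalise S hA b hb hx0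
    have hd' : algebraMap K F d ≠ 0 := by simpa using hd0
    have hbx0 : b c₁ • x ≠ 0 := smul_ne_zero (hb c₁) hx0
    have hcomm : b c₁ • (d⁻¹ • x) = d⁻¹ • (b c₁ • x) := smul_comm _ _ _
    -- `d` is a nonunit of `A`
    have hdA : d ∈ (S c₁).A ∧ d⁻¹ ∉ (S c₁).A := by
      have hmem : algebraMap K F d ∈ (S c₁).Ov := by
        have : algebraMap K F d = (b c₁ • x) * (b c₁ • (d⁻¹ • x))⁻¹ := by
          rw [hcomm, Algebra.smul_def d⁻¹, map_inv₀, mul_inv, inv_inv,
            mul_comm (algebraMap K F d), ← mul_assoc, mul_inv_cancel₀ hbx0, one_mul]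
        rw [this]
        exact mul_mem (hxO c₁) hunit
      refine ⟨((S c₁).mem_Ov_iff _).mp hmem, fun hinv => ?_⟩
      have h3 : (S c₁).red (b c₁ • (d⁻¹ • x)) = 0 := by
        rw [hcomm, (S c₁).red_smul hinv (hxO c₁), hr c₁, smul_zero]
      have hne : b c₁ • (d⁻¹ • x) ≠ 0 :=
        smul_ne_zero (hb c₁) (smul_ne_zero (inv_ne_zero hd0) hx0)
      exact ((S c₁).red_eq_zero_iff (hint c₁) hne).mp h3 hunit
    have hdA₀ : d ∈ (S c₀).A ∧ d⁻¹ ∉ (S c₀).A := by
      rw [hA c₀ c₁]
      exact hdA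
    have hsum : d⁻¹ • x = ∑ i, (d⁻¹ * ((a i : (S c₀).A) : K)) • u i := by
      rw [hx, Finset.smul_sum]
      exact Finset.sum_congr rfl fun i _ => smul_smul _ _ _
    have hai := horth _ (fun c => by rw [← hsum]; exact hint c) i c₀
    have hprod : a i = ⟨d, hdA₀.1⟩ * ⟨d⁻¹ * ((a i : (S c₀).A) : K), hai⟩ := by
      apply Subtype.ext
      show ((a i : (S c₀).A) : K) = d * (d⁻¹ * ((a i : (S c₀).A) : K))
      rw [← mul_assoc, mul_inv_cancel₀ hd0, one_mul]
    rw [hprod, map_mul, hzero d hdA₀.1 hdA₀.2, zero_mul]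

end Family

/-! ### The statement of the seat -/

section Statement

variable {K F k : Type*} [Field K] [Field F] [Algebra K F] [Field k]
  {κ : Type*} {Fk : κ → Type*} [∀ c, Field (Fk c)] [∀ c, Algebra k (Fk c)] {ι : Type*}

/-- **(GL-JL)** the joint lattice property with scalings, for a family of constant reductions. -/
theorem glueJoint_of [Finite κ] [Nonempty κ] (S : ∀ c : κ, ValSetup K F k (Fk c))
    (hA : ∀ c c' : κ, (S c).A = (S c').A)
    (hres : ∀ (c c' : κ) (x : K) (h : x ∈ (S c).A) (h' : x ∈ (S c').A),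
      (S c).res ⟨x, h⟩ = (S c').res ⟨x, h'⟩)
    (hL : ∀ c, HasLattice (S c)) (W : Submodule K F) (hW : FiniteDimensional K W)
    (b : κ → K) (hb : ∀ c, b c ≠ 0) :
    ∃ (r : ℕ) (w : Fin r → F), Module.finrank K W = r ∧ (∀ j, w j ∈ W) ∧
      (∀ j c, b c • w j ∈ (S c).Ov) ∧
      LinearIndependent k (fun j => (fun c => (S c).red (b c • w j) : ∀ c, Fk c)) := by
  obtain ⟨u, huW, huO, huli, -, horth⟩ := famsc_exists_basis S hA hL b hb W
  exact ⟨_, u, rfl, huW, huO, famsc_linearIndependent_red S hA hres b hb u huO huli horth⟩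

/-- **(GL-JL)** for a graph package. -/
theorem glueJoint [Finite κ] [Nonempty κ] (N : GraphSetup K F k κ Fk ι) :
    GlueJointStatement N := fun W hW b hb =>
  glueJoint_of N.S N.A_eq N.res_eq N.lat W hW b hb

/-- **(GL-JL)** for a graph core. -/
theorem GraphCore.glueJoint [Finite κ] [Nonempty κ] (C : GraphCore K F k κ Fk ι)
    (W : Submodule K F) (hW : FiniteDimensional K W) (b : κ → K) (hb : ∀ c, b c ≠ 0) :
    ∃ (r : ℕ) (w : Fin r → F), Module.finrank K W = r ∧ (∀ j, w j ∈ W) ∧
      (∀ j c, b c • w j ∈ (C.S c).Ov) ∧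
      LinearIndependent k (fun j => (fun c => (C.S c).red (b c • w j) : ∀ c, Fk c)) :=
  glueJoint_of C.S C.A_eq C.res_eq C.lat W hW b hb

end Statement

end Fermat.Agent.BadRedG
end
end MergeWrap_Lib_BadRed_Graph_GlueJoint

section MergeWrap_Lib_BadRed_Graph_GlueWire -- from Lib/BadRed/Graph/GlueWire.lean

set_option autoImplicit false

/-!
# Cluster G, abstract graph package: GLUING, seat GL-WIRE (helper91; sub-architect helper92)

The wiring of the GLUE seats.  The ONLY input which is not discharged here is the JOINT LATTICE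
property with scalings (`GlueJointStatement N`, seat GL-JL); everything else (`glueDegree`,
`glueTwistDim`, `glueGeneric`, `gluePush`, `glueNode`, `glueOrdOfGeneric`, `glueVEq_of`,
`graphOrd_of`, `glueCover`, `graphToric_of`) is on main.

* `glueVEq_of_joint   : GlueJointStatement N → GlueVEqStatement N`              (`[Infinite k]`)
* `graphOrd_of_vEq    : GlueVEqStatement N → GraphOrdStatement N`
* `graphOrd_of_joint  : GlueJointStatement N → GraphOrdStatement N`             (`[Infinite k]`)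
* `graphToric_of_key_joint : GraphKeyStatement N → GlueJointStatement N → GraphToricStatement N`
                                                                                (`[Infinite k]`)
* `graphToric_of_key_vEq : GraphKeyStatement N → GlueVEqStatement N → GraphToricStatement N`

With helper18's `glueJoint` (GL-JL) everything is UNCONDITIONAL (`[Infinite k]`):

* `glueVEq N : GlueVEqStatement N`,  `graphOrd N : GraphOrdStatement N`,
* `graphToric_of_key N : GraphKeyStatement N → GraphToricStatement N`.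
-/

noncomputable section

open AlgebraicCurve Fermat.Agent.RR Fermat.Agent.Deuring

namespace Fermat.Agent.BadRedG

open Fermat.Agent.BadRed Fermat.Agent.BadRed.Gluing

variable {K F k : Type*} [Field K] [Field F] [Algebra K F] [Field k]
  {κ : Type*} {Fk : κ → Type*} [∀ c, Field (Fk c)] [∀ c, Algebra k (Fk c)] {ι : Type*}
  [Fintype κ] [Nonempty κ] [Fintype ι]

/-- **(GL-VEQ)** from the joint lattice property alone. -/
theorem glueVEq_of_joint [Infinite k] (N : GraphSetup K F k κ Fk ι)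
    (hJ : GlueJointStatement N) : GlueVEqStatement N :=
  glueVEq_of N (glueDegree N) hJ (glueTwistDim N) (gluePush N) (glueNode N)

/-- **(G-ORD)** from (GL-VEQ): a generic element of the twisted space is the joint reduction of
an element of the joint lattice, which is then a unit at all the branches; its divisor is
ordinary. -/
theorem graphOrd_of_vEq (N : GraphSetup K F k κ Fk ι) (hVEq : GlueVEqStatement N) :
    GraphOrdStatement N :=
  graphOrd_of N hVEq (glueGeneric N) (glueOrdOfGeneric N)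

/-- **(G-ORD)** from the joint lattice property alone. -/
theorem graphOrd_of_joint [Infinite k] (N : GraphSetup K F k κ Fk ι)
    (hJ : GlueJointStatement N) : GraphOrdStatement N :=
  graphOrd_of_vEq N (glueVEq_of_joint N hJ)

/-- **(G-TORIC)** from the KEY lemma and (GL-VEQ). -/
theorem graphToric_of_key_vEq [Infinite k] (N : GraphSetup K F k κ Fk ι)
    (hKey : GraphKeyStatement N) (hVEq : GlueVEqStatement N) : GraphToricStatement N :=
  graphToric_of N hKey hVEq (glueOrdOfGeneric N) (glueCover N)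

/-- **(G-TORIC)** from the KEY lemma and the joint lattice property. -/
theorem graphToric_of_key_joint [Infinite k] (N : GraphSetup K F k κ Fk ι)
    (hKey : GraphKeyStatement N) (hJ : GlueJointStatement N) : GraphToricStatement N :=
  graphToric_of_key_vEq N hKey (glueVEq_of_joint N hJ)

/-- **(GL-VEQ)**, unconditional. -/
theorem glueVEq [Infinite k] (N : GraphSetup K F k κ Fk ι) : GlueVEqStatement N :=
  glueVEq_of_joint N (glueJoint N)

/-- **(G-ORD)**, unconditional. -/
theorem graphOrd [Infinite k] (N : GraphSetup K F k κ Fk ι) : GraphOrdStatement N :=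
  graphOrd_of_joint N (glueJoint N)

/-- **(G-TORIC)** from the KEY lemma alone. -/
theorem graphToric_of_key [Infinite k] (N : GraphSetup K F k κ Fk ι)
    (hKey : GraphKeyStatement N) : GraphToricStatement N :=
  graphToric_of_key_joint N hKey (glueJoint N)

end Fermat.Agent.BadRedG
end
end MergeWrap_Lib_BadRed_Graph_GlueWire

section MergeWrap_Lib_BadRed_Graph_Deuring_Final -- from Lib/BadRed/Graph/Deuring/Final.lean

set_option autoImplicit false

/-!
# Cluster G, abstract graph package: the END of the abstract chain (helper20)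

For a seed `G : GraphSeed K F k κ Fk ι` the package `N := G.graphSetup` of
`Graph/Deuring/Main.lean` satisfies, UNCONDITIONALLY, everything that the CORE wiring
(`S36/G/CoreWire.lean`) asks of the abstract graph package:

* `GraphSeed.graphSetup_ord   : GraphOrdStatement G.graphSetup`                (`[Infinite k]`)
* `GraphSeed.graphSetup_toric : GraphToricStatement G.graphSetup`              (`[IsAlgClosed k]`)
* `GraphSeed.graphSetup_mapDomain_D₀_all`, `GraphSeed.graphSetup_redDiv_D₀`,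
  `GraphSeed.graphSetup_redDiv_smul_D₀ : G.graphSetup.redDiv c (m • G.D₀) = m • G.R c`
* `GraphSeed.graphSetup_gBig_of_le : G.bigBound ≤ m → GBig G.graphSetup (m • G.D₀)`,
  `GraphSeed.graphSetup_gBig : ∃ m₀, ∀ m, m₀ ≤ m → GBig G.graphSetup (m • G.D₀)`
* `GraphSeed.graphSetup_exists_gBig_ge`: above every effective ordinary divisor there is a big
  divisor of the shape `m • D₀ + E`.
-/

noncomputable section

open AlgebraicCurve Fermat.Agent.RR Fermat.Agent.Deuring

namespace Fermat.Agent.BadRedG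

open Fermat.Agent.BadRed

variable {K F k : Type*} [Field K] [Field F] [Algebra K F] [Field k]
  {κ : Type*} {Fk : κ → Type*} [∀ c, Field (Fk c)] [∀ c, Algebra k (Fk c)] {ι : Type*}
  [Fintype κ] [Fintype ι]

section

variable [Infinite k] [Nonempty κ] (G : GraphSeed K F k κ Fk ι)

/-- **(G-ORD)** for the package of a seed. -/
theorem GraphSeed.graphSetup_ord : GraphOrdStatement G.graphSetup :=
  graphOrd G.graphSetup

/-- `r_* D₀ = R` at ALL the points (at the branches both sides vanish). -/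
theorem GraphSeed.graphSetup_mapDomain_D₀_all (c : κ) (Q : Place k (Fk c)) :
    Finsupp.mapDomain G.graphSetup.r G.D₀ (some ⟨c, Q⟩) = G.R c Q := by
  classical
  by_cases hQ : G.toGraphCore.IsSmoothPt c Q
  · exact G.graphSetup_mapDomain_D₀ hQ
  · have hR : G.R c Q = 0 := by
      by_contra hne
      apply hQ
      refine ⟨fun i hi => ?_, fun i hi => ?_⟩
      · obtain ⟨rfl, hq⟩ := Sigma.mk.inj_iff.mp hi
        rw [eq_of_heq hq] at hne
        exact hne (G.R_node₁ i)
      · obtain ⟨rfl, hq⟩ := Sigma.mk.inj_iff.mp hi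
        rw [eq_of_heq hq] at hne
        exact hne (G.R_node₂ i)
    rw [hR, Finsupp.mapDomain, Finsupp.sum_apply]
    refine Finset.sum_eq_zero fun P _ => ?_
    show (Finsupp.single (G.graphSetup.r P) (G.D₀ P)) (some ⟨c, Q⟩) = 0
    rw [Finsupp.single_apply, if_neg]
    intro h
    exact hQ (G.graphSetup_isSmoothPt h)

/-- the reduction of the seed divisor on the component `c` is `R c`. -/
theorem GraphSeed.graphSetup_redDiv_D₀ (c : κ) : G.graphSetup.redDiv c G.D₀ = G.R c := by
  ext Q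
  rw [GraphSetup.redDiv_apply]
  exact G.graphSetup_mapDomain_D₀_all c Q

/-- the reduction of `m D₀` on the component `c` is `m R c`. -/
theorem GraphSeed.graphSetup_redDiv_smul_D₀ (c : κ) (m : ℕ) :
    G.graphSetup.redDiv c (m • G.D₀) = m • G.R c := by
  ext Q
  rw [GraphSetup.redDiv_apply, Finsupp.mapDomain_smul, Finsupp.smul_apply, Finsupp.smul_apply,
    G.graphSetup_mapDomain_D₀_all c Q]

/-- a bound for the multiples of the seed divisor which are big. -/
def GraphSeed.bigBound (_G : GraphSeed K F k κ Fk ι) : ℕ :=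
  (Finset.univ.sup fun c : κ => 2 * genusFF k (Fk c)) + Fintype.card ι

omit [Infinite k] [Nonempty κ] in
theorem GraphSeed.two_genus_le_bigBound (G : GraphSeed K F k κ Fk ι) (c : κ) :
    2 * genusFF k (Fk c) + Fintype.card ι ≤ G.bigBound := by
  have h : (fun c : κ => 2 * genusFF k (Fk c)) c ≤
      Finset.univ.sup fun c : κ => 2 * genusFF k (Fk c) :=
    Finset.le_sup (f := fun c : κ => 2 * genusFF k (Fk c)) (Finset.mem_univ c)
  unfold GraphSeed.bigBound
  simpa using h

/-- **the large multiples of the seed divisor are big base divisors.** -/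
theorem GraphSeed.graphSetup_gBig_of_le {m : ℕ} (hm : G.bigBound ≤ m) :
    GBig G.graphSetup (m • G.D₀) := by
  refine ⟨?_, G.graphSetup_isOrdDiv_smul_D₀ m, fun c => ?_⟩
  · exact smul_nonneg (Nat.zero_le m) G.D₀_nonneg
  · rw [G.graphSetup_redDiv_smul_D₀ c m, map_nsmul]
    have h1 : (1 : ℤ) ≤ Divisor.degree (G.R c) := G.R_pos c
    have h2 := G.two_genus_le_bigBound c
    have h3 : ((2 * genusFF k (Fk c) + Fintype.card ι : ℕ) : ℤ) ≤ (m : ℤ) := by
      exact_mod_cast h2.trans hm
    have h4 : (m : ℤ) ≤ m • Divisor.degree (G.R c) := by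
      rw [nsmul_eq_mul]
      nlinarith [Nat.cast_nonneg (α := ℤ) m]
    push_cast at h3
    linarith

theorem GraphSeed.graphSetup_gBig :
    ∃ m₀ : ℕ, ∀ m : ℕ, m₀ ≤ m → GBig G.graphSetup (m • G.D₀) :=
  ⟨G.bigBound, fun _ hm => G.graphSetup_gBig_of_le hm⟩

/-- above every effective ordinary divisor there is a big base divisor `m D₀ + E`. -/
theorem GraphSeed.graphSetup_exists_gBig_ge {E : Divisor K F} (hE : 0 ≤ E)
    (hEord : G.graphSetup.IsOrdDiv E) {m : ℕ} (hm : G.bigBound ≤ m) :
    GBig G.graphSetup (m • G.D₀ + E) ∧ E ≤ m • G.D₀ + E :=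
  ⟨(G.graphSetup_gBig_of_le hm).add hE hEord,
    le_add_of_nonneg_left (G.graphSetup_gBig_of_le hm).nonneg⟩

end

/-- **(G-TORIC)** for the package of a seed. -/
theorem GraphSeed.graphSetup_toric [IsAlgClosed k] [Infinite k] [Nonempty κ]
    (G : GraphSeed K F k κ Fk ι) : GraphToricStatement G.graphSetup :=
  graphToric_of_key G.graphSetup G.graphSetup_key

end Fermat.Agent.BadRedG
end
end MergeWrap_Lib_BadRed_Graph_Deuring_Final

section MergeWrap_S36_G_CoreBundle -- from S36/G/CoreBundle.lean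

set_option autoImplicit false
set_option linter.unusedSectionVars false
set_option linter.style.haveILetI false

/-!
# Cluster G (S36): the END junction  (helper3)

`CoreBundle N₁ q P` packs EVERYTHING that is left on the modular side of cluster G for the level
`N₁ q` (`N₁ = q M₀`) and the valuation ring `P ∣ q` of `ℚ̄`:

* the types `k`, `Mid`, `SS`, `Fk` and a seed `G : GraphSeed ℚ̄ (FBar (N₁ q)) k (Vtx ..) Fk (Nod ..)`
  of the shape `K_{|Vert|, s}` (`src = nodSrc`, `tgt = nodTgt`) over the valuation ring `P`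
  (seats MG-INST, SEED, W-P, IG, GENUS);
* `hStep12` : Steps 1, 2 (seat STEP12);
* `hF1`, `hF2`, `hF3` : the three cocycle statements of Step 3 (seats COC, INERT-MOD),
  for the base divisor `m • D₀`, `m ≥ G.bigBound`;

all of them for every exponent `n ≠ 0` prime to `q`.  The abstract graph package
(`GraphSeed.graphSetup_ord / _toric / _genusRel / _gBig_of_le`) and the wiring
`coreFunAt_of_graph` give

* `CoreBundle.coreFunAt`          : `CoreFunAt N₁ q (c₁ (q² - 1)) P n`;
* `coreFunHyp_of_coreBundle`      : the hypothesis `hfun` of `coreOdd_of_coreFun23`;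
* `s36Statement_of_coreBundle`    : **frozen S36** (as `S36B.S36Statement`) from a `CoreBundle` at
  every auxiliary level.
-/

noncomputable section

open AlgebraicCurve Fermat.Agent.RR Fermat.Agent.Deuring

namespace Fermat.Agent.S36G

open ModularCurve Fermat.Agent.F3 Fermat.Agent.F3G Fermat.Agent.GaussInt
  Fermat.Agent.AtkinLehner Fermat.Agent.Kronecker Fermat.Agent.F3I2 Fermat.Agent.F3Deg
  Fermat.Agent.F3DegW Fermat.Agent.BadRed Fermat.Agent.BadRedG Fermat.Agent.BadRed.Gluing
  Fermat.Agent.S36B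

local notation "Qb" => AlgebraicClosure ℚ

/-! ### integers prime to `q` are units of `P` -/

/-- a natural number prime to `q` is a unit of a valuation ring over `q`. -/
theorem cb_inv_natCast_mem {P : ValuationSubring Qb} {q : ℕ} (hP : P.LiesOverPrime q) {n : ℕ}
    (hnq : Nat.Coprime n q) : ((n : Qb))⁻¹ ∈ P := by
  by_contra hinv
  have hn_mem : (n : Qb) ∈ P := natCast_mem P n
  -- `n` is a nonunit
  have hn_non : (n : Qb) ∈ P.nonunits := by
    rw [ValuationSubring.mem_nonunits_iff_exists_mem_maximalIdeal]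
    refine ⟨hn_mem, ?_⟩
    rw [IsLocalRing.mem_maximalIdeal, mem_nonunits_iff]
    intro hu
    obtain ⟨u, hu⟩ := hu
    apply hinv
    have h1 : ((u⁻¹ : Pˣ) : P) * ⟨(n : Qb), hn_mem⟩ = 1 := by
      rw [← hu]
      exact u.inv_mul
    have h2 : (((u⁻¹ : Pˣ) : P) : Qb) * (n : Qb) = 1 := by
      have := congrArg (fun z : P => (z : Qb)) h1
      simpa using this
    have h3 : ((n : Qb))⁻¹ = (((u⁻¹ : Pˣ) : P) : Qb) := by
      have hn0 : (n : Qb) ≠ 0 := by
        rintro h0
        rw [h0, mul_zero] at h2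
        exact zero_ne_one h2
      field_simp
      rw [mul_comm]
      exact h2.symm
    rw [h3]
    exact ((u⁻¹ : Pˣ) : P).2
  -- Bezout
  have hq_non : (q : Qb) ∈ P.nonunits := hP
  have hgcd : Int.gcd (n : ℤ) (q : ℤ) = 1 := by
    rw [Int.gcd_natCast_natCast]
    exact hnq
  have hbez := Int.gcd_eq_gcd_ab (n : ℤ) (q : ℤ)
  rw [hgcd] at hbez
  have hbez' : (1 : Qb) = (n : Qb) * ((Int.gcdA (n : ℤ) (q : ℤ) : ℤ) : Qb) +
      (q : Qb) * ((Int.gcdB (n : ℤ) (q : ℤ) : ℤ) : Qb) := by
    have := congrArg (fun z : ℤ => (z : Qb)) hbez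
    push_cast at this
    exact this
  have hA : ∀ z : ℤ, (z : Qb) ∈ P := fun z => intCast_mem P z
  have hmulmem : ∀ x : Qb, x ∈ P.nonunits → ∀ z : ℤ, x * (z : Qb) ∈ P.nonunits := by
    intro x hx z
    rw [ValuationSubring.mem_nonunits_iff_exists_mem_maximalIdeal] at hx ⊢
    obtain ⟨hxP, hxm⟩ := hx
    refine ⟨P.mul_mem _ _ hxP (hA z), ?_⟩
    have : (⟨x * (z : Qb), P.mul_mem _ _ hxP (hA z)⟩ : P) = ⟨x, hxP⟩ * ⟨(z : Qb), hA z⟩ := rfl
    rw [this]
    exact Ideal.mul_mem_right _ _ hxm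
  have h1 := hmulmem _ hn_non (Int.gcdA (n : ℤ) (q : ℤ))
  have h2 := hmulmem _ hq_non (Int.gcdB (n : ℤ) (q : ℤ))
  rw [ValuationSubring.mem_nonunits_iff_exists_mem_maximalIdeal] at h1 h2
  obtain ⟨h1P, h1m⟩ := h1
  obtain ⟨h2P, h2m⟩ := h2
  have hsum := Ideal.add_mem _ h1m h2m
  have hone : (1 : P) ∈ IsLocalRing.maximalIdeal P := by
    have : (1 : P) = ⟨_, h1P⟩ + ⟨_, h2P⟩ := by
      apply Subtype.ext
      exact hbez'
    rw [this]
    exact hsum
  exact (Ideal.ne_top_iff_one _).mp (IsLocalRing.maximalIdeal.isMaximal P).ne_top hone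

/-! ### the bundle -/

/-- **the modular bundle of cluster G**: what is left to construct for the level `N₁ q` and the
valuation ring `P ∣ q`. -/
structure CoreBundle (N₁ q : ℕ) [NeZero N₁] [NeZero q] (P : ValuationSubring Qb) where
  /-- the residue field of `P` -/
  k : Type
  [instField : Field k]
  [instAlgClosed : IsAlgClosed k]
  /-- the middle (Igusa) components -/
  Mid : Type
  /-- the supersingular points -/
  SS : Type
  [instFintypeMid : Fintype Mid]
  [instFintypeSS : Fintype SS]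
  /-- the residue fields of the components -/
  Fk : Vtx Mid SS → Type
  [instFieldFk : ∀ c, Field (Fk c)]
  [instAlgebraFk : ∀ c, Algebra k (Fk c)]
  /-- the seed of the modular graph -/
  G : GraphSeed Qb (FBar (N₁ * q)) k (Vtx Mid SS) Fk (Nod Mid SS)
  hsrc : ∀ i, G.src i = nodSrc i
  htgt : ∀ i, G.tgt i = nodTgt i
  /-- the valuation ring of the constants is `P` -/
  hA : (G.S (Vtx.vert Vrt.oo)).A = P
  /-- the degree of the middle components over the vertical ones -/
  e : ℕ
  hq : e * Fintype.card Mid + 1 = q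
  /-- the exponent of Steps 1, 2 -/
  c₁ : ℕ
  hc₁ : c₁ ≠ 0
  /-- the base divisor is `m • D₀` -/
  m : ℕ
  hm : G.bigBound ≤ m
  /-- Steps 1, 2 -/
  hStep12 : ∀ n : ℕ, n ≠ 0 → Nat.Coprime n q →
    ∀ (D : ALData) (hM : N₁ * q = D.Q * D.R), D.Q = q ^ 2 →
      ∀ g : FBar (N₁ * q), g ≠ 0 → (∀ v : Place Qb (FBar (N₁ * q)), (n : ℤ) ∣ v.ord g) →
        InertiaFixedFun (N₁ * q) P n g →
        IsCPow n (normAlong (heckeAlphaBar Qb N₁ q) g) →
        IsCPow n (normAlong (heckeAlphaBar Qb N₁ q) (wAt D hM g)) →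
        ∀ c, G.graphSetup.IsPowAt n c (g ^ c₁)
  /-- (F1) -/
  hF1 : ∀ n : ℕ, n ≠ 0 → Nat.Coprime n q →
    CocycleF1 G.graphSetup n q e (m • G.D₀)
      (fun g => IsCPow n (normAlong (heckeAlphaBar Qb N₁ q) g))
  /-- (F2) -/
  hF2 : ∀ n : ℕ, n ≠ 0 → Nat.Coprime n q →
    ∀ (D : ALData) (hM : N₁ * q = D.Q * D.R), D.Q = q ^ 2 →
      CocycleF2 G.graphSetup n q e (m • G.D₀)
        (fun g => IsCPow n (normAlong (heckeAlphaBar Qb N₁ q) (wAt D hM g)))
  /-- (F3) -/
  hF3 : ∀ n : ℕ, n ≠ 0 → Nat.Coprime n q →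
    CocycleF3 G.graphSetup n (m • G.D₀) (InertiaFixedFun (N₁ * q) P n)

attribute [instance] CoreBundle.instField CoreBundle.instAlgClosed CoreBundle.instFintypeMid
  CoreBundle.instFintypeSS CoreBundle.instFieldFk CoreBundle.instAlgebraFk

/-- **(CORE), function form, from the bundle.** -/
theorem CoreBundle.coreFunAt {N₁ q : ℕ} [NeZero N₁] [NeZero q] {P : ValuationSubring Qb}
    (B : CoreBundle N₁ q P) (hP : P.LiesOverPrime q) {n : ℕ} (hn0 : n ≠ 0)
    (hnq : Nat.Coprime n q) : CoreFunAt N₁ q (B.c₁ * (q ^ 2 - 1)) P n := by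
  have hnQ : ((n : ℕ) : Qb) ≠ 0 := by exact_mod_cast hn0
  have hnA : ((n : Qb))⁻¹ ∈ (B.G.graphSetup.S (Vtx.vert Vrt.oo)).A := by
    rw [GraphSeed.graphSetup_S, B.hA]
    exact cb_inv_natCast_mem hP hnq
  exact coreFunAt_of_graph N₁ q P n B.G.graphSetup B.hsrc B.htgt B.G.graphSetup_ord
    B.G.graphSetup_toric B.G.graphSetup_genusRel hnQ (Vtx.vert Vrt.oo) hnA
    (B.G.graphSetup_gBig_of_le B.hm) B.e B.hq B.c₁ (B.hStep12 n hn0 hnq) (B.hF1 n hn0 hnq)
    (B.hF2 n hn0 hnq) (B.hF3 n hn0 hnq)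

/-- the hypothesis `hfun` of the top wiring from a bundle at every auxiliary level. -/
theorem coreFunHyp_of_coreBundle
    (hB : ∀ (q M : ℕ) [NeZero M] [NeZero q] [NeZero (M / q)], q.Prime →
      M.factorization q = 2 → AuxGood23 q M →
      ∃ P : ValuationSubring Qb, P.LiesOverPrime q ∧ Nonempty (CoreBundle (M / q) q P))
    (lam q M : ℕ) [NeZero M] [NeZero q] [NeZero (M / q)] (hlam : lam.Prime) (_hlam2 : lam ≠ 2)
    (hq : q.Prime) (hql : q ≠ lam) (hq2 : M.factorization q = 2) (hgood : AuxGood23 q M) :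
    ∃ c : ℕ, c ≠ 0 ∧ ∃ P : ValuationSubring Qb, P.LiesOverPrime q ∧
      ∀ n : ℕ, CoreFunAt (M / q) q c P (lam ^ n) := by
  obtain ⟨P, hP, ⟨B⟩⟩ := hB q M hq hq2 hgood
  have hq1 : q ^ 2 - 1 ≠ 0 := by
    have h2 : 2 ≤ q := hq.two_le
    have h4 : 4 ≤ q ^ 2 := by nlinarith
    omega
  refine ⟨B.c₁ * (q ^ 2 - 1), Nat.mul_ne_zero B.hc₁ hq1, P, hP, fun n => ?_⟩
  refine B.coreFunAt hP (pow_ne_zero n hlam.ne_zero) ?_
  exact Nat.Coprime.pow_left n ((Nat.coprime_primes hlam hq).mpr (fun h => hql h.symm))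

/-- **frozen S36 (as `S36Statement`) from a bundle at every auxiliary level.** -/
theorem s36Statement_of_coreBundle
    (hB : ∀ (q M : ℕ) [NeZero M] [NeZero q] [NeZero (M / q)], q.Prime →
      M.factorization q = 2 → AuxGood23 q M →
      ∃ P : ValuationSubring Qb, P.LiesOverPrime q ∧ Nonempty (CoreBundle (M / q) q P)) :
    S36Statement :=
  s36Statement_of_coreFun23 fun lam q M _ _ _ hlam hlam2 hq hql hq2 hgood =>
    coreFunHyp_of_coreBundle hB lam q M hlam hlam2 hq hql hq2 hgood

end Fermat.Agent.S36G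
end
end MergeWrap_S36_G_CoreBundle

section MergeWrap_S36_G_CoreOddOfLevel -- from S36/G/CoreOddOfLevel.lean

set_option autoImplicit false
set_option linter.unusedSectionVars false
set_option linter.style.haveILetI false

noncomputable section

namespace Fermat.Agent.S36G

open Fermat.Agent.S36B

local notation "Qb" => AlgebraicClosure ℚ

/-- a level with `q² ∥ M` is `M₀ * q * q` with `q ∤ M₀`. -/
theorem exists_level_of_factorization_two {q M : ℕ} (hM : M ≠ 0) (hq : q.Prime)
    (h2 : M.factorization q = 2) :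
    ∃ M₀ : ℕ, M₀ ≠ 0 ∧ ¬ q ∣ M₀ ∧ M = M₀ * q * q ∧ M / q = M₀ * q := by
  have h1 : q ^ M.factorization q * (M / q ^ M.factorization q) = M :=
    Nat.ordProj_mul_ordCompl_eq_self M q
  have h3 : ¬ q ∣ M / q ^ M.factorization q := Nat.not_dvd_ordCompl hq hM
  rw [h2] at h1 h3
  have hMeq : M = M / q ^ 2 * q * q := by
    conv_lhs => rw [← h1]
    ring
  refine ⟨M / q ^ 2, ?_, h3, hMeq, ?_⟩
  · intro h0
    rw [h0] at hMeq
    simp at hMeq
    exact hM hMeq
  · conv_lhs => rw [hMeq]
    exact Nat.mul_div_cancel _ hq.pos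

/-- the auxiliary condition descends from `M₀ * q * q` to `M₀`. -/
theorem auxGood23_of_mul {q M₀ : ℕ} (hq : q.Prime) (h : AuxGood23 q (M₀ * q * q)) :
    AuxGood23 q M₀ := by
  obtain ⟨⟨r, hr, hr12, hrq, hrM⟩, h2, h3⟩ := h
  have hcop : ∀ p : ℕ, p.Prime → p ≠ q → p ∣ M₀ * q * q → p ∣ M₀ := by
    intro p hp hpq hdvd
    have hpq' : Nat.Coprime p q := (Nat.coprime_primes hp hq).mpr hpq
    exact hpq'.dvd_of_dvd_mul_right (hpq'.dvd_of_dvd_mul_right hdvd)
  refine ⟨⟨r, hr, hr12, hrq, hcop r hr hrq hrM⟩, ?_, ?_⟩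
  · intro hq2
    exact hcop 3 (by norm_num) (by rw [hq2]; norm_num) (h2 hq2)
  · intro hq3
    exact hcop 2 (by norm_num) (by rw [hq3]; norm_num) (h3 hq3)

/-- the hypothesis of `coreOdd_of_coreFun23` from the geometric target at the levels
`M₀ * q * q`. -/
theorem coreFun23_of_level
    (hgeo : ∀ (lam q M₀ : ℕ) [NeZero M₀] [NeZero q] [NeZero (M₀ * q)], lam.Prime → lam ≠ 2 →
      q.Prime → q ≠ lam → ¬ q ∣ M₀ → AuxGood23 q M₀ →
      ∃ c : ℕ, c ≠ 0 ∧ ∃ P : ValuationSubring Qb, P.LiesOverPrime q ∧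
        ∀ n : ℕ, CoreFunAt (M₀ * q) q c P (lam ^ n))
    (lam q M : ℕ) [NeZero M] [NeZero q] [hMq : NeZero (M / q)] (hlam : lam.Prime)
    (hlam2 : lam ≠ 2) (hq : q.Prime) (hql : q ≠ lam) (hq2 : M.factorization q = 2)
    (hgood : AuxGood23 q M) :
    ∃ c : ℕ, c ≠ 0 ∧ ∃ P : ValuationSubring Qb, P.LiesOverPrime q ∧
      ∀ n : ℕ, CoreFunAt (M / q) q c P (lam ^ n) := by
  obtain ⟨M₀, hM₀, hndvd, hMeq, hdiv⟩ := exists_level_of_factorization_two (NeZero.ne M) hq hq2
  haveI : NeZero M₀ := ⟨hM₀⟩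
  have hgood₀ : AuxGood23 q M₀ := auxGood23_of_mul hq (hMeq ▸ hgood)
  revert hMq
  rw [hdiv]
  intro hMq
  exact hgeo lam q M₀ hlam hlam2 hq hql hndvd hgood₀

/-- **top wiring**: `CoreOdd` from the geometric target at the levels `M₀ * q * q`. -/
theorem coreOdd_of_coreFunLevel
    (hgeo : ∀ (lam q M₀ : ℕ) [NeZero M₀] [NeZero q] [NeZero (M₀ * q)], lam.Prime → lam ≠ 2 →
      q.Prime → q ≠ lam → ¬ q ∣ M₀ → AuxGood23 q M₀ →
      ∃ c : ℕ, c ≠ 0 ∧ ∃ P : ValuationSubring Qb, P.LiesOverPrime q ∧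
        ∀ n : ℕ, CoreFunAt (M₀ * q) q c P (lam ^ n)) :
    CoreOdd :=
  coreOdd_of_coreFun23 fun lam q M _ _ _ hlam hlam2 hq hql hq2 hgood =>
    coreFun23_of_level hgeo lam q M hlam hlam2 hq hql hq2 hgood

/-- **frozen S36 (as `S36Statement`) from the geometric target at the levels `M₀ * q * q`.** -/
theorem s36Statement_of_coreFunLevel
    (hgeo : ∀ (lam q M₀ : ℕ) [NeZero M₀] [NeZero q] [NeZero (M₀ * q)], lam.Prime → lam ≠ 2 →
      q.Prime → q ≠ lam → ¬ q ∣ M₀ → AuxGood23 q M₀ →
      ∃ c : ℕ, c ≠ 0 ∧ ∃ P : ValuationSubring Qb, P.LiesOverPrime q ∧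
        ∀ n : ℕ, CoreFunAt (M₀ * q) q c P (lam ^ n)) :
    S36Statement :=
  s36Statement_of_coreOdd (coreOdd_of_coreFunLevel hgeo)

end Fermat.Agent.S36G
end
end MergeWrap_S36_G_CoreOddOfLevel

section MergeWrap_S36_G_CoreBundleLevel -- from S36/G/CoreBundleLevel.lean

set_option autoImplicit false
set_option linter.unusedSectionVars false
set_option linter.style.haveILetI false

/-!
# Cluster G (S36): the END junction at the levels `M₀ * q * q`  (helper3)

The modular graph lives at the level `M₀ * q * q`, `q ∤ M₀`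
(`FBar ((M₀ * q) * q) = FBar (M₀ * q * q)` syntactically).  With the level bookkeeping of
`S36/G/CoreOddOfLevel.lean`:

* `coreFunLevel_of_coreBundle`      : the hypothesis `hgeo` of `s36Statement_of_coreFunLevel`;
* `s36Statement_of_coreBundleLevel` : **frozen S36 (as `S36B.S36Statement`)** from

    `∀ q M₀, q prime, q ∤ M₀, AuxGood23 q M₀ → ∃ P ∣ q, Nonempty (CoreBundle (M₀ * q) q P)`.
-/

noncomputable section

namespace Fermat.Agent.S36G

open Fermat.Agent.S36B

local notation "Qb" => AlgebraicClosure ℚ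

/-- the hypothesis `hgeo` of the top wiring at the levels `M₀ * q * q` from a bundle. -/
theorem coreFunLevel_of_coreBundle
    (hB : ∀ (q M₀ : ℕ) [NeZero M₀] [NeZero q] [NeZero (M₀ * q)], q.Prime → ¬ q ∣ M₀ →
      AuxGood23 q M₀ →
      ∃ P : ValuationSubring Qb, P.LiesOverPrime q ∧ Nonempty (CoreBundle (M₀ * q) q P))
    (lam q M₀ : ℕ) [NeZero M₀] [NeZero q] [NeZero (M₀ * q)] (hlam : lam.Prime) (_hlam2 : lam ≠ 2)
    (hq : q.Prime) (hql : q ≠ lam) (hqM : ¬ q ∣ M₀) (hgood : AuxGood23 q M₀) :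
    ∃ c : ℕ, c ≠ 0 ∧ ∃ P : ValuationSubring Qb, P.LiesOverPrime q ∧
      ∀ n : ℕ, CoreFunAt (M₀ * q) q c P (lam ^ n) := by
  obtain ⟨P, hP, ⟨B⟩⟩ := hB q M₀ hq hqM hgood
  have hq1 : q ^ 2 - 1 ≠ 0 := by
    have h2 : 2 ≤ q := hq.two_le
    have h4 : 4 ≤ q ^ 2 := by nlinarith
    omega
  refine ⟨B.c₁ * (q ^ 2 - 1), Nat.mul_ne_zero B.hc₁ hq1, P, hP, fun n => ?_⟩
  refine B.coreFunAt hP (pow_ne_zero n hlam.ne_zero) ?_
  exact Nat.Coprime.pow_left n ((Nat.coprime_primes hlam hq).mpr (fun h => hql h.symm))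

/-- **frozen S36 (as `S36Statement`) from a bundle at every level `M₀ * q * q`.** -/
theorem s36Statement_of_coreBundleLevel
    (hB : ∀ (q M₀ : ℕ) [NeZero M₀] [NeZero q] [NeZero (M₀ * q)], q.Prime → ¬ q ∣ M₀ →
      AuxGood23 q M₀ →
      ∃ P : ValuationSubring Qb, P.LiesOverPrime q ∧ Nonempty (CoreBundle (M₀ * q) q P)) :
    S36Statement :=
  s36Statement_of_coreFunLevel fun lam q M₀ _ _ _ hlam hlam2 hq hql hqM hgood =>
    coreFunLevel_of_coreBundle hB lam q M₀ hlam hlam2 hq hql hqM hgood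

end Fermat.Agent.S36G
end
end MergeWrap_S36_G_CoreBundleLevel
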