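import Mathlib
import Fermat.Agent.MUL.S36.G.Defs
import Fermat.Agent.MUL.S36.G.NormLayer
import Fermat.Agent.MUL.S36.Norm.VertW
import Fermat.Agent.MUL.Orig.F3.Galois.NormDesc
import Fermat.Agent.MUL.S36.G.CocycleF3Ends

section MergeWrap_S36_G_CocycleF12Mod -- from S36/G/CocycleF12Mod.lean

set_option autoImplicit false
set_option linter.unusedSectionVars false
set_option linter.style.haveILetI false
set_option linter.unusedVariables false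

/-!
# Cluster G (S36), (F1), (F2) for the MODULAR norms, from the norm layer  (helper36)

`F = FBar (N₁ q)`, `α = heckeAlphaBar Qb N₁ q` (`π₁^*`), `w = wAt D hM` (`w_{q²}`).

* `nm1 N₁ q g := α (N_α g)`                (`= π₁^* π₁_* g`),
* `nm2 N₁ q D hM g := w (α (N_α (w g)))`   (`= π₂^* π₂_* g`).

`cocycleF1_modular` / `cocycleF2_modular` are EXACTLY the hypotheses `hF1`, `hF2` of
`coreFunAt_of_graph` (`S36/G/CoreWire.lean`), from

* `NormLayer1 N n q e (nm1 N₁ q)` resp. `NormLayer2 N n q e (nm2 N₁ q D hM)`  (residues + values),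
* `NormSat N n R (nm1 ..)` resp. `NormSat N n R (nm2 ..)`                      (saturation of `R`),
* `GraphWDStatement N`  (abstract package, `graphWD`).
-/

noncomputable section

namespace Fermat.Agent.S36G

open ModularCurve AlgebraicCurve Fermat.Agent.F3 Fermat.Agent.F3G Fermat.Agent.GaussInt
  Fermat.Agent.AtkinLehner Fermat.Agent.Kronecker Fermat.Agent.BadRed Fermat.Agent.BadRedG
  Fermat.Agent.BadRed.Gluing

local notation "Qb" => AlgebraicClosure ℚ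

variable {k : Type*} [Field k] {Mid SS : Type} [Fintype Mid] [Fintype SS]
  {Fk : Vtx Mid SS → Type*} [∀ c, Field (Fk c)] [∀ c, Algebra k (Fk c)]

/-- `π₁^* π₁_* g`. -/
def nm1 (N₁ q : ℕ) [NeZero N₁] [NeZero q] (g : FBar (N₁ * q)) : FBar (N₁ * q) :=
  heckeAlphaBar Qb N₁ q (normAlong (heckeAlphaBar Qb N₁ q) g)

/-- `π₂^* π₂_* g`. -/
def nm2 (N₁ q : ℕ) [NeZero N₁] [NeZero q] (D : ALData) (hM : N₁ * q = D.Q * D.R)
    (g : FBar (N₁ * q)) : FBar (N₁ * q) :=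
  wAt D hM (heckeAlphaBar Qb N₁ q (normAlong (heckeAlphaBar Qb N₁ q) (wAt D hM g)))

theorem nm1_def (N₁ q : ℕ) [NeZero N₁] [NeZero q] (g : FBar (N₁ * q)) :
    nm1 N₁ q g = heckeAlphaBar Qb N₁ q (normAlong (heckeAlphaBar Qb N₁ q) g) := rfl

theorem nm2_def (N₁ q : ℕ) [NeZero N₁] [NeZero q] (D : ALData) (hM : N₁ * q = D.Q * D.R)
    (g : FBar (N₁ * q)) :
    nm2 N₁ q D hM g =
      wAt D hM (heckeAlphaBar Qb N₁ q (normAlong (heckeAlphaBar Qb N₁ q) (wAt D hM g))) := rfl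

theorem nm2_eq_nm1 (N₁ q : ℕ) [NeZero N₁] [NeZero q] (D : ALData) (hM : N₁ * q = D.Q * D.R)
    (g : FBar (N₁ * q)) : nm2 N₁ q D hM g = wAt D hM (nm1 N₁ q (wAt D hM g)) := rfl

/-- the hypothesis `hP` of `cocycleF1_of_normRoots` for `π₁`. -/
theorem nm1_isCPow (N₁ q : ℕ) [NeZero N₁] [NeZero q]
    (hfin : FiniteAlong Qb (heckeAlphaBar Qb N₁ q)) (n : ℕ) (g : FBar (N₁ * q)) (hg : g ≠ 0)
    (h : IsCPow n (normAlong (heckeAlphaBar Qb N₁ q) g)) :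
    ∃ (u : FBar (N₁ * q)) (e₀ : Qb), e₀ ≠ 0 ∧ nm1 N₁ q g ≠ 0 ∧
      nm1 N₁ q g = algebraMap Qb (FBar (N₁ * q)) e₀ * u ^ n := by
  obtain ⟨u, a, ha, hu⟩ := h
  refine ⟨heckeAlphaBar Qb N₁ q u, a, ha, ?_, ?_⟩
  · rw [nm1_def]
    exact (map_ne_zero (heckeAlphaBar Qb N₁ q).toRingHom).mpr (normAlong_ne_zero _ hfin hg)
  · rw [nm1_def, hu, map_mul, map_pow, AlgHom.commutes]

/-- the hypothesis `hP` of `cocycleF2_of_normRoots` for `π₂`. -/
theorem nm2_isCPow (N₁ q : ℕ) [NeZero N₁] [NeZero q]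
    (hfin : FiniteAlong Qb (heckeAlphaBar Qb N₁ q)) (D : ALData) (hM : N₁ * q = D.Q * D.R)
    (n : ℕ) (g : FBar (N₁ * q)) (hg : g ≠ 0)
    (h : IsCPow n (normAlong (heckeAlphaBar Qb N₁ q) (wAt D hM g))) :
    ∃ (u : FBar (N₁ * q)) (e₀ : Qb), e₀ ≠ 0 ∧ nm2 N₁ q D hM g ≠ 0 ∧
      nm2 N₁ q D hM g = algebraMap Qb (FBar (N₁ * q)) e₀ * u ^ n := by
  have hwg : wAt D hM g ≠ 0 := (map_ne_zero (wAt D hM).toAlgHom.toRingHom).mpr hg
  obtain ⟨u, e₀, he₀, h0, hu⟩ := nm1_isCPow N₁ q hfin n (wAt D hM g) hwg h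
  refine ⟨wAt D hM u, e₀, he₀, ?_, ?_⟩
  · rw [nm2_eq_nm1]
    exact (map_ne_zero (wAt D hM).toAlgHom.toRingHom).mpr h0
  · rw [nm2_eq_nm1, hu, map_mul, map_pow, AlgEquiv.commutes]

/-- **(F1) for the modular graph** = `hF1` of `coreFunAt_of_graph`. -/
theorem cocycleF1_modular (N₁ q : ℕ) [NeZero N₁] [NeZero q]
    (hfin : FiniteAlong Qb (heckeAlphaBar Qb N₁ q))
    (N : GraphSetup Qb (FBar (N₁ * q)) k (Vtx Mid SS) Fk (Nod Mid SS))
    (hsrc : ∀ i, N.src i = nodSrc i) (htgt : ∀ i, N.tgt i = nodTgt i)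
    (hWD : GraphWDStatement N) {n : ℕ} (hn : n ≠ 0) (e : ℕ)
    {R : Divisor Qb (FBar (N₁ * q))}
    (L : NormLayer1 N n q e (nm1 N₁ q)) (hsat : NormSat N n R (nm1 N₁ q)) :
    CocycleF1 N n q e R (fun g => IsCPow n (normAlong (heckeAlphaBar Qb N₁ q) g)) :=
  cocycleF1_of_normRoots N hsrc htgt hWD hn q e (nm1 N₁ q)
    (normRoots_of_layer1 N hsrc htgt L) hsat _
    (fun g hg h => nm1_isCPow N₁ q hfin n g hg h)

/-- **(F2) for the modular graph** = `hF2 D hM hDQ` of `coreFunAt_of_graph`. -/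
theorem cocycleF2_modular (N₁ q : ℕ) [NeZero N₁] [NeZero q]
    (hfin : FiniteAlong Qb (heckeAlphaBar Qb N₁ q))
    (N : GraphSetup Qb (FBar (N₁ * q)) k (Vtx Mid SS) Fk (Nod Mid SS))
    (hsrc : ∀ i, N.src i = nodSrc i) (htgt : ∀ i, N.tgt i = nodTgt i)
    (hWD : GraphWDStatement N) {n : ℕ} (hn : n ≠ 0) (e : ℕ)
    {R : Divisor Qb (FBar (N₁ * q))} (D : ALData) (hM : N₁ * q = D.Q * D.R)
    (L : NormLayer2 N n q e (nm2 N₁ q D hM)) (hsat : NormSat N n R (nm2 N₁ q D hM)) :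
    CocycleF2 N n q e R
      (fun g => IsCPow n (normAlong (heckeAlphaBar Qb N₁ q) (wAt D hM g))) :=
  cocycleF2_of_normRoots N hsrc htgt hWD hn q e (nm2 N₁ q D hM)
    (normRoots_of_layer2 N hsrc htgt L) hsat _
    (fun g hg h => nm2_isCPow N₁ q hfin D hM n g hg h)

/-- `FiniteAlong` for `α` at a prime `q ∣ N₁`. -/
theorem finiteAlong_alpha_dvd (N₁ q : ℕ) [NeZero N₁] [NeZero q] (hq : q.Prime) (hqN : q ∣ N₁) :
    FiniteAlong Qb (heckeAlphaBar Qb N₁ q) :=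
  (Fermat.Agent.S36N.finrank_alpha (N := N₁) (ℓ := q) hq hqN).1

end Fermat.Agent.S36G
end
end MergeWrap_S36_G_CocycleF12Mod
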