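import Mathlib
import Fermat.Agent.MUL.S36.G.CoreBundleLevel
import Fermat.Agent.MUL.S36.G.Step12D0
import Fermat.Agent.MUL.S36.G.CocycleF12Mod
import Fermat.Agent.MUL.S36.G.CocycleF3Ends
import Fermat.Agent.MUL.S36.Seed.Main

section MergeWrap_S36_G_CoreBundleOf -- from S36/G/CoreBundleOf.lean

set_option autoImplicit false
set_option linter.unusedSectionVars false
set_option linter.style.haveILetI false
set_option linter.unusedVariables false
set_option synthInstance.maxHeartbeats 400000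
set_option maxHeartbeats 1000000

/-!
# Cluster G (S36): the bundle from the junction outputs  (helper27, CB-OF)

`F = FBar (M₀ q q)`, `A ∣ q` a valuation ring of `ℚ̄`, `k = IsLocalRing.ResidueField A`,
`m := G.bigBound`, `c₁ := (q - 1) * (q + 1)`, ONE Atkin–Lehner datum `D₀` (`D₀.Q = q ^ 2`).

* `coreBundleOfParts` : `CoreBundle (M₀ * q) q A` from ANY seed `G` of the shape `K_{|Vert|, s}`
  over `A` and the four statements `hStep12` (all `D`), (F1), (F2) for `D₀`, (F3);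
* `coreBundleOfNorm`  : the same with (F1), (F2) from the norm layers + saturation
  (`CboNorm`: `cocycleF1/2_modular`, `cocycleF2_all_of_one`);
* `coreBundleOfSeed`  : the same with `hStep12` from the `SameRing` dictionary of the vertical
  components (`CboVertDict`) and Step 2 (`CboHor`) (`step12_modular_one`);
* `coreBundleOfEnds`  : the same for the modular seed `G := E.ymodSeed ..` (SEED v3,
  `S36/Seed/Main.lean`) of `E : ModEndsInput`, (F3) from the inertia action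
  (`ModEndsInput.cocycleF3_of_ends`).
-/

noncomputable section

open AlgebraicCurve Fermat.Agent.RR Fermat.Agent.Deuring

namespace Fermat.Agent.S36G

open ModularCurve Fermat.Agent.F3 Fermat.Agent.F3G Fermat.Agent.GaussInt
  Fermat.Agent.AtkinLehner Fermat.Agent.Kronecker Fermat.Agent.F3I2 Fermat.Agent.F3Deg
  Fermat.Agent.F3DegW Fermat.Agent.BadRed Fermat.Agent.BadRedG Fermat.Agent.BadRed.Gluing
  Fermat.Agent.S36B

local notation "Qb" => AlgebraicClosure ℚ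

attribute [local instance] Fermat.Agent.GaussInt.isAlgClosed_residue
  Fermat.Agent.GaussInt.infinite_residue

/-! ### the outputs of the junctions, as `Prop`s on a `GraphSetup` -/

section Defs

variable (M₀ q : ℕ) [NeZero M₀] [NeZero q] (A : ValuationSubring Qb)
  {Mid SS : Type} [Fintype Mid] [Fintype SS]
  {Fk : Vtx Mid SS → Type} [∀ c, Field (Fk c)]
  [∀ c, Algebra (IsLocalRing.ResidueField A) (Fk c)]
  (N : GraphSetup Qb (FBar (M₀ * q * q)) (IsLocalRing.ResidueField A) (Vtx Mid SS) Fk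
    (Nod Mid SS))

/-- **junction STEP12** for the exponent `n`: the field `hStep12` of `CoreBundle`, with
`c₁ = (q - 1) * (q + 1)`. -/
def CboStep12 (n : ℕ) : Prop :=
  ∀ (D : ALData) (hM : M₀ * q * q = D.Q * D.R), D.Q = q ^ 2 →
    ∀ g : FBar (M₀ * q * q), g ≠ 0 →
      (∀ v : Place Qb (FBar (M₀ * q * q)), (n : ℤ) ∣ v.ord g) →
      InertiaFixedFun (M₀ * q * q) A n g →
      IsCPow n (normAlong (heckeAlphaBar Qb (M₀ * q) q) g) →
      IsCPow n (normAlong (heckeAlphaBar Qb (M₀ * q) q) (wAt D hM g)) →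
      ∀ c, N.IsPowAt n c (g ^ ((q - 1) * (q + 1)))

/-- **junction STEP12, vertical dictionary**: the valuation rings of the vertical components are
the rings of the Gauss reduction (`∞`), of its `w_{q²}`-transform (`0`) and of the middle
reductions. -/
structure CboVertDict (D₀ : ALData) (hM₀ : M₀ * q * q = D₀.Q * D₀.R) : Prop where
  hoo : ∃ S : ValSetup Qb (FBar (M₀ * q * q)) (IsLocalRing.ResidueField A)
      (modularFunctionFieldFullC (IsLocalRing.ResidueField A) M₀),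
    IsGaussSetup (M₀ * q * q) M₀ A S ∧ SameRing S (N.S (Vtx.vert Vrt.oo))
  h0 : ∃ S : ValSetup Qb (FBar (M₀ * q * q)) (IsLocalRing.ResidueField A)
      (modularFunctionFieldFullC (IsLocalRing.ResidueField A) M₀),
    IsGaussSetup (M₀ * q * q) M₀ A S ∧
      SameRing (comapEquiv S (wAt D₀ hM₀)) (N.S (Vtx.vert Vrt.zero))
  hmid : ∀ m : Mid, ∃ (z : Qbˣ) (ε : FBar (M₀ * q * q) →ₐ[Qb] LaurentSeries Qb)
      (S : ValSetup Qb (FBar (M₀ * q * q)) (IsLocalRing.ResidueField A)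
        ↥(igField (IsLocalRing.ResidueField A) M₀)),
    IsPrimitiveRoot z q ∧ IsMidExp M₀ q z ε ∧ IsMidSetup M₀ q A ε S ∧
      SameRing S (N.S (Vtx.vert (Vrt.mid m)))

/-- **junction STEP12, Step 2** (horizontal components) for the exponent `n`. -/
def CboHor (D₀ : ALData) (hM₀ : M₀ * q * q = D₀.Q * D₀.R) (n : ℕ) : Prop :=
  ∀ g : FBar (M₀ * q * q), g ≠ 0 →
    (∀ v : Place Qb (FBar (M₀ * q * q)), (n : ℤ) ∣ v.ord g) →
    InertiaFixedFun (M₀ * q * q) A n g →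
    IsCPow n (normAlong (heckeAlphaBar Qb (M₀ * q) q) g) →
    IsCPow n (normAlong (heckeAlphaBar Qb (M₀ * q) q) (wAt D₀ hM₀ g)) →
    ∀ P : SS, N.IsPowAt n (Vtx.hor P) (g ^ (q + 1))

/-- **junction COC** for the exponent `n` and the base divisor `R`: the norm layers and the
saturation for `π₁^* π₁_*` and `π₂^* π₂_*`. -/
structure CboNorm (D₀ : ALData) (hM₀ : M₀ * q * q = D₀.Q * D₀.R) (e n : ℕ)
    (R : Divisor Qb (FBar (M₀ * q * q))) : Prop where
  layer1 : Nonempty (NormLayer1 N n q e (nm1 (M₀ * q) q))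
  sat1 : NormSat N n R (nm1 (M₀ * q) q)
  layer2 : Nonempty (NormLayer2 N n q e (nm2 (M₀ * q) q D₀ hM₀))
  sat2 : NormSat N n R (nm2 (M₀ * q) q D₀ hM₀)

variable {M₀ q A N}

/-- `hStep12` from the vertical dictionary and Step 2. -/
theorem cboStep12_of_dict (hq : q.Prime) (hqM : ¬ q ∣ M₀) (hA : A.LiesOverPrime q)
    (hupper : IgResUpper M₀ q) {D₀ : ALData} {hM₀ : M₀ * q * q = D₀.Q * D₀.R}
    (hD₀ : D₀.Q = q ^ 2) (hvert : CboVertDict M₀ q A N D₀ hM₀) {n : ℕ}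
    (hhor : CboHor M₀ q A N D₀ hM₀ n) : CboStep12 M₀ q A N n :=
  step12_modular_one hq hqM A hA hupper N n D₀ hM₀ hD₀ hvert.hoo hvert.h0 hvert.hmid hhor

/-- (F1) from the norm layer. -/
theorem cboF1_of_norm (hq : q.Prime)
    (hsrc : ∀ i, N.src i = nodSrc i) (htgt : ∀ i, N.tgt i = nodTgt i)
    {D₀ : ALData} {hM₀ : M₀ * q * q = D₀.Q * D₀.R} {e n : ℕ} (hn : n ≠ 0)
    {R : Divisor Qb (FBar (M₀ * q * q))} (h : CboNorm M₀ q A N D₀ hM₀ e n R) :
    CocycleF1 N n q e R (fun g => IsCPow n (normAlong (heckeAlphaBar Qb (M₀ * q) q) g)) := by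
  obtain ⟨L⟩ := h.layer1
  exact cocycleF1_modular (M₀ * q) q
    (finiteAlong_alpha_dvd (M₀ * q) q hq (Dvd.intro_left M₀ rfl))
    N hsrc htgt (graphWD N) hn e L h.sat1

/-- (F2) for `D₀` from the norm layer. -/
theorem cboF2_of_norm (hq : q.Prime)
    (hsrc : ∀ i, N.src i = nodSrc i) (htgt : ∀ i, N.tgt i = nodTgt i)
    {D₀ : ALData} {hM₀ : M₀ * q * q = D₀.Q * D₀.R} {e n : ℕ} (hn : n ≠ 0)
    {R : Divisor Qb (FBar (M₀ * q * q))} (h : CboNorm M₀ q A N D₀ hM₀ e n R) :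
    CocycleF2 N n q e R
      (fun g => IsCPow n (normAlong (heckeAlphaBar Qb (M₀ * q) q) (wAt D₀ hM₀ g))) := by
  obtain ⟨L⟩ := h.layer2
  exact cocycleF2_modular (M₀ * q) q
    (finiteAlong_alpha_dvd (M₀ * q) q hq (Dvd.intro_left M₀ rfl))
    N hsrc htgt (graphWD N) hn e D₀ hM₀ L h.sat2

end Defs

/-! ### the bundle from a seed -/

section Seed

variable {M₀ q : ℕ} [NeZero M₀] [NeZero q] [hN₁ : NeZero (M₀ * q)]
  {A : ValuationSubring Qb}
  {Mid SS : Type} [Fintype Mid] [Fintype SS]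
  {Fk : Vtx Mid SS → Type} [∀ c, Field (Fk c)]
  [∀ c, Algebra (IsLocalRing.ResidueField A) (Fk c)]

/-- **the bundle from any seed of the modular shape** and the four statements. -/
def coreBundleOfParts (hq : q.Prime)
    (G : GraphSeed Qb (FBar (M₀ * q * q)) (IsLocalRing.ResidueField A) (Vtx Mid SS) Fk
      (Nod Mid SS))
    (hsrc : ∀ i, G.src i = nodSrc i) (htgt : ∀ i, G.tgt i = nodTgt i)
    (hGA : (G.S (Vtx.vert Vrt.oo)).A = A)
    (e : ℕ) (he : e * Fintype.card Mid + 1 = q)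
    (D₀ : ALData) (hM₀ : M₀ * q * q = D₀.Q * D₀.R) (hD₀ : D₀.Q = q ^ 2)
    (hStep12 : ∀ n : ℕ, n ≠ 0 → Nat.Coprime n q → CboStep12 M₀ q A G.graphSetup n)
    (hF1 : ∀ n : ℕ, n ≠ 0 → Nat.Coprime n q →
      CocycleF1 G.graphSetup n q e (G.bigBound • G.D₀)
        (fun g => IsCPow n (normAlong (heckeAlphaBar Qb (M₀ * q) q) g)))
    (hF2 : ∀ n : ℕ, n ≠ 0 → Nat.Coprime n q →
      CocycleF2 G.graphSetup n q e (G.bigBound • G.D₀)
        (fun g => IsCPow n (normAlong (heckeAlphaBar Qb (M₀ * q) q) (wAt D₀ hM₀ g))))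
    (hF3 : ∀ n : ℕ, n ≠ 0 → Nat.Coprime n q →
      CocycleF3 G.graphSetup n (G.bigBound • G.D₀) (InertiaFixedFun (M₀ * q * q) A n)) :
    CoreBundle (M₀ * q) q A :=
  { k := IsLocalRing.ResidueField A
    Mid := Mid
    SS := SS
    Fk := Fk
    G := G
    hsrc := hsrc
    htgt := htgt
    hA := hGA
    e := e
    hq := he
    c₁ := (q - 1) * (q + 1)
    hc₁ := Nat.mul_ne_zero (Nat.sub_ne_zero_of_lt hq.one_lt) (Nat.succ_ne_zero q)
    m := G.bigBound
    hm := le_rfl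
    hStep12 := fun n hn0 hnq => hStep12 n hn0 hnq
    hF1 := hF1
    hF2 := fun n hn0 hnq =>
      cocycleF2_all_of_one (M₀ * q) q n e G.graphSetup (G.bigBound • G.D₀) D₀ hM₀ hD₀
        (hF2 n hn0 hnq)
    hF3 := hF3 }

/-- **the bundle from any seed of the modular shape**, (F1), (F2) from the norm layers. -/
def coreBundleOfNorm (hq : q.Prime)
    (G : GraphSeed Qb (FBar (M₀ * q * q)) (IsLocalRing.ResidueField A) (Vtx Mid SS) Fk
      (Nod Mid SS))
    (hsrc : ∀ i, G.src i = nodSrc i) (htgt : ∀ i, G.tgt i = nodTgt i)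
    (hGA : (G.S (Vtx.vert Vrt.oo)).A = A)
    (e : ℕ) (he : e * Fintype.card Mid + 1 = q)
    (D₀ : ALData) (hM₀ : M₀ * q * q = D₀.Q * D₀.R) (hD₀ : D₀.Q = q ^ 2)
    (hStep12 : ∀ n : ℕ, n ≠ 0 → Nat.Coprime n q → CboStep12 M₀ q A G.graphSetup n)
    (hnorm : ∀ n : ℕ, n ≠ 0 → Nat.Coprime n q →
      CboNorm M₀ q A G.graphSetup D₀ hM₀ e n (G.bigBound • G.D₀))
    (hF3 : ∀ n : ℕ, n ≠ 0 → Nat.Coprime n q →
      CocycleF3 G.graphSetup n (G.bigBound • G.D₀) (InertiaFixedFun (M₀ * q * q) A n)) :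
    CoreBundle (M₀ * q) q A :=
  coreBundleOfParts hq G hsrc htgt hGA e he D₀ hM₀ hD₀ hStep12
    (fun n hn0 hnq => cboF1_of_norm hq hsrc htgt hn0 (hnorm n hn0 hnq))
    (fun n hn0 hnq => cboF2_of_norm hq hsrc htgt hn0 (hnorm n hn0 hnq)) hF3

/-- **the bundle from any seed of the modular shape** and the junction outputs. -/
def coreBundleOfSeed (hq : q.Prime) (hqM : ¬ q ∣ M₀) (hA : A.LiesOverPrime q)
    (G : GraphSeed Qb (FBar (M₀ * q * q)) (IsLocalRing.ResidueField A) (Vtx Mid SS) Fk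
      (Nod Mid SS))
    (hsrc : ∀ i, G.src i = nodSrc i) (htgt : ∀ i, G.tgt i = nodTgt i)
    (hGA : (G.S (Vtx.vert Vrt.oo)).A = A)
    (e : ℕ) (he : e * Fintype.card Mid + 1 = q)
    (D₀ : ALData) (hM₀ : M₀ * q * q = D₀.Q * D₀.R) (hD₀ : D₀.Q = q ^ 2)
    (hupper : IgResUpper M₀ q)
    (hvert : CboVertDict M₀ q A G.graphSetup D₀ hM₀)
    (hhor : ∀ n : ℕ, n ≠ 0 → Nat.Coprime n q → CboHor M₀ q A G.graphSetup D₀ hM₀ n)
    (hnorm : ∀ n : ℕ, n ≠ 0 → Nat.Coprime n q →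
      CboNorm M₀ q A G.graphSetup D₀ hM₀ e n (G.bigBound • G.D₀))
    (hF3 : ∀ n : ℕ, n ≠ 0 → Nat.Coprime n q →
      CocycleF3 G.graphSetup n (G.bigBound • G.D₀) (InertiaFixedFun (M₀ * q * q) A n)) :
    CoreBundle (M₀ * q) q A :=
  coreBundleOfNorm hq G hsrc htgt hGA e he D₀ hM₀ hD₀
    (fun n hn0 hnq => cboStep12_of_dict hq hqM hA hupper hD₀ hvert (hhor n hn0 hnq)) hnorm hF3

end Seed

/-! ### the bundle of the modular seed of SEED v3 -/

section Ends

variable {M₀ q : ℕ} [NeZero M₀] [NeZero q] [hN₁ : NeZero (M₀ * q)]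
  {A : ValuationSubring Qb}
  {Mid SS : Type} [Fintype Mid] [Fintype SS] [Nonempty SS]
  {Fk0 : Type} [Field Fk0] [Algebra (IsLocalRing.ResidueField A) Fk0]
  {FkM : Mid → Type} [∀ m, Field (FkM m)] [∀ m, Algebra (IsLocalRing.ResidueField A) (FkM m)]
  {FkP : SS → Type} [∀ P, Field (FkP P)] [∀ P, Algebra (IsLocalRing.ResidueField A) (FkP P)]
  (E : ModEndsInput Qb (FBar (M₀ * q * q)) (IsLocalRing.ResidueField A) Mid SS Fk0 FkM FkP)
  {b : Qb} {nn : ℕ}

/-- **junction F3**: the inertia action on the modular graph, for the exponent `n`: every class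
fixed by inertia is moved along any pair of middle vertices by an inertia element acting on the
graph (`InertVertexData`) and fixing the seed function `x`. -/
def CboInert (x : FBar (M₀ * q * q)) (n : ℕ) : Prop :=
  ∀ g : FBar (M₀ * q * q), InertiaFixedFun (M₀ * q * q) A n g → ∀ m m' : Mid, m ≠ m' →
    ∃ (t : SemilinearAut Qb (FBar (M₀ * q * q))) (σ : Equiv.Perm Mid),
      InertVertexData E t σ ∧ t • x = x ∧ σ m = m' ∧
        ∃ (u : FBar (M₀ * q * q)) (a : Qb), a ≠ 0 ∧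
          t • g = algebraMap Qb (FBar (M₀ * q * q)) a * u ^ n * g

/-- (F3) for the modular seed from the inertia action. -/
theorem cboF3_of_inert (hn : 2 ≤ nn) (hb : E.ϖ1 ^ nn = b) (h12 : E.ϖ1 * E.ϖ2 = b)
    (hu2 : E.u2 = E.u1 / algebraMap Qb (FBar (M₀ * q * q)) E.ϖ1)
    (hD₀ : E.D₀ = poleDiv (E.S (Vtx.vert Vrt.oo)).hF (E.ymodX b nn))
    (hdeg : Divisor.degree (poleDiv (E.S (Vtx.vert Vrt.oo)).hF (E.ymodX b nn)) ≤
      ∑ c, Divisor.degree (poleDiv (E.S c).hFk ((E.S c).red (E.ymodX b nn))))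
    (hgenus : genusFF Qb (FBar (M₀ * q * q)) + Fintype.card (Vtx Mid SS) ≤
      (∑ c, genusFF (IsLocalRing.ResidueField A) (FkOf Fk0 FkM FkP c)) +
        Fintype.card (Nod Mid SS) + 1)
    {n : ℕ} (hn0 : n ≠ 0) (R : Divisor Qb (FBar (M₀ * q * q)))
    (hact : CboInert E (E.ymodX b nn) n) :
    CocycleF3 (E.ymodSeed hn hb h12 hu2 hD₀ hdeg hgenus).graphSetup n R
      (InertiaFixedFun (M₀ * q * q) A n) := by
  rw [ModEndsInput.ymodSeed_eq_seed]
  exact E.cocycleF3_of_ends _ _ hD₀ _ _ _ hdeg hgenus hn0 R _ hact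

/-- **the bundle of the modular seed** `G := E.ymodSeed ..` (SEED v3) from the junction
outputs. -/
def coreBundleOfEnds (hq : q.Prime) (hqM : ¬ q ∣ M₀) (hA : A.LiesOverPrime q)
    (hn : 2 ≤ nn) (hb : E.ϖ1 ^ nn = b) (h12 : E.ϖ1 * E.ϖ2 = b)
    (hu2 : E.u2 = E.u1 / algebraMap Qb (FBar (M₀ * q * q)) E.ϖ1)
    (hD₀ : E.D₀ = poleDiv (E.S (Vtx.vert Vrt.oo)).hF (E.ymodX b nn))
    (hdeg : Divisor.degree (poleDiv (E.S (Vtx.vert Vrt.oo)).hF (E.ymodX b nn)) ≤
      ∑ c, Divisor.degree (poleDiv (E.S c).hFk ((E.S c).red (E.ymodX b nn))))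
    (hgenus : genusFF Qb (FBar (M₀ * q * q)) + Fintype.card (Vtx Mid SS) ≤
      (∑ c, genusFF (IsLocalRing.ResidueField A) (FkOf Fk0 FkM FkP c)) +
        Fintype.card (Nod Mid SS) + 1)
    (hEA : (E.S (Vtx.vert Vrt.oo)).A = A)
    (e : ℕ) (he : e * Fintype.card Mid + 1 = q)
    (D₀ : ALData) (hM₀ : M₀ * q * q = D₀.Q * D₀.R) (hDQ : D₀.Q = q ^ 2)
    (hStep12 : ∀ n : ℕ, n ≠ 0 → Nat.Coprime n q →
      CboStep12 M₀ q A (E.ymodSeed hn hb h12 hu2 hD₀ hdeg hgenus).graphSetup n)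
    (hnorm : ∀ n : ℕ, n ≠ 0 → Nat.Coprime n q →
      CboNorm M₀ q A (E.ymodSeed hn hb h12 hu2 hD₀ hdeg hgenus).graphSetup D₀ hM₀ e n
        ((E.ymodSeed hn hb h12 hu2 hD₀ hdeg hgenus).bigBound •
          (E.ymodSeed hn hb h12 hu2 hD₀ hdeg hgenus).D₀))
    (hact : ∀ n : ℕ, n ≠ 0 → Nat.Coprime n q → CboInert E (E.ymodX b nn) n) :
    CoreBundle (M₀ * q) q A :=
  coreBundleOfNorm hq (E.ymodSeed hn hb h12 hu2 hD₀ hdeg hgenus) (fun _ => rfl) (fun _ => rfl)
    hEA e he D₀ hM₀ hDQ hStep12 hnorm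
    (fun n hn0 hnq => cboF3_of_inert E hn hb h12 hu2 hD₀ hdeg hgenus hn0 _ (hact n hn0 hnq))

end Ends

end Fermat.Agent.S36G
end
end MergeWrap_S36_G_CoreBundleOf
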