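import Mathlib
import Fermat.Agent.MUL.Orig.S36.G.Types
import Fermat.Agent.MUL.Lib.Deuring.Setup
import Fermat.Agent.MUL.S36.Val.Restr

section MergeWrap_S36_G_VtxFamily -- from S36/G/VtxFamily.lean

set_option autoImplicit false
set_option linter.unusedSectionVars false

/-!
# Cluster G (S36), MG-INST: the family of the constant reductions of the modular graph
(helper40)

The four kinds of constant reductions `S_∞, S_0 : ValSetup K F k Fk0`, `S_m : ValSetup K F k (FkM m)`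
(Igusa), `S_P : ValSetup K F k (FkP P)` (`w_P`) as ONE family over `Vtx Mid SS`:

* `vtxFamily`         : the family `∀ c : Vtx Mid SS, ValSetup K F k (FkOf Fk0 FkM FkP c)`;
* `vtxFamily_A_eq`, `vtxFamily_res_eq`, `vtxFamily_lat`, `vtxFamily_arch` : the fields of
  `GraphCore` from the four kinds;
* `vtx_ov_le_symm`    : comparable constant reductions over the same valuation ring of the
  constants are equal;
* `vtxFamily_indep`   : `indep` of `GraphCore` from the pairwise incomparabilities (one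
  direction each).
-/

noncomputable section

open AlgebraicCurve Fermat.Agent.RR Fermat.Agent.Deuring

namespace Fermat.Agent.S36G

variable {K F k : Type} [Field K] [Field F] [Algebra K F] [Field k]
  {Mid SS : Type}
  {Fk0 : Type} [Field Fk0] [Algebra k Fk0]
  {FkM : Mid → Type} [∀ m, Field (FkM m)] [∀ m, Algebra k (FkM m)]
  {FkP : SS → Type} [∀ P, Field (FkP P)] [∀ P, Algebra k (FkP P)]

/-- **the family of the constant reductions of the modular graph.** -/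
def vtxFamily (Soo S0 : ValSetup K F k Fk0) (Sm : ∀ m, ValSetup K F k (FkM m))
    (SP : ∀ P, ValSetup K F k (FkP P)) : ∀ c : Vtx Mid SS, ValSetup K F k (FkOf Fk0 FkM FkP c)
  | Vtx.vert Vrt.oo => Soo
  | Vtx.vert Vrt.zero => S0
  | Vtx.vert (Vrt.mid m) => Sm m
  | Vtx.hor P => SP P

section Simp

variable (Soo S0 : ValSetup K F k Fk0) (Sm : ∀ m, ValSetup K F k (FkM m))
  (SP : ∀ P, ValSetup K F k (FkP P))

@[simp] theorem vtxFamily_oo : vtxFamily Soo S0 Sm SP (Vtx.vert Vrt.oo) = Soo := rfl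

@[simp] theorem vtxFamily_zero : vtxFamily Soo S0 Sm SP (Vtx.vert Vrt.zero) = S0 := rfl

@[simp] theorem vtxFamily_mid (m : Mid) :
    vtxFamily Soo S0 Sm SP (Vtx.vert (Vrt.mid m)) = Sm m := rfl

@[simp] theorem vtxFamily_hor (P : SS) : vtxFamily Soo S0 Sm SP (Vtx.hor P) = SP P := rfl

/-- a property of all the members of the family. -/
theorem vtxFamily_forall
    (p : ∀ {E : Type} [Field E] [Algebra k E], ValSetup K F k E → Prop)
    (hoo : p Soo) (h0 : p S0) (hm : ∀ m, p (Sm m)) (hP : ∀ P, p (SP P)) (c : Vtx Mid SS) :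
    p (vtxFamily Soo S0 Sm SP c) := by
  rcases c with (_ | _ | m) | P
  · exact hoo
  · exact h0
  · exact hm m
  · exact hP P

/-- the valuation ring of the constants is the same for all the members. -/
theorem vtxFamily_A (A : ValuationSubring K) (hoo : Soo.A = A) (h0 : S0.A = A)
    (hm : ∀ m, (Sm m).A = A) (hP : ∀ P, (SP P).A = A) (c : Vtx Mid SS) :
    (vtxFamily Soo S0 Sm SP c).A = A := by
  rcases c with (_ | _ | m) | P
  · exact hoo
  · exact h0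
  · exact hm m
  · exact hP P

theorem vtxFamily_A_eq (A : ValuationSubring K) (hoo : Soo.A = A) (h0 : S0.A = A)
    (hm : ∀ m, (Sm m).A = A) (hP : ∀ P, (SP P).A = A) (c c' : Vtx Mid SS) :
    (vtxFamily Soo S0 Sm SP c).A = (vtxFamily Soo S0 Sm SP c').A := by
  rw [vtxFamily_A Soo S0 Sm SP A hoo h0 hm hP c, vtxFamily_A Soo S0 Sm SP A hoo h0 hm hP c']

/-- the residue map of the constants is the same for all the members. -/
theorem vtxFamily_res (A : ValuationSubring K) (r : A →+* k)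
    (hoo : ∀ (x : K) (h : x ∈ Soo.A) (h' : x ∈ A), Soo.res ⟨x, h⟩ = r ⟨x, h'⟩)
    (h0 : ∀ (x : K) (h : x ∈ S0.A) (h' : x ∈ A), S0.res ⟨x, h⟩ = r ⟨x, h'⟩)
    (hm : ∀ (m : Mid) (x : K) (h : x ∈ (Sm m).A) (h' : x ∈ A), (Sm m).res ⟨x, h⟩ = r ⟨x, h'⟩)
    (hP : ∀ (P : SS) (x : K) (h : x ∈ (SP P).A) (h' : x ∈ A), (SP P).res ⟨x, h⟩ = r ⟨x, h'⟩)
    (c : Vtx Mid SS) (x : K) (h : x ∈ (vtxFamily Soo S0 Sm SP c).A) (h' : x ∈ A) :
    (vtxFamily Soo S0 Sm SP c).res ⟨x, h⟩ = r ⟨x, h'⟩ := by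
  rcases c with (_ | _ | m) | P
  · exact hoo x h h'
  · exact h0 x h h'
  · exact hm m x h h'
  · exact hP P x h h'

theorem vtxFamily_res_eq (A : ValuationSubring K) (r : A →+* k)
    (hAoo : Soo.A = A) (hA0 : S0.A = A) (hAm : ∀ m, (Sm m).A = A) (hAP : ∀ P, (SP P).A = A)
    (hoo : ∀ (x : K) (h : x ∈ Soo.A) (h' : x ∈ A), Soo.res ⟨x, h⟩ = r ⟨x, h'⟩)
    (h0 : ∀ (x : K) (h : x ∈ S0.A) (h' : x ∈ A), S0.res ⟨x, h⟩ = r ⟨x, h'⟩)
    (hm : ∀ (m : Mid) (x : K) (h : x ∈ (Sm m).A) (h' : x ∈ A), (Sm m).res ⟨x, h⟩ = r ⟨x, h'⟩)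
    (hP : ∀ (P : SS) (x : K) (h : x ∈ (SP P).A) (h' : x ∈ A), (SP P).res ⟨x, h⟩ = r ⟨x, h'⟩)
    (c c' : Vtx Mid SS) (x : K) (h : x ∈ (vtxFamily Soo S0 Sm SP c).A)
    (h' : x ∈ (vtxFamily Soo S0 Sm SP c').A) :
    (vtxFamily Soo S0 Sm SP c).res ⟨x, h⟩ = (vtxFamily Soo S0 Sm SP c').res ⟨x, h'⟩ := by
  have hx : x ∈ A := by
    rw [← vtxFamily_A Soo S0 Sm SP A hAoo hA0 hAm hAP c]
    exact h
  rw [vtxFamily_res Soo S0 Sm SP A r hoo h0 hm hP c x h hx,
    vtxFamily_res Soo S0 Sm SP A r hoo h0 hm hP c' x h' hx]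

theorem vtxFamily_lat (hoo : HasLattice Soo) (h0 : HasLattice S0)
    (hm : ∀ m, HasLattice (Sm m)) (hP : ∀ P, HasLattice (SP P)) (c : Vtx Mid SS) :
    HasLattice (vtxFamily Soo S0 Sm SP c) := by
  rcases c with (_ | _ | m) | P
  · exact hoo
  · exact h0
  · exact hm m
  · exact hP P

/-- the valuation of the constants is of rank one. -/
theorem vtxFamily_arch (A : ValuationSubring K) (hoo : Soo.A = A) (h0 : S0.A = A)
    (hm : ∀ m, (Sm m).A = A) (hP : ∀ P, (SP P).A = A)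
    (harch : ∀ x : K, x ∈ A → x⁻¹ ∉ A → ∀ d : K, ∃ j : ℕ, x ^ j * d ∈ A)
    (c₀ : Vtx Mid SS) (x : K) (hx : x ∈ (vtxFamily Soo S0 Sm SP c₀).A)
    (hx' : x⁻¹ ∉ (vtxFamily Soo S0 Sm SP c₀).A) (d : K) :
    ∃ j : ℕ, x ^ j * d ∈ (vtxFamily Soo S0 Sm SP c₀).A := by
  rw [vtxFamily_A Soo S0 Sm SP A hoo h0 hm hP c₀] at hx hx' ⊢
  exact harch x hx hx' d

end Simp

/-! ### incomparability -/

/-- two constant reductions of `F / K` over the same valuation ring of `K`: `O ≤ O'` implies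
`O' ≤ O`. -/
theorem vtx_ov_le_symm {K F k Fk Fk' : Type*} [Field K] [Field F] [Algebra K F] [Field k]
    [Field Fk] [Algebra k Fk] [Field Fk'] [Algebra k Fk']
    (S : ValSetup K F k Fk) (S' : ValSetup K F k Fk') (hA : S.A = S'.A)
    (h : S.Ov ≤ S'.Ov) : S'.Ov ≤ S.Ov := by
  intro f hf
  rcases eq_or_ne f 0 with rfl | hf0
  · exact zero_mem _
  obtain ⟨c, hc, h1, h2⟩ := S.scale f hf0
  have hc0 : algebraMap K F c ≠ 0 := (map_ne_zero (algebraMap K F)).mpr hc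
  have h3 : algebraMap K F c = f * (f * (algebraMap K F c)⁻¹)⁻¹ := by
    rw [mul_inv, inv_inv, ← mul_assoc, mul_inv_cancel₀ hf0, one_mul]
  have h4 : algebraMap K F c ∈ S'.Ov := by
    rw [h3]
    exact mul_mem hf (h h2)
  have h5 : c ∈ S.A := by
    rw [hA]
    exact (S'.mem_Ov_iff c).mp h4
  have h6 : f = f * (algebraMap K F c)⁻¹ * algebraMap K F c := by
    rw [mul_assoc, inv_mul_cancel₀ hc0, mul_one]
  rw [h6]
  exact mul_mem h1 ((S.mem_Ov_iff c).mpr h5)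

theorem vtx_not_ov_le_symm {K F k Fk Fk' : Type*} [Field K] [Field F] [Algebra K F] [Field k]
    [Field Fk] [Algebra k Fk] [Field Fk'] [Algebra k Fk']
    (S : ValSetup K F k Fk) (S' : ValSetup K F k Fk') (hA : S.A = S'.A)
    (h : ¬ S.Ov ≤ S'.Ov) : ¬ S'.Ov ≤ S.Ov := fun h' =>
  h (vtx_ov_le_symm S' S hA.symm h')

section Indep

variable (Soo S0 : ValSetup K F k Fk0) (Sm : ∀ m, ValSetup K F k (FkM m))
  (SP : ∀ P, ValSetup K F k (FkP P))

/-- **`indep`** for the family, from the pairwise incomparabilities (one direction each). -/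
theorem vtxFamily_indep (A : ValuationSubring K) (hAoo : Soo.A = A) (hA0 : S0.A = A)
    (hAm : ∀ m, (Sm m).A = A) (hAP : ∀ P, (SP P).A = A)
    (h_oo_0 : ¬ Soo.Ov ≤ S0.Ov)
    (h_oo_m : ∀ m, ¬ Soo.Ov ≤ (Sm m).Ov)
    (h_0_m : ∀ m, ¬ S0.Ov ≤ (Sm m).Ov)
    (h_m_m : ∀ m m', m ≠ m' → ¬ (Sm m).Ov ≤ (Sm m').Ov)
    (h_oo_P : ∀ P, ¬ Soo.Ov ≤ (SP P).Ov)
    (h_0_P : ∀ P, ¬ S0.Ov ≤ (SP P).Ov)
    (h_m_P : ∀ m P, ¬ (Sm m).Ov ≤ (SP P).Ov)
    (h_P_P : ∀ P P', P ≠ P' → ¬ (SP P).Ov ≤ (SP P').Ov)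
    (c c' : Vtx Mid SS) (hne : c ≠ c') :
    ¬ (vtxFamily Soo S0 Sm SP c).Ov ≤ (vtxFamily Soo S0 Sm SP c').Ov := by
  rcases c with (_ | _ | m) | P <;> rcases c' with (_ | _ | m') | P'
  · exact absurd rfl hne
  · exact h_oo_0
  · exact h_oo_m m'
  · exact h_oo_P P'
  · exact vtx_not_ov_le_symm Soo S0 (hAoo.trans hA0.symm) h_oo_0
  · exact absurd rfl hne
  · exact h_0_m m'
  · exact h_0_P P'
  · exact vtx_not_ov_le_symm Soo (Sm m) (hAoo.trans (hAm m).symm) (h_oo_m m)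
  · exact vtx_not_ov_le_symm S0 (Sm m) (hA0.trans (hAm m).symm) (h_0_m m)
  · exact h_m_m m m' fun h => hne (by rw [h])
  · exact h_m_P m P'
  · exact vtx_not_ov_le_symm Soo (SP P) (hAoo.trans (hAP P).symm) (h_oo_P P)
  · exact vtx_not_ov_le_symm S0 (SP P) (hA0.trans (hAP P).symm) (h_0_P P)
  · exact vtx_not_ov_le_symm (Sm m') (SP P) ((hAm m').trans (hAP P).symm) (h_m_P m' P)
  · exact h_P_P P P' fun h => hne (by rw [h])

end Indep

end Fermat.Agent.S36G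
end
end MergeWrap_S36_G_VtxFamily
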