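import Mathlib
import Fermat.Agent.MUL.S36.G.NormValues
import Fermat.Agent.MUL.Orig.S36.Norm.HorAbs
import Fermat.Agent.MUL.Orig.F3.Galois.NormDesc
import Fermat.Agent.MUL.Lib.Deuring.Basic
import Fermat.Agent.MUL.Lib.HP.Deg
import Fermat.Agent.MUL.S36.G.CocycleF12Mod
import Fermat.Agent.MUL.S36.Norm.HorSqueeze
import Fermat.Agent.MUL.S36.G.VtxFamily
import Fermat.Agent.MUL.S36.Igusa.Asm

section MergeWrap_S36_G_NormRootsHor -- from S36/G/NormRootsHor.lean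

set_option autoImplicit false
set_option linter.unusedSectionVars false
set_option linter.unusedVariables false
set_option linter.style.haveILetI false

noncomputable section

open IntermediateField AlgebraicCurve

namespace Fermat.Agent.S36G

open Fermat.Agent.RR Fermat.Agent.S36 Fermat.Agent.HP Fermat.Agent.Deuring Fermat.Agent.F3G
open Fermat.Agent.BadRed (ValAt)

/-! ### the norm to an intermediate field, seen in the big field -/

section NP

variable {k Fk : Type*} [Field k] [Field Fk] [Algebra k Fk]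

/-- the norm of `Fk` over `L`, seen in `Fk`. -/
def nrhNP (L : IntermediateField k Fk) : Fk →* Fk :=
  ((algebraMap L Fk : L →+* Fk) : L →* Fk).comp (Algebra.norm L)

theorem nrhNP_apply (L : IntermediateField k Fk) (x : Fk) :
    nrhNP L x = algebraMap L Fk (Algebra.norm L x) := rfl

theorem nrhNP_ne_zero (L : IntermediateField k Fk) [FiniteDimensional L Fk] {x : Fk}
    (hx : x ≠ 0) : nrhNP L x ≠ 0 := by
  rw [nrhNP_apply, Ne, map_eq_zero_iff _ (algebraMap L Fk).injective]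
  exact Algebra.norm_ne_zero_iff.mpr hx

/-- the generator of `k(X)` generates. -/
theorem nrh_adjoin_gen_eq_top (X : Fk) :
    k⟮(AdjoinSimple.gen k X)⟯ = (⊤ : IntermediateField k k⟮X⟯) := by
  apply IntermediateField.map_injective (k⟮X⟯.val)
  rw [IntermediateField.adjoin_map, Set.image_singleton, ← AlgHom.fieldRange_eq_map,
    IntermediateField.fieldRange_val]
  rfl

end NP

/-! ### the norm along a conjugate embedding -/

section Conj

variable {K E F : Type*} [Field K] [Field E] [Field F] [Algebra K E] [Algebra K F]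

/-- the norm along `σ ∘ ψ` of `σ y` is the norm along `ψ` of `y`. -/
theorem nrh_normAlong_comp_equiv (ψ : E →ₐ[K] F) (σ : F ≃ₐ[K] F) (y : F) :
    normAlong (σ.toAlgHom.comp ψ) (σ y) = normAlong ψ y := by
  letI a1 : Algebra E F := algebraAlong ψ
  let a2 : Algebra E F := algebraAlong (σ.toAlgHom.comp ψ)
  let e : @AlgEquiv E F F _ _ _ a1 a2 :=
    @AlgEquiv.mk E F F _ _ _ a1 a2 σ.toEquiv (fun x y => map_mul σ x y)
      (fun x y => map_add σ x y) (fun f => rfl)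
  show @Algebra.norm E F _ _ a2 (σ y) = @Algebra.norm E F _ _ a1 y
  exact @Algebra.norm_eq_of_algEquiv E F F _ _ a1 _ a2 e y

/-- the norm seen through `w`: `w (ψ (N_ψ (w⁻¹ g))) = ψ' (N_ψ' g)`, `ψ' = w ∘ ψ`. -/
theorem nrh_conj_eq (ψ : E →ₐ[K] F) (w : F ≃ₐ[K] F) (g : F) :
    w (ψ (normAlong ψ (w.symm g))) =
      (w.toAlgHom.comp ψ) (normAlong (w.toAlgHom.comp ψ) g) := by
  have h := nrh_normAlong_comp_equiv ψ w (w.symm g)
  rw [AlgEquiv.apply_symm_apply] at h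
  rw [h]
  rfl

theorem nrh_finiteAlong_comp (ψ : E →ₐ[K] F) (w : F ≃ₐ[K] F) (hfin : FiniteAlong K ψ) :
    FiniteAlong K (w.toAlgHom.comp ψ) := by
  letI a1 : Algebra E F := algebraAlong ψ
  let a2 : Algebra E F := algebraAlong (w.toAlgHom.comp ψ)
  let e : @AlgEquiv E F F _ _ _ a1 a2 :=
    @AlgEquiv.mk E F F _ _ _ a1 a2 w.toEquiv (fun x y => map_mul w x y)
      (fun x y => map_add w x y) (fun f => rfl)
  haveI : @Module.Finite E F _ _ a1.toModule := hfin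
  show @Module.Finite E F _ _ a2.toModule
  exact @Module.Finite.equiv E F F _ _ a1.toModule _ a2.toModule _
    (@AlgEquiv.toLinearEquiv E F F _ _ _ a1 a2 e)

theorem nrh_finrankAlong_comp (ψ : E →ₐ[K] F) (w : F ≃ₐ[K] F) :
    finrankAlong K (w.toAlgHom.comp ψ) = finrankAlong K ψ := by
  letI a1 : Algebra E F := algebraAlong ψ
  let a2 : Algebra E F := algebraAlong (w.toAlgHom.comp ψ)
  let e : @AlgEquiv E F F _ _ _ a1 a2 :=
    @AlgEquiv.mk E F F _ _ _ a1 a2 w.toEquiv (fun x y => map_mul w x y)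
      (fun x y => map_add w x y) (fun f => rfl)
  show @Module.finrank E F _ _ a2.toModule = @Module.finrank E F _ _ a1.toModule
  exact (@LinearEquiv.finrank_eq E F F _ _ a1.toModule _ a2.toModule
    (@AlgEquiv.toLinearEquiv E F F _ _ _ a1 a2 e)).symm

end Conj

/-! ### (N3): the residue of the norm -/

section Red

variable {K F k Fk E : Type*} [Field K] [Field F] [Algebra K F] [Field k] [Field Fk]
  [Algebra k Fk] [Field E] [Algebra K E]

/-- **(N3)**: the residue of the norm (seen in `F`) of an integral function is the norm of its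
residue over `L`, if the residues of `ψ E ∩ O` lie in `L` (SQUEEZE) and `[F : ψ E] = [Fk : L]`. -/
theorem nrh_red (S : ValSetup K F k Fk) (ψ : E →ₐ[K] F) (hfin : FiniteAlong K ψ)
    (L : IntermediateField k Fk) [FiniteDimensional L Fk]
    (hsq : ∀ y : E, ψ y ∈ S.Ov → S.red (ψ y) ∈ L)
    (hrank : finrankAlong K ψ = Module.finrank L Fk)
    (g : F) (hg : g ∈ S.Ov) :
    ψ (normAlong ψ g) ∈ S.Ov ∧ S.red (ψ (normAlong ψ g)) = nrhNP L (S.red g) := by
  letI : Algebra E F := algebraAlong ψ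
  haveI : Module.Finite E F := hfin
  have hker : ∀ y : S.Ov, ¬ IsUnit y → S.ρ y = 0 := fun y hy => (S.ρ_eq_zero_iff y).mpr hy
  have hR1 : ∀ (y : E) (hy : algebraMap E F y ∈ S.Ov),
      S.ρ ⟨algebraMap E F y, hy⟩ ∈ (algebraMap L Fk).range := by
    intro y hy
    have h1 : S.red (ψ y) ∈ L := hsq y hy
    have h2 : S.red (ψ y) = S.ρ ⟨algebraMap E F y, hy⟩ := S.red_of_mem hy
    rw [h2] at h1
    exact ⟨⟨_, h1⟩, rfl⟩
  obtain ⟨h, hh⟩ := normRed_hor (E := E) (F := F) (O := S.Ov) (ρ := S.ρ) (Ek := L) S.ρ_surj hker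
    hR1 hrank g hg
  refine ⟨h, ?_⟩
  have e1 : S.red (ψ (normAlong ψ g)) = S.ρ ⟨algebraMap E F (Algebra.norm E g), h⟩ :=
    S.red_of_mem h
  rw [e1, hh, nrhNP_apply, S.red_of_mem hg]

/-- **(N3) for the norm seen through an automorphism** `w` of `F` (`π₂ = π₁ ∘ w`):
`Nm g = w (ψ (N_ψ (w⁻¹ g)))`. -/
theorem nrh_red_conj (S : ValSetup K F k Fk) (ψ : E →ₐ[K] F) (hfin : FiniteAlong K ψ)
    (w : F ≃ₐ[K] F) (L : IntermediateField k Fk) [FiniteDimensional L Fk]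
    (hsq : ∀ y : E, w (ψ y) ∈ S.Ov → S.red (w (ψ y)) ∈ L)
    (hrank : finrankAlong K ψ = Module.finrank L Fk)
    (g : F) (hg : g ∈ S.Ov) :
    w (ψ (normAlong ψ (w.symm g))) ∈ S.Ov ∧
      S.red (w (ψ (normAlong ψ (w.symm g)))) = nrhNP L (S.red g) := by
  rw [nrh_conj_eq]
  exact nrh_red S (w.toAlgHom.comp ψ) (nrh_finiteAlong_comp ψ w hfin) L hsq
    (by rw [nrh_finrankAlong_comp]; exact hrank) g hg

end Red

/-! ### the values at the ends -/

section Val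

variable {k Fk : Type*} [Field k] [Field Fk] [Algebra k Fk] {q : ℕ}
  (HP : HPCurve k Fk q) [IsAlgClosed k] (hq1 : ((q + 1 : ℕ) : k) ≠ 0)
  {Mid : Type} [Fintype Mid]

include hq1 in
/-- **values of the norm to `k(X₁)`** at the ends: `b_∞ ∏_m b_m ^ e` at `p_∞` and at the `p_m`,
`b_0 ^ q` at `p_0`. -/
theorem nrh_val_X1 (pm : Mid → Place k Fk) (hpm : Function.Injective pm)
    (hmid : ∀ v : Place k Fk, 0 < v.ord (HP.s - algebraMap k Fk 1) ↔ ∃ m, v = pm m)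
    (e : ℕ) (he : ∀ m, (-((pm m).ord HP.X1)).toNat = e)
    (h : Fk) (bInf bZero : k) (bm : Mid → k)
    (hInf : ValAt (HP.pInf hq1) h bInf) (hZero : ValAt (HP.pZero hq1) h bZero)
    (hm : ∀ m, ValAt (pm m) h (bm m)) :
    ValAt (HP.pInf hq1) (nrhNP k⟮HP.X1⟯ h) (bInf * ∏ m, bm m ^ e) ∧
    (∀ m, ValAt (pm m) (nrhNP k⟮HP.X1⟯ h) (bInf * ∏ m, bm m ^ e)) ∧
    ValAt (HP.pZero hq1) (nrhNP k⟮HP.X1⟯ h) (bZero ^ q) := by
  haveI := HP.finiteDimensional_X1
  exact nv_hor_X1 HP hq1 (E := k⟮HP.X1⟯) (nrh_adjoin_gen_eq_top HP.X1) rfl pm hpm hmid e he h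
    bInf bZero bm hInf hZero hm

include hq1 in
/-- **values of the norm to `k(X₂)`** at the ends: `b_0 ∏_m b_m ^ e` at `p_0` and at the `p_m`,
`b_∞ ^ q` at `p_∞`. -/
theorem nrh_val_X2 (pm : Mid → Place k Fk) (hpm : Function.Injective pm)
    (hmid : ∀ v : Place k Fk, 0 < v.ord (HP.s - algebraMap k Fk 1) ↔ ∃ m, v = pm m)
    (e : ℕ) (he : ∀ m, (-((pm m).ord HP.X1)).toNat = e)
    (h : Fk) (bInf bZero : k) (bm : Mid → k)
    (hInf : ValAt (HP.pInf hq1) h bInf) (hZero : ValAt (HP.pZero hq1) h bZero)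
    (hm : ∀ m, ValAt (pm m) h (bm m)) :
    ValAt (HP.pZero hq1) (nrhNP k⟮HP.X2⟯ h) (bZero * ∏ m, bm m ^ e) ∧
    (∀ m, ValAt (pm m) (nrhNP k⟮HP.X2⟯ h) (bZero * ∏ m, bm m ^ e)) ∧
    ValAt (HP.pInf hq1) (nrhNP k⟮HP.X2⟯ h) (bInf ^ q) := by
  haveI := HP.finiteDimensional_X2 hq1
  exact nv_hor_X2 HP hq1 (E := k⟮HP.X2⟯) (nrh_adjoin_gen_eq_top HP.X2) rfl pm hpm hmid e he h
    bInf bZero bm hInf hZero hm

end Val

/-! ### the SQUEEZE from a count of degrees -/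

section Squeeze

variable {k k₀ Fk : Type*} [Field k] [Field k₀] [Field Fk] [Algebra k Fk] [Algebra k₀ Fk]

/-- a subfield `R ⊇ L` of `Fk` with `[Fk : R] = [Fk : L]` (finite) is `L`. -/
theorem nrh_sq_of_finrank (L : IntermediateField k Fk) (R : IntermediateField k₀ Fk)
    [FiniteDimensional L Fk] (hLR : ∀ x ∈ L, x ∈ R)
    (hdeg : Module.finrank R Fk = Module.finrank L Fk) : ∀ x ∈ R, x ∈ L := by
  have hle : L.toSubfield ≤ R.toSubfield := fun x hx => hLR x hx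
  have h1 := Subfield.relfinrank_mul_finrank_top hle
  have e1 : Module.finrank R.toSubfield Fk = Module.finrank R Fk := rfl
  have e2 : Module.finrank L.toSubfield Fk = Module.finrank L Fk := rfl
  rw [e1, e2, hdeg] at h1
  have hpos : 0 < Module.finrank L Fk := Module.finrank_pos
  have h2 : Subfield.relfinrank L.toSubfield R.toSubfield = 1 := by
    have h3 : Subfield.relfinrank L.toSubfield R.toSubfield * Module.finrank L Fk
        = 1 * Module.finrank L Fk := by rw [h1, one_mul]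
    exact Nat.eq_of_mul_eq_mul_right hpos h3
  exact fun x hx => Subfield.relfinrank_eq_one_iff.mp h2 hx

/-- the SQUEEZE in the form used by `nrh_red`: the residues of `ψ E ∩ O` form a subfield `R`
containing `X` and the constants, with `[Fk : R] = [Fk : k(X)]`. -/
theorem nrh_sq_of_residueField {K F E : Type*} [Field K] [Field F] [Algebra K F] [Field E]
    [Algebra K E] (S : ValSetup K F k Fk) (ψ : E →ₐ[K] F) (X : Fk)
    [FiniteDimensional k⟮X⟯ Fk] (R : IntermediateField k₀ Fk)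
    (hR : ∀ y : E, ψ y ∈ S.Ov → S.red (ψ y) ∈ R)
    (hk : ∀ c : k, algebraMap k Fk c ∈ R) (hX : X ∈ R)
    (hdeg : Module.finrank R Fk = Module.finrank k⟮X⟯ Fk) :
    ∀ y : E, ψ y ∈ S.Ov → S.red (ψ y) ∈ k⟮X⟯ := by
  have hLR : ∀ x ∈ k⟮X⟯, x ∈ R := by
    intro x hx
    have hle : k⟮X⟯.toSubfield ≤ R.toSubfield :=
      IntermediateField.adjoin_le_subfield k {X} (K := R.toSubfield)
        (by rintro _ ⟨c, rfl⟩; exact hk c) (by rintro _ rfl; exact hX)
    exact hle hx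
  exact fun y hy => nrh_sq_of_finrank k⟮X⟯ R hLR hdeg _ (hR y hy)

end Squeeze

end Fermat.Agent.S36G
end
end MergeWrap_S36_G_NormRootsHor

section MergeWrap_S36_G_NormRootsHorMod -- from S36/G/NormRootsHorMod.lean

set_option autoImplicit false
set_option linter.unusedSectionVars false
set_option linter.unusedVariables false
set_option linter.style.haveILetI false
set_option synthInstance.maxHeartbeats 400000

noncomputable section

namespace Fermat.Agent.S36G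

open ModularCurve AlgebraicCurve IntermediateField Fermat.Agent.F3 Fermat.Agent.F3G
  Fermat.Agent.GaussInt Fermat.Agent.Deuring Fermat.Agent.BadRed Fermat.Agent.HP
  Fermat.Agent.S36 Fermat.Agent.AtkinLehner

local notation "Qb" => AlgebraicClosure ℚ

/-! ### `π₂^* π₂_*` through `β` -/

/-- **`nm2 g = β (N_β g)`**: the norm of `π₂`, seen in `F`, is the norm along `β`. -/
theorem nrh_nm2_eq_beta (N₁ q : ℕ) [NeZero N₁] [NeZero q] (D₁ D : ALData)
    (hQ : D.Q = D₁.Q * q) (hR : D.R = D₁.R) (hN : N₁ = D₁.Q * D₁.R)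
    (hM : N₁ * q = D.Q * D.R) (g : FBar (N₁ * q)) :
    nm2 N₁ q D hM g = heckeBetaBar Qb N₁ q (normAlong (heckeBetaBar Qb N₁ q) g) := by
  have h1 := Fermat.Agent.S36N.normAlong_beta_wAt (N := N₁) (ℓ := q) D₁ D hQ hR hN hM
    (wAt D hM g)
  rw [wAt_wAt] at h1
  rw [nm2_def, Fermat.Agent.S36N.wAt_alpha (N := N₁) (ℓ := q) D₁ D hQ hR hN hM, ← h1]

/-! ### the fields `NP`, `NP_ne_zero`, `red_hor` at one horizontal component -/

section One

variable {M₀ q : ℕ} [NeZero M₀] [NeZero q] {A : ValuationSubring Qb}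
  {S0 : Fermat.Agent.S18Key.RedSetup Qb (FBar M₀) (IsLocalRing.ResidueField A)
    ↥(modularFunctionFieldFullC (IsLocalRing.ResidueField A) M₀)}
  {P : Place (IsLocalRing.ResidueField A)
    ↥(modularFunctionFieldFullC (IsLocalRing.ResidueField A) M₀)}
  {FkP : Type} [Field FkP] [Algebra (IsLocalRing.ResidueField A) FkP]
  (O : WPOut M₀ q A S0 P FkP)

/-- the field `NP P` of `NormLayer1`: the norm of `k(H_P)` over `k(X₁)`, seen in `k(H_P)`. -/
def nrhNP1 : FkP →* FkP := nrhNP (IsLocalRing.ResidueField A)⟮O.H.X1⟯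

/-- the field `NP P` of `NormLayer2`: the norm of `k(H_P)` over `k(X₂)`, seen in `k(H_P)`. -/
def nrhNP2 : FkP →* FkP := nrhNP (IsLocalRing.ResidueField A)⟮O.H.X2⟯

theorem nrhNP1_apply (x : FkP) :
    nrhNP1 O x = algebraMap (IsLocalRing.ResidueField A)⟮O.H.X1⟯ FkP
      (Algebra.norm (IsLocalRing.ResidueField A)⟮O.H.X1⟯ x) := rfl

theorem nrhNP2_apply (x : FkP) :
    nrhNP2 O x = algebraMap (IsLocalRing.ResidueField A)⟮O.H.X2⟯ FkP
      (Algebra.norm (IsLocalRing.ResidueField A)⟮O.H.X2⟯ x) := rfl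

/-- the field `NP_ne_zero` of `NormLayer1`. -/
theorem nrhNP1_ne_zero {x : FkP} (hx : x ≠ 0) : nrhNP1 O x ≠ 0 := by
  haveI := Fermat.Agent.FrobTrace.isAlgClosed_residueField A
  haveI := O.H.finiteDimensional_X1
  exact nrhNP_ne_zero _ hx

/-- the field `NP_ne_zero` of `NormLayer2`. -/
theorem nrhNP2_ne_zero (hq : q.Prime) (hA : A.LiesOverPrime q) {x : FkP} (hx : x ≠ 0) :
    nrhNP2 O x ≠ 0 := by
  haveI := Fermat.Agent.FrobTrace.isAlgClosed_residueField A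
  have hq1 := wpsq_succ_ne_zero (A := A) hq hA
  haveI := O.H.finiteDimensional_X2 hq1
  exact nrhNP_ne_zero _ hx

/-- **`red_hor` for `π₁`** at `H_P`: `red_P (nm1 g) = N_{k(H_P)/k(X₁)} (red_P g)`. -/
theorem nrhMod_red1 (hq : q.Prime) (hqM : ¬ q ∣ M₀) (hA : A.LiesOverPrime q)
    (g : FBar (M₀ * q * q)) (hg : g ∈ O.S.Ov) :
    nm1 (M₀ * q) q g ∈ O.S.Ov ∧ O.S.red (nm1 (M₀ * q) q g) = nrhNP1 O (O.S.red g) :=
  wpsq_normRed_alpha O hq hqM hA g hg

/-- **`red_hor` for `π₂`** at `H_P`: `red_P (nm2 g) = N_{k(H_P)/k(X₂)} (red_P g)`. -/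
theorem nrhMod_red2 (hq : q.Prime) (hqM : ¬ q ∣ M₀) (hA : A.LiesOverPrime q)
    (D₁ D : ALData) (hQ : D.Q = D₁.Q * q) (hR : D.R = D₁.R) (hN : M₀ * q = D₁.Q * D₁.R)
    (hM : M₀ * q * q = D.Q * D.R) (g : FBar (M₀ * q * q)) (hg : g ∈ O.S.Ov) :
    nm2 (M₀ * q) q D hM g ∈ O.S.Ov ∧
      O.S.red (nm2 (M₀ * q) q D hM g) = nrhNP2 O (O.S.red g) := by
  rw [nrh_nm2_eq_beta (M₀ * q) q D₁ D hQ hR hN hM g]
  exact wpsq_normRed_beta O hq hqM hA g hg

end One

/-! ### the family form (the fields `red_hor`) -/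

section Family

variable {M₀ q : ℕ} [NeZero M₀] [NeZero q] {A : ValuationSubring Qb}
  {S0 : Fermat.Agent.S18Key.RedSetup Qb (FBar M₀) (IsLocalRing.ResidueField A)
    ↥(modularFunctionFieldFullC (IsLocalRing.ResidueField A) M₀)}
  {SS : Type}
  {pt : SS → Place (IsLocalRing.ResidueField A)
    ↥(modularFunctionFieldFullC (IsLocalRing.ResidueField A) M₀)}
  {FkP : SS → Type} [∀ P, Field (FkP P)] [∀ P, Algebra (IsLocalRing.ResidueField A) (FkP P)]
  (O : ∀ P : SS, WPOut M₀ q A S0 (pt P) (FkP P))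

/-- the field `red_hor` of `NormLayer1` for `SP P = (O P).S`, `NP P = nrhNP1 (O P)`. -/
theorem nrhMod_red_hor1 (hq : q.Prime) (hqM : ¬ q ∣ M₀) (hA : A.LiesOverPrime q)
    (g : FBar (M₀ * q * q)) (hg : ∀ P, g ∈ (O P).S.Ov) (P : SS) :
    (O P).S.red (nm1 (M₀ * q) q g) = nrhNP1 (O P) ((O P).S.red g) :=
  (nrhMod_red1 (O P) hq hqM hA g (hg P)).2

/-- the field `red_hor` of `NormLayer2` for `SP P = (O P).S`, `NP P = nrhNP2 (O P)`. -/
theorem nrhMod_red_hor2 (hq : q.Prime) (hqM : ¬ q ∣ M₀) (hA : A.LiesOverPrime q)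
    (D₁ D : ALData) (hQ : D.Q = D₁.Q * q) (hR : D.R = D₁.R) (hN : M₀ * q = D₁.Q * D₁.R)
    (hM : M₀ * q * q = D.Q * D.R) (g : FBar (M₀ * q * q)) (hg : ∀ P, g ∈ (O P).S.Ov) (P : SS) :
    (O P).S.red (nm2 (M₀ * q) q D hM g) = nrhNP2 (O P) ((O P).S.red g) :=
  (nrhMod_red2 (O P) hq hqM hA D₁ D hQ hR hN hM g (hg P)).2

end Family

end Fermat.Agent.S36G
end
end MergeWrap_S36_G_NormRootsHorMod

section MergeWrap_S36_G_NormLayerHor -- from S36/G/NormLayerHor.lean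

set_option autoImplicit false
set_option linter.unusedSectionVars false
set_option linter.unusedVariables false
set_option linter.style.haveILetI false
set_option synthInstance.maxHeartbeats 400000

noncomputable section

namespace Fermat.Agent.S36G

open ModularCurve AlgebraicCurve IntermediateField Fermat.Agent.F3 Fermat.Agent.F3G
  Fermat.Agent.GaussInt Fermat.Agent.Deuring Fermat.Agent.BadRed Fermat.Agent.BadRedG
  Fermat.Agent.HP Fermat.Agent.S36 Fermat.Agent.AtkinLehner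

local notation "Qb" => AlgebraicClosure ℚ

attribute [local instance 10000] SubalgebraClass.toAlgebra HahnSeries.powerSeriesAlgebra

section Hor

variable {M₀ q : ℕ} [NeZero M₀] [NeZero q] {A : ValuationSubring Qb}
  {R0 : Fermat.Agent.S18Key.RedSetup Qb (FBar M₀) (IsLocalRing.ResidueField A)
    ↥(modularFunctionFieldFullC (IsLocalRing.ResidueField A) M₀)}
  {Mid SS : Type}
  {pt : SS → Place (IsLocalRing.ResidueField A)
    ↥(modularFunctionFieldFullC (IsLocalRing.ResidueField A) M₀)}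
  {Fk0 : Type} [Field Fk0] [Algebra (IsLocalRing.ResidueField A) Fk0]
  {FkM : Mid → Type} [∀ m, Field (FkM m)] [∀ m, Algebra (IsLocalRing.ResidueField A) (FkM m)]
  {FkP : SS → Type} [∀ P, Field (FkP P)] [∀ P, Algebra (IsLocalRing.ResidueField A) (FkP P)]
  (O : ∀ P : SS, WPOut M₀ q A R0 (pt P) (FkP P))
  (N : GraphSetup Qb (FBar (M₀ * q * q)) (IsLocalRing.ResidueField A) (Vtx Mid SS)
    (FkOf Fk0 FkM FkP) (Nod Mid SS))
  {Soo S0 : ValSetup Qb (FBar (M₀ * q * q)) (IsLocalRing.ResidueField A) Fk0}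
  {Sm : ∀ m, ValSetup Qb (FBar (M₀ * q * q)) (IsLocalRing.ResidueField A) (FkM m)}
  {SP : ∀ P, ValSetup Qb (FBar (M₀ * q * q)) (IsLocalRing.ResidueField A) (FkP P)}
  (hN : N.S = vtxFamily Soo S0 Sm SP) (hSP : ∀ P, SP P = (O P).S)
  (HP : ∀ P : SS, HPCurve (IsLocalRing.ResidueField A) (FkOf Fk0 FkM FkP (Vtx.hor P)) q)
  (hHP : ∀ P, HP P = (O P).H)

include hN hSP in
/-- the constant reduction of `N` at the horizontal vertex `P` is `w_P`. -/
theorem nlh_S_hor (P : SS) : N.S (Vtx.hor P) = (O P).S := by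
  rw [hN]
  exact hSP P

include hN hSP in
/-- integrality on all the components gives integrality for every `w_P`. -/
theorem nlh_mem_hor {g : FBar (M₀ * q * q)} (hg : ∀ c, g ∈ (N.S c).Ov) (P : SS) :
    g ∈ (O P).S.Ov := by
  have h := hg (Vtx.hor P)
  rw [nlh_S_hor O N hN hSP P] at h
  exact h

include hN hSP in
/-- `nm1 g` is integral on the horizontal components. -/
theorem nlh_mem_hor1 (hq : q.Prime) (hqM : ¬ q ∣ M₀) (hA : A.LiesOverPrime q)
    {g : FBar (M₀ * q * q)} (hg : ∀ c, g ∈ (N.S c).Ov) (P : SS) :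
    nm1 (M₀ * q) q g ∈ (N.S (Vtx.hor P)).Ov := by
  rw [nlh_S_hor O N hN hSP P]
  exact (nrhMod_red1 (O P) hq hqM hA g (nlh_mem_hor O N hN hSP hg P)).1

include hN hSP hHP in
/-- **the argument `red_hor` of `normLayer1_of`** (`Nm = nm1 (M₀ q) q`), verbatim. -/
theorem nlh_red_hor1 (hq : q.Prime) (hqM : ¬ q ∣ M₀) (hA : A.LiesOverPrime q) :
    ∀ g : FBar (M₀ * q * q), (∀ c, g ∈ (N.S c).Ov) → (∀ c, (N.S c).red g ≠ 0) → ∀ P,
      (N.S (Vtx.hor P)).red (nm1 (M₀ * q) q g) =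
        algebraMap (IsLocalRing.ResidueField A)⟮(HP P).X1⟯ (FkOf Fk0 FkM FkP (Vtx.hor P))
          (Algebra.norm (IsLocalRing.ResidueField A)⟮(HP P).X1⟯
            ((N.S (Vtx.hor P)).red g)) := by
  intro g hg _ P
  rw [nlh_S_hor O N hN hSP P, hHP P]
  exact nrhMod_red_hor1 O hq hqM hA g (nlh_mem_hor O N hN hSP hg) P

include hN hSP in
/-- `nm2 g` is integral on the horizontal components. -/
theorem nlh_mem_hor2_of (hq : q.Prime) (hqM : ¬ q ∣ M₀) (hA : A.LiesOverPrime q)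
    (D₁ D : ALData) (hQ : D.Q = D₁.Q * q) (hR : D.R = D₁.R) (hN₁ : M₀ * q = D₁.Q * D₁.R)
    (hM : M₀ * q * q = D.Q * D.R)
    {g : FBar (M₀ * q * q)} (hg : ∀ c, g ∈ (N.S c).Ov) (P : SS) :
    nm2 (M₀ * q) q D hM g ∈ (N.S (Vtx.hor P)).Ov := by
  rw [nlh_S_hor O N hN hSP P]
  exact (nrhMod_red2 (O P) hq hqM hA D₁ D hQ hR hN₁ hM g (nlh_mem_hor O N hN hSP hg P)).1

include hN hSP hHP in
/-- the argument `red_hor` of `normLayer2_of` (`Nm = nm2 (M₀ q) q D hM`), with the auxiliary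
datum `D₁`. -/
theorem nlh_red_hor2_of (hq : q.Prime) (hqM : ¬ q ∣ M₀) (hA : A.LiesOverPrime q)
    (D₁ D : ALData) (hQ : D.Q = D₁.Q * q) (hR : D.R = D₁.R) (hN₁ : M₀ * q = D₁.Q * D₁.R)
    (hM : M₀ * q * q = D.Q * D.R) :
    ∀ g : FBar (M₀ * q * q), (∀ c, g ∈ (N.S c).Ov) → (∀ c, (N.S c).red g ≠ 0) → ∀ P,
      (N.S (Vtx.hor P)).red (nm2 (M₀ * q) q D hM g) =
        algebraMap (IsLocalRing.ResidueField A)⟮(HP P).X2⟯ (FkOf Fk0 FkM FkP (Vtx.hor P))
          (Algebra.norm (IsLocalRing.ResidueField A)⟮(HP P).X2⟯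
            ((N.S (Vtx.hor P)).red g)) := by
  intro g hg _ P
  rw [nlh_S_hor O N hN hSP P, hHP P]
  exact nrhMod_red_hor2 O hq hqM hA D₁ D hQ hR hN₁ hM g (nlh_mem_hor O N hN hSP hg) P

omit [NeZero q] in
/-- the auxiliary datum `D₁` (`Q = q`, `R = M₀`) of a datum `D` with `D.Q = q ^ 2` at the level
`M₀ q q`. -/
theorem nlh_exists_aux (hq : q.Prime) (hqM : ¬ q ∣ M₀) (D : ALData)
    (hM : M₀ * q * q = D.Q * D.R) (hDQ : D.Q = q ^ 2) :
    ∃ D₁ : ALData, D.Q = D₁.Q * q ∧ D.R = D₁.R ∧ M₀ * q = D₁.Q * D₁.R := by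
  have hM₀pos : 0 < M₀ := Nat.pos_of_ne_zero (NeZero.ne M₀)
  have hcop : Nat.Coprime q M₀ := (Nat.Prime.coprime_iff_not_dvd hq).mpr hqM
  obtain ⟨D₁, hQ₁, hR₁⟩ := ALData.exists_of_coprime hq.pos hM₀pos hcop
  have hR : D.R = M₀ := by
    have h3 : q ^ 2 * D.R = q ^ 2 * M₀ := by
      have h4 : D.Q * D.R = M₀ * q * q := hM.symm
      rw [hDQ] at h4
      rw [h4]
      ring
    exact Nat.eq_of_mul_eq_mul_left (pow_pos hq.pos 2) h3
  refine ⟨D₁, ?_, ?_, ?_⟩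
  · rw [hDQ, hQ₁, sq]
  · rw [hR, hR₁]
  · rw [hQ₁, hR₁, mul_comm]

include hN hSP in
/-- `nm2 g` is integral on the horizontal components (any `D` with `D.Q = q ^ 2`). -/
theorem nlh_mem_hor2 (hq : q.Prime) (hqM : ¬ q ∣ M₀) (hA : A.LiesOverPrime q)
    (D : ALData) (hM : M₀ * q * q = D.Q * D.R) (hDQ : D.Q = q ^ 2)
    {g : FBar (M₀ * q * q)} (hg : ∀ c, g ∈ (N.S c).Ov) (P : SS) :
    nm2 (M₀ * q) q D hM g ∈ (N.S (Vtx.hor P)).Ov := by
  obtain ⟨D₁, hQ, hR, hN₁⟩ := nlh_exists_aux hq hqM D hM hDQ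
  exact nlh_mem_hor2_of O N hN hSP hq hqM hA D₁ D hQ hR hN₁ hM hg P

include hN hSP hHP in
/-- **the argument `red_hor` of `normLayer2_of`** (`Nm = nm2 (M₀ q) q D hM`), verbatim, for any
`D : ALData` with `D.Q = q ^ 2`. -/
theorem nlh_red_hor2 (hq : q.Prime) (hqM : ¬ q ∣ M₀) (hA : A.LiesOverPrime q)
    (D : ALData) (hM : M₀ * q * q = D.Q * D.R) (hDQ : D.Q = q ^ 2) :
    ∀ g : FBar (M₀ * q * q), (∀ c, g ∈ (N.S c).Ov) → (∀ c, (N.S c).red g ≠ 0) → ∀ P,
      (N.S (Vtx.hor P)).red (nm2 (M₀ * q) q D hM g) =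
        algebraMap (IsLocalRing.ResidueField A)⟮(HP P).X2⟯ (FkOf Fk0 FkM FkP (Vtx.hor P))
          (Algebra.norm (IsLocalRing.ResidueField A)⟮(HP P).X2⟯
            ((N.S (Vtx.hor P)).red g)) := by
  obtain ⟨D₁, hQ, hR, hN₁⟩ := nlh_exists_aux hq hqM D hM hDQ
  exact nlh_red_hor2_of O N hN hSP HP hHP hq hqM hA D₁ D hQ hR hN₁ hM

end Hor

/-! ### the family form: `SP = fun P => (O P).S`, `HP = fun P => (O P).H` -/

section Fam

variable {M₀ q : ℕ} [NeZero M₀] [NeZero q] {A : ValuationSubring Qb}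
  {R0 : Fermat.Agent.S18Key.RedSetup Qb (FBar M₀) (IsLocalRing.ResidueField A)
    ↥(modularFunctionFieldFullC (IsLocalRing.ResidueField A) M₀)}
  {Mid SS : Type}
  {pt : SS → Place (IsLocalRing.ResidueField A)
    ↥(modularFunctionFieldFullC (IsLocalRing.ResidueField A) M₀)}
  {Fk0 : Type} [Field Fk0] [Algebra (IsLocalRing.ResidueField A) Fk0]
  {FkM : Mid → Type} [∀ m, Field (FkM m)] [∀ m, Algebra (IsLocalRing.ResidueField A) (FkM m)]
  {FkP : SS → Type} [∀ P, Field (FkP P)] [∀ P, Algebra (IsLocalRing.ResidueField A) (FkP P)]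
  (O : ∀ P : SS, WPOut M₀ q A R0 (pt P) (FkP P))
  (N : GraphSetup Qb (FBar (M₀ * q * q)) (IsLocalRing.ResidueField A) (Vtx Mid SS)
    (FkOf Fk0 FkM FkP) (Nod Mid SS))
  {Soo S0 : ValSetup Qb (FBar (M₀ * q * q)) (IsLocalRing.ResidueField A) Fk0}
  {Sm : ∀ m, ValSetup Qb (FBar (M₀ * q * q)) (IsLocalRing.ResidueField A) (FkM m)}
  (hN : N.S = vtxFamily Soo S0 Sm fun P => (O P).S)

/-- the curves `H_P` as a family over the horizontal vertices of the graph. -/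
def nlhHP (P : SS) :
    HPCurve (IsLocalRing.ResidueField A) (FkOf Fk0 FkM FkP (Vtx.hor P)) q :=
  (O P).H

theorem nlhHP_apply (P : SS) : nlhHP (Fk0 := Fk0) (FkM := FkM) O P = (O P).H := rfl

include hN in
/-- **`red_hor` of `normLayer1_of`** for the family `O`. -/
theorem nlh_red_hor1_fam (hq : q.Prime) (hqM : ¬ q ∣ M₀) (hA : A.LiesOverPrime q) :
    ∀ g : FBar (M₀ * q * q), (∀ c, g ∈ (N.S c).Ov) → (∀ c, (N.S c).red g ≠ 0) → ∀ P,
      (N.S (Vtx.hor P)).red (nm1 (M₀ * q) q g) =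
        algebraMap (IsLocalRing.ResidueField A)⟮(nlhHP (Fk0 := Fk0) (FkM := FkM) O P).X1⟯
          (FkOf Fk0 FkM FkP (Vtx.hor P))
          (Algebra.norm (IsLocalRing.ResidueField A)⟮(nlhHP (Fk0 := Fk0) (FkM := FkM) O P).X1⟯
            ((N.S (Vtx.hor P)).red g)) :=
  nlh_red_hor1 O N hN (fun _ => rfl) (nlhHP O) (fun _ => rfl) hq hqM hA

include hN in
/-- **`red_hor` of `normLayer2_of`** for the family `O`. -/
theorem nlh_red_hor2_fam (hq : q.Prime) (hqM : ¬ q ∣ M₀) (hA : A.LiesOverPrime q)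
    (D : ALData) (hM : M₀ * q * q = D.Q * D.R) (hDQ : D.Q = q ^ 2) :
    ∀ g : FBar (M₀ * q * q), (∀ c, g ∈ (N.S c).Ov) → (∀ c, (N.S c).red g ≠ 0) → ∀ P,
      (N.S (Vtx.hor P)).red (nm2 (M₀ * q) q D hM g) =
        algebraMap (IsLocalRing.ResidueField A)⟮(nlhHP (Fk0 := Fk0) (FkM := FkM) O P).X2⟯
          (FkOf Fk0 FkM FkP (Vtx.hor P))
          (Algebra.norm (IsLocalRing.ResidueField A)⟮(nlhHP (Fk0 := Fk0) (FkM := FkM) O P).X2⟯
            ((N.S (Vtx.hor P)).red g)) :=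
  nlh_red_hor2 O N hN (fun _ => rfl) (nlhHP O) (fun _ => rfl) hq hqM hA D hM hDQ

end Fam

end Fermat.Agent.S36G
end
end MergeWrap_S36_G_NormLayerHor
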