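import Mathlib
import Fermat.Agent.MUL.S36.G.EndsDict
import Fermat.Agent.MUL.S36.Seed.OldFinal3

section MergeWrap_S36_G_EndsDictAdjoin -- from S36/G/EndsDictAdjoin.lean

set_option autoImplicit false
set_option linter.unusedSectionVars false
set_option linter.unusedVariables false
set_option linter.style.haveILetI false

noncomputable section

open IntermediateField AlgebraicCurve

namespace Fermat.Agent.S36G

open Fermat.Agent.RR Fermat.Agent.S36 Fermat.Agent.HP Fermat.Agent.Deuring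
open Fermat.Agent.BadRed Fermat.Agent.BadRedG

variable {K F k : Type*} [Field K] [Field F] [Algebra K F] [Field k]

variable {Mid SS : Type} [Fintype Mid] {Fk : Vtx Mid SS → Type*} [∀ c, Field (Fk c)]
  [∀ c, Algebra k (Fk c)]

variable (N : GraphSetup K F k (Vtx Mid SS) Fk (Nod Mid SS))
  (hsrc : ∀ i, N.src i = nodSrc i) (htgt : ∀ i, N.tgt i = nodTgt i)

variable {q : ℕ} [IsAlgClosed k] (hq1 : ((q + 1 : ℕ) : k) ≠ 0)
  (HP : ∀ P : SS, HPCurve k (Fk (Vtx.hor P)) q)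

include hq1 in
/-- **fields `val_NP_oo`, `val_NP_zero` of `NormLayer1`**, `NP = N_{k(H_P)/k⟮X₁⟯}`. -/
theorem nl_val_NP_X1_adjoin
    (hInf : ∀ P, nlTgt N htgt P Vrt.oo = (HP P).pInf hq1)
    (hZero : ∀ P, nlTgt N htgt P Vrt.zero = (HP P).pZero hq1)
    (hmid : ∀ P (v : Place k (Fk (Vtx.hor P))),
      0 < v.ord ((HP P).s - algebraMap k (Fk (Vtx.hor P)) 1) ↔
        ∃ m, v = nlTgt N htgt P (Vrt.mid m))
    (e : ℕ) (he : ∀ P m, (-((nlTgt N htgt P (Vrt.mid m)).ord (HP P).X1)).toNat = e)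
    (NP : ∀ P : SS, Fk (Vtx.hor P) →* Fk (Vtx.hor P))
    (hNP : ∀ P y, NP P y =
      algebraMap k⟮(HP P).X1⟯ (Fk (Vtx.hor P)) (Algebra.norm k⟮(HP P).X1⟯ y)) :
    (∀ (P : SS) (h H : ∀ c, Fk c) (ca : k) (cm : Mid → k),
      H (Vtx.hor P) = NP P (h (Vtx.hor P)) →
      ValAt (N.s₂ (P, Vrt.oo)) (h (N.tgt (P, Vrt.oo))) ca →
      (∀ m, ValAt (N.s₂ (P, Vrt.mid m)) (h (N.tgt (P, Vrt.mid m))) (cm m)) →
      ValAt (N.s₂ (P, Vrt.oo)) (H (N.tgt (P, Vrt.oo))) (ca * ∏ m, cm m ^ e) ∧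
        ∀ m, ValAt (N.s₂ (P, Vrt.mid m)) (H (N.tgt (P, Vrt.mid m))) (ca * ∏ m, cm m ^ e)) ∧
    (∀ (P : SS) (h H : ∀ c, Fk c) (c : k),
      H (Vtx.hor P) = NP P (h (Vtx.hor P)) →
      ValAt (N.s₂ (P, Vrt.zero)) (h (N.tgt (P, Vrt.zero))) c →
      ValAt (N.s₂ (P, Vrt.zero)) (H (N.tgt (P, Vrt.zero))) (c ^ q)) := by
  haveI : ∀ P, FiniteDimensional k⟮(HP P).X1⟯ (Fk (Vtx.hor P)) := fun P =>
    (HP P).finiteDimensional_X1
  exact nl_val_NP_X1 N htgt hq1 HP (E := fun P => k⟮(HP P).X1⟯)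
    (x := fun P => AdjoinSimple.gen k (HP P).X1)
    (fun P => vnx_adjoin_gen_eq_top (HP P).X1)
    (fun P => AdjoinSimple.algebraMap_gen k (HP P).X1) hInf hZero hmid e he NP hNP

include hq1 in
/-- **fields `val_NP_zero`, `val_NP_oo` of `NormLayer2`**, `NP = N_{k(H_P)/k⟮X₂⟯}`. -/
theorem nl_val_NP_X2_adjoin
    (hInf : ∀ P, nlTgt N htgt P Vrt.oo = (HP P).pInf hq1)
    (hZero : ∀ P, nlTgt N htgt P Vrt.zero = (HP P).pZero hq1)
    (hmid : ∀ P (v : Place k (Fk (Vtx.hor P))),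
      0 < v.ord ((HP P).s - algebraMap k (Fk (Vtx.hor P)) 1) ↔
        ∃ m, v = nlTgt N htgt P (Vrt.mid m))
    (e : ℕ) (he : ∀ P m, (-((nlTgt N htgt P (Vrt.mid m)).ord (HP P).X1)).toNat = e)
    (NP : ∀ P : SS, Fk (Vtx.hor P) →* Fk (Vtx.hor P))
    (hNP : ∀ P y, NP P y =
      algebraMap k⟮(HP P).X2⟯ (Fk (Vtx.hor P)) (Algebra.norm k⟮(HP P).X2⟯ y)) :
    (∀ (P : SS) (h H : ∀ c, Fk c) (ca : k) (cm : Mid → k),
      H (Vtx.hor P) = NP P (h (Vtx.hor P)) →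
      ValAt (N.s₂ (P, Vrt.zero)) (h (N.tgt (P, Vrt.zero))) ca →
      (∀ m, ValAt (N.s₂ (P, Vrt.mid m)) (h (N.tgt (P, Vrt.mid m))) (cm m)) →
      ValAt (N.s₂ (P, Vrt.zero)) (H (N.tgt (P, Vrt.zero))) (ca * ∏ m, cm m ^ e) ∧
        ∀ m, ValAt (N.s₂ (P, Vrt.mid m)) (H (N.tgt (P, Vrt.mid m))) (ca * ∏ m, cm m ^ e)) ∧
    (∀ (P : SS) (h H : ∀ c, Fk c) (c : k),
      H (Vtx.hor P) = NP P (h (Vtx.hor P)) →
      ValAt (N.s₂ (P, Vrt.oo)) (h (N.tgt (P, Vrt.oo))) c →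
      ValAt (N.s₂ (P, Vrt.oo)) (H (N.tgt (P, Vrt.oo))) (c ^ q)) := by
  haveI : ∀ P, FiniteDimensional k⟮(HP P).X2⟯ (Fk (Vtx.hor P)) := fun P =>
    (HP P).finiteDimensional_X2 hq1
  exact nl_val_NP_X2 N htgt hq1 HP (E := fun P => k⟮(HP P).X2⟯)
    (x := fun P => AdjoinSimple.gen k (HP P).X2)
    (fun P => vnx_adjoin_gen_eq_top (HP P).X2)
    (fun P => AdjoinSimple.algebraMap_gen k (HP P).X2) hInf hZero hmid e he NP hNP

include hq1 in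
/-- **fields `val_NP_oo`, `val_NP_zero` of `NormLayer1`** from (DIV1), (DIV2),
`NP = N_{k(H_P)/k⟮X₁⟯}`. -/
theorem nl_val_NP_X1_adjoin_div
    (hI : ∀ P, 0 < (nlTgt N htgt P Vrt.oo).ord (HP P).X2)
    (hZ : ∀ P, 0 < (nlTgt N htgt P Vrt.zero).ord (HP P).X1)
    (e : ℕ) (hm1 : ∀ P m, (nlTgt N htgt P (Vrt.mid m)).ord (HP P).X1 = -(e : ℤ)) (he : 0 < e)
    (hm2 : ∀ P m, ¬ 0 < (nlTgt N htgt P (Vrt.mid m)).ord (HP P).X2)
    (hcover : ∀ P (v : Place k (Fk (Vtx.hor P))), v.ord (HP P).X1 < 0 →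
      ∃ w, v = nlTgt N htgt P w)
    (NP : ∀ P : SS, Fk (Vtx.hor P) →* Fk (Vtx.hor P))
    (hNP : ∀ P y, NP P y =
      algebraMap k⟮(HP P).X1⟯ (Fk (Vtx.hor P)) (Algebra.norm k⟮(HP P).X1⟯ y)) :
    (∀ (P : SS) (h H : ∀ c, Fk c) (ca : k) (cm : Mid → k),
      H (Vtx.hor P) = NP P (h (Vtx.hor P)) →
      ValAt (N.s₂ (P, Vrt.oo)) (h (N.tgt (P, Vrt.oo))) ca →
      (∀ m, ValAt (N.s₂ (P, Vrt.mid m)) (h (N.tgt (P, Vrt.mid m))) (cm m)) →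
      ValAt (N.s₂ (P, Vrt.oo)) (H (N.tgt (P, Vrt.oo))) (ca * ∏ m, cm m ^ e) ∧
        ∀ m, ValAt (N.s₂ (P, Vrt.mid m)) (H (N.tgt (P, Vrt.mid m))) (ca * ∏ m, cm m ^ e)) ∧
    (∀ (P : SS) (h H : ∀ c, Fk c) (c : k),
      H (Vtx.hor P) = NP P (h (Vtx.hor P)) →
      ValAt (N.s₂ (P, Vrt.zero)) (h (N.tgt (P, Vrt.zero))) c →
      ValAt (N.s₂ (P, Vrt.zero)) (H (N.tgt (P, Vrt.zero))) (c ^ q)) := by
  have hd := nl_dict N htgt hq1 HP hI hZ (fun P m => by rw [hm1]; omega) hm2 hcover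
  exact nl_val_NP_X1_adjoin N htgt hq1 HP (fun P => (hd P).1) (fun P => (hd P).2.1)
    (fun P => (hd P).2.2) e (fun P m => by rw [hm1, neg_neg, Int.toNat_natCast]) NP hNP

include hq1 in
/-- **fields `val_NP_zero`, `val_NP_oo` of `NormLayer2`** from (DIV1), (DIV2),
`NP = N_{k(H_P)/k⟮X₂⟯}`. -/
theorem nl_val_NP_X2_adjoin_div
    (hI : ∀ P, 0 < (nlTgt N htgt P Vrt.oo).ord (HP P).X2)
    (hZ : ∀ P, 0 < (nlTgt N htgt P Vrt.zero).ord (HP P).X1)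
    (e : ℕ) (hm1 : ∀ P m, (nlTgt N htgt P (Vrt.mid m)).ord (HP P).X1 = -(e : ℤ)) (he : 0 < e)
    (hm2 : ∀ P m, ¬ 0 < (nlTgt N htgt P (Vrt.mid m)).ord (HP P).X2)
    (hcover : ∀ P (v : Place k (Fk (Vtx.hor P))), v.ord (HP P).X1 < 0 →
      ∃ w, v = nlTgt N htgt P w)
    (NP : ∀ P : SS, Fk (Vtx.hor P) →* Fk (Vtx.hor P))
    (hNP : ∀ P y, NP P y =
      algebraMap k⟮(HP P).X2⟯ (Fk (Vtx.hor P)) (Algebra.norm k⟮(HP P).X2⟯ y)) :
    (∀ (P : SS) (h H : ∀ c, Fk c) (ca : k) (cm : Mid → k),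
      H (Vtx.hor P) = NP P (h (Vtx.hor P)) →
      ValAt (N.s₂ (P, Vrt.zero)) (h (N.tgt (P, Vrt.zero))) ca →
      (∀ m, ValAt (N.s₂ (P, Vrt.mid m)) (h (N.tgt (P, Vrt.mid m))) (cm m)) →
      ValAt (N.s₂ (P, Vrt.zero)) (H (N.tgt (P, Vrt.zero))) (ca * ∏ m, cm m ^ e) ∧
        ∀ m, ValAt (N.s₂ (P, Vrt.mid m)) (H (N.tgt (P, Vrt.mid m))) (ca * ∏ m, cm m ^ e)) ∧
    (∀ (P : SS) (h H : ∀ c, Fk c) (c : k),
      H (Vtx.hor P) = NP P (h (Vtx.hor P)) →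
      ValAt (N.s₂ (P, Vrt.oo)) (h (N.tgt (P, Vrt.oo))) c →
      ValAt (N.s₂ (P, Vrt.oo)) (H (N.tgt (P, Vrt.oo))) (c ^ q)) := by
  have hd := nl_dict N htgt hq1 HP hI hZ (fun P m => by rw [hm1]; omega) hm2 hcover
  exact nl_val_NP_X2_adjoin N htgt hq1 HP (fun P => (hd P).1) (fun P => (hd P).2.1)
    (fun P => (hd P).2.2) e (fun P m => by rw [hm1, neg_neg, Int.toNat_natCast]) NP hNP

end Fermat.Agent.S36G
end
end MergeWrap_S36_G_EndsDictAdjoin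

section MergeWrap_S36_G_NormLayerOf -- from S36/G/NormLayerOf.lean

set_option autoImplicit false
set_option linter.unusedSectionVars false
set_option linter.unusedVariables false
set_option linter.style.haveILetI false

noncomputable section

open IntermediateField AlgebraicCurve

namespace Fermat.Agent.S36G

open Fermat.Agent.RR Fermat.Agent.S36 Fermat.Agent.HP Fermat.Agent.Deuring
open Fermat.Agent.BadRed Fermat.Agent.BadRedG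

variable {K F k : Type*} [Field K] [Field F] [Algebra K F] [Field k]

variable {Mid SS : Type} [Fintype Mid] {Fk : Vtx Mid SS → Type*} [∀ c, Field (Fk c)]
  [∀ c, Algebra k (Fk c)]

variable (N : GraphSetup K F k (Vtx Mid SS) Fk (Nod Mid SS))
  (hsrc : ∀ i, N.src i = nodSrc i) (htgt : ∀ i, N.tgt i = nodTgt i)

variable {q : ℕ} [IsAlgClosed k] (hq1 : ((q + 1 : ℕ) : k) ≠ 0)
  (HP : ∀ P : SS, HPCurve k (Fk (Vtx.hor P)) q)

/-- the norm of `k(H_P)` over `k⟮x⟯`, seen in `k(H_P)`, as a monoid homomorphism. -/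
def nlNP {F' : Type*} [Field F'] [Algebra k F'] (x : F') : F' →* F' :=
  (algebraMap k⟮x⟯ F' : k⟮x⟯ →* F').comp (Algebra.norm k⟮x⟯)

omit [IsAlgClosed k] in
theorem nlNP_apply {F' : Type*} [Field F'] [Algebra k F'] (x y : F') :
    nlNP (k := k) x y = algebraMap k⟮x⟯ F' (Algebra.norm k⟮x⟯ y) := rfl

omit [IsAlgClosed k] in
theorem nlNP_ne_zero {F' : Type*} [Field F'] [Algebra k F'] (x : F')
    [FiniteDimensional k⟮x⟯ F'] {y : F'} (hy : y ≠ 0) : nlNP (k := k) x y ≠ 0 := by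
  rw [nlNP_apply]
  exact (map_ne_zero (algebraMap k⟮x⟯ F')).mpr (Algebra.norm_ne_zero_iff.mpr hy)

section L1

variable [∀ m, Algebra (Fk (Vtx.vert Vrt.oo)) (Fk (Vtx.vert (Vrt.mid m)))]
  [∀ m, IsScalarTower k (Fk (Vtx.vert Vrt.oo)) (Fk (Vtx.vert (Vrt.mid m)))]
  [∀ m, FiniteDimensional (Fk (Vtx.vert Vrt.oo)) (Fk (Vtx.vert (Vrt.mid m)))]

/-- **the norm layer for `π₁`** from (RES) + (VERT) + (DIV). -/
def normLayer1_of (n e : ℕ) (Nm : F → F)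
    -- (VERT)
    (h0 : IsRRField k (Fk (Vtx.vert Vrt.oo)))
    (hM : ∀ m, IsRRField k (Fk (Vtx.vert (Vrt.mid m))))
    (hres : ∀ P m, (nlSrc N hsrc P (Vrt.mid m)).restrict (Fk (Vtx.vert Vrt.oo)) =
      nlSrc N hsrc P Vrt.oo)
    (he : ∀ P m, (nlSrc N hsrc P (Vrt.mid m)).ramificationIndex (Fk (Vtx.vert Vrt.oo)) = e)
    (hdeg : ∀ m, Module.finrank (Fk (Vtx.vert Vrt.oo)) (Fk (Vtx.vert (Vrt.mid m))) = e)
    -- (DIV)
    (hI : ∀ P, 0 < (nlTgt N htgt P Vrt.oo).ord (HP P).X2)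
    (hZ : ∀ P, 0 < (nlTgt N htgt P Vrt.zero).ord (HP P).X1)
    (hm1 : ∀ P m, (nlTgt N htgt P (Vrt.mid m)).ord (HP P).X1 = -(e : ℤ)) (he0 : 0 < e)
    (hm2 : ∀ P m, ¬ 0 < (nlTgt N htgt P (Vrt.mid m)).ord (HP P).X2)
    (hcover : ∀ P (v : Place k (Fk (Vtx.hor P))), v.ord (HP P).X1 < 0 →
      ∃ w, v = nlTgt N htgt P w)
    -- (RES)
    (red_oo : ∀ g : F, (∀ c, g ∈ (N.S c).Ov) → (∀ c, (N.S c).red g ≠ 0) →
      (N.S (Vtx.vert Vrt.oo)).red (Nm g) =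
        (N.S (Vtx.vert Vrt.oo)).red g *
          ∏ m, Algebra.norm (Fk (Vtx.vert Vrt.oo)) ((N.S (Vtx.vert (Vrt.mid m))).red g))
    (red_mid : ∀ g : F, (∀ c, g ∈ (N.S c).Ov) → (∀ c, (N.S c).red g ≠ 0) → ∀ m,
      (N.S (Vtx.vert (Vrt.mid m))).red (Nm g) =
        algebraMap (Fk (Vtx.vert Vrt.oo)) (Fk (Vtx.vert (Vrt.mid m)))
          ((N.S (Vtx.vert Vrt.oo)).red (Nm g)))
    (red_zero : ∀ g : F, (∀ c, g ∈ (N.S c).Ov) → (∀ c, (N.S c).red g ≠ 0) →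
      (N.S (Vtx.vert Vrt.zero)).red (Nm g) = (N.S (Vtx.vert Vrt.zero)).red g ^ q)
    (red_hor : ∀ g : F, (∀ c, g ∈ (N.S c).Ov) → (∀ c, (N.S c).red g ≠ 0) → ∀ P,
      (N.S (Vtx.hor P)).red (Nm g) =
        algebraMap k⟮(HP P).X1⟯ (Fk (Vtx.hor P))
          (Algebra.norm k⟮(HP P).X1⟯ ((N.S (Vtx.hor P)).red g))) :
    NormLayer1 N n q e Nm :=
  haveI : Infinite k := IsAlgClosed.instInfinite
  { jm := fun m => algebraMap (Fk (Vtx.vert Vrt.oo)) (Fk (Vtx.vert (Vrt.mid m)))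
    nm := fun m => Algebra.norm (Fk (Vtx.vert Vrt.oo))
    NP := fun P => nlNP (k := k) (HP P).X1
    nm_ne_zero := fun m x hx => Algebra.norm_ne_zero_iff.mpr hx
    NP_ne_zero := fun P x hx =>
      haveI := (HP P).finiteDimensional_X1
      nlNP_ne_zero _ hx
    red_oo := red_oo
    red_mid := red_mid
    red_zero := red_zero
    red_hor := red_hor
    val_nm := nl_val_nm N hsrc Vrt.oo h0 hM hres e he hdeg
      (fun m => Algebra.norm (Fk (Vtx.vert Vrt.oo))) (fun _ _ => rfl)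
    val_jm := nl_val_jm N hsrc Vrt.oo hres
      (fun m => algebraMap (Fk (Vtx.vert Vrt.oo)) (Fk (Vtx.vert (Vrt.mid m)))) (fun _ _ => rfl)
    val_NP_oo := (nl_val_NP_X1_adjoin_div N htgt hq1 HP hI hZ e hm1 he0 hm2 hcover
      (fun P => nlNP (k := k) (HP P).X1) (fun _ _ => rfl)).1
    val_NP_zero := (nl_val_NP_X1_adjoin_div N htgt hq1 HP hI hZ e hm1 he0 hm2 hcover
      (fun P => nlNP (k := k) (HP P).X1) (fun _ _ => rfl)).2 }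

end L1

section L2

variable [∀ m, Algebra (Fk (Vtx.vert Vrt.zero)) (Fk (Vtx.vert (Vrt.mid m)))]
  [∀ m, IsScalarTower k (Fk (Vtx.vert Vrt.zero)) (Fk (Vtx.vert (Vrt.mid m)))]
  [∀ m, FiniteDimensional (Fk (Vtx.vert Vrt.zero)) (Fk (Vtx.vert (Vrt.mid m)))]

/-- **the norm layer for `π₂`** from (RES) + (VERT) + (DIV). -/
def normLayer2_of (n e : ℕ) (Nm : F → F)
    -- (VERT)
    (h0 : IsRRField k (Fk (Vtx.vert Vrt.zero)))
    (hM : ∀ m, IsRRField k (Fk (Vtx.vert (Vrt.mid m))))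
    (hres : ∀ P m, (nlSrc N hsrc P (Vrt.mid m)).restrict (Fk (Vtx.vert Vrt.zero)) =
      nlSrc N hsrc P Vrt.zero)
    (he : ∀ P m, (nlSrc N hsrc P (Vrt.mid m)).ramificationIndex (Fk (Vtx.vert Vrt.zero)) = e)
    (hdeg : ∀ m, Module.finrank (Fk (Vtx.vert Vrt.zero)) (Fk (Vtx.vert (Vrt.mid m))) = e)
    -- (DIV)
    (hI : ∀ P, 0 < (nlTgt N htgt P Vrt.oo).ord (HP P).X2)
    (hZ : ∀ P, 0 < (nlTgt N htgt P Vrt.zero).ord (HP P).X1)
    (hm1 : ∀ P m, (nlTgt N htgt P (Vrt.mid m)).ord (HP P).X1 = -(e : ℤ)) (he0 : 0 < e)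
    (hm2 : ∀ P m, ¬ 0 < (nlTgt N htgt P (Vrt.mid m)).ord (HP P).X2)
    (hcover : ∀ P (v : Place k (Fk (Vtx.hor P))), v.ord (HP P).X1 < 0 →
      ∃ w, v = nlTgt N htgt P w)
    -- (RES)
    (red_zero : ∀ g : F, (∀ c, g ∈ (N.S c).Ov) → (∀ c, (N.S c).red g ≠ 0) →
      (N.S (Vtx.vert Vrt.zero)).red (Nm g) =
        (N.S (Vtx.vert Vrt.zero)).red g *
          ∏ m, Algebra.norm (Fk (Vtx.vert Vrt.zero)) ((N.S (Vtx.vert (Vrt.mid m))).red g))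
    (red_mid : ∀ g : F, (∀ c, g ∈ (N.S c).Ov) → (∀ c, (N.S c).red g ≠ 0) → ∀ m,
      (N.S (Vtx.vert (Vrt.mid m))).red (Nm g) =
        algebraMap (Fk (Vtx.vert Vrt.zero)) (Fk (Vtx.vert (Vrt.mid m)))
          ((N.S (Vtx.vert Vrt.zero)).red (Nm g)))
    (red_oo : ∀ g : F, (∀ c, g ∈ (N.S c).Ov) → (∀ c, (N.S c).red g ≠ 0) →
      (N.S (Vtx.vert Vrt.oo)).red (Nm g) = (N.S (Vtx.vert Vrt.oo)).red g ^ q)
    (red_hor : ∀ g : F, (∀ c, g ∈ (N.S c).Ov) → (∀ c, (N.S c).red g ≠ 0) → ∀ P,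
      (N.S (Vtx.hor P)).red (Nm g) =
        algebraMap k⟮(HP P).X2⟯ (Fk (Vtx.hor P))
          (Algebra.norm k⟮(HP P).X2⟯ ((N.S (Vtx.hor P)).red g))) :
    NormLayer2 N n q e Nm :=
  haveI : Infinite k := IsAlgClosed.instInfinite
  { jm := fun m => algebraMap (Fk (Vtx.vert Vrt.zero)) (Fk (Vtx.vert (Vrt.mid m)))
    nm := fun m => Algebra.norm (Fk (Vtx.vert Vrt.zero))
    NP := fun P => nlNP (k := k) (HP P).X2
    nm_ne_zero := fun m x hx => Algebra.norm_ne_zero_iff.mpr hx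
    NP_ne_zero := fun P x hx =>
      haveI := (HP P).finiteDimensional_X2 hq1
      nlNP_ne_zero _ hx
    red_zero := red_zero
    red_mid := red_mid
    red_oo := red_oo
    red_hor := red_hor
    val_nm := nl_val_nm N hsrc Vrt.zero h0 hM hres e he hdeg
      (fun m => Algebra.norm (Fk (Vtx.vert Vrt.zero))) (fun _ _ => rfl)
    val_jm := nl_val_jm N hsrc Vrt.zero hres
      (fun m => algebraMap (Fk (Vtx.vert Vrt.zero)) (Fk (Vtx.vert (Vrt.mid m))))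
      (fun _ _ => rfl)
    val_NP_zero := (nl_val_NP_X2_adjoin_div N htgt hq1 HP hI hZ e hm1 he0 hm2 hcover
      (fun P => nlNP (k := k) (HP P).X2) (fun _ _ => rfl)).1
    val_NP_oo := (nl_val_NP_X2_adjoin_div N htgt hq1 HP hI hZ e hm1 he0 hm2 hcover
      (fun P => nlNP (k := k) (HP P).X2) (fun _ _ => rfl)).2 }

end L2

end Fermat.Agent.S36G
end
end MergeWrap_S36_G_NormLayerOf
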