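import Mathlib
import Fermat.Agent.MUL.S36.G.CoreOddOf23
import Fermat.Agent.MUL.Lib.GenusEq.GenusFM
import Fermat.Agent.MUL.S36.HPVal.WPFinal

section MergeWrap_S36_G_AuxNu -- from S36/G/AuxNu.lean

set_option autoImplicit false
set_option linter.style.haveILetI false

/-!
# Cluster G (S36): the auxiliary level has no elliptic points  (helper60)

`AuxGood q M` (`S36/G/CoreOddOf.lean`): `M` is divisible by a prime `r ≡ 11 mod 12`, `r ≠ q`.
Then `nuTwo M = 0` (`r ≡ 3 mod 4`) and `nuThree M = 0` (`r ≡ 2 mod 3`): the hypotheses `hν2`,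
`hν3` of the IG seat (`igResUpper_aux`, `nonempty_igPack`, ..), of GENUS and of `step12_of_pack`.

* `auxNu_no_sq_neg_one`, `auxNu_no_cube_root` : the two congruence facts modulo `r`;
* `auxGood_nuTwo`, `auxGood_nuThree`; `auxGood23_nuTwo`, `auxGood23_nuThree`;
* `auxGood_nuTwo_mul`, `auxGood_nuThree_mul` : the same at the levels `M * R`.
-/

namespace Fermat.Agent.S36G

open ModularCurve Fermat.Agent.F3Genus

/-- modulo a prime `r ≡ 3 mod 4`, `-1` is not a square. -/
theorem auxNu_no_sq_neg_one {r : ℕ} (hr : r.Prime) (h4 : r % 4 = 3) (x : ZMod r) :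
    x ^ 2 + 1 ≠ 0 := by
  haveI : Fact r.Prime := ⟨hr⟩
  intro hx
  have h1 : IsSquare (-1 : ZMod r) := ⟨x, by
    have : x ^ 2 = -1 := eq_neg_of_add_eq_zero_left hx
    rw [← this, sq]⟩
  exact (ZMod.exists_sq_eq_neg_one_iff.mp h1) h4

/-- modulo a prime `r ≡ 2 mod 3`, there is no primitive cube root of unity. -/
theorem auxNu_no_cube_root {r : ℕ} (hr : r.Prime) (h3 : r % 3 = 2) (x : ZMod r) :
    x ^ 2 + x + 1 ≠ 0 := by
  haveI : Fact r.Prime := ⟨hr⟩
  intro hx
  have hx3 : x ^ 3 = 1 := by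
    have : x ^ 3 - 1 = (x - 1) * (x ^ 2 + x + 1) := by ring
    rw [hx, mul_zero] at this
    exact sub_eq_zero.mp this
  have hx0 : x ≠ 0 := by
    intro h0
    rw [h0] at hx3
    simp at hx3
  have hx1 : x ≠ 1 := by
    intro h1
    rw [h1] at hx
    have h3' : ((3 : ℕ) : ZMod r) = 0 := by
      push_cast
      have : (1 : ZMod r) ^ 2 + 1 + 1 = 3 := by norm_num
      rw [← this]
      exact hx
    have hdvd : r ∣ 3 := (ZMod.natCast_eq_zero_iff 3 r).mp h3'
    have hr3 : r = 3 := (Nat.prime_dvd_prime_iff_eq hr Nat.prime_three).mp hdvd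
    rw [hr3] at h3
    norm_num at h3
  have hord : orderOf x = 3 := by
    have hdvd : orderOf x ∣ 3 := orderOf_dvd_of_pow_eq_one hx3
    rcases (Nat.dvd_prime Nat.prime_three).mp hdvd with h | h
    · exact absurd (orderOf_eq_one_iff.mp h) hx1
    · exact h
  have hpow : x ^ (r - 1) = 1 := ZMod.pow_card_sub_one_eq_one hx0
  have h3dvd : 3 ∣ r - 1 := by
    rw [← hord]
    exact orderOf_dvd_of_pow_eq_one hpow
  omega

theorem auxGood_nuTwo {q M : ℕ} (h : AuxGood q M) : nuTwo M = 0 := by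
  obtain ⟨r, hr, hr12, -, hrM⟩ := h
  exact nuTwo_eq_zero_of_dvd hrM (auxNu_no_sq_neg_one hr (by omega))

theorem auxGood_nuThree {q M : ℕ} (h : AuxGood q M) : nuThree M = 0 := by
  obtain ⟨r, hr, hr12, -, hrM⟩ := h
  exact nuThree_eq_zero_of_dvd hrM (auxNu_no_cube_root hr (by omega))

theorem auxGood23_nuTwo {q M : ℕ} (h : AuxGood23 q M) : nuTwo M = 0 :=
  auxGood_nuTwo h.1

theorem auxGood23_nuThree {q M : ℕ} (h : AuxGood23 q M) : nuThree M = 0 :=
  auxGood_nuThree h.1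

theorem auxGood_nuTwo_mul {q M : ℕ} (h : AuxGood q M) (R : ℕ) : nuTwo (M * R) = 0 :=
  auxGood_nuTwo (auxGood_mul_right h R)

theorem auxGood_nuThree_mul {q M : ℕ} (h : AuxGood q M) (R : ℕ) : nuThree (M * R) = 0 :=
  auxGood_nuThree (auxGood_mul_right h R)

end Fermat.Agent.S36G
end MergeWrap_S36_G_AuxNu
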