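import Mathlib
import Fermat.Prelude.Def_ModularCurve_ArithmeticGalois
import Fermat.Agent.MUL.S36.Igusa.Defs
import Fermat.Agent.MUL.S36.Igusa.Exp
import Fermat.Agent.MUL.S36.Igusa.Gal
import Fermat.Agent.MUL.S36.G.InertAbs
import Fermat.Agent.MUL.S36.G.InertArith
import Fermat.Agent.MUL.Orig.Lib.GaussInt.Galois
import Fermat.Agent.MUL.Lib.BadRed.Mod.ValInf
import Fermat.Agent.MUL.S36.Igusa.Theta
import Fermat.Agent.MUL.S24.EmbF
import Fermat.Agent.MUL.S36.Igusa.ExpExists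
import Fermat.Agent.MUL.S36.G.InertEnds
import Fermat.Agent.MUL.S36.HPVal.InertOnto
import Fermat.Agent.MUL.Orig.Lib.KFin.Inertia
import Fermat.Agent.MUL.S36.Val.Restr
import Fermat.Agent.MUL.Lib.BadRed.Mod.GaloisSemi
import Fermat.Agent.MUL.S36.G.CocycleF3Ends
import Fermat.Agent.MUL.S36.G.VtxFamily
import Fermat.Agent.MUL.S36.G.Defs
import Fermat.Agent.MUL.S36.HPVal.InertFinal
import Fermat.Agent.MUL.S36.Seed.Main
import Fermat.Agent.MUL.Orig.S36.Seed.YDefs
import Fermat.Agent.MUL.S36.Igusa.Pack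
import Fermat.Agent.MUL.S36.Cover.InvOrbit

section MergeWrap_S36_G_InertMid -- from S36/G/InertMid.lean

set_option autoImplicit false
set_option linter.style.haveILetI false
set_option linter.unusedSectionVars false
set_option synthInstance.maxHeartbeats 400000

/-!
# S36 (cluster G), seat INERT, part 2: inertia on the MIDDLE vertices  (helper55)

Level `N = M₀ * q * q`, `F = FBar N`, `A ∣ q`, `k` the residue field of `A`, `z` a primitive `q`-th
root of unity, `ε_z` the middle expansion (`S36/Igusa/Defs.lean`, helper52), `O_z = expOv ε_z A`,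
`red_z = expRes ε_z A`.  The Galois group acts on `F` by `arithmeticGalois` (coefficientwise).

* `inert_mid_exp`       : (from `IgMidGalois`) for `σ` in the decomposition group,
                          `ε_{σ z} (σ f) = coeffMap σ (ε_z f)` and `f ∈ O_z ↔ σ f ∈ O_{σ z}`;
* `inert_mid_res`       : for `σ` in the INERTIA group, `red_{σ z} (σ f) = red_z f`  (`f ∈ O_z`);
* `inert_mid_resEquiv`  : for `c` a square modulo `q`: `O_z = O_{z^c}` and the two residue maps
                          differ by the automorphism `φ_c` of `Fk_m = k(Z)(θ j̄)` over `k(Z)` with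
                          `φ_c (θ j̄) = c · θ j̄`;
* `inert_mid_action`    : for `σ` in the inertia group with `σ z = z ^ c`, `c` a square:
                          `σ O_z = O_z` and `φ_c (red_z (σ f)) = red_z f`.
-/

noncomputable section

namespace Fermat.Agent.S36G

open ModularCurve AlgebraicCurve Fermat.Agent.GaussInt Fermat.Agent.Deuring
  Fermat.Agent.Kronecker Fermat.Agent.BadRed

local notation "Qb" => AlgebraicClosure ℚ

attribute [local instance 10000] SubalgebraClass.toAlgebra HahnSeries.powerSeriesAlgebra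

variable {M₀ q : ℕ} [NeZero M₀] [NeZero q]

/-- the top field is stable under everything. -/
theorem inert_top_stable (σ : Qb →+* Qb) :
    ∀ y ∈ (⊤ : IntermediateField Qb (LaurentSeries Qb)), coeffMap σ y ∈
      (⊤ : IntermediateField Qb (LaurentSeries Qb)) :=
  fun _ _ => IntermediateField.mem_top

/-- **(INERT-M1)** the decomposition group permutes the middle expansions. -/
theorem inert_mid_exp (hG : IgMidGalois M₀ q) (A : ValuationSubring Qb) (σ : Qb ≃ₐ[ℚ] Qb)
    (hσ : σ ∈ A.decompositionSubgroup ℚ) {z z' : Qbˣ}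
    {ε ε' : ↥(modularFunctionFieldBar (M₀ * q * q)) →ₐ[Qb] LaurentSeries Qb}
    (hε : IsMidExp M₀ q z ε) (hε' : IsMidExp M₀ q z' ε') (hz : (z' : Qb) = σ (z : Qb))
    (f : ↥(modularFunctionFieldBar (M₀ * q * q))) :
    ε' (arithmeticGalois (modularFunctionFieldFull (M₀ * q * q)) σ • f) =
        coeffMap (σ : Qb →+* Qb) (ε f) ∧
      (f ∈ expOv ε A ↔
        arithmeticGalois (modularFunctionFieldFull (M₀ * q * q)) σ • f ∈ expOv ε' A) :=
  hG A σ (fun _ => (S05H5.decomp_apply_mem_iff A σ hσ).symm) z z' ε ε' hε hε' hz f _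
    (coe_arithmeticGalois_smul _ σ f)

/-- **(INERT-M1), residues**: the inertia group acts trivially on the residues of the middle
expansions: `red_{σ z} (σ f) = red_z f`. -/
theorem inert_mid_res (hG : IgMidGalois M₀ q) (A : ValuationSubring Qb) (σ : Qb ≃ₐ[ℚ] Qb)
    (hσ : σ ∈ A.inertiaSubgroupIn ℚ) {z z' : Qbˣ}
    {ε ε' : ↥(modularFunctionFieldBar (M₀ * q * q)) →ₐ[Qb] LaurentSeries Qb}
    (hε : IsMidExp M₀ q z ε) (hε' : IsMidExp M₀ q z' ε') (hz : (z' : Qb) = σ (z : Qb))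
    {f : ↥(modularFunctionFieldBar (M₀ * q * q))} (hf : f ∈ expOv ε A) :
    arithmeticGalois (modularFunctionFieldFull (M₀ * q * q)) σ • f ∈ expOv ε' A ∧
      expRes ε' A (arithmeticGalois (modularFunctionFieldFull (M₀ * q * q)) σ • f) =
        expRes ε A f := by
  have hσD : σ ∈ A.decompositionSubgroup ℚ := S05H5.inertiaIn_mem_decomp A σ hσ
  obtain ⟨h1, h2⟩ := inert_mid_exp hG A σ hσD hε hε' hz f
  refine ⟨h2.mp hf, ?_⟩
  unfold expRes
  rw [h1]
  exact gaussResFun_inertia σ hσ (inert_top_stable _) ((mem_expOv_iff ε A f).mp hf)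

/-- `inert_mid_exp`, unconditional (`q` prime). -/
theorem inert_mid_exp_prime (hq : q.Prime) (A : ValuationSubring Qb) (σ : Qb ≃ₐ[ℚ] Qb)
    (hσ : σ ∈ A.decompositionSubgroup ℚ) {z z' : Qbˣ}
    {ε ε' : ↥(modularFunctionFieldBar (M₀ * q * q)) →ₐ[Qb] LaurentSeries Qb}
    (hε : IsMidExp M₀ q z ε) (hε' : IsMidExp M₀ q z' ε') (hz : (z' : Qb) = σ (z : Qb))
    (f : ↥(modularFunctionFieldBar (M₀ * q * q))) :
    ε' (arithmeticGalois (modularFunctionFieldFull (M₀ * q * q)) σ • f) =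
        coeffMap (σ : Qb →+* Qb) (ε f) ∧
      (f ∈ expOv ε A ↔
        arithmeticGalois (modularFunctionFieldFull (M₀ * q * q)) σ • f ∈ expOv ε' A) :=
  inert_mid_exp (igMidGalois_of_unique (igMidExpUnique M₀ q hq)) A σ hσ hε hε' hz f

/-- `inert_mid_res`, unconditional (`q` prime): the inertia group acts trivially on the residues
of the middle expansions. -/
theorem inert_mid_res_prime (hq : q.Prime) (A : ValuationSubring Qb) (σ : Qb ≃ₐ[ℚ] Qb)
    (hσ : σ ∈ A.inertiaSubgroupIn ℚ) {z z' : Qbˣ}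
    {ε ε' : ↥(modularFunctionFieldBar (M₀ * q * q)) →ₐ[Qb] LaurentSeries Qb}
    (hε : IsMidExp M₀ q z ε) (hε' : IsMidExp M₀ q z' ε') (hz : (z' : Qb) = σ (z : Qb))
    {f : ↥(modularFunctionFieldBar (M₀ * q * q))} (hf : f ∈ expOv ε A) :
    arithmeticGalois (modularFunctionFieldFull (M₀ * q * q)) σ • f ∈ expOv ε' A ∧
      expRes ε' A (arithmeticGalois (modularFunctionFieldFull (M₀ * q * q)) σ • f) =
        expRes ε A f :=
  inert_mid_res (igMidGalois_of_unique (igMidExpUnique M₀ q hq)) A σ hσ hε hε' hz hf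

end Fermat.Agent.S36G
end
end MergeWrap_S36_G_InertMid

section MergeWrap_S36_G_InertMidEquiv -- from S36/G/InertMidEquiv.lean

set_option autoImplicit false
set_option linter.style.haveILetI false
set_option linter.unusedSectionVars false
set_option synthInstance.maxHeartbeats 400000

/-!
# S36 (cluster G), seat INERT, part 3: the automorphisms `φ_c` of `Fk_m`  (helper55)

Level `N = M₀ * q * q`, `A ∣ q`, `k` the residue field, `z` a primitive `q`-th root of unity,
`S_z` the constant reduction attached to the middle expansion `ε_z` (`IsMidSetup`).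

* `inert_mid_Ov_eq`     : for `c` a square modulo `q`: `O_z = O_{z^c}`;
* `inert_mid_resEquiv`  : for `c` a square modulo `q` there is `φ : Fk_m ≃ₐ[k] Fk_m` with
                          `red_{z^c} f = φ (red_z f)`, `φ` is the identity on `k(Z)` and
                          `φ (θ j̄) = c · θ j̄`;
* `inert_mid_action`    : for `σ` in the inertia group with `σ z = z' ^ c`, `c` a square:
                          `σ O_z = O_{z'}` and `φ (red_{z'} (σ f)) = red_z f`, `φ` as above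
                          (for `z' = z`: the stabiliser of the vertex; otherwise: the swap).
-/

noncomputable section

namespace Fermat.Agent.S36G

open ModularCurve AlgebraicCurve Fermat.Agent.GaussInt Fermat.Agent.Deuring
  Fermat.Agent.Kronecker Fermat.Agent.BadRed

local notation "Qb" => AlgebraicClosure ℚ

attribute [local instance 10000] SubalgebraClass.toAlgebra HahnSeries.powerSeriesAlgebra

section Abs

variable {K F k Fk Fk' : Type*} [Field K] [Field F] [Algebra K F] [Field k]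
  [Field Fk] [Algebra k Fk] [Field Fk'] [Algebra k Fk']

/-- the isomorphism of residue fields on a product with a constant. -/
theorem inertResEquiv_mul_const (S : ValSetup K F k Fk) (S' : ValSetup K F k Fk')
    (hOv : S.Ov = S'.Ov) (hA : S.A = S'.A)
    (hres : ∀ (c : K) (h : c ∈ S.A) (h' : c ∈ S'.A), S.res ⟨c, h⟩ = S'.res ⟨c, h'⟩)
    {Θ Θ' : F} {u : K} (hu : u ∈ S'.A) (hΘ : Θ ∈ S.Ov) (hΘ' : Θ' ∈ S'.Ov)
    (h : Θ = Θ' * algebraMap K F u) :
    inertResEquiv S S' hOv hA hres (S.red Θ) = S'.res ⟨u, hu⟩ • S'.red Θ' := by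
  rw [inertResEquiv_red S S' hOv hA hres hΘ, h, S'.red_mul hΘ' (S'.algebraMap_mem hu),
    S'.red_algebraMap hu, Algebra.smul_def, mul_comm]

end Abs

variable {M₀ q : ℕ} [NeZero M₀] [NeZero q]

/-- **(INERT-M2)** `O_z = O_{z^c}` for `c` a square modulo `q`. -/
theorem inert_mid_Ov_eq (hq : q.Prime) (hqM : ¬ q ∣ M₀) (hD : IgMidDistinct M₀ q)
    (A : ValuationSubring Qb) (hA : A.LiesOverPrime q) {z : Qbˣ} (hz : IsPrimitiveRoot z q)
    {c : ℕ} (hc : ¬ q ∣ c) (hsq : IsSquare (c : ZMod q))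
    {ε ε' : ↥(modularFunctionFieldBar (M₀ * q * q)) →ₐ[Qb] LaurentSeries Qb}
    (hε : IsMidExp M₀ q z ε) (hε' : IsMidExp M₀ q (z ^ c) ε')
    {S S' : ValSetup Qb ↥(modularFunctionFieldBar (M₀ * q * q)) (IsLocalRing.ResidueField A)
      ↥(igField (IsLocalRing.ResidueField A) M₀)}
    (hS : IsMidSetup M₀ q A ε S) (hS' : IsMidSetup M₀ q A ε' S') : S.Ov = S'.Ov := by
  have h := (hD hq hqM A hA z c ε ε' hz hc hε hε').mpr hsq
  ext f
  rw [hS.mem_iff, hS'.mem_iff, h]

/-- the function `(j(q² τ) - j(τ)) / (z - 1)` at level `M₀ q²`. -/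
def inertThetaFun (M₀ q : ℕ) [NeZero M₀] [NeZero q] (z : Qbˣ) :
    ↥(modularFunctionFieldBar (M₀ * q * q)) :=
  (heckeBetaBar Qb (M₀ * q) q (heckeBetaBar Qb M₀ q (Fermat.Agent.S24.jBar M₀)) -
    heckeAlphaBar Qb (M₀ * q) q (heckeAlphaBar Qb M₀ q (Fermat.Agent.S24.jBar M₀))) *
    algebraMap Qb _ (((z : Qb) - 1)⁻¹)

theorem inertThetaFun_exp {z : Qbˣ}
    {ε : ↥(modularFunctionFieldBar (M₀ * q * q)) →ₐ[Qb] LaurentSeries Qb}
    (hε : IsMidExp M₀ q z ε) :
    ε (inertThetaFun M₀ q z) =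
      (scaleL z (jqModC Qb) - jqModC Qb) * HahnSeries.C (((z : Qb) - 1)⁻¹) := by
  unfold inertThetaFun
  rw [map_mul, map_sub, hε.beta2, hε.alpha, coe_heckeAlphaBar,
    Fermat.Agent.S24.coe_jBar_eq_jqModC, AlgHom.commutes, algebraMap_laurentSeries_eq_single,
    HahnSeries.C_apply]

/-- `θ j̄` as an element of `Fk_m`. -/
def inertTheta (k : Type*) [Field k] (M₀ : ℕ) : ↥(igField k M₀) :=
  ⟨Fermat.Agent.IgusaDeg.theta k (jqModC k), theta_mem_igField k M₀⟩

/-- `red_z ((j(q²τ) - j(τ)) / (z - 1)) = θ j̄`. -/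
theorem inertThetaFun_red (hq : q.Prime) (A : ValuationSubring Qb) (hA : A.LiesOverPrime q)
    {z : Qbˣ} (hz : IsPrimitiveRoot z q)
    {ε : ↥(modularFunctionFieldBar (M₀ * q * q)) →ₐ[Qb] LaurentSeries Qb}
    (hε : IsMidExp M₀ q z ε)
    {S : ValSetup Qb ↥(modularFunctionFieldBar (M₀ * q * q)) (IsLocalRing.ResidueField A)
      ↥(igField (IsLocalRing.ResidueField A) M₀)}
    (hS : IsMidSetup M₀ q A ε S) :
    inertThetaFun M₀ q z ∈ S.Ov ∧
      S.red (inertThetaFun M₀ q z) = inertTheta (IsLocalRing.ResidueField A) M₀ := by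
  obtain ⟨h1, h2⟩ := igThetaRes M₀ q hq A hA z ε hz hε _ (inertThetaFun_exp hε)
  have hmem : inertThetaFun M₀ q z ∈ S.Ov := (hS.mem_iff _).mpr h1
  refine ⟨hmem, Subtype.ext ?_⟩
  rw [hS.coe_red _ hmem, h2]
  rfl

/-- the residue of a `q`-th root of unity is `1`. -/
theorem inert_residue_root (hq : q.Prime) (A : ValuationSubring Qb) (hA : A.LiesOverPrime q)
    (z : Qbˣ) (hz : z ^ q = 1) (h : (z : Qb) ∈ A) :
    IsLocalRing.residue A ⟨(z : Qb), h⟩ = 1 := by
  have h1 := igRootUnit_res A hq hA z hz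
  have h2 := congrArg Units.val h1
  rw [Units.coe_map, Units.val_one] at h2
  exact h2

/-- `(j(q²τ) - j(τ)) / (z - 1) = (j(q²τ) - j(τ)) / (z^c - 1) * (1 + z + ⋯ + z^(c-1))`. -/
theorem inertThetaFun_pow {z : Qbˣ} {c : ℕ} (hzc : (z : Qb) ^ c ≠ 1) :
    inertThetaFun M₀ q z = inertThetaFun M₀ q (z ^ c) *
      algebraMap Qb _ (∑ i ∈ Finset.range c, (z : Qb) ^ i) := by
  have hu : (∑ i ∈ Finset.range c, (z : Qb) ^ i) * ((z : Qb) - 1) = (z : Qb) ^ c - 1 :=
    geom_sum_mul _ _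
  have h1 : (z : Qb) ^ c - 1 ≠ 0 := sub_ne_zero.mpr hzc
  have h2 : (z : Qb) - 1 ≠ 0 := by
    intro h
    rw [h, mul_zero] at hu
    exact h1 hu.symm
  have hu0 : (∑ i ∈ Finset.range c, (z : Qb) ^ i) ≠ 0 := by
    intro h
    rw [h, zero_mul] at hu
    exact h1 hu.symm
  have h3 : ((z : Qb) - 1)⁻¹ =
      ((z : Qb) ^ c - 1)⁻¹ * ∑ i ∈ Finset.range c, (z : Qb) ^ i := by
    rw [← hu, mul_inv, mul_comm (∑ i ∈ Finset.range c, (z : Qb) ^ i)⁻¹, mul_assoc,
      inv_mul_cancel₀ hu0, mul_one]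
  unfold inertThetaFun
  rw [Units.val_pow_eq_pow_val, h3, map_mul]
  exact (mul_assoc _ _ _).symm

set_option maxHeartbeats 4000000 in
/-- **(INERT-M2)** for `c` a square modulo `q` the residue maps `red_z`, `red_{z^c}` differ by the
automorphism `φ` of `Fk_m = k(Z)(θ j̄)` over `k(Z)` with `φ (θ j̄) = c · θ j̄`. -/
theorem inert_mid_resEquiv (hq : q.Prime) (hqM : ¬ q ∣ M₀) (hD : IgMidDistinct M₀ q)
    (hO : IgMidOverInf M₀ q)
    (A : ValuationSubring Qb) (hA : A.LiesOverPrime q) {z : Qbˣ} (hz : IsPrimitiveRoot z q)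
    {c : ℕ} (hc : ¬ q ∣ c) (hsq : IsSquare (c : ZMod q))
    {ε ε' : ↥(modularFunctionFieldBar (M₀ * q * q)) →ₐ[Qb] LaurentSeries Qb}
    (hε : IsMidExp M₀ q z ε) (hε' : IsMidExp M₀ q (z ^ c) ε')
    {S S' : ValSetup Qb ↥(modularFunctionFieldBar (M₀ * q * q)) (IsLocalRing.ResidueField A)
      ↥(igField (IsLocalRing.ResidueField A) M₀)}
    (hS : IsMidSetup M₀ q A ε S) (hS' : IsMidSetup M₀ q A ε' S') :
    ∃ φ : ↥(igField (IsLocalRing.ResidueField A) M₀) ≃ₐ[IsLocalRing.ResidueField A]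
        ↥(igField (IsLocalRing.ResidueField A) M₀),
      (∀ f ∈ S.Ov, S'.red f = φ (S.red f)) ∧
      (∀ y : ↥(igField (IsLocalRing.ResidueField A) M₀),
        (y : LaurentSeries (IsLocalRing.ResidueField A)) ∈
          modularFunctionFieldFullC (IsLocalRing.ResidueField A) M₀ → φ y = y) ∧
      φ (inertTheta (IsLocalRing.ResidueField A) M₀) =
        (c : IsLocalRing.ResidueField A) • inertTheta (IsLocalRing.ResidueField A) M₀ := by
  have hOv : S.Ov = S'.Ov := inert_mid_Ov_eq hq hqM hD A hA hz hc hsq hε hε' hS hS'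
  have hAeq : S.A = S'.A := hS.A_eq.trans hS'.A_eq.symm
  have hres : ∀ (a : Qb) (h : a ∈ S.A) (h' : a ∈ S'.A), S.res ⟨a, h⟩ = S'.res ⟨a, h'⟩ := by
    intro a h h'
    have ha : a ∈ A := by rw [← hS.A_eq]; exact h
    rw [hS.res_eq a h ha, hS'.res_eq a h' ha]
  have hφ : ∀ f ∈ S.Ov, inertResEquiv S S' hOv hAeq hres (S.red f) = S'.red f :=
    fun f hf => inertResEquiv_red S S' hOv hAeq hres hf
  have hcop : Nat.Coprime c q :=
    (Nat.Coprime.symm ((Nat.Prime.coprime_iff_not_dvd hq).mpr hc))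
  have hz' : IsPrimitiveRoot (z ^ c) q := hz.pow_of_coprime c hcop
  refine ⟨inertResEquiv S S' hOv hAeq hres, fun f hf => (hφ f hf).symm, ?_, ?_⟩
  · intro y hy
    obtain ⟨f, hf, hfy⟩ := exists_gaussResFun_eq_mul (N := M₀) (ℓ := q) A (y : LaurentSeries _) hy
    let y₁ : ↥(modularFunctionFieldBar (M₀ * q)) := ⟨f, mem_of_mem_gaussSub hf⟩
    obtain ⟨h1, h2⟩ := hO A z ε hε y₁ hf
    obtain ⟨h1', h2'⟩ := hO A (z ^ c) ε' hε' y₁ hf
    have hm : heckeAlphaBar Qb (M₀ * q) q y₁ ∈ S.Ov := (hS.mem_iff _).mpr h1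
    have hm' : heckeAlphaBar Qb (M₀ * q) q y₁ ∈ S'.Ov := (hS'.mem_iff _).mpr h1'
    have e1 : S.red (heckeAlphaBar Qb (M₀ * q) q y₁) = y :=
      Subtype.ext (by rw [hS.coe_red _ hm, h2, hfy])
    have e1' : S'.red (heckeAlphaBar Qb (M₀ * q) q y₁) = y :=
      Subtype.ext (by rw [hS'.coe_red _ hm', h2', hfy])
    rw [← e1, hφ _ hm, e1', e1]
  · obtain ⟨hm, hr⟩ := inertThetaFun_red hq A hA hz hε hS
    obtain ⟨hm', hr'⟩ := inertThetaFun_red hq A hA hz' hε' hS'
    have hzc : (z : Qb) ^ c ≠ 1 := by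
      intro h
      have h1 : z ^ c = 1 := Units.ext (by rw [Units.val_pow_eq_pow_val, h, Units.val_one])
      exact hz'.ne_one hq.one_lt h1
    have hzA : (z : Qb) ∈ A := mem_valuationSubring_of_pow_eq_one A hq.pos
      (by rw [← Units.val_pow_eq_pow_val, hz.pow_eq_one, Units.val_one])
    have huA : (∑ i ∈ Finset.range c, (z : Qb) ^ i) ∈ A :=
      sum_mem fun i _ => pow_mem hzA i
    have huS' : (∑ i ∈ Finset.range c, (z : Qb) ^ i) ∈ S'.A := by rw [hS'.A_eq]; exact huA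
    have hresu : S'.res ⟨_, huS'⟩ = (c : IsLocalRing.ResidueField A) := by
      rw [hS'.res_eq _ huS' huA]
      have h1 : (⟨∑ i ∈ Finset.range c, (z : Qb) ^ i, huA⟩ : A) =
          ∑ i ∈ Finset.range c, (⟨(z : Qb), hzA⟩ : A) ^ i := by
        apply Subtype.ext
        simp
      rw [h1, map_sum]
      simp only [map_pow, inert_residue_root hq A hA z hz.pow_eq_one hzA, one_pow,
        Finset.sum_const, Finset.card_range, nsmul_eq_mul, mul_one]
    have e2 := inertResEquiv_mul_const S S' hOv hAeq hres huS' hm hm' (inertThetaFun_pow hzc)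
    rw [hr, hr', hresu] at e2
    exact e2

set_option maxHeartbeats 4000000 in
/-- **(INERT-M3)** the action of the inertia group on the middle vertices: for `σ ∈ I_A` with
`σ z = z' ^ c`, `c` a square modulo `q`: `σ O_z ⊆ O_{z'}` and
`red_{z'} (σ f) = e (red_z f)`, where `e` is the automorphism of `Fk_m` over `k(Z)` with
`c · e (θ j̄) = θ j̄`.  (`z' = z`: the stabiliser of the vertex; `z'` in the other class: the
swap of the two middle vertices.) -/
theorem inert_mid_action (hq : q.Prime) (hqM : ¬ q ∣ M₀) (hD : IgMidDistinct M₀ q)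
    (hO : IgMidOverInf M₀ q)
    (A : ValuationSubring Qb) (hA : A.LiesOverPrime q) (σ : Qb ≃ₐ[ℚ] Qb)
    (hσ : σ ∈ A.inertiaSubgroupIn ℚ) {z z' : Qbˣ} (hz' : IsPrimitiveRoot z' q)
    {c : ℕ} (hc : ¬ q ∣ c) (hsq : IsSquare (c : ZMod q)) (hσz : σ (z : Qb) = (z' : Qb) ^ c)
    {ε ε' ε'' : ↥(modularFunctionFieldBar (M₀ * q * q)) →ₐ[Qb] LaurentSeries Qb}
    (hε : IsMidExp M₀ q z ε) (hε' : IsMidExp M₀ q z' ε') (hε'' : IsMidExp M₀ q (z' ^ c) ε'')
    {S S' S'' : ValSetup Qb ↥(modularFunctionFieldBar (M₀ * q * q))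
      (IsLocalRing.ResidueField A) ↥(igField (IsLocalRing.ResidueField A) M₀)}
    (hS : IsMidSetup M₀ q A ε S) (hS' : IsMidSetup M₀ q A ε' S')
    (hS'' : IsMidSetup M₀ q A ε'' S'') :
    ∃ e : ↥(igField (IsLocalRing.ResidueField A) M₀) ≃ₐ[IsLocalRing.ResidueField A]
        ↥(igField (IsLocalRing.ResidueField A) M₀),
      (∀ f ∈ S.Ov, arithmeticGalois (modularFunctionFieldFull (M₀ * q * q)) σ • f ∈ S'.Ov ∧
        S'.red (arithmeticGalois (modularFunctionFieldFull (M₀ * q * q)) σ • f) =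
          e (S.red f)) ∧
      (∀ y : ↥(igField (IsLocalRing.ResidueField A) M₀),
        (y : LaurentSeries (IsLocalRing.ResidueField A)) ∈
          modularFunctionFieldFullC (IsLocalRing.ResidueField A) M₀ → e y = y) ∧
      (c : IsLocalRing.ResidueField A) • e (inertTheta (IsLocalRing.ResidueField A) M₀) =
        inertTheta (IsLocalRing.ResidueField A) M₀ := by
  obtain ⟨φ, h1, h2, h3⟩ := inert_mid_resEquiv hq hqM hD hO A hA hz' hc hsq hε' hε'' hS' hS''
  have hOv : S'.Ov = S''.Ov := inert_mid_Ov_eq hq hqM hD A hA hz' hc hsq hε' hε'' hS' hS''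
  have hzz : (((z' ^ c : Qbˣ)) : Qb) = σ (z : Qb) := by
    rw [Units.val_pow_eq_pow_val, hσz]
  refine ⟨φ.symm, ?_, ?_, ?_⟩
  · intro f hf
    obtain ⟨k1, k2⟩ := inert_mid_res_prime hq A σ hσ hε hε'' hzz ((hS.mem_iff f).mp hf)
    have m'' : arithmeticGalois (modularFunctionFieldFull (M₀ * q * q)) σ • f ∈ S''.Ov :=
      (hS''.mem_iff _).mpr k1
    have m' : arithmeticGalois (modularFunctionFieldFull (M₀ * q * q)) σ • f ∈ S'.Ov := by
      rw [hOv]; exact m''
    refine ⟨m', ?_⟩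
    have e1 : S''.red (arithmeticGalois (modularFunctionFieldFull (M₀ * q * q)) σ • f) =
        S.red f := Subtype.ext (by rw [hS''.coe_red _ m'', hS.coe_red _ hf, k2])
    rw [AlgEquiv.eq_symm_apply, ← h1 _ m', e1]
  · intro y hy
    rw [AlgEquiv.symm_apply_eq, h2 y hy]
  · rw [← map_smul, AlgEquiv.symm_apply_eq, h3]

/-- **(INERT-M4)** every exponent is realised by the inertia group: for `q ∤ c` there is
`σ ∈ I_A` with `σ μ = μ ^ c` for all `q`-th roots of unity `μ`. -/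
theorem inert_mid_exists (hq : q.Prime) (A : ValuationSubring Qb) (hA : A.LiesOverPrime q)
    (c : ℕ) (hc : ¬ q ∣ c) :
    ∃ σ ∈ A.inertiaSubgroupIn ℚ, ∀ z : Qbˣ, z ^ q = 1 → σ (z : Qb) = (z : Qb) ^ c := by
  haveI : Fact q.Prime := ⟨hq⟩
  obtain ⟨σ, hσ, h⟩ := inert_exists_pow_on_roots q A hA c hc
  exact ⟨σ, hσ, fun z hz => h _ (by rw [← Units.val_pow_eq_pow_val, hz, Units.val_one])⟩

end Fermat.Agent.S36G
end
end MergeWrap_S36_G_InertMidEquiv

section MergeWrap_S36_G_InertModMid -- from S36/G/InertModMid.lean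

set_option autoImplicit false
set_option linter.style.haveILetI false
set_option linter.unusedSectionVars false
set_option synthInstance.maxHeartbeats 400000

/-!
# S36 (cluster G), seat INERT-MOD: the SWAP of the middle vertices  (helper55)

`Mid` any index type, `z m` primitive `q`-th roots of unity, `ε m` the middle expansions,
`S m` the constant reductions (`IsMidSetup`), pairwise distinct valuation rings
(`S36/Igusa/Pack.lean`: `IgPack`).

* `inert_isSquare_mul_of_not` : the product of two non-squares modulo `q` is a square;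
* `inert_exists_exp`          : `z = z' ^ b`, `q ∤ b`, for primitive `q`-th roots of unity;
* `inert_mid_not_isSquare`    : `z m = (z m') ^ b`, `m ≠ m'` ⟹ `b` is not a square modulo `q`;
* `inert_mid_swap`            : for `m ≠ m'` there is `τ` in the inertia group of `A` which
  maps `O_{m₁}` to `O_{swap m m' m₁}` for EVERY `m₁`, compatibly with isomorphisms of the
  residue fields (the field `mid` of `InertVertexData`, `S36/G/CocycleF3Ends.lean`), and with
  `τ ζ = ζ ^ b` on the `q`-th roots of unity.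
-/

noncomputable section

namespace Fermat.Agent.S36G

open ModularCurve AlgebraicCurve Fermat.Agent.GaussInt Fermat.Agent.Deuring
  Fermat.Agent.Kronecker Fermat.Agent.BadRed

local notation "Qb" => AlgebraicClosure ℚ

attribute [local instance 10000] SubalgebraClass.toAlgebra HahnSeries.powerSeriesAlgebra

/-- the product of two non-squares modulo a prime is a square. -/
theorem inert_isSquare_mul_of_not {q : ℕ} (hq : q.Prime) {a b : ZMod q} (ha0 : a ≠ 0)
    (hb0 : b ≠ 0) (ha : ¬ IsSquare a) (hb : ¬ IsSquare b) : IsSquare (a * b) := by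
  haveI : Fact q.Prime := ⟨hq⟩
  rw [ZMod.euler_criterion q ha0] at ha
  rw [ZMod.euler_criterion q hb0] at hb
  rw [ZMod.euler_criterion q (mul_ne_zero ha0 hb0), mul_pow]
  rcases ZMod.pow_div_two_eq_neg_one_or_one q ha0 with h | h
  · exact absurd h ha
  · rcases ZMod.pow_div_two_eq_neg_one_or_one q hb0 with h' | h'
    · exact absurd h' hb
    · rw [h, h']
      ring

/-- `(b : ZMod q) ≠ 0` for `q ∤ b`. -/
theorem inert_natCast_ne_zero {q b : ℕ} (hb : ¬ q ∣ b) : ((b : ℕ) : ZMod q) ≠ 0 := fun h =>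
  hb ((ZMod.natCast_eq_zero_iff b q).mp h)

/-- two primitive `q`-th roots of unity are powers of each other. -/
theorem inert_exists_exp {q : ℕ} (hq : q.Prime) {z z' : Qbˣ} (hz : IsPrimitiveRoot z q)
    (hz' : IsPrimitiveRoot z' q) : ∃ b : ℕ, ¬ q ∣ b ∧ z = z' ^ b := by
  haveI : NeZero q := ⟨hq.ne_zero⟩
  have hz'c : IsPrimitiveRoot ((z' : Qbˣ) : Qb) q := IsPrimitiveRoot.coe_units_iff.mpr hz'
  have hzq : ((z : Qbˣ) : Qb) ^ q = 1 := by
    rw [← Units.val_pow_eq_pow_val, hz.pow_eq_one, Units.val_one]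
  obtain ⟨b, -, hb⟩ := hz'c.eq_pow_of_pow_eq_one hzq
  have hb' : z' ^ b = z := Units.ext (by rw [Units.val_pow_eq_pow_val, hb])
  refine ⟨b, fun hdvd => ?_, hb'.symm⟩
  obtain ⟨c, rfl⟩ := hdvd
  rw [pow_mul, hz'.pow_eq_one, one_pow] at hb'
  exact hz.ne_one hq.one_lt hb'.symm

variable {M₀ q : ℕ} [NeZero M₀] [NeZero q]

section Swap

variable {A : ValuationSubring Qb} {Mid : Type}
  {z : Mid → Qbˣ}
  {ε : Mid → (↥(modularFunctionFieldBar (M₀ * q * q)) →ₐ[Qb] LaurentSeries Qb)}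
  {S : Mid → ValSetup Qb ↥(modularFunctionFieldBar (M₀ * q * q)) (IsLocalRing.ResidueField A)
    ↥(igField (IsLocalRing.ResidueField A) M₀)}

/-- equal Gauss rings give equal valuation rings. -/
theorem inert_mid_Ov_eq_of_expOv {m m' : Mid}
    (hS : ∀ m, IsMidSetup M₀ q A (ε m) (S m)) (h : expOv (ε m) A = expOv (ε m') A) :
    (S m).Ov = (S m').Ov := by
  ext f
  rw [(hS m).mem_iff f, (hS m').mem_iff f, h]

/-- the exponent between two different middle vertices is not a square. -/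
theorem inert_mid_not_isSquare (hq : q.Prime) (hqM : ¬ q ∣ M₀) (hD : IgMidDistinct M₀ q)
    (hA : A.LiesOverPrime q) (prim : ∀ m, IsPrimitiveRoot (z m) q)
    (hε : ∀ m, IsMidExp M₀ q (z m) (ε m)) (hS : ∀ m, IsMidSetup M₀ q A (ε m) (S m))
    (hne : ∀ m m', m ≠ m' → (S m).Ov ≠ (S m').Ov) {m m' : Mid} (hmm : m ≠ m') {b : ℕ}
    (hb : ¬ q ∣ b) (hzb : z m = z m' ^ b) : ¬ IsSquare ((b : ℕ) : ZMod q) := by
  intro hsq
  have hε' : IsMidExp M₀ q (z m' ^ b) (ε m) := by
    rw [← hzb]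
    exact hε m
  have h := (hD hq hqM A hA (z m') b (ε m') (ε m) (prim m') hb (hε m') hε').mpr hsq
  exact hne m m' hmm (inert_mid_Ov_eq_of_expOv hS h).symm

set_option maxHeartbeats 4000000 in
/-- **(INERT-MOD, middle vertices)** for `m ≠ m'` there is an inertia element which swaps the
middle vertices `m`, `m'` (and these are ALL the middle vertices). -/
theorem inert_mid_swap [DecidableEq Mid] (hq : q.Prime) (hqM : ¬ q ∣ M₀)
    (hD : IgMidDistinct M₀ q) (hSet : IgMidSetupExists M₀ q)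
    (hA : A.LiesOverPrime q) (prim : ∀ m, IsPrimitiveRoot (z m) q)
    (hε : ∀ m, IsMidExp M₀ q (z m) (ε m)) (hS : ∀ m, IsMidSetup M₀ q A (ε m) (S m))
    (hne : ∀ m m', m ≠ m' → (S m).Ov ≠ (S m').Ov) {m m' : Mid} (hmm : m ≠ m') :
    ∃ τ ∈ A.inertiaSubgroupIn ℚ, ∀ m₁ : Mid,
      ∃ eM : ↥(igField (IsLocalRing.ResidueField A) M₀) ≃ₐ[IsLocalRing.ResidueField A]
          ↥(igField (IsLocalRing.ResidueField A) M₀),
        ∀ f, f ∈ (S m₁).Ov →
          arithmeticGalois (modularFunctionFieldFull (M₀ * q * q)) τ • f ∈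
              (S (Equiv.swap m m' m₁)).Ov ∧
            (S (Equiv.swap m m' m₁)).red
                (arithmeticGalois (modularFunctionFieldFull (M₀ * q * q)) τ • f) =
              eM ((S m₁).red f) := by
  -- the exponent between `m` and `m'`
  obtain ⟨b, hqb, hzb⟩ := inert_exists_exp hq (prim m) (prim m')
  have hbns : ¬ IsSquare ((b : ℕ) : ZMod q) :=
    inert_mid_not_isSquare hq hqM hD hA prim hε hS hne hmm hqb hzb
  obtain ⟨τ, hτ, hτz⟩ := inert_mid_exists hq A hA b hqb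
  refine ⟨τ, hτ, fun m₁ => ?_⟩
  -- the exponent between `m₁` and its image
  obtain ⟨b₁, hqb₁, hzb₁⟩ := inert_exists_exp hq (prim m₁) (prim (Equiv.swap m m' m₁))
  have hqbb : ¬ q ∣ b₁ * b := fun h => (hq.dvd_mul.mp h).elim hqb₁ hqb
  have hsq : IsSquare (((b₁ * b : ℕ)) : ZMod q) := by
    rw [Nat.cast_mul]
    by_cases h1 : Equiv.swap m m' m₁ = m₁
    · -- `m₁ ∉ {m, m'}`: impossible
      exfalso
      have hm₁m : m₁ ≠ m := by
        rintro rfl
        rw [Equiv.swap_apply_left] at h1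
        exact hmm h1.symm
      have hm₁m' : m₁ ≠ m' := by
        rintro rfl
        rw [Equiv.swap_apply_right] at h1
        exact hmm h1
      obtain ⟨b₂, hqb₂, hzb₂⟩ := inert_exists_exp hq (prim m₁) (prim m)
      have hb₂ns : ¬ IsSquare ((b₂ : ℕ) : ZMod q) :=
        inert_mid_not_isSquare hq hqM hD hA prim hε hS hne hm₁m hqb₂ hzb₂
      have hz' : z m₁ = z m' ^ (b * b₂) := by
        rw [hzb₂, hzb, pow_mul]
      have hqbb₂ : ¬ q ∣ b * b₂ := fun h => (hq.dvd_mul.mp h).elim hqb hqb₂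
      refine inert_mid_not_isSquare hq hqM hD hA prim hε hS hne hm₁m' hqbb₂ hz' ?_
      rw [Nat.cast_mul]
      exact inert_isSquare_mul_of_not hq (inert_natCast_ne_zero hqb)
        (inert_natCast_ne_zero hqb₂) hbns hb₂ns
    · have hb₁ns : ¬ IsSquare ((b₁ : ℕ) : ZMod q) :=
        inert_mid_not_isSquare hq hqM hD hA prim hε hS hne (Ne.symm h1) hqb₁ hzb₁
      exact inert_isSquare_mul_of_not hq (inert_natCast_ne_zero hqb₁)
        (inert_natCast_ne_zero hqb) hb₁ns hbns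
  have hτz₁ : τ ((z m₁ : Qbˣ) : Qb) = ((z (Equiv.swap m m' m₁) : Qbˣ) : Qb) ^ (b₁ * b) := by
    rw [hτz (z m₁) (prim m₁).pow_eq_one, hzb₁, Units.val_pow_eq_pow_val, ← pow_mul]
  -- the expansion and the reduction at `z' ^ (b₁ b)`
  have hprim'' : IsPrimitiveRoot (z (Equiv.swap m m' m₁) ^ (b₁ * b)) q :=
    (prim _).pow_of_coprime _ ((Nat.Prime.coprime_iff_not_dvd hq).mpr hqbb).symm
  obtain ⟨ε'', hε''⟩ := igMidExpExists M₀ q hq hqM _ hprim''
  obtain ⟨S'', hS'', -⟩ := hSet hq hqM A hA _ ε'' hprim'' hε''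
  obtain ⟨e, he, -, -⟩ := inert_mid_action hq hqM hD (igMidOverInf M₀ q) A hA τ hτ
    (prim (Equiv.swap m m' m₁)) hqbb hsq hτz₁ (hε m₁) (hε _) hε'' (hS m₁) (hS _) hS''
  exact ⟨e, he⟩

end Swap

end Fermat.Agent.S36G
end
end MergeWrap_S36_G_InertModMid

section MergeWrap_S36_G_InertModScaled -- from S36/G/InertModScaled.lean

set_option autoImplicit false
set_option linter.style.haveILetI false
set_option linter.unusedSectionVars false

/-!
# S36 (cluster G), seat INERT-MOD: the scaling toolkit  (helper55)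

`InertScaled S t f` (`S36/G/InertEnds.lean`): `t • f = a f`, `a` a unit of all the `(S c).A`.

* `InertScaled.mul`, `.inv`, `.div`, `.pow` : closure properties;
* `inertScaled_algebraMap`, `inertScaled_algebraMap_root` : constants `b` with
  `t b = ζ b`, `ζ` a root of unity;
* `inert_gal_root` : for `τ ∈ Gal (ℚ̄ / ℚ)` and `b ^ n ∈ ℚ`: `τ b = ζ b`, `ζ ^ n = 1`;
* `inertScaled_const_of_pow_rat` : the constant `b`, `b ^ n ∈ ℚ`, is scaled by
  `arithmeticGalois F₀ τ`;
* `inert_wpiInertial` : `arithmeticGalois F₀ τ`, `τ` in the inertia group of `A`, is inertial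
  (`WpiInertial`) for every constant reduction over `A` with the residue map of `A`.
-/

noncomputable section

open AlgebraicCurve Fermat.Agent.RR Fermat.Agent.Deuring

namespace Fermat.Agent.S36G

open Fermat.Agent.BadRed Fermat.Agent.BadRedG

section Abs

variable {K F k : Type*} [Field K] [Field F] [Algebra K F] [Field k]
  {κ : Type*} {Fk : κ → Type*} [∀ c, Field (Fk c)] [∀ c, Algebra k (Fk c)]
  {S : ∀ c : κ, ValSetup K F k (Fk c)} {t : SemilinearAut K F}

theorem InertScaled.mul {f g : F} (h₁ : InertScaled S t f) (h₂ : InertScaled S t g) :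
    InertScaled S t (f * g) := by
  obtain ⟨a, ha0, ha, ha', hf⟩ := h₁
  obtain ⟨b, hb0, hb, hb', hg⟩ := h₂
  refine ⟨a * b, mul_ne_zero ha0 hb0, fun c => (S c).A.mul_mem _ _ (ha c) (hb c), fun c => ?_, ?_⟩
  · rw [mul_inv]
    exact (S c).A.mul_mem _ _ (ha' c) (hb' c)
  · rw [smul_mul', hf, hg, map_mul]
    ring

theorem InertScaled.inv {f : F} (h : InertScaled S t f) : InertScaled S t f⁻¹ := by
  obtain ⟨a, ha0, ha, ha', hf⟩ := h
  refine ⟨a⁻¹, inv_ne_zero ha0, ha', fun c => by rw [inv_inv]; exact ha c, ?_⟩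
  rw [smul_inv'', hf, mul_inv, map_inv₀]

theorem InertScaled.div {f g : F} (h₁ : InertScaled S t f) (h₂ : InertScaled S t g) :
    InertScaled S t (f / g) := by
  rw [div_eq_mul_inv]
  exact h₁.mul h₂.inv

theorem InertScaled.pow {f : F} (h : InertScaled S t f) (n : ℕ) : InertScaled S t (f ^ n) := by
  induction n with
  | zero =>
    rw [pow_zero]
    exact inertScaled_of_smul_eq S (smul_one t)
  | succ n ih =>
    rw [pow_succ]
    exact ih.mul h

/-- a constant which is multiplied by a unit. -/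
theorem inertScaled_algebraMap {b a : K} (ha0 : a ≠ 0) (ha : ∀ c, a ∈ (S c).A)
    (ha' : ∀ c, a⁻¹ ∈ (S c).A) (hb : SemilinearAut.baseAut t b = a * b) :
    InertScaled S t (algebraMap K F b) :=
  ⟨a, ha0, ha, ha', by rw [SemilinearAut.smul_algebraMap, hb, map_mul]⟩

/-- a constant which is multiplied by a root of unity. -/
theorem inertScaled_algebraMap_root {b ζ : K} {n : ℕ} (hn : 0 < n) (hζ : ζ ^ n = 1)
    (hb : SemilinearAut.baseAut t b = ζ * b) : InertScaled S t (algebraMap K F b) := by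
  have hζ0 : ζ ≠ 0 := by
    rintro rfl
    rw [zero_pow hn.ne'] at hζ
    exact zero_ne_one hζ
  refine inertScaled_algebraMap hζ0 (fun c => wpi_root_mem _ hn hζ)
    (fun c => wpi_root_mem _ hn (by rw [inv_pow, hζ, inv_one])) hb

end Abs

section Gal

local notation "Qb" => AlgebraicClosure ℚ

/-- `τ b = ζ b` with `ζ ^ n = 1` if `b ^ n` is rational. -/
theorem inert_gal_root (τ : Qb ≃ₐ[ℚ] Qb) {b : Qb} {n : ℕ} {r : ℚ}
    (hb : b ^ n = algebraMap ℚ Qb r) : ∃ ζ : Qb, ζ ^ n = 1 ∧ τ b = ζ * b := by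
  rcases eq_or_ne b 0 with rfl | hb0
  · exact ⟨1, one_pow n, by rw [map_zero, mul_zero]⟩
  · refine ⟨τ b / b, ?_, by rw [div_mul_cancel₀ _ hb0]⟩
    rw [div_pow, ← map_pow, hb, τ.commutes, ← hb]
    exact div_self (pow_ne_zero n hb0)

variable {F₀ : IntermediateField ℚ (LaurentSeries ℚ)} {k : Type*} [Field k]
  {κ : Type*} {Fk : κ → Type*} [∀ c, Field (Fk c)] [∀ c, Algebra k (Fk c)]

/-- a constant `b` with `b ^ n ∈ ℚ`, `n > 0`, is scaled by the Galois action. -/
theorem inertScaled_const_of_pow_rat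
    (S : ∀ c : κ, ValSetup Qb (ModularCurve.laurentBaseChange Qb F₀) k (Fk c))
    (τ : Qb ≃ₐ[ℚ] Qb) {b : Qb} {n : ℕ} (hn : 0 < n) {r : ℚ} (hb : b ^ n = algebraMap ℚ Qb r) :
    InertScaled S (ModularCurve.arithmeticGalois F₀ τ)
      (algebraMap Qb (ModularCurve.laurentBaseChange Qb F₀) b) := by
  obtain ⟨ζ, hζ, hτ⟩ := inert_gal_root τ hb
  exact inertScaled_algebraMap_root hn hζ hτ

end Gal

end Fermat.Agent.S36G
end
end MergeWrap_S36_G_InertModScaled

section MergeWrap_S36_G_InertVert -- from S36/G/InertVert.lean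

set_option autoImplicit false
set_option linter.style.haveILetI false
set_option linter.unusedSectionVars false
set_option synthInstance.maxHeartbeats 400000

/-!
# S36 (cluster G), seat INERT, the VERTICAL vertices `v_∞`, `v_0`  (helper55)

At a level `M` (`= q² M₀` in the application), `A ∣ q`, `S` a Gauss setup (`IsGaussSetup M N₀ A S`,
e.g. `gaussSetupSq`, `S36/Val/Inf2.lean`), `v_0 = valSetupZeroAt D hM S` (`S36/Val/Restr.lean`):
the inertia group of `A` preserves both valuation rings and acts trivially on both residue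
fields (`π = id`, `e = id` in `GraphSeed.IsPermAutW`).

* `inert_inf_mem`, `inert_inf_red`   : `v_∞` (restatement of `IsGaussSetup.mem_of_inertia`,
                                       `red_inertia`);
* `inert_zeroAt_mem_galois`, `inert_zeroAt_red_galois` : transport of any Galois statement from
                                       `v_∞` to `v_0 = v_∞ ∘ w_Q` at a level `M = Q R`;
* `inert_zero_mem`, `inert_zero_red` : `v_0`.
-/

noncomputable section

namespace Fermat.Agent.S36G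

open ModularCurve AlgebraicCurve Fermat.Agent.F3 Fermat.Agent.F3G Fermat.Agent.GaussInt
  Fermat.Agent.AtkinLehner Fermat.Agent.BadRed Fermat.Agent.Deuring Fermat.Agent.Kronecker
  Fermat.Agent.S36N

local notation "Qb" => AlgebraicClosure ℚ

attribute [local instance 10000] SubalgebraClass.toAlgebra HahnSeries.powerSeriesAlgebra

section ZeroAt

variable {k Fk : Type*} [Field k] [Field Fk] [Algebra k Fk]
  (D : ALData) {M : ℕ} [NeZero M] (hM : M = D.Q * D.R) (S : ValSetup Qb (FBar M) k Fk)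

/-- if the Galois element `σ` preserves `O_∞`, it preserves `O_0` (level `M = Q R`). -/
theorem inert_zeroAt_mem_galois (σ : Qb ≃ₐ[ℚ] Qb)
    (hm : ∀ f, f ∈ S.Ov → arithmeticGalois (modularFunctionFieldFull M) σ • f ∈ S.Ov)
    (f : FBar M) (hf : f ∈ (valSetupZeroAt D hM S).Ov) :
    arithmeticGalois (modularFunctionFieldFull M) σ • f ∈ (valSetupZeroAt D hM S).Ov := by
  subst hM
  rw [valSetupZeroAt_rfl] at hf ⊢
  exact valSetupZero_mem_galois D S σ hm f hf

/-- if the Galois element `σ` acts on the residues of `v_∞` through `τ`, the same holds for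
`v_0` (level `M = Q R`). -/
theorem inert_zeroAt_red_galois (σ : Qb ≃ₐ[ℚ] Qb) (τ : Fk → Fk)
    (hr : ∀ f, f ∈ S.Ov →
      S.red (arithmeticGalois (modularFunctionFieldFull M) σ • f) = τ (S.red f))
    (f : FBar M) (hf : f ∈ (valSetupZeroAt D hM S).Ov) :
    (valSetupZeroAt D hM S).red (arithmeticGalois (modularFunctionFieldFull M) σ • f) =
      τ ((valSetupZeroAt D hM S).red f) := by
  subst hM
  rw [valSetupZeroAt_rfl] at hf ⊢
  exact valSetupZero_red_galois D S σ τ hr f hf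

end ZeroAt

section Vert

variable {M N₀ : ℕ} [NeZero M] [NeZero N₀] {A : ValuationSubring Qb}
  {S : ValSetup Qb (FBar M) (IsLocalRing.ResidueField A)
    (modularFunctionFieldFullC (IsLocalRing.ResidueField A) N₀)}

/-- **(INERT-V1)** the inertia group preserves `O_∞`. -/
theorem inert_inf_mem (hS : IsGaussSetup M N₀ A S) (σ : Qb ≃ₐ[ℚ] Qb)
    (hσ : σ ∈ A.inertiaSubgroupIn ℚ) (f : FBar M) (hf : f ∈ S.Ov) :
    arithmeticGalois (modularFunctionFieldFull M) σ • f ∈ S.Ov :=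
  hS.mem_of_inertia σ hσ f hf

/-- **(INERT-V1)** the inertia group acts trivially on the residue field of `v_∞`. -/
theorem inert_inf_red (hS : IsGaussSetup M N₀ A S) (σ : Qb ≃ₐ[ℚ] Qb)
    (hσ : σ ∈ A.inertiaSubgroupIn ℚ) (f : FBar M) (hf : f ∈ S.Ov) :
    S.red (arithmeticGalois (modularFunctionFieldFull M) σ • f) = S.red f :=
  hS.red_inertia σ hσ f hf

/-- **(INERT-V2)** the inertia group preserves `O_0`. -/
theorem inert_zero_mem (D : ALData) (hM : M = D.Q * D.R) (hS : IsGaussSetup M N₀ A S)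
    (σ : Qb ≃ₐ[ℚ] Qb) (hσ : σ ∈ A.inertiaSubgroupIn ℚ) (f : FBar M)
    (hf : f ∈ (valSetupZeroAt D hM S).Ov) :
    arithmeticGalois (modularFunctionFieldFull M) σ • f ∈ (valSetupZeroAt D hM S).Ov :=
  inert_zeroAt_mem_galois D hM S σ (fun f hf => hS.mem_of_inertia σ hσ f hf) f hf

/-- **(INERT-V2)** the inertia group acts trivially on the residue field of `v_0`. -/
theorem inert_zero_red (D : ALData) (hM : M = D.Q * D.R) (hS : IsGaussSetup M N₀ A S)
    (σ : Qb ≃ₐ[ℚ] Qb) (hσ : σ ∈ A.inertiaSubgroupIn ℚ) (f : FBar M)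
    (hf : f ∈ (valSetupZeroAt D hM S).Ov) :
    (valSetupZeroAt D hM S).red (arithmeticGalois (modularFunctionFieldFull M) σ • f) =
      (valSetupZeroAt D hM S).red f :=
  inert_zeroAt_red_galois D hM S σ id (fun f hf => hS.red_inertia σ hσ f hf) f hf

end Vert

end Fermat.Agent.S36G
end
end MergeWrap_S36_G_InertVert

section MergeWrap_S36_G_CocycleF3Mod -- from S36/G/CocycleF3Mod.lean

set_option autoImplicit false
set_option linter.style.haveILetI false
set_option linter.unusedSectionVars false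
set_option synthInstance.maxHeartbeats 400000

/-!
# Cluster G (S36), Step 3: the relation (F3) for the MODULAR graph  (helper55, INERT-MOD)

Level `M₀ q²`, `A ∣ q`, `k` the residue field, `F = FBar (M₀ * q * q)`.
`E : ModEndsInput` over the family `E.S = vtxFamily Soo S0 Sm SP`:

* `Soo`  a Gauss setup (`IsGaussSetup`), `S0 = valSetupZeroAt D hM Soo`;
* `Sm m` the middle constant reductions (`IsMidSetup`, pairwise incomparable: `IgPack`);
* `SP P` stable under the inertia group (`WpiStable`: `wpm_stable_at`, `S36/HPVal/InertFinal`).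

* `inertVertexData_modular` : the `InertVertexData` of an inertia element which swaps two
  middle vertices;
* `inertAct_modular`        : the hypothesis `hact` of `ModEndsInput.cocycleF3_of_ends`
  (= `CboInert E x n` of `S36/G/CoreBundleOf.lean`) for `P₃ = InertiaFixedFun (M₀ * q * q) A n`.
-/

noncomputable section

open AlgebraicCurve Fermat.Agent.RR Fermat.Agent.Deuring

namespace Fermat.Agent.S36G

open ModularCurve Fermat.Agent.GaussInt Fermat.Agent.Kronecker Fermat.Agent.AtkinLehner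
  Fermat.Agent.BadRed Fermat.Agent.BadRedG Fermat.Agent.BadRed.Gluing Fermat.Agent.F3
  Fermat.Agent.F3G

local notation "Qb" => AlgebraicClosure ℚ

attribute [local instance 10000] SubalgebraClass.toAlgebra HahnSeries.powerSeriesAlgebra

variable {M₀ q : ℕ} [NeZero M₀] [NeZero q] {A : ValuationSubring Qb}
  {Mid SS : Type} [Fintype Mid] [Fintype SS]
  {FkP : SS → Type} [∀ P, Field (FkP P)] [∀ P, Algebra (IsLocalRing.ResidueField A) (FkP P)]

section Data

variable
  (E : ModEndsInput Qb (FBar (M₀ * q * q)) (IsLocalRing.ResidueField A) Mid SS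
    ↥(modularFunctionFieldFullC (IsLocalRing.ResidueField A) M₀)
    (fun _ => ↥(igField (IsLocalRing.ResidueField A) M₀)) FkP)
  {Soo S0 : ValSetup Qb (FBar (M₀ * q * q)) (IsLocalRing.ResidueField A)
    ↥(modularFunctionFieldFullC (IsLocalRing.ResidueField A) M₀)}
  {Sm : Mid → ValSetup Qb (FBar (M₀ * q * q)) (IsLocalRing.ResidueField A)
    ↥(igField (IsLocalRing.ResidueField A) M₀)}
  {SP : ∀ P, ValSetup Qb (FBar (M₀ * q * q)) (IsLocalRing.ResidueField A) (FkP P)}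

set_option maxHeartbeats 4000000 in
/-- **the vertex-wise data of the inertia elements which swap two middle vertices.** -/
theorem inertVertexData_modular [DecidableEq Mid] (hq : q.Prime) (hqM : ¬ q ∣ M₀)
    (hD : IgMidDistinct M₀ q) (hSet : IgMidSetupExists M₀ q) (hA : A.LiesOverPrime q)
    (hES : E.S = vtxFamily Soo S0 Sm SP)
    (hoo : IsGaussSetup (M₀ * q * q) M₀ A Soo)
    (D : ALData) (hM : M₀ * q * q = D.Q * D.R) (h0 : S0 = valSetupZeroAt D hM Soo)
    {z : Mid → Qbˣ}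
    {ε : Mid → (↥(modularFunctionFieldBar (M₀ * q * q)) →ₐ[Qb] LaurentSeries Qb)}
    (prim : ∀ m, IsPrimitiveRoot (z m) q) (hε : ∀ m, IsMidExp M₀ q (z m) (ε m))
    (hS : ∀ m, IsMidSetup M₀ q A (ε m) (Sm m))
    (hne : ∀ m m', m ≠ m' → ¬ (Sm m).Ov ≤ (Sm m').Ov)
    (hPA : ∀ P, (SP P).A = A)
    (hP : ∀ P, ∀ τ ∈ A.inertiaSubgroupIn ℚ,
      WpiStable (SP P) (arithmeticGalois (modularFunctionFieldFull (M₀ * q * q)) τ))
    (hs1 : ∀ τ ∈ A.inertiaSubgroupIn ℚ,
      InertScaled E.S (arithmeticGalois (modularFunctionFieldFull (M₀ * q * q)) τ) E.u1)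
    (hs2' : ∀ τ ∈ A.inertiaSubgroupIn ℚ,
      InertScaled E.S (arithmeticGalois (modularFunctionFieldFull (M₀ * q * q)) τ)
        (algebraMap Qb (FBar (M₀ * q * q)) E.ϖ2 / E.u2))
    (hs1' : ∀ τ ∈ A.inertiaSubgroupIn ℚ,
      InertScaled E.S (arithmeticGalois (modularFunctionFieldFull (M₀ * q * q)) τ)
        (algebraMap Qb (FBar (M₀ * q * q)) E.ϖ1 / E.u1))
    (hs2 : ∀ τ ∈ A.inertiaSubgroupIn ℚ,
      InertScaled E.S (arithmeticGalois (modularFunctionFieldFull (M₀ * q * q)) τ) E.u2)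
    {m m' : Mid} (hmm : m ≠ m') :
    ∃ τ ∈ A.inertiaSubgroupIn ℚ,
      InertVertexData E (arithmeticGalois (modularFunctionFieldFull (M₀ * q * q)) τ)
        (Equiv.swap m m') := by
  have hne' : ∀ m m', m ≠ m' → (Sm m).Ov ≠ (Sm m').Ov := fun m m' h he =>
    hne m m' h (le_of_eq he)
  obtain ⟨τ, hτ, hmid⟩ := inert_mid_swap hq hqM hD hSet hA prim hε hS hne' hmm
  refine ⟨τ, hτ, ?_⟩
  refine
    { oo_mem := ?_
      oo_red := ?_
      zero_mem := ?_
      zero_red := ?_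
      mid := ?_
      hor := ?_
      sc_u1 := hs1 τ hτ
      sc_u2' := hs2' τ hτ
      sc_u1' := hs1' τ hτ
      sc_u2 := hs2 τ hτ }
  · intro f hf
    rw [hES] at hf ⊢
    exact inert_inf_mem hoo τ hτ f hf
  · intro f hf
    rw [hES] at hf ⊢
    exact inert_inf_red hoo τ hτ f hf
  · intro f hf
    rw [hES] at hf ⊢
    rw [vtxFamily_zero, h0] at hf ⊢
    exact inert_zero_mem D hM hoo τ hτ f hf
  · intro f hf
    rw [hES] at hf ⊢
    rw [vtxFamily_zero, h0] at hf ⊢
    exact inert_zero_red D hM hoo τ hτ f hf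
  · intro m₁
    obtain ⟨eM, heM⟩ := hmid m₁
    refine ⟨eM, fun f hf => ?_⟩
    rw [hES] at hf ⊢
    exact heM f hf
  · intro P
    have hτ' : τ ∈ (SP P).A.inertiaSubgroupIn ℚ := by rw [hPA P]; exact hτ
    obtain ⟨eP, heP⟩ := wpi_exists_resEquiv (hP P τ hτ) (wpm_inertial (SP P) hτ')
    refine ⟨eP, fun f hf => ?_⟩
    rw [hES] at hf ⊢
    exact heP f hf

section Act

set_option maxHeartbeats 4000000 in
/-- **the inertia action on the modular graph** (= `CboInert E x n` of `S36/G/CoreBundleOf.lean`,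
the hypothesis `hact` of `ModEndsInput.cocycleF3_of_ends`). -/
theorem inertAct_modular [DecidableEq Mid] (hq : q.Prime) (hqM : ¬ q ∣ M₀)
    (hD : IgMidDistinct M₀ q) (hSet : IgMidSetupExists M₀ q) (hA : A.LiesOverPrime q)
    (hES : E.S = vtxFamily Soo S0 Sm SP)
    (hoo : IsGaussSetup (M₀ * q * q) M₀ A Soo)
    (D : ALData) (hM : M₀ * q * q = D.Q * D.R) (h0 : S0 = valSetupZeroAt D hM Soo)
    {z : Mid → Qbˣ}
    {ε : Mid → (↥(modularFunctionFieldBar (M₀ * q * q)) →ₐ[Qb] LaurentSeries Qb)}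
    (prim : ∀ m, IsPrimitiveRoot (z m) q) (hε : ∀ m, IsMidExp M₀ q (z m) (ε m))
    (hS : ∀ m, IsMidSetup M₀ q A (ε m) (Sm m))
    (hne : ∀ m m', m ≠ m' → ¬ (Sm m).Ov ≤ (Sm m').Ov)
    (hPA : ∀ P, (SP P).A = A)
    (hP : ∀ P, ∀ τ ∈ A.inertiaSubgroupIn ℚ,
      WpiStable (SP P) (arithmeticGalois (modularFunctionFieldFull (M₀ * q * q)) τ))
    (hs1 : ∀ τ ∈ A.inertiaSubgroupIn ℚ,
      InertScaled E.S (arithmeticGalois (modularFunctionFieldFull (M₀ * q * q)) τ) E.u1)
    (hs2' : ∀ τ ∈ A.inertiaSubgroupIn ℚ,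
      InertScaled E.S (arithmeticGalois (modularFunctionFieldFull (M₀ * q * q)) τ)
        (algebraMap Qb (FBar (M₀ * q * q)) E.ϖ2 / E.u2))
    (hs1' : ∀ τ ∈ A.inertiaSubgroupIn ℚ,
      InertScaled E.S (arithmeticGalois (modularFunctionFieldFull (M₀ * q * q)) τ)
        (algebraMap Qb (FBar (M₀ * q * q)) E.ϖ1 / E.u1))
    (hs2 : ∀ τ ∈ A.inertiaSubgroupIn ℚ,
      InertScaled E.S (arithmeticGalois (modularFunctionFieldFull (M₀ * q * q)) τ) E.u2)
    {x : FBar (M₀ * q * q)}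
    (htx : ∀ τ ∈ A.inertiaSubgroupIn ℚ,
      arithmeticGalois (modularFunctionFieldFull (M₀ * q * q)) τ • x = x)
    (n : ℕ) :
    ∀ g : FBar (M₀ * q * q), InertiaFixedFun (M₀ * q * q) A n g → ∀ m m' : Mid, m ≠ m' →
      ∃ (t : SemilinearAut Qb (FBar (M₀ * q * q))) (σ : Equiv.Perm Mid),
        InertVertexData E t σ ∧ t • x = x ∧ σ m = m' ∧
          ∃ (u : FBar (M₀ * q * q)) (a : Qb), a ≠ 0 ∧
            t • g = algebraMap Qb (FBar (M₀ * q * q)) a * u ^ n * g := by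
  intro g hg m m' hmm
  obtain ⟨τ, hτ, hdata⟩ := inertVertexData_modular E hq hqM hD hSet hA hES hoo D hM h0 prim hε
    hS hne hPA hP hs1 hs2' hs1' hs2 hmm
  obtain ⟨u, a, ha, hu⟩ := hg τ hτ
  exact ⟨_, Equiv.swap m m', hdata, htx τ hτ, Equiv.swap_apply_left m m', u, a, ha, hu⟩

end Act

end Data

end Fermat.Agent.S36G
end
end MergeWrap_S36_G_CocycleF3Mod

section MergeWrap_S36_HPVal_InertHor -- from S36/HPVal/InertHor.lean

set_option autoImplicit false
set_option linter.style.haveILetI false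
set_option linter.unusedSectionVars false
set_option linter.unusedVariables false
set_option synthInstance.maxHeartbeats 400000

/-!
# S36 (cluster G), INERT: the fields of `InertVertexData` (hF3) supplied by block W-P  (helper71)

* `wpm_hor` : **the field `hor` of `InertVertexData`** at a supersingular vertex, from a `WPOut`:
  `e_P := wpmEquiv`;
* `wpm_scaled_const_div`, `wpm_scaled_div_const` : `InertScaled S t (ϖ / u)`, `InertScaled S t (u / ϖ)`
  for `t = arithmeticGalois τ`, `τ u = u`, `ϖ ^ n` fixed by `τ` (the multiplier `τ ϖ / ϖ` is a root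
  of unity, hence a unit of every valuation ring);
* `wpm_scaled_of_fixed` : `InertScaled S t u` for `τ u = u`.
-/

noncomputable section
attribute [local instance 10000] SubalgebraClass.toAlgebra HahnSeries.powerSeriesAlgebra

namespace Fermat.Agent.S36G

open ModularCurve AlgebraicCurve Fermat.Agent.F3 Fermat.Agent.F3G Fermat.Agent.GaussInt
  Fermat.Agent.Deuring Fermat.Agent.BadRed Fermat.Agent.HPVal Fermat.Agent.HP Fermat.Agent.RR

local notation "Qb" => AlgebraicClosure ℚ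

section Hor

variable {M₀ q : ℕ} [NeZero M₀] [NeZero q] {A : ValuationSubring Qb}
  {S0 : Fermat.Agent.S18Key.RedSetup Qb (FBar M₀) (IsLocalRing.ResidueField A)
    ↥(modularFunctionFieldFullC (IsLocalRing.ResidueField A) M₀)}
  {P : Place (IsLocalRing.ResidueField A)
    ↥(modularFunctionFieldFullC (IsLocalRing.ResidueField A) M₀)}
  {FkP : Type} [Field FkP] [Algebra (IsLocalRing.ResidueField A) FkP]
  (O : WPOut M₀ q A S0 P FkP)

/-- **the field `hor` of `InertVertexData`** at the vertex `w_P`. -/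
theorem wpm_hor (hq : q.Prime) (hA : A.LiesOverPrime q) (hqM : ¬ q ∣ M₀)
    (hS0 : IsGaussRed M₀ A S0) {τ : Qb ≃ₐ[ℚ] Qb} (hτ : τ ∈ A.inertiaSubgroupIn ℚ) :
    ∃ eP : FkP ≃ₐ[IsLocalRing.ResidueField A] FkP,
      ∀ f, f ∈ O.S.Ov →
        arithmeticGalois (modularFunctionFieldFull (M₀ * q * q)) τ • f ∈ O.S.Ov ∧
          O.S.red (arithmeticGalois (modularFunctionFieldFull (M₀ * q * q)) τ • f) =
            eP (O.S.red f) :=
  ⟨wpmEquiv O hq hA hqM hS0 τ hτ, fun f hf =>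
    ⟨wpm_mem_out O hq hA hqM hS0 hτ hf, wpm_red_out O hq hA hqM hS0 hτ hf⟩⟩

end Hor

section Scaled

variable {M : ℕ} [NeZero M] {k : Type*} [Field k] {κ : Type*} {Fk : κ → Type*} [∀ c, Field (Fk c)]
  [∀ c, Algebra k (Fk c)]

/-- a fixed function is scaled (by `1`). -/
theorem wpm_scaled_of_fixed (S : ∀ c : κ, ValSetup Qb (FBar M) k (Fk c)) {τ : Qb ≃ₐ[ℚ] Qb}
    {u : FBar M} (hu : galFun M τ u = u) :
    InertScaled S (arithmeticGalois (modularFunctionFieldFull M) τ) u :=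
  inertScaled_of_smul_eq S hu

/-- the tame multiplier `τ ϖ / ϖ` is a root of unity. -/
theorem wpm_tame_mult_pow {τ : Qb ≃ₐ[ℚ] Qb} {ϖ : Qb} (hϖ : ϖ ≠ 0) {n : ℕ}
    (hfix : τ (ϖ ^ n) = ϖ ^ n) : (τ ϖ / ϖ) ^ n = 1 := by
  rw [div_pow, ← map_pow, hfix]
  exact div_self (pow_ne_zero n hϖ)

/-- `ϖ / u` is scaled by the tame multiplier. -/
theorem wpm_scaled_const_div (S : ∀ c : κ, ValSetup Qb (FBar M) k (Fk c)) {τ : Qb ≃ₐ[ℚ] Qb}
    {u : FBar M} (hu : galFun M τ u = u) {ϖ : Qb} (hϖ : ϖ ≠ 0) {n : ℕ} (hn : 0 < n)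
    (hfix : τ (ϖ ^ n) = ϖ ^ n) :
    InertScaled S (arithmeticGalois (modularFunctionFieldFull M) τ)
      (algebraMap Qb (FBar M) ϖ / u) := by
  have hτϖ : τ ϖ ≠ 0 := (map_ne_zero_iff τ τ.injective).mpr hϖ
  have h1 : (τ ϖ / ϖ) ^ n = 1 := wpm_tame_mult_pow hϖ hfix
  have h2 : ((τ ϖ / ϖ)⁻¹) ^ n = 1 := by rw [inv_pow, h1, inv_one]
  refine ⟨τ ϖ / ϖ, div_ne_zero hτϖ hϖ, fun c => wpi_root_mem (S c).A hn h1,
    fun c => wpi_root_mem (S c).A hn h2, ?_⟩
  have e : arithmeticGalois (modularFunctionFieldFull M) τ • (algebraMap Qb (FBar M) ϖ / u) =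
      galFun M τ (algebraMap Qb (FBar M) ϖ / u) := rfl
  have e2 : galFun M τ (algebraMap Qb (FBar M) ϖ) = algebraMap Qb (FBar M) (τ ϖ) :=
    (SemilinearAut.smul_algebraMap _ ϖ).trans (by rw [wpm_baseAut])
  rw [e, galFun_div, hu, e2, map_div₀]
  have hϖF : algebraMap Qb (FBar M) ϖ ≠ 0 :=
    (map_ne_zero_iff _ (algebraMap Qb (FBar M)).injective).mpr hϖ
  field_simp

/-- `u / ϖ` is scaled by the inverse of the tame multiplier. -/
theorem wpm_scaled_div_const (S : ∀ c : κ, ValSetup Qb (FBar M) k (Fk c)) {τ : Qb ≃ₐ[ℚ] Qb}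
    {u : FBar M} (hu : galFun M τ u = u) {ϖ : Qb} (hϖ : ϖ ≠ 0) {n : ℕ} (hn : 0 < n)
    (hfix : τ (ϖ ^ n) = ϖ ^ n) :
    InertScaled S (arithmeticGalois (modularFunctionFieldFull M) τ)
      (u / algebraMap Qb (FBar M) ϖ) := by
  have hτϖ : τ ϖ ≠ 0 := (map_ne_zero_iff τ τ.injective).mpr hϖ
  have h1 : (τ ϖ / ϖ) ^ n = 1 := wpm_tame_mult_pow hϖ hfix
  have h2 : ((τ ϖ / ϖ)⁻¹) ^ n = 1 := by rw [inv_pow, h1, inv_one]
  refine ⟨(τ ϖ / ϖ)⁻¹, inv_ne_zero (div_ne_zero hτϖ hϖ), fun c => wpi_root_mem (S c).A hn h2,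
    fun c => by rw [inv_inv]; exact wpi_root_mem (S c).A hn h1, ?_⟩
  have e : arithmeticGalois (modularFunctionFieldFull M) τ • (u / algebraMap Qb (FBar M) ϖ) =
      galFun M τ (u / algebraMap Qb (FBar M) ϖ) := rfl
  have e2 : galFun M τ (algebraMap Qb (FBar M) ϖ) = algebraMap Qb (FBar M) (τ ϖ) :=
    (SemilinearAut.smul_algebraMap _ ϖ).trans (by rw [wpm_baseAut])
  rw [e, galFun_div, hu, e2, map_inv₀, map_div₀]
  have hϖF : algebraMap Qb (FBar M) ϖ ≠ 0 :=
    (map_ne_zero_iff _ (algebraMap Qb (FBar M)).injective).mpr hϖ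
  have hτϖF : algebraMap Qb (FBar M) (τ ϖ) ≠ 0 :=
    (map_ne_zero_iff _ (algebraMap Qb (FBar M)).injective).mpr hτϖ
  field_simp

/-- a rational power: `τ (ϖ ^ n) = ϖ ^ n` if `ϖ ^ n` is a natural number. -/
theorem wpm_fix_of_pow_natCast (τ : Qb ≃ₐ[ℚ] Qb) {ϖ : Qb} {n m : ℕ} (h : ϖ ^ n = (m : Qb)) :
    τ (ϖ ^ n) = ϖ ^ n := by
  rw [h, map_natCast]

end Scaled

end Fermat.Agent.S36G
end
end MergeWrap_S36_HPVal_InertHor

section MergeWrap_S36_HPVal_InertSc -- from S36/HPVal/InertSc.lean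

set_option autoImplicit false
set_option linter.style.haveILetI false
set_option linter.unusedSectionVars false
set_option linter.unusedVariables false
set_option synthInstance.maxHeartbeats 400000

/-!
# S36 (cluster G), INERT: the four `sc` fields of `InertVertexData` in the shapes of the modular
`ModEndsInput` (`modEndsOfLeaves`: `u2 = u1 / ϖ1`)  (helper71)

* `wpmsc_of_pow_one` : `t • f = a f` with `a ^ n = 1` gives `InertScaled S t f` (any `K`, `F`);
* `wpmsc_const_div_div` : `InertScaled S t (ϖ2 / (u / ϖ1))` for `τ u = u`, `ϖ1 ^ n`, `ϖ2 ^ n` fixed;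
* `wpmsc_pow_fix` : `τ ((ϖ ^ j) ^ n) = (ϖ ^ j) ^ n` if `ϖ ^ n` is a natural number;
* `wpmsc_fields` : **the four fields `sc_u1`, `sc_u2'`, `sc_u1'`, `sc_u2`** for an `E : ModEndsInput`
  over `FBar M` with `E.u2 = E.u1 / ϖ1`, `τ u1 = u1`, `ϖ1 ^ n`, `ϖ2 ^ n` fixed by `τ`;
* `wpmsc_fields_of_pow` : the same with `ϖ1 = ϖ ^ j1`, `ϖ2 = ϖ ^ j2`, `ϖ ^ n = m` a natural number.
-/

noncomputable section
attribute [local instance 10000] SubalgebraClass.toAlgebra HahnSeries.powerSeriesAlgebra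

namespace Fermat.Agent.S36G

open ModularCurve AlgebraicCurve Fermat.Agent.F3 Fermat.Agent.F3G Fermat.Agent.GaussInt
  Fermat.Agent.Deuring Fermat.Agent.BadRed Fermat.Agent.HPVal Fermat.Agent.HP Fermat.Agent.RR
  Fermat.Agent.BadRedG

local notation "Qb" => AlgebraicClosure ℚ

section Abs

variable {K F k : Type*} [Field K] [Field F] [Algebra K F] [Field k] {κ : Type*} {Fk : κ → Type*}
  [∀ c, Field (Fk c)] [∀ c, Algebra k (Fk c)]

/-- a function multiplied by a root of unity is scaled. -/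
theorem wpmsc_of_pow_one (S : ∀ c : κ, ValSetup K F k (Fk c)) {t : SemilinearAut K F} {f : F}
    {a : K} {n : ℕ} (hn : 0 < n) (ha : a ^ n = 1) (h : t • f = algebraMap K F a * f) :
    InertScaled S t f := by
  have ha0 : a ≠ 0 := by
    rintro rfl
    rw [zero_pow hn.ne'] at ha
    exact zero_ne_one ha
  have h2 : (a⁻¹) ^ n = 1 := by rw [inv_pow, ha, inv_one]
  exact ⟨a, ha0, fun c => wpi_root_mem (S c).A hn ha, fun c => wpi_root_mem (S c).A hn h2, h⟩

end Abs

section Mod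

variable {M : ℕ} [NeZero M] {k : Type*} [Field k] {κ : Type*} {Fk : κ → Type*} [∀ c, Field (Fk c)]
  [∀ c, Algebra k (Fk c)]

/-- the Galois action on a constant. -/
theorem wpmsc_galFun_const (τ : Qb ≃ₐ[ℚ] Qb) (c : Qb) :
    galFun M τ (algebraMap Qb (FBar M) c) = algebraMap Qb (FBar M) (τ c) :=
  (SemilinearAut.smul_algebraMap _ c).trans (by rw [wpm_baseAut])

/-- `ϖ2 / (u / ϖ1)` is scaled by the product of the two tame multipliers. -/
theorem wpmsc_const_div_div (S : ∀ c : κ, ValSetup Qb (FBar M) k (Fk c)) {τ : Qb ≃ₐ[ℚ] Qb}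
    {u : FBar M} (hu : galFun M τ u = u) {ϖ1 ϖ2 : Qb} (hϖ1 : ϖ1 ≠ 0) (hϖ2 : ϖ2 ≠ 0) {n : ℕ}
    (hn : 0 < n) (hfix1 : τ (ϖ1 ^ n) = ϖ1 ^ n) (hfix2 : τ (ϖ2 ^ n) = ϖ2 ^ n) :
    InertScaled S (arithmeticGalois (modularFunctionFieldFull M) τ)
      (algebraMap Qb (FBar M) ϖ2 / (u / algebraMap Qb (FBar M) ϖ1)) := by
  have hτ1 : τ ϖ1 ≠ 0 := (map_ne_zero_iff τ τ.injective).mpr hϖ1
  have hτ2 : τ ϖ2 ≠ 0 := (map_ne_zero_iff τ τ.injective).mpr hϖ2
  have h1 : (τ ϖ1 / ϖ1) ^ n = 1 := wpm_tame_mult_pow hϖ1 hfix1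
  have h2 : (τ ϖ2 / ϖ2) ^ n = 1 := wpm_tame_mult_pow hϖ2 hfix2
  have h12 : ((τ ϖ2 / ϖ2) * (τ ϖ1 / ϖ1)) ^ n = 1 := by rw [mul_pow, h1, h2, one_mul]
  refine wpmsc_of_pow_one S hn h12 ?_
  have e : arithmeticGalois (modularFunctionFieldFull M) τ •
      (algebraMap Qb (FBar M) ϖ2 / (u / algebraMap Qb (FBar M) ϖ1)) =
      galFun M τ (algebraMap Qb (FBar M) ϖ2 / (u / algebraMap Qb (FBar M) ϖ1)) := rfl
  rw [e, galFun_div, galFun_div, hu, wpmsc_galFun_const, wpmsc_galFun_const, map_mul, map_div₀,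
    map_div₀]
  have hϖ1F : algebraMap Qb (FBar M) ϖ1 ≠ 0 :=
    (map_ne_zero_iff _ (algebraMap Qb (FBar M)).injective).mpr hϖ1
  have hϖ2F : algebraMap Qb (FBar M) ϖ2 ≠ 0 :=
    (map_ne_zero_iff _ (algebraMap Qb (FBar M)).injective).mpr hϖ2
  have hτ1F : algebraMap Qb (FBar M) (τ ϖ1) ≠ 0 :=
    (map_ne_zero_iff _ (algebraMap Qb (FBar M)).injective).mpr hτ1
  by_cases hu0 : u = 0
  · subst hu0
    simp
  field_simp

/-- powers of a root of a natural number have a fixed power. -/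
theorem wpmsc_pow_fix (τ : Qb ≃ₐ[ℚ] Qb) {ϖ : Qb} {n m : ℕ} (h : ϖ ^ n = (m : Qb)) (j : ℕ) :
    τ ((ϖ ^ j) ^ n) = (ϖ ^ j) ^ n := by
  rw [← pow_mul, mul_comm, pow_mul, h, ← Nat.cast_pow, map_natCast]

end Mod

section Fields

variable {M : ℕ} [NeZero M] {k : Type} [Field k]
  {Mid SS : Type} [Fintype Mid] [Fintype SS]
  {Fk0 : Type} [Field Fk0] [Algebra k Fk0]
  {FkM : Mid → Type} [∀ m, Field (FkM m)] [∀ m, Algebra k (FkM m)]
  {FkP : SS → Type} [∀ P, Field (FkP P)] [∀ P, Algebra k (FkP P)]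

/-- **the four `sc` fields of `InertVertexData`** for a modular `ModEndsInput` with
`u2 = u1 / ϖ1`. -/
theorem wpmsc_fields (E : ModEndsInput Qb (FBar M) k Mid SS Fk0 FkM FkP) {τ : Qb ≃ₐ[ℚ] Qb}
    (hu1 : galFun M τ E.u1 = E.u1) (hu2 : E.u2 = E.u1 / algebraMap Qb (FBar M) E.ϖ1)
    (hϖ1 : E.ϖ1 ≠ 0) (hϖ2 : E.ϖ2 ≠ 0) {n : ℕ} (hn : 0 < n)
    (hfix1 : τ (E.ϖ1 ^ n) = E.ϖ1 ^ n) (hfix2 : τ (E.ϖ2 ^ n) = E.ϖ2 ^ n) :
    InertScaled E.S (arithmeticGalois (modularFunctionFieldFull M) τ) E.u1 ∧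
    InertScaled E.S (arithmeticGalois (modularFunctionFieldFull M) τ)
      (algebraMap Qb (FBar M) E.ϖ2 / E.u2) ∧
    InertScaled E.S (arithmeticGalois (modularFunctionFieldFull M) τ)
      (algebraMap Qb (FBar M) E.ϖ1 / E.u1) ∧
    InertScaled E.S (arithmeticGalois (modularFunctionFieldFull M) τ) E.u2 := by
  refine ⟨wpm_scaled_of_fixed E.S hu1, ?_, wpm_scaled_const_div E.S hu1 hϖ1 hn hfix1, ?_⟩
  · rw [hu2]
    exact wpmsc_const_div_div E.S hu1 hϖ1 hϖ2 hn hfix1 hfix2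
  · rw [hu2]
    exact wpm_scaled_div_const E.S hu1 hϖ1 hn hfix1

/-- the same with `ϖ1`, `ϖ2` powers of one root `ϖ` of a natural number. -/
theorem wpmsc_fields_of_pow (E : ModEndsInput Qb (FBar M) k Mid SS Fk0 FkM FkP) {τ : Qb ≃ₐ[ℚ] Qb}
    (hu1 : galFun M τ E.u1 = E.u1) (hu2 : E.u2 = E.u1 / algebraMap Qb (FBar M) E.ϖ1)
    {ϖ : Qb} (hϖ : ϖ ≠ 0) {n m : ℕ} (hn : 0 < n) (h : ϖ ^ n = (m : Qb)) {j1 j2 : ℕ}
    (h1 : E.ϖ1 = ϖ ^ j1) (h2 : E.ϖ2 = ϖ ^ j2) :
    InertScaled E.S (arithmeticGalois (modularFunctionFieldFull M) τ) E.u1 ∧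
    InertScaled E.S (arithmeticGalois (modularFunctionFieldFull M) τ)
      (algebraMap Qb (FBar M) E.ϖ2 / E.u2) ∧
    InertScaled E.S (arithmeticGalois (modularFunctionFieldFull M) τ)
      (algebraMap Qb (FBar M) E.ϖ1 / E.u1) ∧
    InertScaled E.S (arithmeticGalois (modularFunctionFieldFull M) τ) E.u2 :=
  wpmsc_fields E hu1 hu2 (by rw [h1]; exact pow_ne_zero _ hϖ) (by rw [h2]; exact pow_ne_zero _ hϖ)
    hn (by rw [h1]; exact wpmsc_pow_fix τ h j1) (by rw [h2]; exact wpmsc_pow_fix τ h j2)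

/-- the same with `ϖ2 = c / ϖ1`, `c` fixed by `τ` (shape of `mn2_data_mod`: `c = q ^ 12`). -/
theorem wpmsc_fields_of_div (E : ModEndsInput Qb (FBar M) k Mid SS Fk0 FkM FkP) {τ : Qb ≃ₐ[ℚ] Qb}
    (hu1 : galFun M τ E.u1 = E.u1) (hu2 : E.u2 = E.u1 / algebraMap Qb (FBar M) E.ϖ1)
    (hϖ1 : E.ϖ1 ≠ 0) {c : Qb} (hc : c ≠ 0) (hτc : τ c = c) (h2 : E.ϖ2 = c / E.ϖ1) {n : ℕ}
    (hn : 0 < n) (hfix1 : τ (E.ϖ1 ^ n) = E.ϖ1 ^ n) :
    InertScaled E.S (arithmeticGalois (modularFunctionFieldFull M) τ) E.u1 ∧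
    InertScaled E.S (arithmeticGalois (modularFunctionFieldFull M) τ)
      (algebraMap Qb (FBar M) E.ϖ2 / E.u2) ∧
    InertScaled E.S (arithmeticGalois (modularFunctionFieldFull M) τ)
      (algebraMap Qb (FBar M) E.ϖ1 / E.u1) ∧
    InertScaled E.S (arithmeticGalois (modularFunctionFieldFull M) τ) E.u2 :=
  wpmsc_fields E hu1 hu2 hϖ1 (by rw [h2]; exact div_ne_zero hc hϖ1) hn hfix1
    (by rw [h2, div_pow, map_div₀, hfix1, map_pow, hτc])

/-- the same with `ϖ1 = ϖ ^ j`, `ϖ ^ n = m` a natural number, `ϖ2 = c / ϖ1`, `c` a natural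
number (`c = q ^ 12`). -/
theorem wpmsc_fields_of_pow_div (E : ModEndsInput Qb (FBar M) k Mid SS Fk0 FkM FkP)
    {τ : Qb ≃ₐ[ℚ] Qb}
    (hu1 : galFun M τ E.u1 = E.u1) (hu2 : E.u2 = E.u1 / algebraMap Qb (FBar M) E.ϖ1)
    {ϖ : Qb} (hϖ : ϖ ≠ 0) {n m : ℕ} (hn : 0 < n) (h : ϖ ^ n = (m : Qb)) {j : ℕ}
    (h1 : E.ϖ1 = ϖ ^ j) {c : ℕ} (hc : c ≠ 0) (h2 : E.ϖ2 = (c : Qb) / E.ϖ1) :
    InertScaled E.S (arithmeticGalois (modularFunctionFieldFull M) τ) E.u1 ∧
    InertScaled E.S (arithmeticGalois (modularFunctionFieldFull M) τ)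
      (algebraMap Qb (FBar M) E.ϖ2 / E.u2) ∧
    InertScaled E.S (arithmeticGalois (modularFunctionFieldFull M) τ)
      (algebraMap Qb (FBar M) E.ϖ1 / E.u1) ∧
    InertScaled E.S (arithmeticGalois (modularFunctionFieldFull M) τ) E.u2 :=
  wpmsc_fields_of_div E hu1 hu2 (by rw [h1]; exact pow_ne_zero _ hϖ)
    (Nat.cast_ne_zero.mpr hc) (map_natCast τ c) h2 hn (by rw [h1]; exact wpmsc_pow_fix τ h j)

/-- **the four `sc` fields in terms of the seed data** `hb : E.ϖ1 ^ nn = b`,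
`h12 : E.ϖ1 * E.ϖ2 = b` (names of `ModEndsInput.ymodSeed`), `b ≠ 0` fixed by `τ`. -/
theorem wpmsc_fields_seed (E : ModEndsInput Qb (FBar M) k Mid SS Fk0 FkM FkP) {τ : Qb ≃ₐ[ℚ] Qb}
    (hu1 : galFun M τ E.u1 = E.u1) (hu2 : E.u2 = E.u1 / algebraMap Qb (FBar M) E.ϖ1)
    {b : Qb} {nn : ℕ} (hnn : 0 < nn) (hb : E.ϖ1 ^ nn = b) (h12 : E.ϖ1 * E.ϖ2 = b)
    (hb0 : b ≠ 0) (hτb : τ b = b) :
    InertScaled E.S (arithmeticGalois (modularFunctionFieldFull M) τ) E.u1 ∧
    InertScaled E.S (arithmeticGalois (modularFunctionFieldFull M) τ)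
      (algebraMap Qb (FBar M) E.ϖ2 / E.u2) ∧
    InertScaled E.S (arithmeticGalois (modularFunctionFieldFull M) τ)
      (algebraMap Qb (FBar M) E.ϖ1 / E.u1) ∧
    InertScaled E.S (arithmeticGalois (modularFunctionFieldFull M) τ) E.u2 := by
  have hϖ1 : E.ϖ1 ≠ 0 := by
    intro h0
    rw [h0, zero_pow hnn.ne'] at hb
    exact hb0 hb.symm
  have h2 : E.ϖ2 = b / E.ϖ1 := by
    rw [← h12, mul_div_cancel_left₀ _ hϖ1]
  exact wpmsc_fields_of_div E hu1 hu2 hϖ1 hb0 hτb h2 hnn (by rw [hb, hτb])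

end Fields

section Seed

variable {K F k : Type} [Field K] [Field F] [Algebra K F] [Field k]
  {Mid SS : Type} [Fintype Mid] [Fintype SS]
  {Fk0 : Type} [Field Fk0] [Algebra k Fk0]
  {FkM : Mid → Type} [∀ m, Field (FkM m)] [∀ m, Algebra k (FkM m)]
  {FkP : SS → Type} [∀ P, Field (FkP P)] [∀ P, Algebra k (FkP P)]

/-- the seed function `x = u₁ + b / u₁ + y` is fixed by a semilinear automorphism fixing `u₁`
and the constant `b`. -/
theorem wpmsc_ymodX_fixed (E : ModEndsInput K F k Mid SS Fk0 FkM FkP) (t : SemilinearAut K F)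
    (hu : t • E.u1 = E.u1) {b : K} (hb : t • algebraMap K F b = algebraMap K F b) (n : ℕ) :
    t • E.ymodX b n = E.ymodX b n := by
  rw [E.ymodX_eq, ymodY_def]
  simp only [smul_add, smul_div₀', smul_mul', smul_pow', smul_sub, hu, hb]

end Seed

section SeedMod

variable {M : ℕ} [NeZero M] {k : Type} [Field k]
  {Mid SS : Type} [Fintype Mid] [Fintype SS]
  {Fk0 : Type} [Field Fk0] [Algebra k Fk0]
  {FkM : Mid → Type} [∀ m, Field (FkM m)] [∀ m, Algebra k (FkM m)]
  {FkP : SS → Type} [∀ P, Field (FkP P)] [∀ P, Algebra k (FkP P)]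

/-- the modular seed function is fixed by `τ` if `u₁` and `b` are. -/
theorem wpmsc_ymodX_fixed_mod (E : ModEndsInput Qb (FBar M) k Mid SS Fk0 FkM FkP)
    {τ : Qb ≃ₐ[ℚ] Qb} (hu1 : galFun M τ E.u1 = E.u1) {b : Qb} (hτb : τ b = b) (n : ℕ) :
    arithmeticGalois (modularFunctionFieldFull M) τ • E.ymodX b n = E.ymodX b n :=
  wpmsc_ymodX_fixed E _ hu1 ((wpmsc_galFun_const τ b).trans (by rw [hτb])) n

end SeedMod

end Fermat.Agent.S36G
end
end MergeWrap_S36_HPVal_InertSc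

section MergeWrap_S36_Seed_Inv -- from S36/Seed/Inv.lean

set_option autoImplicit false
set_option linter.style.haveILetI false
set_option linter.unusedSectionVars false
set_option linter.unusedVariables false
set_option synthInstance.maxHeartbeats 400000

noncomputable section

namespace Fermat.Agent.S36G

open ModularCurve AlgebraicCurve Fermat.Agent.F3 Fermat.Agent.F3G Fermat.Agent.GaussInt
  Fermat.Agent.RR Fermat.Agent.Deuring Fermat.Agent.BadRed

local notation "Qb" => AlgebraicClosure ℚ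

variable (N : ℕ) [NeZero N] (σ : Qb ≃ₐ[ℚ] Qb)

/-- the subfield of the functions of level `N` fixed by `σ ∈ G_ℚ`. -/
def seedInvFixed : Subfield (modularFunctionFieldBar N) :=
  FixedBy.subfield (modularFunctionFieldBar N) (arithmeticGalois (modularFunctionFieldFull N) σ)

variable {N} {σ}

theorem mem_seedInvFixed {x : modularFunctionFieldBar N} :
    x ∈ seedInvFixed N σ ↔ arithmeticGalois (modularFunctionFieldFull N) σ • x = x := Iff.rfl

/-- `u = Δ(z) / Δ(qz)` is fixed. -/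
theorem uF_mem_seedInvFixed (q : ℕ) [NeZero q] (hq : q ∣ N) : uF N q hq ∈ seedInvFixed N σ :=
  mem_seedInvFixed.mpr (arithmeticGalois_smul_uF N q hq σ)

/-- the constants fixed by `σ` are fixed. -/
theorem const_mem_seedInvFixed {c : Qb} (hc : σ c = c) :
    algebraMap Qb (modularFunctionFieldBar N) c ∈ seedInvFixed N σ := by
  rw [mem_seedInvFixed, SemilinearAut.smul_algebraMap]
  have e : SemilinearAut.baseAut (arithmeticGalois (modularFunctionFieldFull N) σ) c = c := hc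
  rw [e]

/-- the rational constants are fixed. -/
theorem ratConst_mem_seedInvFixed (c : ℚ) :
    algebraMap Qb (modularFunctionFieldBar N) (algebraMap ℚ Qb c) ∈ seedInvFixed N σ :=
  const_mem_seedInvFixed (σ.commutes c)

/-- the constants `q ^ e` are fixed. -/
theorem natPow_mem_seedInvFixed (q e : ℕ) :
    algebraMap Qb (modularFunctionFieldBar N) ((q : Qb) ^ e) ∈ seedInvFixed N σ :=
  const_mem_seedInvFixed (by rw [map_pow, map_natCast])

/-- **`ℚ(u)` is fixed by `G_ℚ`.** -/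
theorem seedInv_closure_le (q : ℕ) [NeZero q] (hq : q ∣ N) :
    Subfield.closure ({uF N q hq} : Set (modularFunctionFieldBar N)) ≤ seedInvFixed N σ :=
  Subfield.closure_le.mpr (Set.singleton_subset_iff.mpr (uF_mem_seedInvFixed q hq))

/-- a rational function of `u` with rational coefficients is fixed by `G_ℚ`. -/
theorem seedInv_smul_eq (q : ℕ) [NeZero q] (hq : q ∣ N) {x : modularFunctionFieldBar N}
    (hx : x ∈ Subfield.closure ({uF N q hq} : Set (modularFunctionFieldBar N)))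
    (σ : Qb ≃ₐ[ℚ] Qb) :
    arithmeticGalois (modularFunctionFieldFull N) σ • x = x :=
  mem_seedInvFixed.mp (seedInv_closure_le q hq hx)

/-- **SEED-INV**: the pole divisor of a rational function of `u` is stable under `G_ℚ`. -/
theorem seedInv_poleDiv (h : IsRRField Qb (modularFunctionFieldBar N)) (q : ℕ) [NeZero q]
    (hq : q ∣ N) {x : modularFunctionFieldBar N}
    (hx : x ∈ Subfield.closure ({uF N q hq} : Set (modularFunctionFieldBar N)))
    (σ : Qb ≃ₐ[ℚ] Qb) (P : Place Qb (modularFunctionFieldBar N)) :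
    poleDiv h x (arithmeticGalois (modularFunctionFieldFull N) σ • P) = poleDiv h x P :=
  cs_poleDiv_smul h _ (seedInv_smul_eq q hq hx σ) P

/-- **SEED-INV**, in the form `σ • (x)_∞ = (x)_∞`. -/
theorem seedInv_poleDiv_smul (h : IsRRField Qb (modularFunctionFieldBar N)) (q : ℕ) [NeZero q]
    (hq : q ∣ N) {x : modularFunctionFieldBar N}
    (hx : x ∈ Subfield.closure ({uF N q hq} : Set (modularFunctionFieldBar N)))
    (σ : Qb ≃ₐ[ℚ] Qb) :
    arithmeticGalois (modularFunctionFieldFull N) σ • poleDiv h x = poleDiv h x := by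
  ext P
  have h1 := seedInv_poleDiv h q hq hx σ
    ((arithmeticGalois (modularFunctionFieldFull N) σ)⁻¹ • P)
  rw [smul_inv_smul] at h1
  rw [SemilinearAut.divisor_smul_apply]
  exact h1.symm

/-! ### the members of `ℚ(u)` -/

section Members

variable {F : Type*} [Field F] {u : F}

/-- natural numbers are in every subfield. -/
theorem seedInv_natCast_mem (s : Subfield F) (n : ℕ) : (n : F) ∈ s := natCast_mem s n

/-- the candidate `y = b / (uⁿ - b)`. -/
theorem seedInv_y_mem (b n : ℕ) :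
    (b : F) / (u ^ n - (b : F)) ∈ Subfield.closure ({u} : Set F) :=
  div_mem (natCast_mem _ b)
    (sub_mem (pow_mem (Subfield.subset_closure (Set.mem_singleton u)) n) (natCast_mem _ b))

/-- the candidate `y = b uⁿ / (uⁿ - b)²`. -/
theorem seedInv_ySq_mem (b n : ℕ) :
    (b : F) * u ^ n / (u ^ n - (b : F)) ^ 2 ∈ Subfield.closure ({u} : Set F) :=
  div_mem (mul_mem (natCast_mem _ b) (pow_mem (Subfield.subset_closure (Set.mem_singleton u)) n))
    (pow_mem (sub_mem (pow_mem (Subfield.subset_closure (Set.mem_singleton u)) n)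
      (natCast_mem _ b)) 2)

/-- the clearing functions `1 - b / uⁿ` and `1 - uⁿ / b`. -/
theorem seedInv_clear_mem (b n : ℕ) :
    1 - (b : F) / u ^ n ∈ Subfield.closure ({u} : Set F) ∧
      1 - u ^ n / (b : F) ∈ Subfield.closure ({u} : Set F) :=
  ⟨sub_mem (one_mem _)
      (div_mem (natCast_mem _ b) (pow_mem (Subfield.subset_closure (Set.mem_singleton u)) n)),
    sub_mem (one_mem _)
      (div_mem (pow_mem (Subfield.subset_closure (Set.mem_singleton u)) n) (natCast_mem _ b))⟩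

end Members

/-- the constant `q ^ e`, as a function, is the natural number `q ^ e`. -/
theorem seedInv_algebraMap_natPow (q e : ℕ) :
    algebraMap Qb (modularFunctionFieldBar N) ((q : Qb) ^ e) =
      ((q ^ e : ℕ) : modularFunctionFieldBar N) := by
  rw [map_pow, map_natCast, Nat.cast_pow]

/-- the seed function `u + q^e / u + ∑ y cl` is in `ℚ(u)` if the `y cl` are. -/
theorem seedInv_seedFun_mem (q : ℕ) [NeZero q] (hq : q ∣ N) (e : ℕ) {Cl : Type*} [Fintype Cl]
    (y : Cl → modularFunctionFieldBar N)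
    (hy : ∀ cl, y cl ∈ Subfield.closure ({uF N q hq} : Set (modularFunctionFieldBar N))) :
    uF N q hq + algebraMap Qb (modularFunctionFieldBar N) ((q : Qb) ^ e) / uF N q hq +
        ∑ cl, y cl ∈ Subfield.closure ({uF N q hq} : Set (modularFunctionFieldBar N)) := by
  have hu : uF N q hq ∈ Subfield.closure ({uF N q hq} : Set (modularFunctionFieldBar N)) :=
    Subfield.subset_closure (Set.mem_singleton _)
  refine add_mem (add_mem hu (div_mem ?_ hu)) (sum_mem fun cl _ => hy cl)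
  rw [seedInv_algebraMap_natPow]
  exact natCast_mem _ _

/-- **SEED-INV** for the seed function `x = u + q^e / u + ∑ y cl`, `y cl ∈ ℚ(u)`: the divisor
`D₀ = (x)_∞` is stable under `G_ℚ` (in particular under the inertia group at `A`). -/
theorem seedInv_D₀_smul (h : IsRRField Qb (modularFunctionFieldBar N)) (q : ℕ) [NeZero q]
    (hq : q ∣ N) (e : ℕ) {Cl : Type*} [Fintype Cl] (y : Cl → modularFunctionFieldBar N)
    (hy : ∀ cl, y cl ∈ Subfield.closure ({uF N q hq} : Set (modularFunctionFieldBar N)))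
    (σ : Qb ≃ₐ[ℚ] Qb) (P : Place Qb (modularFunctionFieldBar N)) :
    poleDiv h (uF N q hq + algebraMap Qb (modularFunctionFieldBar N) ((q : Qb) ^ e) / uF N q hq +
        ∑ cl, y cl) (arithmeticGalois (modularFunctionFieldFull N) σ • P) =
      poleDiv h (uF N q hq + algebraMap Qb (modularFunctionFieldBar N) ((q : Qb) ^ e) / uF N q hq +
        ∑ cl, y cl) P :=
  seedInv_poleDiv h q hq (seedInv_seedFun_mem q hq e y hy) σ P

/-! ### the seed of SEED v3 (`YDefs.lean`) -/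

/-- `ymodY u b n` is fixed by `σ` if `u` and `b` are. -/
theorem ymodY_mem_seedInvFixed {u : modularFunctionFieldBar N} (hu : u ∈ seedInvFixed N σ)
    {b : Qb} (hb : σ b = b) (n : ℕ) : ymodY u b n ∈ seedInvFixed N σ := by
  rw [ymodY_def]
  exact div_mem (mul_mem (const_mem_seedInvFixed hb) (pow_mem hu n))
    (pow_mem (sub_mem (pow_mem hu n) (const_mem_seedInvFixed hb)) 2)

/-- `ymodG1 u b n` is fixed by `σ` if `u` and `b` are. -/
theorem ymodG1_mem_seedInvFixed {u : modularFunctionFieldBar N} (hu : u ∈ seedInvFixed N σ)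
    {b : Qb} (hb : σ b = b) (n : ℕ) : ymodG1 u b n ∈ seedInvFixed N σ := by
  rw [ymodG1_def]
  exact pow_mem (sub_mem (one_mem _) (div_mem (const_mem_seedInvFixed hb) (pow_mem hu n))) 2

/-- `ymodG2 u b n` is fixed by `σ` if `u` and `b` are. -/
theorem ymodG2_mem_seedInvFixed {u : modularFunctionFieldBar N} (hu : u ∈ seedInvFixed N σ)
    {b : Qb} (hb : σ b = b) (n : ℕ) : ymodG2 u b n ∈ seedInvFixed N σ := by
  rw [ymodG2_def]
  exact pow_mem (sub_mem (one_mem _) (div_mem (pow_mem hu n) (const_mem_seedInvFixed hb))) 2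

/-- the seed function `u + ϖ / u + ∑ y cl` is fixed by `σ` if `u`, `ϖ` and the `y cl` are. -/
theorem seedInv_seedFun_fixed {u : modularFunctionFieldBar N} (hu : u ∈ seedInvFixed N σ)
    {ϖ : Qb} (hϖ : σ ϖ = ϖ) {Cl : Type*} [Fintype Cl] (y : Cl → modularFunctionFieldBar N)
    (hy : ∀ cl, y cl ∈ seedInvFixed N σ) :
    arithmeticGalois (modularFunctionFieldFull N) σ •
        (u + algebraMap Qb (modularFunctionFieldBar N) ϖ / u + ∑ cl, y cl) =
      u + algebraMap Qb (modularFunctionFieldBar N) ϖ / u + ∑ cl, y cl :=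
  mem_seedInvFixed.mp
    (add_mem (add_mem hu (div_mem (const_mem_seedInvFixed hϖ) hu)) (sum_mem fun cl _ => hy cl))

/-- **the v3 seed function is fixed by `G_ℚ`**:
`x = u₁ + q^e / u₁ + ∑ _ : Cl, ymodY u₁ (q^e) n`. -/
theorem seedInv_ymod_fixed (q : ℕ) [NeZero q] (hq : q ∣ N) (e n : ℕ) (Cl : Type*) [Fintype Cl]
    (σ : Qb ≃ₐ[ℚ] Qb) :
    arithmeticGalois (modularFunctionFieldFull N) σ •
        (uF N q hq + algebraMap Qb (modularFunctionFieldBar N) ((q : Qb) ^ e) / uF N q hq +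
          ∑ _cl : Cl, ymodY (uF N q hq) ((q : Qb) ^ e) n) =
      uF N q hq + algebraMap Qb (modularFunctionFieldBar N) ((q : Qb) ^ e) / uF N q hq +
        ∑ _cl : Cl, ymodY (uF N q hq) ((q : Qb) ^ e) n := by
  have hb : σ ((q : Qb) ^ e) = (q : Qb) ^ e := by rw [map_pow, map_natCast]
  exact seedInv_seedFun_fixed (uF_mem_seedInvFixed q hq) hb _
    (fun _ => ymodY_mem_seedInvFixed (uF_mem_seedInvFixed q hq) hb n)

/-- **SEED-INV for the v3 seed**: `D₀ = (x)_∞` is stable under `G_ℚ`, in the form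
`GraphSeed.IsPermAut.D₀_smul`. -/
theorem seedInv_ymod_D₀_smul (h : IsRRField Qb (modularFunctionFieldBar N)) (q : ℕ) [NeZero q]
    (hq : q ∣ N) (e n : ℕ) (Cl : Type*) [Fintype Cl] (σ : Qb ≃ₐ[ℚ] Qb)
    (P : Place Qb (modularFunctionFieldBar N)) :
    poleDiv h (uF N q hq + algebraMap Qb (modularFunctionFieldBar N) ((q : Qb) ^ e) / uF N q hq +
        ∑ _cl : Cl, ymodY (uF N q hq) ((q : Qb) ^ e) n)
        (arithmeticGalois (modularFunctionFieldFull N) σ • P) =
      poleDiv h (uF N q hq + algebraMap Qb (modularFunctionFieldBar N) ((q : Qb) ^ e) / uF N q hq +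
        ∑ _cl : Cl, ymodY (uF N q hq) ((q : Qb) ^ e) n) P :=
  cs_poleDiv_smul h _ (seedInv_ymod_fixed q hq e n Cl σ) P

/-- the pole divisor of any `σ`-fixed function is `σ`-stable (`σ ∈ G_ℚ`). -/
theorem seedInv_poleDiv_of_fixed (h : IsRRField Qb (modularFunctionFieldBar N))
    {x : modularFunctionFieldBar N} (hx : x ∈ seedInvFixed N σ)
    (P : Place Qb (modularFunctionFieldBar N)) :
    poleDiv h x (arithmeticGalois (modularFunctionFieldFull N) σ • P) = poleDiv h x P :=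
  cs_poleDiv_smul h _ (mem_seedInvFixed.mp hx) P

end Fermat.Agent.S36G
end
end MergeWrap_S36_Seed_Inv

section MergeWrap_S36_G_CocycleF3Act -- from S36/G/CocycleF3Act.lean

set_option autoImplicit false
set_option linter.unusedSectionVars false
set_option linter.unusedVariables false
set_option linter.style.haveILetI false
set_option synthInstance.maxHeartbeats 400000

/-!
# Cluster G (S36), Step 3, junction F3: the plug `CboInert`  (helper47)

`E : ModEndsInput ℚ̄ (FBar (M₀ q q)) k ..` with `E.u1 = uF` (`u₁ = Δ(z) / Δ(qz)`),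
`E.u2 = E.u1 / ϖ1`, `ϖ1 = ϖ ^ j1`, `ϖ2 = ϖ ^ j2`, `ϖ ^ r` a natural number, `b = q ^ e`;
`x = E.ymodX b nn` the seed function of SEED v3.

* `f3a_x_fixed`       : `x` is fixed by `G_ℚ` (`seedInv_ymod_fixed`, `S36/Seed/Inv.lean`);
* `f3a_scaled`        : the four scaling statements `sc_u1`, `sc_u2'`, `sc_u1'`, `sc_u2` of
                        `InertVertexData`, for every `τ ∈ G_ℚ` (`wpmsc_fields_of_pow`,
                        `S36/HPVal/InertSc.lean`);
* `f3a_fixed`         : `InertiaFixedFun (M₀ q q) A n g` in the shape `t • g = a uⁿ g`;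
* `f3a_hact_of_data`  : the hypothesis `hact` of `ModEndsInput.cocycleF3_of_ends`
                        (`= CboInert E x n`, `S36/G/CoreBundleOf.lean`), from: for every pair
                        `m ≠ m'` of middle vertices an inertia element `τ` with
                        `InertVertexData E t_τ (swap m m')`;
* `f3a_hact_gen`      : **the junction output (F3)** `CboInert E (E.ymodX b nn) n` (unfolded)
                        from the hypotheses of `inertVertexData_modular` (helper55,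
                        `S36/G/CocycleF3Mod.lean`) on a family `E.S = vtxFamily Soo S0 Sm SP`,
                        with the scalings and `t • x = x` discharged.

The instance for `Sm = I.S` (`I : IgPack M₀ q A`) and `SP P = (O P).S` (`O P : WPOut ..`) is
`f3a_hact` in `S36/G/CocycleF3ActPack.lean`.
-/

noncomputable section

open AlgebraicCurve Fermat.Agent.RR Fermat.Agent.Deuring

namespace Fermat.Agent.S36G

open ModularCurve Fermat.Agent.F3 Fermat.Agent.F3G Fermat.Agent.GaussInt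
  Fermat.Agent.Kronecker Fermat.Agent.AtkinLehner Fermat.Agent.BadRed Fermat.Agent.BadRedG
  Fermat.Agent.BadRed.Gluing Fermat.Agent.HPVal Fermat.Agent.HP

local notation "Qb" => AlgebraicClosure ℚ

attribute [local instance 10000] SubalgebraClass.toAlgebra HahnSeries.powerSeriesAlgebra

section Plug

variable {M₀ q : ℕ} [NeZero M₀] [NeZero q]
  {A : ValuationSubring Qb}
  {Mid SS : Type} [Fintype Mid] [Fintype SS]
  {Fk0 : Type} [Field Fk0] [Algebra (IsLocalRing.ResidueField A) Fk0]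
  {FkM : Mid → Type} [∀ m, Field (FkM m)] [∀ m, Algebra (IsLocalRing.ResidueField A) (FkM m)]
  {FkP : SS → Type} [∀ P, Field (FkP P)] [∀ P, Algebra (IsLocalRing.ResidueField A) (FkP P)]
  (E : ModEndsInput Qb (FBar (M₀ * q * q)) (IsLocalRing.ResidueField A) Mid SS Fk0 FkM FkP)

/-- **the seed function of SEED v3 is fixed by `G_ℚ`.** -/
theorem f3a_x_fixed (hdvd : q ∣ M₀ * q * q) (hu1 : E.u1 = uF (M₀ * q * q) q hdvd)
    {b : Qb} {e : ℕ} (hbq : b = (q : Qb) ^ e) (nn : ℕ) (τ : Qb ≃ₐ[ℚ] Qb) :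
    arithmeticGalois (modularFunctionFieldFull (M₀ * q * q)) τ • E.ymodX b nn =
      E.ymodX b nn := by
  unfold ModEndsInput.ymodX
  rw [hu1, hbq]
  exact seedInv_ymod_fixed q hdvd e nn Unit τ

/-- `u₁` is fixed by `G_ℚ`. -/
theorem f3a_u1_fixed (hdvd : q ∣ M₀ * q * q) (hu1 : E.u1 = uF (M₀ * q * q) q hdvd)
    (τ : Qb ≃ₐ[ℚ] Qb) : galFun (M₀ * q * q) τ E.u1 = E.u1 := by
  rw [hu1]
  exact arithmeticGalois_smul_uF (M₀ * q * q) q hdvd τ

/-- **the four scaling statements of `InertVertexData`**, for every `τ ∈ G_ℚ`. -/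
theorem f3a_scaled (hdvd : q ∣ M₀ * q * q) (hu1 : E.u1 = uF (M₀ * q * q) q hdvd)
    (hu2 : E.u2 = E.u1 / algebraMap Qb (FBar (M₀ * q * q)) E.ϖ1)
    {ϖ : Qb} (hϖ : ϖ ≠ 0) {r m : ℕ} (hr : 0 < r) (hϖr : ϖ ^ r = (m : Qb)) {j1 j2 : ℕ}
    (h1 : E.ϖ1 = ϖ ^ j1) (h2 : E.ϖ2 = ϖ ^ j2) (τ : Qb ≃ₐ[ℚ] Qb) :
    InertScaled E.S (arithmeticGalois (modularFunctionFieldFull (M₀ * q * q)) τ) E.u1 ∧
    InertScaled E.S (arithmeticGalois (modularFunctionFieldFull (M₀ * q * q)) τ)
      (algebraMap Qb (FBar (M₀ * q * q)) E.ϖ2 / E.u2) ∧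
    InertScaled E.S (arithmeticGalois (modularFunctionFieldFull (M₀ * q * q)) τ)
      (algebraMap Qb (FBar (M₀ * q * q)) E.ϖ1 / E.u1) ∧
    InertScaled E.S (arithmeticGalois (modularFunctionFieldFull (M₀ * q * q)) τ) E.u2 :=
  wpmsc_fields_of_pow E (f3a_u1_fixed E hdvd hu1 τ) hu2 hϖ hr hϖr h1 h2

omit [Fintype Mid] [Fintype SS] in
/-- the class of `g` is fixed by inertia, in the shape of `hact`. -/
theorem f3a_fixed {n : ℕ} {g : FBar (M₀ * q * q)} (hg : InertiaFixedFun (M₀ * q * q) A n g)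
    {τ : Qb ≃ₐ[ℚ] Qb} (hτ : τ ∈ A.inertiaSubgroupIn ℚ) :
    ∃ (u : FBar (M₀ * q * q)) (a : Qb), a ≠ 0 ∧
      arithmeticGalois (modularFunctionFieldFull (M₀ * q * q)) τ • g =
        algebraMap Qb (FBar (M₀ * q * q)) a * u ^ n * g :=
  hg τ hτ

/-- **the junction output (F3)**: the hypothesis `hact` of `cocycleF3_of_ends`
(`= CboInert E x n`), from the vertex data of a swapping inertia element for every pair of
middle vertices. -/
theorem f3a_hact_of_data [DecidableEq Mid] (x : FBar (M₀ * q * q)) (n : ℕ)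
    (hx : ∀ τ ∈ A.inertiaSubgroupIn ℚ,
      arithmeticGalois (modularFunctionFieldFull (M₀ * q * q)) τ • x = x)
    (hvd : ∀ m m' : Mid, m ≠ m' → ∃ τ ∈ A.inertiaSubgroupIn ℚ,
      InertVertexData E (arithmeticGalois (modularFunctionFieldFull (M₀ * q * q)) τ)
        (Equiv.swap m m')) :
    ∀ g : FBar (M₀ * q * q), InertiaFixedFun (M₀ * q * q) A n g → ∀ m m' : Mid, m ≠ m' →
      ∃ (t : SemilinearAut Qb (FBar (M₀ * q * q))) (σ : Equiv.Perm Mid),
        InertVertexData E t σ ∧ t • x = x ∧ σ m = m' ∧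
          ∃ (u : FBar (M₀ * q * q)) (a : Qb), a ≠ 0 ∧
            t • g = algebraMap Qb (FBar (M₀ * q * q)) a * u ^ n * g := by
  intro g hg m m' hmm
  obtain ⟨τ, hτ, hD⟩ := hvd m m' hmm
  exact ⟨_, _, hD, hx τ hτ, Equiv.swap_apply_left _ _, f3a_fixed hg hτ⟩

end Plug

section Modular

variable {M₀ q : ℕ} [NeZero M₀] [NeZero q] {A : ValuationSubring Qb}
  {Mid SS : Type} [Fintype Mid] [Fintype SS]
  {FkP : SS → Type} [∀ P, Field (FkP P)] [∀ P, Algebra (IsLocalRing.ResidueField A) (FkP P)]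

set_option maxHeartbeats 4000000 in
/-- **(F3), junction output, on a family** `E.S = vtxFamily Soo S0 Sm SP`: the hypotheses of
`inertVertexData_modular`, the scalings and `t • x = x` being discharged for
`E.u1 = uF`, `E.u2 = E.u1 / ϖ1`, `ϖ1 = ϖ ^ j1`, `ϖ2 = ϖ ^ j2`, `ϖ ^ r ∈ ℕ`, `b = q ^ e`. -/
theorem f3a_hact_gen [DecidableEq Mid]
    (E : ModEndsInput Qb (FBar (M₀ * q * q)) (IsLocalRing.ResidueField A) Mid SS
      ↥(modularFunctionFieldFullC (IsLocalRing.ResidueField A) M₀)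
      (fun _ => ↥(igField (IsLocalRing.ResidueField A) M₀)) FkP)
    {Soo S0 : ValSetup Qb (FBar (M₀ * q * q)) (IsLocalRing.ResidueField A)
      ↥(modularFunctionFieldFullC (IsLocalRing.ResidueField A) M₀)}
    {Sm : Mid → ValSetup Qb (FBar (M₀ * q * q)) (IsLocalRing.ResidueField A)
      ↥(igField (IsLocalRing.ResidueField A) M₀)}
    {SP : ∀ P, ValSetup Qb (FBar (M₀ * q * q)) (IsLocalRing.ResidueField A) (FkP P)}
    (hq : q.Prime) (hqM : ¬ q ∣ M₀)
    (hD : IgMidDistinct M₀ q) (hSet : IgMidSetupExists M₀ q) (hA : A.LiesOverPrime q)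
    (hES : E.S = vtxFamily Soo S0 Sm SP)
    (hoo : IsGaussSetup (M₀ * q * q) M₀ A Soo)
    (D : ALData) (hM : M₀ * q * q = D.Q * D.R) (h0 : S0 = valSetupZeroAt D hM Soo)
    {z : Mid → Qbˣ}
    {ε : Mid → (↥(modularFunctionFieldBar (M₀ * q * q)) →ₐ[Qb] LaurentSeries Qb)}
    (prim : ∀ m, IsPrimitiveRoot (z m) q) (hε : ∀ m, IsMidExp M₀ q (z m) (ε m))
    (hS : ∀ m, IsMidSetup M₀ q A (ε m) (Sm m))
    (hne : ∀ m m', m ≠ m' → ¬ (Sm m).Ov ≤ (Sm m').Ov)
    (hPA : ∀ P, (SP P).A = A)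
    (hP : ∀ P, ∀ τ ∈ A.inertiaSubgroupIn ℚ,
      WpiStable (SP P) (arithmeticGalois (modularFunctionFieldFull (M₀ * q * q)) τ))
    (hdvd : q ∣ M₀ * q * q) (hu1 : E.u1 = uF (M₀ * q * q) q hdvd)
    (hu2 : E.u2 = E.u1 / algebraMap Qb (FBar (M₀ * q * q)) E.ϖ1)
    {ϖ : Qb} (hϖ : ϖ ≠ 0) {r m : ℕ} (hr : 0 < r) (hϖr : ϖ ^ r = (m : Qb)) {j1 j2 : ℕ}
    (h1 : E.ϖ1 = ϖ ^ j1) (h2 : E.ϖ2 = ϖ ^ j2)
    {b : Qb} {e : ℕ} (hbq : b = (q : Qb) ^ e) (nn n : ℕ) :
    ∀ g : FBar (M₀ * q * q), InertiaFixedFun (M₀ * q * q) A n g → ∀ m m' : Mid, m ≠ m' →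
      ∃ (t : SemilinearAut Qb (FBar (M₀ * q * q))) (σ : Equiv.Perm Mid),
        InertVertexData E t σ ∧ t • E.ymodX b nn = E.ymodX b nn ∧ σ m = m' ∧
          ∃ (u : FBar (M₀ * q * q)) (a : Qb), a ≠ 0 ∧
            t • g = algebraMap Qb (FBar (M₀ * q * q)) a * u ^ n * g :=
  inertAct_modular E hq hqM hD hSet hA hES hoo D hM h0 prim hε hS hne hPA hP
    (fun τ _ => (f3a_scaled E hdvd hu1 hu2 hϖ hr hϖr h1 h2 τ).1)
    (fun τ _ => (f3a_scaled E hdvd hu1 hu2 hϖ hr hϖr h1 h2 τ).2.1)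
    (fun τ _ => (f3a_scaled E hdvd hu1 hu2 hϖ hr hϖr h1 h2 τ).2.2.1)
    (fun τ _ => (f3a_scaled E hdvd hu1 hu2 hϖ hr hϖr h1 h2 τ).2.2.2)
    (fun τ _ => f3a_x_fixed E hdvd hu1 hbq nn τ) n

end Modular

end Fermat.Agent.S36G
end
end MergeWrap_S36_G_CocycleF3Act

section MergeWrap_S36_G_CocycleF3ActPack -- from S36/G/CocycleF3ActPack.lean

set_option autoImplicit false
set_option linter.unusedSectionVars false
set_option linter.unusedVariables false
set_option linter.style.haveILetI false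
set_option synthInstance.maxHeartbeats 400000

/-!
# Cluster G (S36), Step 3, junction F3: `hact` for the modular family  (helper47)

`E : ModEndsInput ℚ̄ (FBar (M₀ q q)) k (Fin (midCard q)) SS k(Z) (fun _ => k(Z)(θ j̄)) FkP` with

  `E.S = vtxFamily Soo (valSetupZeroAt D₀ hM₀ Soo) I.S (fun P => (O P).S)`,

`Soo` a Gauss setup, `I : IgPack M₀ q A` the Igusa pack, `O P : WPOut ..` the outputs of block
W-P, `E.u1 = uF`, `E.u2 = E.u1 / ϖ1`, `ϖ1 = ϖ ^ j1`, `ϖ2 = ϖ ^ j2`, `ϖ ^ r ∈ ℕ`, `b = q ^ e`.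

* `f3a_hact` : **the junction output (F3)** = the hypothesis `hact` of
               `ModEndsInput.cocycleF3_of_ends` = `CboInert E (E.ymodX b nn) n`
               (`S36/G/CoreBundleOf.lean`) unfolded, for every `n`.
-/

noncomputable section

open AlgebraicCurve Fermat.Agent.RR Fermat.Agent.Deuring

namespace Fermat.Agent.S36G

open ModularCurve Fermat.Agent.F3 Fermat.Agent.F3G Fermat.Agent.GaussInt
  Fermat.Agent.Kronecker Fermat.Agent.AtkinLehner Fermat.Agent.BadRed Fermat.Agent.BadRedG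
  Fermat.Agent.BadRed.Gluing Fermat.Agent.HPVal Fermat.Agent.HP

local notation "Qb" => AlgebraicClosure ℚ

attribute [local instance 10000] SubalgebraClass.toAlgebra HahnSeries.powerSeriesAlgebra

variable {M₀ q : ℕ} [NeZero M₀] [NeZero q] {A : ValuationSubring Qb}
  {SS : Type} [Fintype SS]
  {FkP : SS → Type} [∀ P, Field (FkP P)] [∀ P, Algebra (IsLocalRing.ResidueField A) (FkP P)]

set_option maxHeartbeats 4000000 in
/-- **(F3)**: the hypothesis `hact` of `cocycleF3_of_ends` for the modular family. -/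
theorem f3a_hact
    (E : ModEndsInput Qb (FBar (M₀ * q * q)) (IsLocalRing.ResidueField A) (Fin (midCard q)) SS
      ↥(modularFunctionFieldFullC (IsLocalRing.ResidueField A) M₀)
      (fun _ => ↥(igField (IsLocalRing.ResidueField A) M₀)) FkP)
    (hq : q.Prime) (hqM : ¬ q ∣ M₀) (hA : A.LiesOverPrime q)
    (hD : IgMidDistinct M₀ q) (hSet : IgMidSetupExists M₀ q)
    (I : IgPack M₀ q A)
    {Soo : ValSetup Qb (FBar (M₀ * q * q)) (IsLocalRing.ResidueField A)
      ↥(modularFunctionFieldFullC (IsLocalRing.ResidueField A) M₀)}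
    (hoo : IsGaussSetup (M₀ * q * q) M₀ A Soo)
    (D₀ : ALData) (hM₀ : M₀ * q * q = D₀.Q * D₀.R)
    {S0 : Fermat.Agent.S18Key.RedSetup Qb (FBar M₀) (IsLocalRing.ResidueField A)
      ↥(modularFunctionFieldFullC (IsLocalRing.ResidueField A) M₀)}
    (hS0 : IsGaussRed M₀ A S0)
    {pl : SS → Place (IsLocalRing.ResidueField A)
      ↥(modularFunctionFieldFullC (IsLocalRing.ResidueField A) M₀)}
    (O : ∀ P : SS, WPOut M₀ q A S0 (pl P) (FkP P))
    (hES : E.S = vtxFamily Soo (valSetupZeroAt D₀ hM₀ Soo) I.S (fun P => (O P).S))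
    (hdvd : q ∣ M₀ * q * q) (hu1 : E.u1 = uF (M₀ * q * q) q hdvd)
    (hu2 : E.u2 = E.u1 / algebraMap Qb (FBar (M₀ * q * q)) E.ϖ1)
    {ϖ : Qb} (hϖ : ϖ ≠ 0) {r m : ℕ} (hr : 0 < r) (hϖr : ϖ ^ r = (m : Qb)) {j1 j2 : ℕ}
    (h1 : E.ϖ1 = ϖ ^ j1) (h2 : E.ϖ2 = ϖ ^ j2)
    {b : Qb} {e : ℕ} (hbq : b = (q : Qb) ^ e) (nn n : ℕ) :
    ∀ g : FBar (M₀ * q * q), InertiaFixedFun (M₀ * q * q) A n g →
      ∀ m m' : Fin (midCard q), m ≠ m' →
      ∃ (t : SemilinearAut Qb (FBar (M₀ * q * q))) (σ : Equiv.Perm (Fin (midCard q))),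
        InertVertexData E t σ ∧ t • E.ymodX b nn = E.ymodX b nn ∧ σ m = m' ∧
          ∃ (u : FBar (M₀ * q * q)) (a : Qb), a ≠ 0 ∧
            t • g = algebraMap Qb (FBar (M₀ * q * q)) a * u ^ n * g :=
  f3a_hact_gen E hq hqM hD hSet hA hES hoo D₀ hM₀ rfl I.prim I.isMidExp I.isMidSetup I.indep
    (fun P => (O P).A_eq) (fun P τ hτ => wpm_stable_at (O P) hq hA hqM hS0 hτ)
    hdvd hu1 hu2 hϖ hr hϖr h1 h2 hbq nn n

end Fermat.Agent.S36G
end
end MergeWrap_S36_G_CocycleF3ActPack
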