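import Mathlib
import Fermat.Agent.MUL.S36.Val.VertIndep
import Fermat.Agent.MUL.S36.G.VtxFamily
import Fermat.Agent.MUL.S36.G.ModularGraphInst

section MergeWrap_S36_G_ModIndep -- from S36/G/ModIndep.lean

set_option autoImplicit false
set_option linter.style.haveILetI false
set_option linter.unusedSectionVars false
set_option synthInstance.maxHeartbeats 400000

noncomputable section

namespace Fermat.Agent.S36G

open ModularCurve AlgebraicCurve Fermat.Agent.F3 Fermat.Agent.F3G Fermat.Agent.GaussInt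
  Fermat.Agent.AtkinLehner Fermat.Agent.BadRed Fermat.Agent.Deuring Fermat.Agent.Kronecker
  Fermat.Agent.S36N

local notation "Qb" => AlgebraicClosure ℚ

attribute [local instance 10000] SubalgebraClass.toAlgebra HahnSeries.powerSeriesAlgebra

/-- shortcut (the instance found by unification is the same term, after a slow search). -/
local instance (priority := 10000) modIndepAlgFullC (A : ValuationSubring Qb) (N : ℕ) :
    Algebra (IsLocalRing.ResidueField A)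
      (modularFunctionFieldFullC (IsLocalRing.ResidueField A) N) :=
  SubalgebraClass.toAlgebra (modularFunctionFieldFullC (IsLocalRing.ResidueField A) N)

section Vert

variable {M₀ q : ℕ} [NeZero M₀] [NeZero q] (hq : q.Prime) (hqM : ¬ q ∣ M₀)
  (A : ValuationSubring Qb) (hA : A.LiesOverPrime q)
  {N₂ : ℕ} [NeZero N₂]
  (Soo : ValSetup Qb (FBar (M₀ * q * q)) (IsLocalRing.ResidueField A)
    (modularFunctionFieldFullC (IsLocalRing.ResidueField A) N₂))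
  (hoo : IsGaussSetup (M₀ * q * q) N₂ A Soo)
  (D : ALData) (hDQ : D.Q = q ^ 2) (hM : M₀ * q * q = D.Q * D.R)

include hq hDQ hM in
/-- the conductor-free part of the level. -/
theorem modIndep_R_eq : D.R = M₀ := by
  have h1 : q ^ 2 * D.R = q ^ 2 * M₀ := by
    rw [← hDQ, ← hM, hDQ]
    ring
  exact Nat.eq_of_mul_eq_mul_left (pow_pos hq.pos 2) h1

include hq hA hoo hDQ in
/-- **`v_∞ ⊄ v_0`**. -/
theorem modIndep_oo_zero : ¬ Soo.Ov ≤ (valSetupZeroAt D hM Soo).Ov :=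
  (not_le_valSetupZeroAt D hq (by norm_num : 0 < 2) hDQ A hA hM Soo hoo).1

include hq hA hoo hDQ in
/-- **`v_0 ⊄ v_∞`**. -/
theorem modIndep_zero_oo : ¬ (valSetupZeroAt D hM Soo).Ov ≤ Soo.Ov :=
  (not_le_valSetupZeroAt D hq (by norm_num : 0 < 2) hDQ A hA hM Soo hoo).2

variable {Fkz : Type*} [Field Fkz] [Algebra (IsLocalRing.ResidueField A) Fkz]
  (Sz : ValSetup Qb (FBar (M₀ * q * q)) (IsLocalRing.ResidueField A) Fkz)
  {z : Qbˣ} {ε : ↥(modularFunctionFieldBar (M₀ * q * q)) →ₐ[Qb] LaurentSeries Qb}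
  (hz : IsPrimitiveRoot z q) (hε : IsMidExp M₀ q z ε)
  (hSz : ∀ f : FBar (M₀ * q * q), f ∈ Sz.Ov ↔ f ∈ expOv ε A)

include hq hqM hA hoo hz hε hSz in
/-- **`v_∞ ⊄ v_m`**. -/
theorem modIndep_oo_mid : ¬ Soo.Ov ≤ Sz.Ov :=
  not_le_inf_mid hq hqM A hA Soo hoo Sz hε hSz hz

include hq hqM hA hoo hz hε hSz in
/-- **`v_m ⊄ v_∞`**. -/
theorem modIndep_mid_oo (hAz : Sz.A = A) : ¬ Sz.Ov ≤ Soo.Ov :=
  not_le_mid_inf hq hqM A hA Soo hoo Sz hε hSz hz hAz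

include hq hqM hA hoo hε hSz hDQ in
/-- **`v_0 ⊄ v_m`**. -/
theorem modIndep_zero_mid : ¬ (valSetupZeroAt D hM Soo).Ov ≤ Sz.Ov := by
  obtain ⟨D₁, hD₁Q, hD₁R⟩ := ALData.exists_of_coprime hq.pos (NeZero.pos M₀)
    ((Nat.Prime.coprime_iff_not_dvd hq).mpr hqM)
  have hR : D.R = D₁.R := by rw [modIndep_R_eq hq D hDQ hM, hD₁R]
  have hQ : D.Q = D₁.Q * q := by rw [hDQ, hD₁Q, sq]
  have hN : M₀ * q = D₁.Q * D₁.R := by rw [hD₁Q, hD₁R, mul_comm]
  exact not_le_zeroAt_mid hq hqM A hA Soo hoo Sz hε hSz D₁ D hD₁Q hQ hR hN hM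

include hq hqM hA hoo hε hSz hDQ in
/-- **`v_m ⊄ v_0`**. -/
theorem modIndep_mid_zero : ¬ Sz.Ov ≤ (valSetupZeroAt D hM Soo).Ov := by
  obtain ⟨D₁, hD₁Q, hD₁R⟩ := ALData.exists_of_coprime hq.pos (NeZero.pos M₀)
    ((Nat.Prime.coprime_iff_not_dvd hq).mpr hqM)
  have hR : D.R = D₁.R := by rw [modIndep_R_eq hq D hDQ hM, hD₁R]
  have hQ : D.Q = D₁.Q * q := by rw [hDQ, hD₁Q, sq]
  have hN : M₀ * q = D₁.Q * D₁.R := by rw [hD₁Q, hD₁R, mul_comm]
  exact not_le_mid_zeroAt hq hqM A hA Soo hoo Sz hε hSz D₁ D hD₁Q hQ hR hN hM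

end Vert

/-! ### the modular family -/

section Family

variable {M₀ q : ℕ} [NeZero M₀] [NeZero q] (hq : q.Prime) (hqM : ¬ q ∣ M₀)
  (A : ValuationSubring Qb) (hA : A.LiesOverPrime q)
  {N₂ : ℕ} [NeZero N₂]
  (Soo : ValSetup Qb (FBar (M₀ * q * q)) (IsLocalRing.ResidueField A)
    (modularFunctionFieldFullC (IsLocalRing.ResidueField A) N₂))
  (hoo : IsGaussSetup (M₀ * q * q) N₂ A Soo)
  (D : ALData) (hDQ : D.Q = q ^ 2) (hM : M₀ * q * q = D.Q * D.R)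
  {Mid SS : Type}
  {FkM : Mid → Type} [∀ m, Field (FkM m)] [∀ m, Algebra (IsLocalRing.ResidueField A) (FkM m)]
  {FkP : SS → Type} [∀ P, Field (FkP P)] [∀ P, Algebra (IsLocalRing.ResidueField A) (FkP P)]
  (Sm : ∀ m, ValSetup Qb (FBar (M₀ * q * q)) (IsLocalRing.ResidueField A) (FkM m))
  (z : Mid → Qbˣ)
  (ε : Mid → (↥(modularFunctionFieldBar (M₀ * q * q)) →ₐ[Qb] LaurentSeries Qb))
  (hz : ∀ m, IsPrimitiveRoot (z m) q) (hε : ∀ m, IsMidExp M₀ q (z m) (ε m))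
  (hSm : ∀ (m : Mid) (f : FBar (M₀ * q * q)), f ∈ (Sm m).Ov ↔ f ∈ expOv (ε m) A)

include hq hqM hA hoo hDQ hz hε hSm in
/-- **the three vertical pairs** `(∞, 0)`, `(∞, m)`, `(0, m)` of `vtxFamily_indep`. -/
theorem modIndep_vert :
    ¬ Soo.Ov ≤ (valSetupZeroAt D hM Soo).Ov ∧ (∀ m, ¬ Soo.Ov ≤ (Sm m).Ov) ∧
      ∀ m, ¬ (valSetupZeroAt D hM Soo).Ov ≤ (Sm m).Ov :=
  ⟨modIndep_oo_zero hq A hA Soo hoo D hDQ hM,
    fun m => modIndep_oo_mid hq hqM A hA Soo hoo (Sm m) (hz m) (hε m) (hSm m),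
    fun m => modIndep_zero_mid hq hqM A hA Soo hoo D hDQ hM (Sm m) (hε m) (hSm m)⟩

variable (hAm : ∀ m, (Sm m).A = A)
  (SP : ∀ P, ValSetup Qb (FBar (M₀ * q * q)) (IsLocalRing.ResidueField A) (FkP P))
  (hAP : ∀ P, (SP P).A = A)

include hq hqM hA hoo hDQ hz hε hSm hAm hAP in
/-- **`indep` of the modular family** `vtxFamily Soo (valSetupZeroAt D hM Soo) Sm SP`, from the
pair `(m, m')` (`IgPack.indep`) and the four pairs with a horizontal vertex (`DistFinal`). -/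
theorem modIndep
    (h_m_m : ∀ m m', m ≠ m' → ¬ (Sm m).Ov ≤ (Sm m').Ov)
    (h_oo_P : ∀ P, ¬ Soo.Ov ≤ (SP P).Ov)
    (h_0_P : ∀ P, ¬ (valSetupZeroAt D hM Soo).Ov ≤ (SP P).Ov)
    (h_m_P : ∀ m P, ¬ (Sm m).Ov ≤ (SP P).Ov)
    (h_P_P : ∀ P P', P ≠ P' → ¬ (SP P).Ov ≤ (SP P').Ov)
    (c c' : Vtx Mid SS) (hne : c ≠ c') :
    ¬ (vtxFamily Soo (valSetupZeroAt D hM Soo) Sm SP c).Ov ≤
      (vtxFamily Soo (valSetupZeroAt D hM Soo) Sm SP c').Ov :=
  vtxFamily_indep Soo (valSetupZeroAt D hM Soo) Sm SP A hoo.A_eq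
    ((valSetupZeroAt_A D hM Soo).trans hoo.A_eq) hAm hAP
    (modIndep_oo_zero hq A hA Soo hoo D hDQ hM)
    (fun m => modIndep_oo_mid hq hqM A hA Soo hoo (Sm m) (hz m) (hε m) (hSm m))
    (fun m => modIndep_zero_mid hq hqM A hA Soo hoo D hDQ hM (Sm m) (hε m) (hSm m))
    h_m_m h_oo_P h_0_P h_m_P h_P_P c c' hne

end Family

end Fermat.Agent.S36G
end
end MergeWrap_S36_G_ModIndep
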